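import Fermat.Agent.BadRed.Semistable.Steinberg
import Fermat.Agent.BadRed.Carayol.Assembly.Eigen

/-!
# Local shape of newform representations and of Hecke data at `q ∥ M`
-/

set_option autoImplicit false
set_option linter.style.haveILetI false
set_option maxHeartbeats 800000

noncomputable section

open Module Matrix CuspForm IsLocalRing Polynomial
open scoped Pointwise

namespace FermatAgent.BadRed.Semistable

open FermatAgent.GalRep FermatAgent.BadRed.Carayol

local notation "GQ" => AlgebraicClosure ℚ ≃ₐ[ℚ] AlgebraicClosure ℚ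
local notation "ℚbar" => AlgebraicClosure ℚ

theorem charpoly_eq_trace_det {R : Type*} [CommRing R] [Nontrivial R] {V : Type*} [AddCommGroup V]
    [Module R V] [Module.Free R V] [Module.Finite R V] (hV : finrank R V = 2) (f : Module.End R V) :
    f.charpoly = X ^ 2 - C (LinearMap.trace R V f) * X + C (LinearMap.det f) := by
  let b := Module.finBasisOfFinrankEq R V hV
  rw [← LinearMap.charpoly_toMatrix f b, Matrix.charpoly_fin_two,
    LinearMap.trace_eq_matrix_trace R b, LinearMap.det_toMatrix b]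

theorem two_mul_det_eq {R : Type*} [CommRing R] {V : Type*} [AddCommGroup V] [Module R V]
    [Module.Free R V] [Module.Finite R V] [Nontrivial R] (hV : finrank R V = 2)
    (f : Module.End R V) :
    2 * LinearMap.det f = LinearMap.trace R V f ^ 2 - LinearMap.trace R V (f * f) := by
  let b := Module.finBasisOfFinrankEq R V hV
  rw [← LinearMap.det_toMatrix b, LinearMap.trace_eq_matrix_trace R b,
    LinearMap.trace_eq_matrix_trace R b, LinearMap.toMatrix_mul, Matrix.det_fin_two,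
    Matrix.trace_fin_two, Matrix.trace_fin_two, Matrix.mul_apply, Matrix.mul_apply,
    Fin.sum_univ_two, Fin.sum_univ_two]
  ring

/-- The facts about `M = q N'` used to apply the relations. -/
theorem level_facts {q N' : ℕ} (hq : q.Prime) (hq2 : ¬ q ^ 2 ∣ q * N') {S : Set ℕ}
    (hS : ∀ r : ℕ, r.Prime → r ∣ q * N' → r ∈ S) :
    q.Coprime N' ∧ (∀ r : ℕ, r.Prime → r ∣ N' → r ∈ S \ {q}) ∧ S \ {q} ⊆ S := by
  have hqN : ¬ q ∣ N' := fun h => hq2 (by rw [sq]; exact Nat.mul_dvd_mul_left q h)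
  exact ⟨(Nat.Prime.coprime_iff_not_dvd hq).mpr hqN,
    fun r hr h => ⟨hS r hr (dvd_mul_of_dvd_right h q), fun e => hqN ((show r = q from e) ▸ h)⟩,
    Set.sdiff_subset⟩

variable {q N' : ℕ} [Fact q.Prime] [NeZero N'] [NeZero (q * N')] {p : ℕ} [Fact p.Prime]
  {S : Finset ℕ}

/-- The character of a newform does not kill all operators vanishing on old forms. -/
theorem exists_mem_ker_oldRes (hco : q.Coprime N') {g : CuspForm (CongruenceSubgroup.Gamma0 (q * N')) 2}
    (hg : g.IsNewform) (chig : heckeAlgebra (q * N') 2 (↑S : Set ℕ) →+* ℂ)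
    (hchig : ∀ (ℓ : ℕ) (hℓ : ℓ.Prime) (hℓM : ¬ ℓ ∣ q * N') (hℓS : ℓ ∉ (↑S : Set ℕ)),
      chig (heckeAlgebra.T hℓ hℓM hℓS) = ModularFormClass.qCoeff g ℓ)
    (hS : ∀ r : ℕ, r.Prime → r ∣ q * N' → r ∈ (↑S : Set ℕ)) {S' : Set ℕ}
    (hSS : S' ⊆ (↑S : Set ℕ)) :
    ∃ t, oldRes hco hS hSS t = 0 ∧ chig t ≠ 0 := by
  by_contra hcon
  push Not at hcon
  set f := oldRes hco hS hSS
  have hfin : Module.Finite ℤ (heckeAlgebra N' 2 S') :=
    DSLift.heckeAlgebra_finite (by norm_num) (ModCurve.Forms.hasIntegralStructure_two N') _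
  let χ₀ : f.range →+* ℂ := f.rangeRestrict.liftOfSurjective f.rangeRestrict_surjective
    ⟨chig, fun a ha => RingHom.mem_ker.mpr (hcon a (congrArg Subtype.val (RingHom.mem_ker.mp ha)))⟩
  obtain ⟨χ', hχ'⟩ := exists_ringHom_extend f.range.subtype Subtype.val_injective
    (fun x => Algebra.IsIntegral.isIntegral x) χ₀
  have hcomp : ∀ t, χ' (f t) = chig t := fun t =>
    (RingHom.congr_fun hχ' (f.rangeRestrict t)).trans
      (RingHom.liftOfSurjective_comp_apply _ _ _ t)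
  obtain ⟨φ, hφ, hφT⟩ := exists_eigenform_of_character χ'
  have hne : N' ≠ q * N' := fun e => by
    have h1 : 1 * N' = q * N' := by rw [one_mul]; exact e
    exact (Fact.out : q.Prime).ne_one (Nat.eq_of_mul_eq_mul_right (NeZero.pos N') h1).symm
  refine hg.2 N' (dvd_mul_left N' q) hne ⟨φ, hφ, fun ℓ hℓ hℓM => ?_⟩
  refine qCoeff_eq_of_almost hg.1 hφ S.finite_toSet (fun l hl hlS hlM hlN => ?_) hℓ hℓM
    fun h => hℓM (dvd_mul_of_dvd_right h q)
  rw [hφT l hl hlN (fun h => hlS (hSS h)),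
    ← oldRes_T hco hS hSS hl hlM hlS hlN (fun h => hlS (hSS h)), hcomp, hchig]

/-- **Newform representations at `q ∥ M`.** -/
theorem exists_galoisRepAdic_steinberg {g : CuspForm (CongruenceSubgroup.Gamma0 (q * N')) 2}
    (hg : g.IsNewform) (hpq : p ≠ q) (hq2 : ¬ q ^ 2 ∣ q * N') {R : Type} [CommRing R] [IsDomain R]
    [IsDiscreteValuationRing R] [IsAdicComplete (maximalIdeal R) R] [CharZero R]
    (hp : (p : R) ∈ maximalIdeal R)
    (chig : heckeAlgebra (q * N') 2 (↑S : Set ℕ) →+* ℂ)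
    (hchig : ∀ (ℓ : ℕ) (hℓ : ℓ.Prime) (hℓM : ¬ ℓ ∣ q * N') (hℓS : ℓ ∉ (↑S : Set ℕ)),
      chig (heckeAlgebra.T hℓ hℓM hℓS) = ModularFormClass.qCoeff g ℓ)
    (iota : chig.range →+* R) (hMS : ∀ r : ℕ, r.Prime → r ∣ q * N' → r ∈ (↑S : Set ℕ))
    (ρ : GaloisRepAdic R)
    (hρ : FrobCompat (iota.comp chig.rangeRestrict) ρ (p := p))
    (hdet : ∀ σ, LinearMap.det (ρ.ρ σ) = padicToRing hp (cycChar p σ))
    {A : ValuationSubring ℚbar} (hA : A.LiesOverPrime q) {F : GQ} (hF : A.IsFrobeniusAt F q) :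
    LinearMap.charpoly (ρ.ρ F) = X ^ 2 - C ((q : R) + 1) * X + C (q : R) ∨
      LinearMap.charpoly (ρ.ρ F) = X ^ 2 + C ((q : R) + 1) * X + C (q : R) := by
  classical
  have hq : q.Prime := Fact.out
  obtain ⟨hco, hS', hSS⟩ := level_facts hq hq2 hMS
  obtain ⟨t, ht, hχt⟩ := exists_mem_ker_oldRes hco hg chig hchig hMS hSS
  set χ : heckeAlgebra (q * N') 2 (↑S : Set ℕ) →+* R := iota.comp chig.rangeRestrict with hχdef
  have hχ0 : χ t ≠ 0 := fun e => by
    have : Module.Finite ℤ (heckeAlgebra (q * N') 2 (↑S : Set ℕ)) :=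
      DSLift.heckeAlgebra_finite (by norm_num) (ModCurve.Forms.hasIntegralStructure_two _) _
    have : Algebra.IsIntegral ℤ chig.range := ⟨fun x => by
      obtain ⟨y, rfl⟩ := chig.rangeRestrict_surjective x
      exact (Algebra.IsIntegral.isIntegral y).map chig.rangeRestrict.toIntAlgHom⟩
    have h0 := injective_of_integral iota (a₁ := chig.rangeRestrict t) (a₂ := 0)
      (e.trans (map_zero iota).symm)
    exact hχt (congrArg Subtype.val h0)
  let K := FractionRing R
  set D := modelTate (q * N') p hMS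
  let ψ : ℤ_[p] →+* K := (algebraMap R K).comp (padicToRing hp)
  haveI : CharZero K := charZero_of_injective_algebraMap (IsFractionRing.injective R K)
  obtain ⟨v, hv0, hv⟩ := exists_common_eigenvector D.ι D.ι_injective ((algebraMap R K).comp χ)
  have hv' : ∀ a, ψ.mapMatrix (hecMat D a) *ᵥ v = algebraMap R K (χ a) • v := fun a => by
    refine Eq.trans ?_ (hv a)
    congr 1
    ext i j
    simp [ψ, hecMat_apply]
  have hX := xMat_mulVec_of_eigen_frac D hp χ ρ K frobDense hρ v hv' F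
  have hrel := (steinberg q N' hco hpq hMS hSS hS' (fun h => h.2 rfl) frobDense
    S.finite_toSet hA).2 F hF t ht
  have h0 : algebraMap R K (χ t * (ρ.trace F * ρ.trace F - ((q : R) + 1) ^ 2)) • v = 0 := by
    have h := congrArg (fun M => ψ.mapMatrix M *ᵥ v) hrel
    have h1 : ψ.mapMatrix (((q : ℤ_[p]) + 1) ^ 2 • (1 : Matrix (Fin D.rank) (Fin D.rank) ℤ_[p]))
        *ᵥ v = algebraMap R K (((q : R) + 1) ^ 2) • v := by
      have e : ψ.mapMatrix (((q : ℤ_[p]) + 1) ^ 2 • (1 : Matrix (Fin D.rank) (Fin D.rank) ℤ_[p])) =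
          ψ (((q : ℤ_[p]) + 1) ^ 2) • 1 := by
        ext i j
        rcases eq_or_ne i j with rfl | hij
        · simp
        · simp [hij]
      rw [e, Matrix.smul_mulVec, Matrix.one_mulVec]
      simp [ψ]
    simp only [map_zero, Matrix.zero_mulVec, map_mul, ← Matrix.mulVec_mulVec, map_sub,
      Matrix.sub_mulVec] at h
    rw [h1, hX, Matrix.mulVec_smul, hX, smul_smul, Matrix.mulVec_sub, Matrix.mulVec_smul,
      Matrix.mulVec_smul, hv' t, smul_smul, smul_smul, ← sub_smul] at h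
    rw [← h]
    congr 1
    simp only [map_mul, map_sub]
    ring
  have h2 := (smul_eq_zero.mp h0).resolve_right hv0
  rw [map_eq_zero_iff _ (IsFractionRing.injective R K)] at h2
  have h3 := (mul_eq_zero.mp h2).resolve_left hχ0
  have hd : LinearMap.det (ρ.ρ F) = (q : R) := by
    rw [hdet, cycChar_frobenius p hq hpq.symm hA hF, map_natCast]
  rw [charpoly_eq_trace_det ρ.finrank_eq, hd]
  have h4 : (ρ.trace F - ((q : R) + 1)) * (ρ.trace F + ((q : R) + 1)) = 0 := by
    linear_combination h3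
  rcases mul_eq_zero.mp h4 with h | h
  · left
    rw [show LinearMap.trace R ρ.V (ρ.ρ F) = (q : R) + 1 from sub_eq_zero.mp h]
  · right
    rw [show LinearMap.trace R ρ.V (ρ.ρ F) = -((q : R) + 1) from eq_neg_of_add_eq_zero_left h,
      map_neg, neg_mul, sub_neg_eq_add]

/-- **Point data at `q ∥ N`.** -/
theorem pointDatum_isUnipotentOnInertiaAt (hpq : p ≠ q) (hq2 : ¬ q ^ 2 ∣ q * N')
    (hNS : ∀ r : ℕ, r.Prime → r ∣ q * N' → r ∈ (↑S : Set ℕ))
    {T : Type} [CommRing T] [IsLocalRing T] [IsNoetherianRing T]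
    [IsAdicComplete (maximalIdeal T) T] (hpT : (p : T) ∈ maximalIdeal T)
    (h2 : ∀ x : T, 2 * x = 0 → x = 0)
    (H : PointDatum (q * N') (↑S : Set ℕ) T) : H.ρ.IsUnipotentOnInertiaAt q := by
  intro P hP σ hσ
  obtain ⟨hco, hS', hSS⟩ := level_facts (Fact.out : q.Prime) hq2 hNS
  set D := modelTate (q * N') p hNS
  obtain ⟨c, hc⟩ := exists_trace_datum_congr D frobDense hpT H
  have htr : ∀ τ ∈ P.inertiaSubgroupIn ℚ, H.ρ.trace τ = 2 := fun τ hτ =>
    eq_of_forall_sub_mem_pow fun n => by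
      have h1 := (steinberg q N' hco hpq hNS hSS hS' (fun h => h.2 rfl) frobDense
        S.finite_toSet hP).1 τ hτ
      have h2 := hc n τ 2 fun i j => by
        rw [h1, map_ofNat, sub_self, Matrix.zero_apply]
        exact dvd_zero _
      rwa [map_ofNat] at h2
  have hdet : LinearMap.det (H.ρ.ρ σ) = 1 := by
    have h := two_mul_det_eq H.ρ.finrank_eq (H.ρ.ρ σ)
    rw [← map_mul H.ρ.ρ, show LinearMap.trace T H.ρ.V (H.ρ.ρ σ) = 2 from htr σ hσ,
      show LinearMap.trace T H.ρ.V (H.ρ.ρ (σ * σ)) = 2 from htr _ (mul_mem hσ hσ)] at h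
    exact sub_eq_zero.mp (h2 _ (by linear_combination h))
  rw [charpoly_eq_trace_det H.ρ.finrank_eq, hdet,
    show LinearMap.trace T H.ρ.V (H.ρ.ρ σ) = 2 from htr σ hσ, map_one, map_ofNat]
  ring

/-- **Hecke data at `q ∥ N`.** -/
theorem datum_isUnipotentOnInertiaAt (hpq : p ≠ q) (hq2 : ¬ q ^ 2 ∣ q * N')
    {𝒪 : Type} [CommRing 𝒪] [IsDomain 𝒪] [IsDiscreteValuationRing 𝒪]
    [IsAdicComplete (maximalIdeal 𝒪) 𝒪] [CharZero 𝒪] (hp : (p : 𝒪) ∈ maximalIdeal 𝒪)
    (hNS : ∀ r : ℕ, r.Prime → r ∣ q * N' → r ∈ (↑S : Set ℕ))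
    {θ : heckeAlgebra (q * N') 2 (↑S : Set ℕ) →+* ResidueField 𝒪}
    {T : Type} [CommRing T] [IsLocalRing T] [IsNoetherianRing T]
    [IsAdicComplete (maximalIdeal T) T] [Algebra 𝒪 T] [IsLocalHom (algebraMap 𝒪 T)]
    [Module.Finite 𝒪 T] [Module.Free 𝒪 T]
    (H : HeckeGaloisRepDatum (q * N') (↑S : Set ℕ) 𝒪 θ T) : H.ρ.IsUnipotentOnInertiaAt q :=
  pointDatum_isUnipotentOnInertiaAt hpq hq2 hNS (natCast_mem_maximalIdeal_of_algebra (T := T) hp)
    (fun x hx => (smul_eq_zero.mp (show (2 : 𝒪) • x = 0 by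
      rw [Algebra.smul_def, map_ofNat, hx])).resolve_left two_ne_zero) (pointDatum H)

end FermatAgent.BadRed.Semistable
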