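import Fermat.Agent.BadRed.Semistable.Interp
import Mathlib.RingTheory.Valuation.ValuationSubring

/-!
# Gauss valuation rings with residue maps, and integral bases of subspaces

`GaussRed A π F Fb`: a ring of integers in `F` above the valuation subring `A` of `K`, with a
residue map to `Fb`, such that every non-zero element can be scaled to non-zero reduction.
-/

set_option autoImplicit false

noncomputable section

namespace FermatAgent.BadRed.Semistable

section Residue

variable {K : Type*} [Field K] {A : ValuationSubring K} {k : Type*} [Field k] {π : A →+* k}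

theorem pi_eq_zero_of_not_isUnit (hπ : Function.Surjective π) {a : A} (ha : ¬ IsUnit a) :
    π a = 0 := by
  have hmax : (RingHom.ker π).IsMaximal := RingHom.ker_isMaximal_of_surjective π hπ
  have hle : RingHom.ker π = IsLocalRing.maximalIdeal A := IsLocalRing.eq_maximalIdeal hmax
  rw [← RingHom.mem_ker, hle]
  exact (IsLocalRing.mem_maximalIdeal a).mpr ha

theorem isUnit_iff_pi_ne_zero (hπ : Function.Surjective π) {a : A} : IsUnit a ↔ π a ≠ 0 :=
  ⟨fun h => (h.map π).ne_zero, fun h => by_contra fun h' => h (pi_eq_zero_of_not_isUnit hπ h')⟩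

theorem inv_mem_of_not_mem {c : K} (hc : c ∉ A) : c⁻¹ ∈ A :=
  (A.mem_or_inv_mem c).resolve_left hc

theorem pi_inv_of_not_mem (hπ : Function.Surjective π) {c : K} (hc : c ∉ A) :
    π ⟨c⁻¹, inv_mem_of_not_mem hc⟩ = 0 := by
  refine pi_eq_zero_of_not_isUnit hπ fun h => hc ?_
  obtain ⟨b, hb⟩ := isUnit_iff_exists_inv.mp h
  have hb' : c⁻¹ * (b : K) = 1 := congrArg Subtype.val hb
  have hc0 : c ≠ 0 := fun h0 => hc (h0 ▸ A.zero_mem)
  have : (b : K) = c := by
    rw [← mul_right_inj' (inv_ne_zero hc0), hb', inv_mul_cancel₀ hc0]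
  exact this ▸ b.2

/-- A family with an entry of largest valuation. -/
theorem exists_dominant {ι : Type*} [Fintype ι] (v : ι → K) (hv : v ≠ 0) :
    ∃ i, v i ≠ 0 ∧ ∀ j, v j / v i ∈ A := by
  obtain ⟨j₀, hj₀⟩ := Function.ne_iff.mp hv
  obtain ⟨i, -, hi⟩ := Finset.exists_max_image Finset.univ (fun i => A.valuation (v i))
    ⟨j₀, Finset.mem_univ _⟩
  have hpos : A.valuation (v i) ≠ 0 := by
    intro h
    have h1 := hi j₀ (Finset.mem_univ _)
    rw [h] at h1
    exact hj₀ ((map_eq_zero A.valuation).mp (le_antisymm h1 zero_le))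
  refine ⟨i, fun h => hpos (by rw [h, map_zero]), fun j => ?_⟩
  rw [← A.valuation_le_one_iff, map_div₀]
  exact (div_le_one₀ (zero_lt_iff.mpr hpos)).mpr (hi j (Finset.mem_univ _))

/-- A subspace of `K^ι` has an integral basis with linearly independent reductions. -/
theorem exists_integral_basis (π : A →+* k) {ι : Type*} [Fintype ι] (n : ℕ) :
    ∀ V : Submodule K (ι → K), Module.finrank K V = n →
      ∃ b : Fin n → ι → A, (∀ i, (fun j => ((b i j : A) : K)) ∈ V) ∧
        LinearIndependent k (fun i j => π (b i j)) := by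
  classical
  induction n with
  | zero =>
    intro V _
    exact ⟨fun i => i.elim0, fun i => i.elim0, linearIndependent_empty_type⟩
  | succ n ih =>
    intro V hV
    have hne : V ≠ ⊥ := fun h => by rw [h, finrank_bot] at hV; omega
    obtain ⟨v, hv, hv0⟩ := Submodule.exists_mem_ne_zero_of_ne_bot hne
    obtain ⟨i, hi, hdom⟩ := exists_dominant (A := A) v hv0
    let φ : V →ₗ[K] K := (LinearMap.proj i).comp V.subtype
    have hsurj : Function.Surjective φ := fun c =>
      ⟨(c / v i) • ⟨v, hv⟩, by simp [φ, hi]⟩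
    let V' : Submodule K (ι → K) := (LinearMap.ker φ).map V.subtype
    have hV' : Module.finrank K V' = n := by
      have h := LinearMap.finrank_range_add_finrank_ker φ
      rw [LinearMap.range_eq_top.mpr hsurj, finrank_top, Module.finrank_self, hV] at h
      rw [show Module.finrank K V' = Module.finrank K (LinearMap.ker φ) from
        (Submodule.equivSubtypeMap _ _).finrank_eq.symm]
      omega
    obtain ⟨b, hbV, hbli⟩ := ih V' hV'
    have hb0 : ∀ l, π (b l i) = 0 := by
      intro l
      obtain ⟨w, hw, hwe⟩ := hbV l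
      have hwi : (w : ι → K) i = 0 := LinearMap.mem_ker.mp hw
      have : ((b l i : A) : K) = 0 := by
        rw [← hwi]; exact (congrFun hwe i).symm
      rw [show b l i = 0 from Subtype.ext this, map_zero]
    let b₀ : ι → A := fun j => ⟨v j / v i, hdom j⟩
    refine ⟨Fin.cons b₀ b, fun l => ?_, ?_⟩
    · refine Fin.cases ?_ (fun l => ?_) l
      · have : (fun j => ((b₀ j : A) : K)) = (v i)⁻¹ • v := funext fun j => by
          simp [b₀, div_eq_inv_mul]
        simp only [Fin.cons_zero]; rw [this]; exact V.smul_mem _ hv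
      · obtain ⟨w, -, hwe⟩ := hbV l
        simp [← hwe]
    · rw [Fintype.linearIndependent_iff]
      intro c hc
      have hb₀ : π (b₀ i) = 1 := by
        rw [show b₀ i = 1 from Subtype.ext (div_self hi), map_one]
      have h0 : c 0 = 0 := by
        have := congrFun hc i
        simpa [Fin.sum_univ_succ, hb0, hb₀] using this
      have h1 : ∑ l, c l.succ • (fun j => π (b l j)) = 0 := by
        simpa [Fin.sum_univ_succ, h0] using hc
      intro l
      refine Fin.cases h0 (fun l => ?_) l
      exact Fintype.linearIndependent_iff.mp hbli _ h1 l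

end Residue

/-- Integers of a Gauss valuation on `F` with residue map to `Fb`. -/
structure GaussRed {K : Type*} [Field K] (A : ValuationSubring K) {k : Type*} [Field k]
    (π : A →+* k) (F : Type*) [Field F] [Algebra K F] (Fb : Type*) [Field Fb] [Algebra k Fb] where
  integers : Subring F
  red : integers →+* Fb
  algebraMap_mem : ∀ a : A, algebraMap K F (a : K) ∈ integers
  red_algebraMap : ∀ a : A, red ⟨algebraMap K F (a : K), algebraMap_mem a⟩ = algebraMap k Fb (π a)
  exists_normalize : ∀ f : F, f ≠ 0 → ∃ (c : K) (h : c • f ∈ integers), red ⟨c • f, h⟩ ≠ 0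

namespace GaussRed

variable {K : Type*} [Field K] {A : ValuationSubring K} {k : Type*} [Field k] {π : A →+* k}
  {F : Type*} [Field F] [Algebra K F] {Fb : Type*} [Field Fb] [Algebra k Fb]
variable (G : GaussRed A π F Fb)

theorem smul_mem {a : K} (ha : a ∈ A) {x : F} (hx : x ∈ G.integers) : a • x ∈ G.integers := by
  rw [Algebra.smul_def]
  exact mul_mem (G.algebraMap_mem ⟨a, ha⟩) hx

theorem red_smul {a : K} (ha : a ∈ A) {x : F} (hx : x ∈ G.integers) :
    G.red ⟨a • x, G.smul_mem ha hx⟩ = π ⟨a, ha⟩ • G.red ⟨x, hx⟩ := by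
  rw [Algebra.smul_def (π ⟨a, ha⟩), ← G.red_algebraMap, ← map_mul]
  exact congrArg G.red (Subtype.ext (Algebra.smul_def a x))

theorem red_congr {x y : F} (h : x = y) (hx : x ∈ G.integers) :
    G.red ⟨x, hx⟩ = G.red ⟨y, h ▸ hx⟩ := by subst h; rfl

variable (hπ : Function.Surjective π)
include hπ

theorem mem_of_smul_mem {c : K} {y : F} (hy : y ∈ G.integers) (hy0 : G.red ⟨y, hy⟩ ≠ 0)
    (h : c • y ∈ G.integers) : c ∈ A := by
  by_contra hc
  have hc0 : c ≠ 0 := fun h0 => hc (h0 ▸ A.zero_mem)
  apply hy0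
  rw [G.red_congr (show y = c⁻¹ • (c • y) by rw [inv_smul_smul₀ hc0]) hy,
    G.red_smul (inv_mem_of_not_mem hc) h, pi_inv_of_not_mem hπ hc, zero_smul]

theorem inv_mem {x : F} (hx : x ∈ G.integers) (hx0 : G.red ⟨x, hx⟩ ≠ 0) :
    ∃ h : x⁻¹ ∈ G.integers, G.red ⟨x⁻¹, h⟩ = (G.red ⟨x, hx⟩)⁻¹ := by
  have hne : x ≠ 0 := fun h => hx0 (by
    rw [G.red_congr h hx]
    exact map_zero G.red)
  obtain ⟨c, hcy, hy0⟩ := G.exists_normalize x⁻¹ (inv_ne_zero hne)
  set y := c • x⁻¹ with hy
  have hxy : x * y = algebraMap K F c := by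
    rw [hy, Algebra.smul_def]
    field_simp
  have hcA : c ∈ A := by
    by_contra hc
    have hc0 : c ≠ 0 := fun h0 => hc (h0 ▸ A.zero_mem)
    have h1 : c⁻¹ • (x * y) = (1 : F) := by
      rw [hxy, Algebra.smul_def, ← map_mul, inv_mul_cancel₀ hc0, map_one]
    have := G.red_smul (inv_mem_of_not_mem hc) (mul_mem hx hcy)
    rw [pi_inv_of_not_mem hπ hc, zero_smul, G.red_congr h1] at this
    exact one_ne_zero ((map_one G.red).symm.trans this)
  have hred : G.red ⟨algebraMap K F c, G.algebraMap_mem ⟨c, hcA⟩⟩ =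
      G.red ⟨x, hx⟩ * G.red ⟨y, hcy⟩ := by
    rw [← map_mul]
    exact congrArg G.red (Subtype.ext hxy.symm)
  have hu : π ⟨c, hcA⟩ ≠ 0 := fun h => mul_ne_zero hx0 hy0 (by
    rw [← hred]; exact (G.red_algebraMap ⟨c, hcA⟩).trans (by rw [h, map_zero]))
  obtain ⟨u, hu'⟩ := (isUnit_iff_pi_ne_zero hπ).mpr hu
  have hmem : x⁻¹ ∈ G.integers := by
    have e : x⁻¹ = ((↑u⁻¹ : A) : K) • y := by
      rw [hy, smul_smul, show ((↑u⁻¹ : A) : K) * c = 1 from
        by rw [show c = ((u : A) : K) by rw [hu'], ← MulMemClass.coe_mul, Units.inv_mul]; rfl,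
        one_smul]
    rw [e]
    exact G.smul_mem (↑u⁻¹ : A).2 hcy
  refine ⟨hmem, ?_⟩
  refine eq_inv_of_mul_eq_one_left ?_
  rw [← map_mul, ← map_one G.red]
  exact congrArg G.red (Subtype.ext (inv_mul_cancel₀ hne))

theorem mem_or_inv_mem (x : F) : x ∈ G.integers ∨ x⁻¹ ∈ G.integers := by
  rcases eq_or_ne x 0 with rfl | hx
  · exact Or.inl (zero_mem _)
  obtain ⟨c, hy, hy0⟩ := G.exists_normalize x hx
  have hc0 : c ≠ 0 := fun h => hy0 (by
    rw [G.red_congr (show c • x = 0 by simp [h]) hy]
    exact map_zero G.red)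
  by_cases hc : c⁻¹ ∈ A
  · exact Or.inl (by simpa [smul_smul, hc0] using G.smul_mem hc hy)
  · obtain ⟨hy', -⟩ := G.inv_mem hπ hy hy0
    refine Or.inr ?_
    have hcA : c ∈ A := by simpa using inv_mem_of_not_mem hc
    have e : x⁻¹ = c • (c • x)⁻¹ := by
      rw [Algebra.smul_def, Algebra.smul_def]
      have : algebraMap K F c ≠ 0 := by simpa using hc0
      field_simp
    rw [e]
    exact G.smul_mem hcA hy'

end GaussRed

end FermatAgent.BadRed.Semistable
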