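import Fermat.Agent.BadRed.Semistable.GlueLocal
import Fermat.Agent.BadRed.Semistable.Gauss

/-!
# Nodal reduction data

`NodalDatum A π F F₁ F₂`: the function field `F/K` carries two Gauss valuations with residue
fields `F₁`, `F₂`, and the sections of multiples of the pole divisor of `z` reduce onto the glued
sections. Reduction of subspaces: `redImage` has the same dimension.
-/

set_option autoImplicit false
set_option linter.unusedSectionVars false
set_option linter.style.haveILetI false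

noncomputable section

open WithZero AlgebraicCurve

namespace FermatAgent.BadRed.Semistable

open FermatAgent.Curve FermatAgent.Curve.RR

/-- Reduction of a function field to two components glued at nodes. -/
structure NodalDatum {K : Type*} [Field K] [IsAlgClosed K] (A : ValuationSubring K) {k : Type*}
    [Field k] [IsAlgClosed k] (π : A →+* k) (F F₁ F₂ : Type*) [Field F] [Field F₁] [Field F₂]
    [Algebra K F] [Algebra k F₁] [Algebra k F₂] [IsFunctionField1 K F] [IsFunctionField1 k F₁]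
    [IsFunctionField1 k F₂] where
  residue_surjective : Function.Surjective π
  g₁ : GaussRed A π F F₁
  g₂ : GaussRed A π F F₂
  z : F
  transcendental_z : Transcendental K z
  C : Glued k F₁ F₂
  degree_eq : Divisor.degree (poleDiv z : Divisor K F) =
    Divisor.degree C.D₁ + Divisor.degree C.D₂
  genus_eq : genusFF K F + 1 = genusFF k F₁ + genusFF k F₂ + Fintype.card C.ι
  n₀ : ℕ
  red_mem : ∀ n : ℕ, n₀ ≤ n → ∀ (f : F) (h₁ : f ∈ g₁.integers) (h₂ : f ∈ g₂.integers),
    f ∈ riemannRochSpace (n • (poleDiv z : Divisor K F)) →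
      (g₁.red ⟨f, h₁⟩, g₂.red ⟨f, h₂⟩) ∈ C.glue n
  lift : ∀ n : ℕ, n₀ ≤ n → ∀ p ∈ C.glue n,
    ∃ (f : F) (h₁ : f ∈ g₁.integers) (h₂ : f ∈ g₂.integers),
      f ∈ riemannRochSpace (n • (poleDiv z : Divisor K F)) ∧
        g₁.red ⟨f, h₁⟩ = p.1 ∧ g₂.red ⟨f, h₂⟩ = p.2

namespace NodalDatum

variable {K : Type*} [Field K] [IsAlgClosed K] {A : ValuationSubring K} {k : Type*}
    [Field k] [IsAlgClosed k] {π : A →+* k} {F F₁ F₂ : Type*} [Field F] [Field F₁] [Field F₂]
    [Algebra K F] [Algebra k F₁] [Algebra k F₂] [IsFunctionField1 K F] [IsFunctionField1 k F₁]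
    [IsFunctionField1 k F₂]
variable (d : NodalDatum A π F F₁ F₂)

/-- The pole divisor of the coordinate. -/
def D : Divisor K F := poleDiv d.z

/-- The functions integral for both valuations. -/
def int : Subring F := d.g₁.integers ⊓ d.g₂.integers

/-- The joint reduction. -/
def red : d.int →+* F₁ × F₂ :=
  RingHom.prod (d.g₁.red.comp (Subring.inclusion inf_le_left))
    (d.g₂.red.comp (Subring.inclusion inf_le_right))

theorem red_mk {f : F} (h : f ∈ d.int) :
    d.red ⟨f, h⟩ = (d.g₁.red ⟨f, h.1⟩, d.g₂.red ⟨f, h.2⟩) := rfl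

theorem red_congr {f f' : F} (e : f = f') (h : f ∈ d.int) :
    d.red ⟨f, h⟩ = d.red ⟨f', e ▸ h⟩ := by subst e; rfl

theorem smul_mem {a : K} (ha : a ∈ A) {x : F} (hx : x ∈ d.int) : a • x ∈ d.int :=
  ⟨d.g₁.smul_mem ha hx.1, d.g₂.smul_mem ha hx.2⟩

theorem red_smul {a : K} (ha : a ∈ A) {x : F} (hx : x ∈ d.int) :
    d.red ⟨a • x, d.smul_mem ha hx⟩ = π ⟨a, ha⟩ • d.red ⟨x, hx⟩ :=
  Prod.ext (d.g₁.red_smul ha hx.1) (d.g₂.red_smul ha hx.2)

theorem red_add {x y : F} (hx : x ∈ d.int) (hy : y ∈ d.int) :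
    d.red ⟨x + y, add_mem hx hy⟩ = d.red ⟨x, hx⟩ + d.red ⟨y, hy⟩ :=
  map_add d.red ⟨x, hx⟩ ⟨y, hy⟩

theorem red_mul {x y : F} (hx : x ∈ d.int) (hy : y ∈ d.int) :
    d.red ⟨x * y, mul_mem hx hy⟩ = d.red ⟨x, hx⟩ * d.red ⟨y, hy⟩ :=
  map_mul d.red ⟨x, hx⟩ ⟨y, hy⟩

theorem red_mem_glue {n : ℕ} (hn : d.n₀ ≤ n) {f : F} (h : f ∈ d.int)
    (hf : f ∈ riemannRochSpace (n • d.D)) : d.red ⟨f, h⟩ ∈ d.C.glue n :=
  d.red_mem n hn f h.1 h.2 hf

theorem exists_lift {n : ℕ} (hn : d.n₀ ≤ n) {p : F₁ × F₂} (hp : p ∈ d.C.glue n) :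
    ∃ (f : F) (h : f ∈ d.int), f ∈ riemannRochSpace (n • d.D) ∧ d.red ⟨f, h⟩ = p := by
  obtain ⟨f, h1, h2, hf, e1, e2⟩ := d.lift n hn p hp
  exact ⟨f, ⟨h1, h2⟩, hf, Prod.ext e1 e2⟩

theorem sum_mem_int {ι : Type*} (s : Finset ι) (a : ι → A) (b : ι → F)
    (hb : ∀ i ∈ s, b i ∈ d.int) : ∑ i ∈ s, ((a i : A) : K) • b i ∈ d.int :=
  sum_mem fun i hi => d.smul_mem (a i).2 (hb i hi)

theorem red_sum {ι : Type*} [Fintype ι] (a : ι → A) (b : ι → F) (hb : ∀ i, b i ∈ d.int) :
    d.red ⟨∑ i, ((a i : A) : K) • b i, d.sum_mem_int _ a b fun i _ => hb i⟩ =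
      ∑ i, π (a i) • d.red ⟨b i, hb i⟩ := by
  have e : (⟨∑ i, ((a i : A) : K) • b i, d.sum_mem_int _ a b fun i _ => hb i⟩ : d.int) =
      ∑ i, ⟨((a i : A) : K) • b i, d.smul_mem (a i).2 (hb i)⟩ := Subtype.ext (by simp)
  rw [e, map_sum]
  exact Finset.sum_congr rfl fun i _ => d.red_smul (a i).2 (hb i)

/-- Integral combinations of a family with independent reductions have integral coefficients. -/
theorem coeff_mem {ι : Type*} [Fintype ι] (b : ι → F) (hb : ∀ i, b i ∈ d.int)
    (hli : LinearIndependent k (fun i => d.red ⟨b i, hb i⟩)) (c : ι → K)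
    (h : ∑ i, c i • b i ∈ d.int) : ∀ i, c i ∈ A := by
  intro i
  by_contra hi
  have hc : c ≠ 0 := fun e => hi (by rw [e]; exact A.zero_mem)
  obtain ⟨j, hj, hdom⟩ := exists_dominant (A := A) c hc
  have hjA : c j ∉ A := fun h' => hi (by
    have := A.mul_mem _ _ (hdom i) h'
    rwa [div_mul_cancel₀ _ hj] at this)
  let a : ι → A := fun l => ⟨c l / c j, hdom l⟩
  have e : ∑ l, ((a l : A) : K) • b l = (c j)⁻¹ • ∑ l, c l • b l := by
    rw [Finset.smul_sum]
    exact Finset.sum_congr rfl fun l _ => by simp [a, smul_smul, div_eq_inv_mul]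
  have h1 := d.red_sum a b hb
  rw [d.red_congr e, d.red_smul (inv_mem_of_not_mem hjA) h,
    pi_inv_of_not_mem d.residue_surjective hjA, zero_smul] at h1
  have := Fintype.linearIndependent_iff.mp hli _ h1.symm j
  rw [show a j = 1 from Subtype.ext (div_self hj), map_one] at this
  exact one_ne_zero this

/-- A family with independent reductions is independent. -/
theorem linearIndependent_of_red {ι : Type*} [Fintype ι] (b : ι → F) (hb : ∀ i, b i ∈ d.int)
    (hli : LinearIndependent k (fun i => d.red ⟨b i, hb i⟩)) : LinearIndependent K b := by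
  refine Fintype.linearIndependent_iff.mpr fun c hc => ?_
  by_contra hne
  push Not at hne
  have hc0 : c ≠ 0 := fun e => by obtain ⟨i, hi⟩ := hne; exact hi (by rw [e]; rfl)
  obtain ⟨j, hj, hdom⟩ := exists_dominant (A := A) c hc0
  let a : ι → A := fun l => ⟨c l / c j, hdom l⟩
  have e : ∑ l, ((a l : A) : K) • b l = 0 := by
    rw [← smul_zero (c j)⁻¹, ← hc, Finset.smul_sum]
    exact Finset.sum_congr rfl fun l _ => by simp [a, smul_smul, div_eq_inv_mul]
  have h1 := d.red_sum a b hb
  rw [d.red_congr e, show (⟨(0 : F), zero_mem _⟩ : d.int) = 0 from rfl, map_zero] at h1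
  have := Fintype.linearIndependent_iff.mp hli _ h1.symm j
  rw [show a j = 1 from Subtype.ext (div_self hj), map_one] at this
  exact one_ne_zero this

/-- The reductions of the integral elements of a subspace. -/
def redImage (V : Submodule K F) : Submodule k (F₁ × F₂) where
  carrier := {p | ∃ f, ∃ h : f ∈ d.int, f ∈ V ∧ d.red ⟨f, h⟩ = p}
  zero_mem' := ⟨0, zero_mem _, zero_mem _, map_zero _⟩
  add_mem' := by
    rintro _ _ ⟨f, hf, hfV, rfl⟩ ⟨f', hf', hfV', rfl⟩
    exact ⟨f + f', add_mem hf hf', add_mem hfV hfV', d.red_add hf hf'⟩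
  smul_mem' := by
    rintro c _ ⟨f, hf, hfV, rfl⟩
    obtain ⟨a, rfl⟩ := d.residue_surjective c
    exact ⟨(a : K) • f, d.smul_mem a.2 hf, V.smul_mem _ hfV, d.red_smul a.2 hf⟩

theorem mem_redImage {V : Submodule K F} {p : F₁ × F₂} :
    p ∈ d.redImage V ↔ ∃ f, ∃ h : f ∈ d.int, f ∈ V ∧ d.red ⟨f, h⟩ = p := Iff.rfl

theorem redImage_mono {V W : Submodule K F} (h : V ≤ W) : d.redImage V ≤ d.redImage W := by
  rintro p ⟨f, hf, hfV, e⟩
  exact ⟨f, hf, h hfV, e⟩

theorem mul_mem_redImage {V V' W : Submodule K F} (hW : ∀ x ∈ V, ∀ y ∈ V', x * y ∈ W)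
    {p q : F₁ × F₂} (hp : p ∈ d.redImage V) (hq : q ∈ d.redImage V') :
    p * q ∈ d.redImage W := by
  obtain ⟨f, hf, hfV, rfl⟩ := hp
  obtain ⟨f', hf', hfV', rfl⟩ := hq
  exact ⟨f * f', mul_mem hf hf', hW _ hfV _ hfV', d.red_mul hf hf'⟩

theorem redImage_rrSpace {n : ℕ} (hn : d.n₀ ≤ n) :
    d.redImage (riemannRochSpace (n • d.D)) = d.C.glue n := by
  refine le_antisymm ?_ fun p hp => ?_
  · rintro p ⟨f, hf, hfV, rfl⟩
    exact d.red_mem_glue hn hf hfV
  · obtain ⟨f, h, hf, e⟩ := d.exists_lift hn hp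
    exact ⟨f, h, hf, e⟩

variable [RRSetting K F] [RRSetting k F₁] [RRSetting k F₂]

/-- A degree beyond which everything is non-special. -/
def N₀ : ℕ := d.n₀ + d.C.bound + 2 * genusFF K F + 1

theorem le_degree (n : ℕ) : (n : ℤ) ≤ Divisor.degree (n • d.D) := by
  rw [map_nsmul, nsmul_eq_mul]
  exact le_mul_of_one_le_right (Int.natCast_nonneg n) (degree_poleDiv_pos d.transcendental_z)

theorem degree_D : Divisor.degree d.D = (d.C.deg : ℤ) := by
  rw [Glued.deg_eq]; exact d.degree_eq

theorem finrank_glue_eq {n : ℕ} (hn : d.N₀ ≤ n) :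
    Module.finrank k (d.C.glue n) = Module.finrank K (riemannRochSpace (n • d.D)) := by
  have h1 := d.C.finrank_glue (n := n) (by unfold N₀ at hn; omega)
  have hd := d.le_degree n
  have h2 := finrank_rrSpace_of_degree_ge (D := n • d.D) (by unfold N₀ at hn; omega)
  rw [map_nsmul, nsmul_eq_mul] at h2
  have hg := d.genus_eq
  have he : Divisor.degree d.D = Divisor.degree d.C.D₁ + Divisor.degree d.C.D₂ := d.degree_eq
  rw [he] at h2
  omega

/-- Subspaces of sections have integral bases with independent reductions. -/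
theorem exists_basis_of_le {n : ℕ} (hn : d.N₀ ≤ n) (V : Submodule K F)
    (hV : V ≤ riemannRochSpace (n • d.D)) :
    ∃ (b : Fin (Module.finrank K V) → F) (hb : ∀ i, b i ∈ d.int),
      (∀ i, b i ∈ V) ∧ LinearIndependent k (fun i => d.red ⟨b i, hb i⟩) ∧
        LinearIndependent K b := by
  classical
  have hn0 : d.n₀ ≤ n := by unfold N₀ at hn; omega
  let e := Module.finBasis k (d.C.glue n)
  choose B hB hBL hBr using fun i => d.exists_lift hn0 (e i).2
  have hli : LinearIndependent k (fun i => d.red ⟨B i, hB i⟩) := by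
    simp only [hBr]
    exact e.linearIndependent.map' (d.C.glue n).subtype (Submodule.ker_subtype _)
  have hliK := d.linearIndependent_of_red B hB hli
  let L := riemannRochSpace (n • d.D)
  let f : (Fin (Module.finrank k (d.C.glue n)) → K) →ₗ[K] F := Fintype.linearCombination K B
  have hf : ∀ c, f c = ∑ i, c i • B i := fun c => rfl
  have hfinj : Function.Injective f := by
    rw [← LinearMap.ker_eq_bot, Submodule.eq_bot_iff]
    intro c hc
    exact funext (Fintype.linearIndependent_iff.mp hliK c ((hf c).symm.trans hc))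
  have hrange : LinearMap.range f = L := by
    refine Submodule.eq_of_le_of_finrank_le ?_ ?_
    · rintro _ ⟨c, rfl⟩
      rw [hf]
      exact sum_mem fun i _ => Submodule.smul_mem _ _ (hBL i)
    · rw [LinearMap.finrank_range_of_inj hfinj, Module.finrank_pi, Fintype.card_fin,
        d.finrank_glue_eq hn]
  have hcomap : Module.finrank K (V.comap f) = Module.finrank K V := by
    have hVr : V ≤ LinearMap.range f := hrange ▸ hV
    rw [(Submodule.equivMapOfInjective f hfinj (V.comap f)).finrank_eq,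
      Submodule.map_comap_eq, inf_eq_right.mpr hVr]
  obtain ⟨β, hβV, hβli⟩ := exists_integral_basis π (A := A) _ (V.comap f) hcomap
  have hb : ∀ i, f (fun j => ((β i j : A) : K)) ∈ d.int := fun i => by
    rw [hf]
    exact d.sum_mem_int _ (β i) B fun j _ => hB j
  have hred : ∀ i, d.red ⟨_, hb i⟩ =
      Fintype.linearCombination k (fun j => d.red ⟨B j, hB j⟩) (fun j => π (β i j)) := fun i => by
    rw [d.red_congr (hf _), d.red_sum (β i) B hB]
    rfl
  refine ⟨fun i => f (fun j => ((β i j : A) : K)), hb, fun i => hβV i, ?_, ?_⟩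
  · simp only [hred]
    refine hβli.map' _ ?_
    rw [Submodule.eq_bot_iff]
    intro c hc
    exact funext (Fintype.linearIndependent_iff.mp hli c (LinearMap.mem_ker.mp hc))
  · refine d.linearIndependent_of_red _ hb ?_
    simp only [hred]
    refine hβli.map' _ ?_
    rw [Submodule.eq_bot_iff]
    intro c hc
    exact funext (Fintype.linearIndependent_iff.mp hli c (LinearMap.mem_ker.mp hc))

theorem finite_of_le {n : ℕ} {V : Submodule K F} (hV : V ≤ riemannRochSpace (n • d.D)) :
    Module.Finite K V :=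
  Module.Finite.of_injective (Submodule.inclusion hV) (Submodule.inclusion_injective hV)

/-- Reduction preserves dimensions. -/
theorem finrank_redImage {n : ℕ} (hn : d.N₀ ≤ n) (V : Submodule K F)
    (hV : V ≤ riemannRochSpace (n • d.D)) :
    Module.finrank k (d.redImage V) = Module.finrank K V := by
  classical
  haveI := d.finite_of_le hV
  obtain ⟨b, hb, hbV, hli, hliK⟩ := d.exists_basis_of_le hn V hV
  have hspan : d.redImage V = Submodule.span k (Set.range fun i => d.red ⟨b i, hb i⟩) := by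
    refine le_antisymm ?_ ?_
    · rintro p ⟨f, hf, hfV, rfl⟩
      let bV : Fin (Module.finrank K V) → V := fun i => ⟨b i, hbV i⟩
      have hliV : LinearIndependent K bV :=
        LinearIndependent.of_comp V.subtype (by exact hliK)
      have htop := hliV.span_eq_top_of_card_eq_finrank' (Fintype.card_fin _)
      have hmem : (⟨f, hfV⟩ : V) ∈ Submodule.span K (Set.range bV) := by rw [htop]; trivial
      obtain ⟨c, hc⟩ := (Submodule.mem_span_range_iff_exists_fun K).mp hmem
      have hc' : ∑ i, c i • b i = f := by simpa [bV] using congrArg Subtype.val hc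
      have hcA := d.coeff_mem b hb hli c (hc' ▸ hf)
      let a : Fin (Module.finrank K V) → A := fun i => ⟨c i, hcA i⟩
      have e : ∑ i, ((a i : A) : K) • b i = f := hc'
      rw [d.red_congr e.symm, d.red_sum a b hb]
      exact sum_mem fun i _ => Submodule.smul_mem _ _ (Submodule.subset_span ⟨i, rfl⟩)
    · rw [Submodule.span_le]
      rintro _ ⟨i, rfl⟩
      exact ⟨b i, hb i, hbV i, rfl⟩
  rw [hspan, finrank_span_eq_card hli, Fintype.card_fin]

end NodalDatum

end FermatAgent.BadRed.Semistable
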