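import Fermat.Agent.BadRed.Semistable.Gluing

/-!
# The nodes, and the reductions as glued sections
-/

set_option autoImplicit false
set_option linter.unusedSectionVars false

noncomputable section

open WithZero AlgebraicCurve

namespace FermatAgent.BadRed.Semistable

open FermatAgent.Curve FermatAgent.Curve.RR PairPt

variable {k F : Type*} [Field k] [Field F] [Algebra k F] [IsAlgClosed k] [IsFunctionField1 k F]
  [RRSetting k F]

namespace GlueInput

variable (I : GlueInput k F)

/-- `Q` and `pull Q` are identified. -/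
def IsNode (Q : Place k F) : Prop :=
  Q.adicValuation I.J ≤ 1 ∧ Ident I.finAlg (Sum.inl Q) (Sum.inr (I.pull Q))

theorem pull_finite {Q : Place k F} (hQ : Q.adicValuation I.J ≤ 1) :
    (I.pull Q).adicValuation I.J ≤ 1 :=
  (I.insep.ord_nonneg_iff I.map_J Q).mpr hQ

theorem pull_pull {Q : Place k F} (hQ : I.IsNode Q) : I.pull (I.pull Q) = Q := by
  rcases ChartAlg.of_ident I.chart_fin I.insep (P := .inl Q) (P' := .inr (I.pull Q)) hQ.1
    (I.pull_finite hQ.1) hQ.2 with h | ⟨Q', e, ⟨h1, h2⟩ | ⟨h1, h2⟩⟩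
  · exact absurd h (by simp)
  · rw [Sum.inl.injEq] at h1
    rw [← h1] at e
    exact e
  · exact absurd h2 (by simp)

/-- Differences of the values at the two points of each node of `S`. -/
def nodeEval (n : ℕ) (S : Finset (Place k F)) (hS : ∀ Q ∈ S, I.IsNode Q) :
    I.box n →ₗ[k] (S → k) where
  toFun p Q := valueAt (Q : Place k F) (p : F × F).1 - valueAt (I.pull Q) (p : F × F).2
  map_add' p p' := funext fun Q => by
    have h1 : ∀ x : I.box n, (Q : Place k F).adicValuation (x : F × F).1 ≤ 1 := fun x => by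
      simpa [poleDiv_eq_zero_of_le_one (hS Q Q.2).1] using x.2.1 Q
    have h2 : ∀ x : I.box n, (I.pull Q).adicValuation (x : F × F).2 ≤ 1 := fun x => by
      have := x.2.2 (I.pull Q)
      simp only [Finsupp.coe_smul, Pi.smul_apply, poleDiv_pow,
        poleDiv_eq_zero_of_le_one (I.pull_finite (hS Q Q.2).1), mul_zero, smul_zero,
        exp_zero] at this
      exact this
    simp only [Submodule.coe_add, Prod.fst_add, Prod.snd_add, Pi.add_apply]
    rw [valueAt_add _ (mem_of_le_one (h1 p)) (mem_of_le_one (h1 p')),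
      valueAt_add _ (mem_of_le_one (h2 p)) (mem_of_le_one (h2 p'))]
    ring
  map_smul' c p := funext fun Q => by
    have h1 : (Q : Place k F).adicValuation (p : F × F).1 ≤ 1 := by
      simpa [poleDiv_eq_zero_of_le_one (hS Q Q.2).1] using p.2.1 Q
    have h2 : (I.pull Q).adicValuation (p : F × F).2 ≤ 1 := by
      have := p.2.2 (I.pull Q)
      simp only [Finsupp.coe_smul, Pi.smul_apply, poleDiv_pow,
        poleDiv_eq_zero_of_le_one (I.pull_finite (hS Q Q.2).1), mul_zero, smul_zero,
        exp_zero] at this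
      exact this
    simp only [Submodule.coe_smul, Prod.smul_fst, Prod.smul_snd, Pi.smul_apply, RingHom.id_apply,
      smul_eq_mul]
    rw [valueAt_smul h1, valueAt_smul h2]
    ring

theorem nodeEval_surjective (S : Finset (Place k F)) (hS : ∀ Q ∈ S, I.IsNode Q) :
    ∃ n₁, ∀ n, n₁ ≤ n → Function.Surjective (I.nodeEval n S hS) := by
  classical
  have : ∀ Q : S, ∃ r : F, (∀ v : Place k F, v.adicValuation I.J ≤ 1 → v.adicValuation r ≤ 1) ∧
      ∀ R : S, valueAt (R : Place k F) r = if R = Q then 1 else 0 := by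
    intro Q
    obtain ⟨r, hr, hrS⟩ := exists_regular I.transcendental S (fun v hv => (hS v hv).1)
      (fun v => algebraMap k F (if v = Q then 1 else 0))
      (fun v _ => (mem_iff_adicValuation_le_one v).mp (v.algebraMap_mem' _)) 1
    refine ⟨r, hr, fun R => ?_⟩
    rw [valueAt_eq_of_sub_lt_one ((mem_iff_adicValuation_le_one _).mp ((R : Place k F).algebraMap_mem' _))
      (lt_one_of_le_exp_neg (by norm_num) (hrS R R.2)), valueAt_algebraMap]
    simp
  choose r hr hrv using this
  choose m hm using fun Q : S => exists_mem_rrSpace (r Q) (hr Q)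
  refine ⟨Finset.univ.sup m, fun n hn t => ?_⟩
  have hmem : ∀ Q : S, (r Q, (0 : F)) ∈ I.box n := fun Q =>
    Submodule.mem_prod.mpr ⟨hm Q n ((Finset.le_sup (Finset.mem_univ Q)).trans hn), zero_mem _⟩
  refine ⟨∑ Q : S, t Q • (⟨_, hmem Q⟩ : I.box n), ?_⟩
  rw [map_sum]
  funext R
  have h0 : valueAt (I.pull R) (0 : F) = 0 := by
    rw [← map_zero (algebraMap k F), valueAt_algebraMap]
  simp only [map_smul, Finset.sum_apply, Pi.smul_apply, smul_eq_mul]
  rw [Finset.sum_eq_single R]
  · simp [nodeEval, hrv, h0]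
  · intro Q _ hne
    simp [nodeEval, hrv, h0, Ne.symm hne]
  · simp

theorem V_le_box (n : ℕ) : I.V n ≤ I.box n := fun p hp =>
  Submodule.mem_prod.mpr ⟨(I.le n p hp).1, (I.le n p hp).2⟩

theorem card_nodes_le (S : Finset (Place k F)) (hS : ∀ Q ∈ S, I.IsNode Q) : S.card ≤ I.c := by
  obtain ⟨n₁, hn₁⟩ := I.nodeEval_surjective S hS
  set n := max I.n₀ n₁
  have h1 := LinearMap.finrank_range_add_finrank_ker (I.nodeEval n S hS)
  rw [LinearMap.range_eq_top.mpr (hn₁ n (le_max_right _ _)), finrank_top, Module.finrank_pi,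
    Fintype.card_coe] at h1
  have h2 : Module.finrank k ((I.V n).comap (I.box n).subtype) ≤
      Module.finrank k (LinearMap.ker (I.nodeEval n S hS)) := by
    refine Submodule.finrank_mono fun p hp => LinearMap.mem_ker.mpr (funext fun Q => ?_)
    exact sub_eq_zero.mpr ((hS Q Q.2).2 _ ⟨n, hp⟩)
  rw [(Submodule.comapSubtypeEquivOfLe (I.V_le_box n)).finrank_eq] at h2
  have h3 := I.finrank_eq n (le_max_left _ _)
  have h4 := I.finrank_box n
  omega

theorem finite_isNode : {Q | I.IsNode Q}.Finite := by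
  by_contra hinf
  obtain ⟨S, hS, hcard⟩ := Set.Infinite.exists_subset_card_eq hinf (I.c + 1)
  have := I.card_nodes_le S fun Q hQ => hS hQ
  omega

/-- The set of nodes. -/
def nodes : Finset (Place k F) := I.finite_isNode.toFinset

theorem mem_nodes {Q : Place k F} : Q ∈ I.nodes ↔ I.IsNode Q := I.finite_isNode.mem_toFinset

/-- The space of glued sections. -/
def nodeSpace (n : ℕ) : Submodule k (F × F) :=
  (LinearMap.ker (I.nodeEval n I.nodes fun _ h => I.mem_nodes.mp h)).map (I.box n).subtype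

theorem mem_nodeSpace {n : ℕ} {p : F × F} : p ∈ I.nodeSpace n ↔ p ∈ I.box n ∧
    ∀ Q, I.IsNode Q → valueAt Q p.1 = valueAt (I.pull Q) p.2 := by
  constructor
  · rintro ⟨p, hp, rfl⟩
    exact ⟨p.2, fun Q hQ => sub_eq_zero.mp
      (congrFun (LinearMap.mem_ker.mp hp) ⟨Q, I.mem_nodes.mpr hQ⟩)⟩
  · rintro ⟨hp, h⟩
    exact ⟨⟨p, hp⟩, LinearMap.mem_ker.mpr (funext fun Q =>
      sub_eq_zero.mpr (h Q (I.mem_nodes.mp Q.2))), rfl⟩

theorem V_le_nodeSpace (n : ℕ) : I.V n ≤ I.nodeSpace n := fun _ hp =>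
  I.mem_nodeSpace.mpr ⟨I.V_le_box n hp, fun _ hQ => hQ.2 _ ⟨n, hp⟩⟩

theorem aeval_T (P : Polynomial k) :
    Polynomial.aeval I.T P = (Polynomial.aeval I.J P, Polynomial.aeval (I.J ^ I.q) P) := by
  refine Prod.ext ?_ ?_
  · exact (Polynomial.aeval_algHom_apply (AlgHom.fst k F F) I.T P).symm
  · exact (Polynomial.aeval_algHom_apply (AlgHom.snd k F F) I.T P).symm

/-- Glued sections are reductions, with a larger bound on the poles. -/
theorem nodeSpace_le_finAlg (n : ℕ) : I.nodeSpace n ≤ Subalgebra.toSubmodule I.finAlg := by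
  classical
  intro p hp
  rw [I.mem_nodeSpace] at hp
  obtain ⟨P, hP, hcond⟩ := I.exists_conductor
  set a₁ := Polynomial.aeval I.J P with ha₁
  set a₂ := Polynomial.aeval (I.J ^ I.q) P with ha₂
  have h1 : a₁ ≠ 0 := fun h => I.transcendental ⟨P, hP, h⟩
  have h2 : a₂ ≠ 0 := fun h => transcendental_pow' I.transcendental I.q_pos ⟨P, hP, h⟩
  set S₁ := ((divisorOf (K := k) a₁).support ∪ (divisorOf (K := k) a₂).support).filter
    fun v : Place k F => v.adicValuation I.J ≤ 1
  set S : Finset (PairPt k F F) := S₁.disjSum S₁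
  have hS : ∀ Q ∈ S, (ptPlace Q).adicValuation I.J ≤ 1 := by
    intro Q hQ
    rcases Finset.mem_disjSum.mp hQ with ⟨v, hv, rfl⟩ | ⟨v, hv, rfl⟩ <;>
      exact (Finset.mem_filter.mp hv).2
  set N := ∑ v ∈ S₁, ((v.ord a₁).toNat + (v.ord a₂).toNat)
  obtain ⟨G, hG, hGp⟩ := ChartAlg.exists_approx_chart I.chart_fin I.insep S hS N
  have hbox : ∀ v : Place k F, v.adicValuation I.J ≤ 1 →
      v.adicValuation p.1 ≤ 1 ∧ v.adicValuation p.2 ≤ 1 := fun v hv => by
    have h1' := hp.1.1 v
    have h2' := hp.1.2 v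
    simp only [Finsupp.coe_smul, Pi.smul_apply, poleDiv_pow, poleDiv_eq_zero_of_le_one hv,
      mul_zero, smul_zero, exp_zero] at h1' h2'
    exact ⟨h1', h2'⟩
  have hcompat : Compatible I.finAlg S p := by
    refine ⟨fun Q hQ => ?_, fun Q hQ Q' hQ' hI => ?_⟩
    · cases Q
      · exact (hbox _ (hS _ hQ)).1
      · exact (hbox _ (hS _ hQ)).2
    · rcases ChartAlg.of_ident I.chart_fin I.insep (hS _ hQ) (hS _ hQ') hI with
        rfl | ⟨R, -, ⟨rfl, rfl⟩ | ⟨rfl, rfl⟩⟩
      · rfl
      · have h1 : R.adicValuation I.J ≤ 1 := hS (.inl R) hQ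
        rw [value_inl, value_inr]
        exact hp.2 R ⟨h1, hI⟩
      · have h1 : R.adicValuation I.J ≤ 1 := hS (.inl R) hQ'
        rw [value_inl, value_inr]
        exact (hp.2 R ⟨h1, hI.symm⟩).symm
  obtain ⟨b, hb, hbS⟩ := hGp p hcompat
  have hbB : b ∈ I.finAlg := (Submodule.span_le (p := Subalgebra.toSubmodule I.finAlg)).mpr hG hb
  have key : ∀ (a : F) (f : F) (v : Place k F), a ≠ 0 → v.adicValuation I.J ≤ 1 →
      (v ∈ S₁ → v.adicValuation f ≤ exp (-((N : ℤ) + 1))) → v.adicValuation f ≤ 1 →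
      (v ∉ S₁ → v.ord a = 0) → ((v.ord a).toNat ≤ N ∨ v ∉ S₁) → v.adicValuation (f / a) ≤ 1 := by
    intro a f v ha hv hf hf1 h0 hN
    rw [map_div₀, v.adicValuation_eq_exp_neg_ord ha, div_le_iff₀ exp_pos, one_mul]
    by_cases hvS : v ∈ S₁
    · refine (hf hvS).trans (exp_le_exp.mpr ?_)
      have := hN.resolve_right (not_not.mpr hvS)
      have := Int.self_le_toNat (v.ord a)
      omega
    · rw [h0 hvS, neg_zero, exp_zero]; exact hf1
  have hnot : ∀ v : Place k F, v.adicValuation I.J ≤ 1 → v ∉ S₁ → v.ord a₁ = 0 ∧ v.ord a₂ = 0 := by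
    intro v hv hvS
    simp only [S₁, Finset.mem_filter, Finset.mem_union, hv, and_true, not_or,
      Finsupp.mem_support_iff, not_not, divisorOf_apply] at hvS
    exact hvS
  have hN : ∀ v : Place k F, v ∈ S₁ → (v.ord a₁).toNat ≤ N ∧ (v.ord a₂).toNat ≤ N := by
    intro v hv
    have := Finset.single_le_sum (f := fun v => (v.ord a₁).toNat + (v.ord a₂).toNat)
      (fun _ _ => Nat.zero_le _) hv
    constructor <;> omega
  have hrem : ((p.1 - b.1) / a₁, (p.2 - b.2) / a₂) ∈ I.regPairs := by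
    intro v hv
    have hb' := I.chart_fin.regular b hbB v hv
    refine ⟨key a₁ _ v h1 hv (fun h => hbS (.inl v) (Finset.inl_mem_disjSum.mpr h))
      ((Valuation.map_sub _ _ _).trans (max_le (hbox v hv).1 hb'.1)) (fun h => (hnot v hv h).1)
      ((em (v ∈ S₁)).imp (fun h => (hN v h).1) id),
      key a₂ _ v h2 hv (fun h => hbS (.inr v) (Finset.inr_mem_disjSum.mpr h))
      ((Valuation.map_sub _ _ _).trans (max_le (hbox v hv).2 hb'.2)) (fun h => (hnot v hv h).2)
      ((em (v ∈ S₁)).imp (fun h => (hN v h).2) id)⟩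
  have := add_mem hbB (hcond _ hrem)
  have e : b + Polynomial.aeval I.T P * ((p.1 - b.1) / a₁, (p.2 - b.2) / a₂) = p := by
    rw [I.aeval_T]
    exact Prod.ext (by simp [← ha₁, mul_div_cancel₀ _ h1]) (by simp [← ha₂, mul_div_cancel₀ _ h2])
  rwa [e] at this

/-- The reductions exhaust the principal parts at infinity. -/
theorem exists_nodeSpace_succ_le :
    ∃ n₁, ∀ n, n₁ ≤ n → I.nodeSpace (n + 1) ≤ I.nodeSpace n ⊔ I.V (n + 1) := by
  classical
  set S₁ := (poleDiv I.J : Divisor k F).support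
  have hS₁ : ∀ v ∈ S₁, v.adicValuation I.J⁻¹ < 1 := by
    intro v hv
    have := Finsupp.mem_support_iff.mp hv
    rw [poleDiv_apply] at this
    rw [v.adicValuation_eq_exp_neg_ord (inv_ne_zero I.J_ne_zero), v.ord_inv, ← exp_zero,
      exp_lt_exp]
    omega
  set S : Finset (PairPt k F F) := S₁.disjSum S₁
  have hS : ∀ Q ∈ S, (ptPlace Q).adicValuation I.J⁻¹ ≤ 1 := by
    intro Q hQ
    rcases Finset.mem_disjSum.mp hQ with ⟨v, hv, rfl⟩ | ⟨v, hv, rfl⟩ <;> exact (hS₁ v hv).le
  set N := ∑ v ∈ S₁, I.q * ((poleDiv I.J : Divisor k F) v).toNat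
  obtain ⟨G, hG, hGp⟩ := ChartAlg.exists_approx_chart I.chart_inf I.insep S hS N
  choose l hl using fun g : G => hG g.2
  refine ⟨Finset.univ.sup l, fun n hn h hh => ?_⟩
  rw [I.mem_nodeSpace] at hh
  set H : F × F := (h.1 / I.J ^ (n + 1), h.2 / (I.J ^ I.q) ^ (n + 1))
  have hval : ∀ v ∈ S₁, ∀ m : ℕ, v.adicValuation (I.J ^ m) = exp (m * (poleDiv I.J : Divisor k F) v)
      ∧ v.adicValuation ((I.J ^ I.q) ^ m) =
        exp (m * (poleDiv (I.J ^ I.q) : Divisor k F) v) := fun v hv m => by
    rw [poleDiv_pow]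
    simp only [map_pow, valuation_eq_exp_poleDiv I.J_ne_zero (hS₁ v hv).le, ← exp_nsmul,
      nsmul_eq_mul, and_self]
  have hH : Compatible I.infAlg S H := by
    refine ⟨fun Q hQ => ?_, fun Q hQ Q' hQ' hI => ?_⟩
    · have hbd : ∀ v, ((n + 1) • (poleDiv I.J : Divisor k F)) v =
          ((n + 1 : ℕ) : ℤ) * (poleDiv I.J : Divisor k F) v := fun v => by simp
      have hbd' : ∀ v, ((n + 1) • (poleDiv (I.J ^ I.q) : Divisor k F)) v =
          ((n + 1 : ℕ) : ℤ) * (poleDiv (I.J ^ I.q) : Divisor k F) v := fun v => by simp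
      rcases Finset.mem_disjSum.mp hQ with ⟨v, hv, rfl⟩ | ⟨v, hv, rfl⟩
      · rw [val_inl, map_div₀, (hval v hv _).1, div_le_iff₀ exp_pos, one_mul, ← hbd]
        exact hh.1.1 v
      · rw [val_inr, map_div₀, (hval v hv _).2, div_le_iff₀ exp_pos, one_mul, ← hbd']
        exact hh.1.2 v
    · rcases ChartAlg.of_ident I.chart_inf I.insep (hS _ hQ) (hS _ hQ') hI with
        rfl | ⟨R, -, hR⟩
      · rfl
      exfalso
      obtain ⟨m, p, hp, hsep⟩ := I.sep
      have hb : ((p.1 / I.J ^ m, p.2 / (I.J ^ I.q) ^ m) : F × F) ∈ I.infAlg := by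
        refine ⟨m, ?_⟩
        have e : I.T ^ m * (p.1 / I.J ^ m, p.2 / (I.J ^ I.q) ^ m) = p :=
          Prod.ext (mul_div_cancel₀ _ (pow_ne_zero _ I.J_ne_zero))
            (mul_div_cancel₀ _ (pow_ne_zero _ (pow_ne_zero _ I.J_ne_zero)))
        rwa [e]
      have main : ∀ R, (Sum.inl R : PairPt k F F) ∈ S →
          Ident I.infAlg (Sum.inl R) (Sum.inr (I.pull R)) → False := by
        intro R hR hI
        have hlt := hS₁ R (Finset.inl_mem_disjSum.mp hR)
        have hlt' : (I.pull R).adicValuation I.J⁻¹ < 1 := by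
          rw [← I.insep.lt_one_iff, map_inv₀, I.map_J, ← inv_pow, map_pow]
          exact pow_lt_one₀ zero_le hlt I.q_pos.ne'
        have := hI _ hb
        simp only [value_inl, value_inr, (hsep R hlt).1] at this
        exact (hsep _ hlt').2 this.symm
      rcases hR with ⟨rfl, rfl⟩ | ⟨rfl, rfl⟩
      · exact main R hQ hI
      · exact main R hQ' hI.symm
  obtain ⟨β, hβ, hβS⟩ := hGp H hH
  have hβV : I.T ^ (n + 1) * β ∈ I.V (n + 1) := by
    have : Submodule.span k (G : Set (F × F)) ≤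
        (I.V (n + 1)).comap (LinearMap.mulLeft k (I.T ^ (n + 1))) := by
      rw [Submodule.span_le]
      intro g hg
      exact I.scaled_mono ((Finset.le_sup (Finset.mem_univ (⟨g, hg⟩ : G))).trans
        (hn.trans n.le_succ)) (hl ⟨g, hg⟩)
    exact this hβ
  have hdiff : h - I.T ^ (n + 1) * β ∈ I.nodeSpace n := by
    have hV := I.mem_nodeSpace.mp (I.V_le_nodeSpace _ hβV)
    rw [I.mem_nodeSpace]
    constructor
    · refine Submodule.mem_prod.mpr ⟨fun v => ?_, fun v => ?_⟩
      · by_cases hv : v ∈ S₁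
        · have hN : (((poleDiv I.J : Divisor k F) v).toNat : ℤ) ≤ N := by
            have h1 := Finset.single_le_sum
              (f := fun v => I.q * ((poleDiv I.J : Divisor k F) v).toNat)
              (fun _ _ => Nat.zero_le _) hv
            exact_mod_cast le_trans (Nat.le_mul_of_pos_left _ I.q_pos) h1
          have h2 := Int.self_le_toNat ((poleDiv I.J : Divisor k F) v)
          have hb : v.adicValuation (H.1 - β.1) ≤ exp (-((N : ℤ) + 1)) :=
            hβS (.inl v) (Finset.inl_mem_disjSum.mpr hv)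
          have e : (h - I.T ^ (n + 1) * β).1 = I.J ^ (n + 1) * (H.1 - β.1) := by
            simp [H, T, mul_sub, mul_div_cancel₀ _ (pow_ne_zero _ I.J_ne_zero)]
          rw [e, map_mul, (hval v hv _).1]
          refine (mul_le_mul' le_rfl hb).trans ?_
          rw [← exp_add, exp_le_exp]
          push_cast [Finsupp.coe_smul, Pi.smul_apply, nsmul_eq_mul]
          linarith
        · have h0 : (poleDiv I.J : Divisor k F) v = 0 := Finsupp.notMem_support_iff.mp hv
          have := (Submodule.mem_prod.mp (sub_mem hh.1 hV.1)).1 v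
          simpa [h0] using this
      · by_cases hv : v ∈ S₁
        · have hN : (I.q : ℤ) * ((poleDiv I.J : Divisor k F) v).toNat ≤ N := by
            have h1 := Finset.single_le_sum
              (f := fun v => I.q * ((poleDiv I.J : Divisor k F) v).toNat)
              (fun _ _ => Nat.zero_le _) hv
            exact_mod_cast h1
          have h2 := mul_le_mul_of_nonneg_left (Int.self_le_toNat ((poleDiv I.J : Divisor k F) v))
            (Int.natCast_nonneg I.q)
          have hb : v.adicValuation (H.2 - β.2) ≤ exp (-((N : ℤ) + 1)) :=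
            hβS (.inr v) (Finset.inr_mem_disjSum.mpr hv)
          have e : (h - I.T ^ (n + 1) * β).2 = (I.J ^ I.q) ^ (n + 1) * (H.2 - β.2) := by
            simp [H, T, mul_sub, mul_div_cancel₀ _ (pow_ne_zero _ (pow_ne_zero _ I.J_ne_zero))]
          rw [e, map_mul, (hval v hv _).2]
          refine (mul_le_mul' le_rfl hb).trans ?_
          rw [← exp_add, exp_le_exp]
          push_cast [Finsupp.coe_smul, Pi.smul_apply, nsmul_eq_mul, poleDiv_pow]
          linarith
        · have h0 : (poleDiv I.J : Divisor k F) v = 0 := Finsupp.notMem_support_iff.mp hv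
          have := (Submodule.mem_prod.mp (sub_mem hh.1 hV.1)).2 v
          simp only [Finsupp.coe_smul, Pi.smul_apply, poleDiv_pow, h0, mul_zero, smul_zero] at this ⊢
          exact this
    · intro Q hQ
      have := I.mem_nodeSpace.mp (sub_mem (I.mem_nodeSpace.mpr hh) (I.mem_nodeSpace.mpr hV))
      exact this.2 Q hQ
  exact Submodule.mem_sup.mpr ⟨_, hdiff, _, hβV, sub_add_cancel _ _⟩

/-- The nodes as pairs of points. -/
def glued (hne : I.nodes.Nonempty) : Glued k F F where
  z₁ := I.J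
  z₂ := I.J ^ I.q
  transcendental₁ := I.transcendental
  transcendental₂ := transcendental_pow' I.transcendental I.q_pos
  ι := Fin I.nodes.card
  fintype := inferInstance
  nonempty := ⟨⟨0, hne.card_pos⟩⟩
  x i := (I.nodes.equivFin.symm i : Place k F)
  y i := I.pull (I.nodes.equivFin.symm i : Place k F)
  x_injective := fun a b h => I.nodes.equivFin.symm.injective (Subtype.ext h)
  y_injective := fun a b h => I.nodes.equivFin.symm.injective (Subtype.ext (by
    rw [← I.pull_pull (I.mem_nodes.mp (I.nodes.equivFin.symm a).2),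
      show I.pull (I.nodes.equivFin.symm a : Place k F) = I.pull (I.nodes.equivFin.symm b) from h,
      I.pull_pull (I.mem_nodes.mp (I.nodes.equivFin.symm b).2)]))
  x_finite i := le_one_iff_ord.mp (I.mem_nodes.mp (I.nodes.equivFin.symm i).2).1
  y_finite i := le_one_iff_ord.mp
    ((I.le_one_pow_iff _).mpr (I.pull_finite (I.mem_nodes.mp (I.nodes.equivFin.symm i).2).1))

theorem finrank_nodeSpace : ∃ n₁, ∀ n, n₁ ≤ n →
    Module.finrank k (I.nodeSpace n) + I.nodes.card = Module.finrank k (I.box n) := by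
  obtain ⟨n₁, hn₁⟩ := I.nodeEval_surjective I.nodes fun _ h => I.mem_nodes.mp h
  refine ⟨n₁, fun n hn => ?_⟩
  have h1 := LinearMap.finrank_range_add_finrank_ker
    (I.nodeEval n I.nodes fun _ h => I.mem_nodes.mp h)
  rw [LinearMap.range_eq_top.mpr (hn₁ n hn), finrank_top, Module.finrank_pi,
    Fintype.card_coe] at h1
  rw [nodeSpace, ← (Submodule.equivSubtypeMap _ _).finrank_eq]
  omega

/-- The reductions are the glued sections, and there are `c` nodes. -/
theorem exists_V_eq_nodeSpace :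
    I.nodes.card = I.c ∧ ∃ n₁, ∀ n, n₁ ≤ n → I.V n = I.nodeSpace n := by
  obtain ⟨n₁, hn₁⟩ := I.exists_nodeSpace_succ_le
  obtain ⟨n₂, hn₂⟩ := I.finrank_nodeSpace
  have hfin : ∀ n, Module.Finite k (I.nodeSpace n) := fun n =>
    Module.Finite.of_injective (Submodule.inclusion fun p hp => (I.mem_nodeSpace.mp hp).1)
      (Submodule.inclusion_injective _)
  set n := max n₁ (max n₂ I.n₀) with hn
  have := hfin n
  obtain ⟨l, hl⟩ : ∃ l, I.nodeSpace n ≤ I.V l := by
    let b := Module.finBasis k (I.nodeSpace n)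
    choose m hm using fun i => I.nodeSpace_le_finAlg n (b i).2
    refine ⟨Finset.univ.sup m, fun p hp => ?_⟩
    have h := congrArg Subtype.val (b.sum_repr ⟨p, hp⟩)
    simp only [AddSubmonoidClass.coe_finsetSum, Submodule.coe_smul] at h
    rw [← h]
    exact sum_mem fun i _ =>
      Submodule.smul_mem _ _ (I.V_mono (Finset.le_sup (Finset.mem_univ i)) (hm i))
  have key : ∀ d, I.nodeSpace (n + d) ≤ I.nodeSpace n ⊔ I.V (n + d) := by
    intro d
    induction d with
    | zero => exact le_sup_left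
    | succ d ih =>
      refine (hn₁ (n + d) ((le_max_left n₁ _).trans (le_of_eq_of_le hn.symm (Nat.le_add_right n d)))).trans
        (sup_le ?_ le_sup_right)
      exact ih.trans (sup_le_sup_left (I.V_mono (Nat.le_succ _)) _)
  set L := max n l
  obtain ⟨d, hd⟩ := Nat.exists_eq_add_of_le (le_max_left n l)
  have hL : I.nodeSpace L = I.V L := by
    refine le_antisymm ?_ (I.V_le_nodeSpace L)
    show I.nodeSpace (max n l) ≤ I.V (max n l)
    rw [hd]
    exact (key d).trans (sup_le (hl.trans (I.V_mono (hd ▸ le_max_right n l))) le_rfl)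
  have hcard : I.nodes.card = I.c := by
    have h1 := hn₂ L (((le_max_left _ _).trans (le_max_right _ _)).trans (le_max_left n l))
    have h2 := I.finrank_eq L (((le_max_right _ _).trans (le_max_right _ _)).trans (le_max_left n l))
    have h3 := I.finrank_box L
    rw [hL] at h1
    omega
  refine ⟨hcard, n, fun m hm => ?_⟩
  have := hfin m
  refine Submodule.eq_of_le_of_finrank_le (I.V_le_nodeSpace m) ?_
  have h1 := hn₂ m (((le_max_left _ _).trans (le_max_right _ _)).trans hm)
  have h2 := I.finrank_eq m (((le_max_right _ _).trans (le_max_right _ _)).trans hm)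
  have h3 := I.finrank_box m
  omega

theorem nodes_nonempty : I.nodes.Nonempty :=
  Finset.card_pos.mp (I.exists_V_eq_nodeSpace.1.symm ▸ I.c_pos)

/-- The glued curve of the reductions. -/
def toGlued : Glued k F F := I.glued I.nodes_nonempty

theorem card_toGlued : Fintype.card I.toGlued.ι = I.c :=
  (Fintype.card_fin _).trans I.exists_V_eq_nodeSpace.1

theorem glue_eq_nodeSpace (n : ℕ) : I.toGlued.glue n = I.nodeSpace n := by
  ext p
  rw [Glued.mem_glue, I.mem_nodeSpace]
  constructor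
  · rintro ⟨h1, h2, h3⟩
    refine ⟨Submodule.mem_prod.mpr ⟨h1, h2⟩, fun Q hQ => ?_⟩
    obtain ⟨i, hi⟩ := I.nodes.equivFin.symm.surjective ⟨Q, I.mem_nodes.mpr hQ⟩
    have e : I.toGlued.x i = Q := congrArg Subtype.val hi
    rw [← e]
    exact h3 i
  · rintro ⟨hbox, h⟩
    exact ⟨(Submodule.mem_prod.mp hbox).1, (Submodule.mem_prod.mp hbox).2, fun i =>
      h _ (I.mem_nodes.mp (I.nodes.equivFin.symm i).2)⟩

theorem exists_V_eq_glue : ∃ n₁, ∀ n, n₁ ≤ n → I.V n = I.toGlued.glue n := by
  obtain ⟨n₁, h⟩ := I.exists_V_eq_nodeSpace.2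
  exact ⟨n₁, fun n hn => (h n hn).trans (I.glue_eq_nodeSpace n).symm⟩

theorem toGlued_y (i : I.toGlued.ι) :
    I.toGlued.y i = I.pull (I.toGlued.x i) ∧ I.pull (I.toGlued.y i) = I.toGlued.x i :=
  ⟨rfl, I.pull_pull (I.mem_nodes.mp (I.nodes.equivFin.symm i).2)⟩

end GlueInput

end FermatAgent.BadRed.Semistable
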