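import Fermat.Agent.BadRed.Semistable.Sections
import Fermat.Agent.BadRed.Semistable.GlueNodes
import Fermat.Agent.BadRed.Semistable.Datum

/-!
# A nodal datum from two valuations interchanged by an involution

The reductions of sections are the sections on two copies of the residual curve glued at
`g + 1 - 2 g'` pairs of points `(Q, pull Q)`, so the two valuations form a nodal datum.
-/

set_option autoImplicit false
set_option linter.unusedSectionVars false
set_option linter.style.haveILetI false

noncomputable section

open Polynomial AlgebraicCurve WithZero IntermediateField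

namespace FermatAgent.BadRed.Semistable

open FermatAgent.Curve FermatAgent.Curve.RR

attribute [local instance] neZero_of_fact_prime

theorem degree_poleDiv_eq {k F : Type*} [Field k] [IsAlgClosed k] [Field F] [Algebra k F]
    [IsFunctionField1 k F] {z : F} (hz : Transcendental k z) :
    Divisor.degree (poleDiv z : Divisor k F) = Module.finrank k⟮z⟯ F := by
  rw [← polePart_eq_poleDiv, degree_polePart_eq hz]

namespace GaussRed

variable {K : Type*} [Field K] {A : ValuationSubring K} {k : Type*} [Field k] {π : A →+* k}
  {F : Type*} [Field F] [Algebra K F] {R : Type*} [Field R] [Algebra k R]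
variable (G : GaussRed A π F R)

/-- Transport by an automorphism. -/
def twist (w : F ≃ₐ[K] F) : GaussRed A π F R where
  integers := G.integers.comap w.toRingEquiv.toRingHom
  red := G.red.comp (w.toRingEquiv.toRingHom.restrict _ G.integers fun _ h => h)
  algebraMap_mem a := by
    show w _ ∈ G.integers
    rw [w.commutes]
    exact G.algebraMap_mem a
  red_algebraMap a := by
    refine Eq.trans ?_ (G.red_algebraMap a)
    exact congrArg G.red (Subtype.ext (w.commutes _))
  exists_normalize f hf := by
    obtain ⟨c, hc, hc0⟩ := G.exists_normalize (w f) (by simpa using hf)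
    refine ⟨c, show w (c • f) ∈ G.integers by rwa [map_smul], fun e => hc0 ?_⟩
    rw [← e]
    exact congrArg G.red (Subtype.ext (map_smul w c f).symm)

end GaussRed

/-- The hypotheses under which the twisted pair of valuations is a nodal datum. -/
structure NodalInput {K : Type*} [Field K] [IsAlgClosed K] [CharZero K] {A : ValuationSubring K}
    {k : Type*} [Field k] [IsAlgClosed k] {π : A →+* k} {F : Type*} [Field F] [Algebra K F]
    [IsFunctionField1 K F] {R : Type*} [Field R] [Algebra k R] [IsFunctionField1 k R]
    (G : GaussRed A π F R) (w : F ≃ₐ[K] F) (q : ℕ) [Fact q.Prime] (j : F) where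
  twist : TwistDatum G w q j
  root : kEval j (w j) (jPhi q) = 0
  ψ : R →ₐ[k] R
  pull : Place k R → Place k R
  insep : InsepData ψ q pull
  map_J : ψ twist.J = twist.J ^ q
  lift : ∃ n₀ : ℕ, ∀ n, n₀ ≤ n → ∀ r ∈ riemannRochSpace (n • (poleDiv twist.J : Divisor k R)),
    ∃ (u : F) (hu : u ∈ G.pairInt w), u ∈ riemannRochSpace (n • (poleDiv j : Divisor K F)) ∧
      w u ∈ riemannRochSpace (n • (poleDiv (w j) : Divisor K F)) ∧
      G.pairRed w ⟨u, hu⟩ = (r, ψ r)
  orth : G.HasOrth
  D : ℕ
  finrank_top : Module.finrank K⟮j⟯ F = (q + 1) * D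
  finrank_fibre : Module.finrank k⟮twist.J⟯ R = D
  basis : Fin D → F
  basis_mem : ∀ i, basis i ∈ G.integers
  basis_indep : ∀ P : Fin D → k[X],
    ∑ i, aeval twist.J (P i) * G.red ⟨basis i, basis_mem i⟩ = 0 → P = 0
  c : ℕ
  c_pos : 0 < c
  genus : genusFF K F + 1 = genusFF k R + genusFF k R + c

namespace NodalInput

variable {K : Type*} [Field K] [Algebra ℚ K] [IsAlgClosed K] [CharZero K] {A : ValuationSubring K}
    {k : Type*} [Field k] [IsAlgClosed k] {π : A →+* k} {F : Type*} [Field F] [Algebra K F]
    [IsFunctionField1 K F] {R : Type*} [Field R] [Algebra k R] [IsFunctionField1 k R]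
    {G : GaussRed A π F R} {w : F ≃ₐ[K] F} {q : ℕ} [Fact q.Prime] [CharP k q] {j : F}
    (I : NodalInput G w q j)

theorem D_pos : 0 < I.D := by
  have h := degree_poleDiv_pos (K := k) (F := R) I.twist.transcendental
  rw [degree_poleDiv_eq I.twist.transcendental] at h
  have := I.finrank_fibre
  unfold TwistDatum.J at this
  omega

theorem degree_J : Divisor.degree (poleDiv I.twist.J : Divisor k R) = (I.D : ℤ) :=
  (degree_poleDiv_eq I.twist.transcendental).trans (congrArg Nat.cast I.finrank_fibre)

theorem finrank_sectionImage : ∃ n₀, ∀ n, n₀ ≤ n →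
    Module.finrank k (I.twist.sectionImage n) + I.c =
      Module.finrank k (riemannRochSpace (n • (poleDiv I.twist.J : Divisor k R))) +
        Module.finrank k (riemannRochSpace (n • (poleDiv (I.twist.J ^ q) : Divisor k R))) := by
  refine ⟨2 * genusFF K F + 2 * genusFF k R, fun n hn => ?_⟩
  have hD := I.D_pos
  have hq := (Fact.out : q.Prime).two_le
  have e : Module.finrank k (I.twist.sectionImage n) =
      Module.finrank K (riemannRochSpace (n • (poleDiv j : Divisor K F))) :=
    G.finrank_pairImage w I.twist.residue_surjective I.orth _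
  have d1 : Divisor.degree (n • (poleDiv j : Divisor K F)) = (n : ℤ) * ((q + 1) * I.D : ℕ) := by
    rw [map_nsmul, nsmul_eq_mul, degree_poleDiv_eq I.twist.transcendental', I.finrank_top]
  have d2 : Divisor.degree (n • (poleDiv I.twist.J : Divisor k R)) = (n : ℤ) * I.D := by
    rw [map_nsmul, nsmul_eq_mul, I.degree_J]
  have hpow : (poleDiv (I.twist.J ^ q) : Divisor k R) = q • (poleDiv I.twist.J : Divisor k R) :=
    Finsupp.ext fun v => by rw [poleDiv_pow, Finsupp.smul_apply, nsmul_eq_mul]
  have d3 : Divisor.degree (n • (poleDiv (I.twist.J ^ q) : Divisor k R)) =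
      (n : ℤ) * ((q : ℤ) * I.D) := by
    rw [map_nsmul, hpow, map_nsmul, nsmul_eq_mul, nsmul_eq_mul, I.degree_J]
  have hn1 : (n : ℤ) ≤ (n : ℤ) * I.D := le_mul_of_one_le_right (by simp) (by exact_mod_cast hD)
  have f1 := finrank_rrSpace_of_degree_ge (D := n • (poleDiv j : Divisor K F)) (by
    rw [d1]; push_cast; nlinarith)
  have f2 := finrank_rrSpace_of_degree_ge (D := n • (poleDiv I.twist.J : Divisor k R)) (by
    rw [d2]; omega)
  have f3 := finrank_rrSpace_of_degree_ge (D := n • (poleDiv (I.twist.J ^ q) : Divisor k R)) (by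
    rw [d3]; nlinarith)
  rw [d1] at f1
  rw [d2] at f2
  rw [d3] at f3
  have hg := I.genus
  push_cast at f1
  rw [← e] at f1
  nlinarith

/-- The input of the gluing. -/
def glueInput : GlueInput k R where
  ψ := I.ψ
  q := q
  pull := I.pull
  insep := I.insep
  J := I.twist.J
  transcendental := I.twist.transcendental
  map_J := I.map_J
  V := I.twist.sectionImage
  one_mem := I.twist.one_mem_sectionImage
  mul_mem := I.twist.mul_mem_sectionImage
  T_mem := I.twist.T_mem_sectionImage
  le n p hp := by
    haveI : FiniteDimensional K⟮j⟯ F := finiteDimensional_adjoin_of_transcendental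
      I.twist.transcendental'
    obtain ⟨f, hf, hfV, rfl⟩ := hp
    exact I.twist.red_mem_rrSpace I.finrank_top I.basis I.basis_mem I.basis_indep hf hfV
  c := I.c
  c_pos := I.c_pos
  n₀ := I.finrank_sectionImage.choose
  finrank_eq := I.finrank_sectionImage.choose_spec
  fin_mem := I.twist.fin_mem I.root I.ψ I.lift
  inf_mem := I.twist.inf_mem I.root I.ψ I.lift I.map_J
  sep := I.twist.sep_mem I.root

/-- **The nodal datum.** -/
def nodalDatum : NodalDatum A π F R R where
  residue_surjective := I.twist.residue_surjective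
  g₁ := G
  g₂ := G.twist w
  z := j
  transcendental_z := I.twist.transcendental'
  C := I.glueInput.toGlued
  degree_eq := by
    show Divisor.degree (poleDiv j : Divisor K F) = Divisor.degree (poleDiv I.twist.J : Divisor k R) +
      Divisor.degree (poleDiv (I.twist.J ^ q) : Divisor k R)
    rw [show (poleDiv (I.twist.J ^ q) : Divisor k R) = q • (poleDiv I.twist.J : Divisor k R) from
      Finsupp.ext fun v => by rw [poleDiv_pow, Finsupp.smul_apply, nsmul_eq_mul],
      degree_poleDiv_eq I.twist.transcendental', I.finrank_top, map_nsmul, nsmul_eq_mul,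
      I.degree_J]
    push_cast
    ring
  genus_eq := by
    rw [I.glueInput.card_toGlued]
    exact I.genus
  n₀ := I.glueInput.exists_V_eq_glue.choose
  red_mem n hn f h₁ h₂ hf := by
    rw [← I.glueInput.exists_V_eq_glue.choose_spec n hn]
    exact ⟨f, ⟨h₁, h₂⟩, hf, rfl⟩
  lift n hn p hp := by
    rw [← I.glueInput.exists_V_eq_glue.choose_spec n hn] at hp
    obtain ⟨f, hf, hfV, e⟩ := hp
    exact ⟨f, hf.1, hf.2, hfV, congrArg Prod.fst e, congrArg Prod.snd e⟩

theorem nodalDatum_y (i : I.nodalDatum.C.ι) :
    I.nodalDatum.C.y i = I.pull (I.nodalDatum.C.x i) ∧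
      I.pull (I.nodalDatum.C.y i) = I.nodalDatum.C.x i :=
  I.glueInput.toGlued_y i

theorem card_nodes : Fintype.card I.nodalDatum.C.ι = I.c := I.glueInput.card_toGlued

end NodalInput

end FermatAgent.BadRed.Semistable
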