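import Fermat.Agent.BadRed.Semistable.Gauss
import Mathlib.FieldTheory.IntermediateField.Adjoin.Basic
import Mathlib.RingTheory.Polynomial.Basic
import Mathlib.LinearAlgebra.Matrix.Charpoly.Coeff
import Mathlib.LinearAlgebra.Matrix.Nondegenerate

/-!
# Two Gauss valuations interchanged by an involution

`G` is a Gauss valuation on `F`, `w` an involution of `F/K`, `j` has reduction `J` and `w j` has
reduction `J ^ q`. Then independent elements of the residue field over `k(J)` number at most `D`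
when `[F : K(j)] = (q + 1) D`, and when there are `D` of them every element integral at both
valuations is integral over the polynomials with primitive denominator.
-/

set_option autoImplicit false
set_option linter.unusedSectionVars false

noncomputable section

open Polynomial IntermediateField

namespace FermatAgent.BadRed.Semistable

variable {K : Type*} [Field K] {A : ValuationSubring K} {k : Type*} [Field k] {π : A →+* k}

/-- A family of polynomials, not all zero, scaled to be integral and primitive. -/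
theorem exists_primitive {ι : Type*} [Fintype ι] (P : ι → K[X]) (hP : P ≠ 0) :
    ∃ (c : K) (P₀ : ι → A[X]), c ≠ 0 ∧ (∀ i, (P₀ i).map A.subtype = C c * P i) ∧
      ∃ i, (P₀ i).map π ≠ 0 := by
  classical
  let v : (Σ i : ι, Fin ((P i).natDegree + 1)) → K := fun x => (P x.1).coeff x.2
  have hv : v ≠ 0 := by
    obtain ⟨i, hi⟩ := Function.ne_iff.mp hP
    exact Function.ne_iff.mpr
      ⟨⟨i, ⟨(P i).natDegree, Nat.lt_succ_self _⟩⟩, leadingCoeff_ne_zero.mpr hi⟩
  obtain ⟨x, hx, hdom⟩ := exists_dominant (A := A) v hv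
  have hmem : ∀ i n, (v x)⁻¹ * (P i).coeff n ∈ A := fun i n => by
    by_cases hn : n < (P i).natDegree + 1
    · rw [inv_mul_eq_div]
      exact hdom ⟨i, ⟨n, hn⟩⟩
    · rw [coeff_eq_zero_of_natDegree_lt (by omega), mul_zero]
      exact zero_mem A
  have hl : ∀ i, C (v x)⁻¹ * P i ∈ lifts A.subtype := fun i =>
    (lifts_iff_coeff_lifts _).mpr fun n => ⟨⟨_, hmem i n⟩, by rw [coeff_C_mul]; rfl⟩
  choose P₀ hP₀ using hl
  refine ⟨(v x)⁻¹, P₀, inv_ne_zero hx, fun i => by simpa using hP₀ i, x.1, fun h => ?_⟩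
  have h1 : (P₀ x.1).coeff x.2 = 1 := Subtype.ext (by
    have := congrArg (fun R : K[X] => R.coeff x.2) (hP₀ x.1)
    simp only [coe_mapRingHom, coeff_map, coeff_C_mul] at this
    exact this.trans (inv_mul_cancel₀ hx))
  have h2 := congrArg (fun R : k[X] => R.coeff x.2) h
  simp only [coeff_map, h1, map_one, coeff_zero] at h2
  exact one_ne_zero h2

variable {F : Type*} [Field F] [Algebra K F] {R : Type*} [Field R] [Algebra k R]

/-- Evaluation of an integral polynomial, with its reduction. -/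
theorem GaussRed.red_aeval (G : GaussRed A π F R) {x : F} (hx : x ∈ G.integers) (P : A[X]) :
    ∃ h : aeval x (P.map A.subtype) ∈ G.integers,
      G.red ⟨_, h⟩ = aeval (G.red ⟨x, hx⟩) (P.map π) := by
  induction P using Polynomial.induction_on' with
  | add P P' hP hP' =>
    obtain ⟨h, e⟩ := hP
    obtain ⟨h', e'⟩ := hP'
    refine ⟨by rw [Polynomial.map_add, map_add]; exact add_mem h h', ?_⟩
    rw [Polynomial.map_add π, map_add (aeval (G.red ⟨x, hx⟩)), ← e, ← e']
    exact (congrArg G.red (Subtype.ext (by simp))).trans (map_add G.red ⟨_, h⟩ ⟨_, h'⟩)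
  | monomial n a =>
    simp only [Polynomial.map_monomial, aeval_monomial]
    refine ⟨mul_mem (G.algebraMap_mem a) (pow_mem hx n), ?_⟩
    rw [← G.red_algebraMap a, ← map_pow, ← map_mul]
    rfl

/-- Reduction of a polynomial relation. -/
theorem GaussRed.red_relation (G : GaussRed A π F R) {ι : Type*} [Fintype ι] {x : F}
    (hx : x ∈ G.integers) (e : ι → F) (he : ∀ l, e l ∈ G.integers) (P : ι → A[X])
    (h0 : ∑ l, aeval x ((P l).map A.subtype) * e l = 0) :
    ∑ l, aeval (G.red ⟨x, hx⟩) ((P l).map π) * G.red ⟨e l, he l⟩ = 0 := by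
  let S : G.integers := ∑ l, ⟨_, (G.red_aeval hx (P l)).1⟩ * ⟨e l, he l⟩
  have hS : S = 0 := Subtype.ext (by
    simp only [S, AddSubmonoidClass.coe_finsetSum, MulMemClass.coe_mul, ZeroMemClass.coe_zero]
    exact h0)
  have := congrArg G.red hS
  simp only [S, map_sum, map_zero] at this
  rw [← this]
  exact Finset.sum_congr rfl fun l _ => by rw [map_mul, (G.red_aeval hx (P l)).2]

/-- The data of two valuations interchanged by `w`. -/
structure TwistDatum (G : GaussRed A π F R) (w : F ≃ₐ[K] F) (q : ℕ) (j : F) : Prop where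
  residue_surjective : Function.Surjective π
  arch : ∀ b : K, ∀ c : A, π c = 0 → ∃ N : ℕ, b * (c : K) ^ N ∈ A
  one_lt : 1 < q
  involutive : ∀ x, w (w x) = x
  mem : j ∈ G.integers
  mem' : w j ∈ G.integers
  transcendental : Transcendental k (G.red ⟨j, mem⟩)
  red_twist : G.red ⟨w j, mem'⟩ = G.red ⟨j, mem⟩ ^ q

namespace TwistDatum

variable {G : GaussRed A π F R} {w : F ≃ₐ[K] F} {q : ℕ} {j : F} (h : TwistDatum G w q j)
include h

/-- The residue of `j`. -/
def J : R := G.red ⟨j, h.mem⟩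

theorem red_congr {x y : F} (e : x = y) (hx : x ∈ G.integers) :
    G.red ⟨x, hx⟩ = G.red ⟨y, e ▸ hx⟩ := G.red_congr e hx

/-- An element with non-zero reduction whose twist reduces to zero. -/
theorem exists_killer : ∃ (g : F) (hg : g ∈ G.integers) (hg' : w g ∈ G.integers),
    G.red ⟨g, hg⟩ ≠ 0 ∧ G.red ⟨w g, hg'⟩ = 0 := by
  refine ⟨j - (w j) ^ q, sub_mem h.mem (pow_mem h.mem' q), ?_, ?_, ?_⟩
  · rw [map_sub, map_pow, h.involutive]
    exact sub_mem h.mem' (pow_mem h.mem q)
  · rw [show (⟨j - (w j) ^ q, _⟩ : G.integers) = ⟨j, h.mem⟩ - ⟨w j, h.mem'⟩ ^ q from rfl, map_sub,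
      map_pow, h.red_twist, ← pow_mul]
    intro e
    refine h.transcendental ⟨X - X ^ (q * q), fun e' => ?_, ?_⟩
    · have := congrArg (fun P : k[X] => P.coeff 1) e'
      have h1 : (1 : ℕ) ≠ q * q := (Nat.one_lt_mul_iff.mpr ⟨by linarith [h.one_lt],
        by linarith [h.one_lt], Or.inl h.one_lt⟩).ne
      simp [coeff_X_pow, h1] at this
    · rw [map_sub, map_pow, aeval_X]
      exact e
  · rw [h.red_congr (show w (j - (w j) ^ q) = w j - j ^ q by
        rw [map_sub, map_pow, h.involutive]),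
      show (⟨w j - j ^ q, _⟩ : G.integers) = ⟨w j, h.mem'⟩ - ⟨j, h.mem⟩ ^ q from rfl, map_sub,
      map_pow, h.red_twist, sub_self]

/-- Multiplication by a power of the killer makes the twist reduce to zero. -/
theorem exists_twist {g : F} (hg : g ∈ G.integers) (hg' : w g ∈ G.integers)
    (hgr : G.red ⟨g, hg⟩ ≠ 0) (hgr' : G.red ⟨w g, hg'⟩ = 0) (a : F) (ha : a ∈ G.integers) :
    ∃ N₀ : ℕ, ∀ N, N₀ ≤ N → ∃ (h1 : a * g ^ N ∈ G.integers) (h2 : w (a * g ^ N) ∈ G.integers),
      G.red ⟨_, h1⟩ = G.red ⟨a, ha⟩ * G.red ⟨g, hg⟩ ^ N ∧ G.red ⟨_, h2⟩ = 0 := by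
  suffices ∃ (N : ℕ) (h2 : w (a * g ^ N) ∈ G.integers), G.red ⟨_, h2⟩ = 0 by
    obtain ⟨N₀, h2, hr⟩ := this
    refine ⟨N₀, fun N hN => ⟨mul_mem ha (pow_mem hg N), ?_⟩⟩
    have e : w (a * g ^ N) = w (a * g ^ N₀) * (w g) ^ (N - N₀) := by
      rw [← map_pow, ← map_mul, mul_assoc, ← pow_add, Nat.add_sub_cancel' hN]
    refine ⟨e ▸ mul_mem h2 (pow_mem hg' _), (map_mul G.red ⟨a, ha⟩ (⟨g, hg⟩ ^ N)).trans
      (by rw [map_pow]), ?_⟩
    rw [h.red_congr e]
    refine (map_mul G.red ⟨_, h2⟩ (⟨_, hg'⟩ ^ (N - N₀))).trans ?_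
    rw [hr, zero_mul]
  rcases eq_or_ne a 0 with rfl | ha0
  · have e : w ((0 : F) * g ^ 0) = 0 := by simp
    refine ⟨0, by rw [e]; exact zero_mem _, ?_⟩
    rw [h.red_congr e]
    exact map_zero G.red
  have hwa : w a ≠ 0 := by simpa using ha0
  have hwg : w g ≠ 0 := fun e => hgr (by
    rw [h.red_congr (show g = 0 by simpa using congrArg w e)]
    exact map_zero G.red)
  obtain ⟨b, hb, hbr⟩ := G.exists_normalize (w a) hwa
  obtain ⟨c, hc, hcr⟩ := G.exists_normalize (w g) hwg
  have hcA : c ∉ A := fun hcA => hcr (by rw [G.red_smul hcA hg', hgr', smul_zero])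
  have hb0 : b ≠ 0 := fun e => hbr (by
    rw [h.red_congr (show b • w a = 0 by simp [e])]; exact map_zero G.red)
  have hc0 : c ≠ 0 := fun e => hcA (e ▸ A.zero_mem)
  obtain ⟨N, hN⟩ := h.arch b⁻¹ ⟨c⁻¹, inv_mem_of_not_mem hcA⟩
    (pi_inv_of_not_mem h.residue_surjective hcA)
  refine ⟨N + 1, ?_⟩
  have hπ0 : π ⟨b⁻¹ * c⁻¹ ^ (N + 1), by
      rw [pow_succ, ← mul_assoc]; exact mul_mem hN (inv_mem_of_not_mem hcA)⟩ = 0 := by
    rw [show (⟨b⁻¹ * c⁻¹ ^ (N + 1), _⟩ : A) =
      ⟨b⁻¹ * c⁻¹ ^ N, hN⟩ * ⟨c⁻¹, inv_mem_of_not_mem hcA⟩ from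
      Subtype.ext (by simp [pow_succ, mul_assoc]), map_mul,
      pi_inv_of_not_mem h.residue_surjective hcA, mul_zero]
  have e : w (a * g ^ (N + 1)) = (b⁻¹ * c⁻¹ ^ (N + 1)) • ((b • w a) * (c • w g) ^ (N + 1)) := by
    rw [map_mul, map_pow, _root_.smul_pow, smul_mul_smul_comm, smul_smul,
      show b⁻¹ * c⁻¹ ^ (N + 1) * (b * c ^ (N + 1)) = 1 by
        rw [inv_pow]; field_simp, one_smul]
  have hA : b⁻¹ * c⁻¹ ^ (N + 1) ∈ A := by
    rw [pow_succ, ← mul_assoc]; exact mul_mem hN (inv_mem_of_not_mem hcA)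
  have h2 : w (a * g ^ (N + 1)) ∈ G.integers := e ▸ G.smul_mem hA (mul_mem hb (pow_mem hc _))
  refine ⟨h2, ?_⟩
  rw [h.red_congr e h2, G.red_smul hA (mul_mem hb (pow_mem hc _))]
  exact (congrArg (· • _) hπ0).trans (zero_smul _ _)

variable {m : ℕ}

/-- Lifts of a residual family, together with the twisted family. -/
theorem exists_family (a : Fin m → F) (ha : ∀ i, a i ∈ G.integers)
    (hli : ∀ P : Fin m → k[X], ∑ i, aeval h.J (P i) * G.red ⟨a i, ha i⟩ = 0 → P = 0) :
    ∃ (e : Fin m ⊕ Fin m × Fin q → F) (he : ∀ l, e l ∈ G.integers) (he' : ∀ l, w (e l) ∈ G.integers),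
      ∀ P : Fin m ⊕ Fin m × Fin q → A[X],
        (∑ l, aeval h.J ((P l).map π) * G.red ⟨e l, he l⟩ = 0) →
        (∑ l, aeval (h.J ^ q) ((P l).map π) * G.red ⟨w (e l), he' l⟩ = 0) →
          ∀ l, (P l).map π = 0 := by
  classical
  obtain ⟨g, hg, hg', hgr, hgr'⟩ := h.exists_killer
  choose N₀ hN₀ using fun i => h.exists_twist hg hg' hgr hgr' (a i) (ha i)
  set N := Finset.univ.sup N₀
  choose h1 h2 hr1 hr2 using fun i => hN₀ i N (Finset.le_sup (Finset.mem_univ i))
  let e : Fin m ⊕ Fin m × Fin q → F :=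
    Sum.elim (fun i => a i * g ^ N) fun p => w (a p.1 * g ^ N * j ^ (p.2 : ℕ))
  have hwj : ∀ s : ℕ, w (j ^ s) ∈ G.integers := fun s => by rw [map_pow]; exact pow_mem h.mem' s
  have he : ∀ l, e l ∈ G.integers := by
    rintro (i | ⟨i, s⟩)
    · exact h1 i
    · change w (_ * _) ∈ _
      rw [map_mul]; exact mul_mem (h2 i) (hwj _)
  have he' : ∀ l, w (e l) ∈ G.integers := by
    rintro (i | ⟨i, s⟩)
    · exact h2 i
    · change w (w _) ∈ _
      rw [h.involutive]; exact mul_mem (h1 i) (pow_mem h.mem _)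
  have e1 : ∀ i, G.red ⟨e (.inl i), he _⟩ = G.red ⟨a i, ha i⟩ * G.red ⟨g, hg⟩ ^ N := fun i =>
    hr1 i
  have e2 : ∀ p : Fin m × Fin q, G.red ⟨e (.inr p), he _⟩ = 0 := fun p => by
    rw [h.red_congr (show e (.inr p) = w (a p.1 * g ^ N) * w (j ^ (p.2 : ℕ)) from map_mul w _ _),
      show (⟨w (a p.1 * g ^ N) * w (j ^ (p.2 : ℕ)), _⟩ : G.integers) =
        ⟨_, h2 p.1⟩ * ⟨_, hwj (p.2 : ℕ)⟩ from rfl, map_mul, hr2, zero_mul]
  have e3 : ∀ i, G.red ⟨w (e (.inl i)), he' _⟩ = 0 := fun i => hr2 i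
  have e4 : ∀ p : Fin m × Fin q, G.red ⟨w (e (.inr p)), he' _⟩ =
      G.red ⟨a p.1, ha p.1⟩ * G.red ⟨g, hg⟩ ^ N * h.J ^ (p.2 : ℕ) := fun p => by
    rw [h.red_congr (show w (e (.inr p)) = a p.1 * g ^ N * j ^ (p.2 : ℕ) from h.involutive _),
      show (⟨a p.1 * g ^ N * j ^ (p.2 : ℕ), _⟩ : G.integers) =
        ⟨_, h1 p.1⟩ * ⟨j, h.mem⟩ ^ (p.2 : ℕ) from rfl, map_mul, map_pow, hr1]
    rfl
  refine ⟨e, he, he', fun P hP hP' => ?_⟩
  have key : ∀ S : Fin m → k[X],
      ∑ i, aeval h.J (S i) * (G.red ⟨a i, ha i⟩ * G.red ⟨g, hg⟩ ^ N) = 0 → S = 0 := fun S hS =>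
    hli S ((mul_eq_zero.mp (show (∑ i, aeval h.J (S i) * G.red ⟨a i, ha i⟩) *
        G.red ⟨g, hg⟩ ^ N = 0 by
      rw [Finset.sum_mul, ← hS]
      exact Finset.sum_congr rfl fun i _ => mul_assoc _ _ _)).resolve_right (pow_ne_zero N hgr))
  have hl : ∀ i, (P (.inl i)).map π = 0 := by
    refine congrFun (key (fun i => (P (.inl i)).map π) ?_)
    rw [← hP, Fintype.sum_sum_type]
    simp only [e1, e2, mul_zero, Finset.sum_const_zero, add_zero]
  have hr : ∀ i, ∑ s : Fin q, ((P (.inr (i, s))).map π).comp (X ^ q) * X ^ (s : ℕ) = 0 := by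
    refine congrFun (key _ ?_)
    rw [← hP', Fintype.sum_sum_type, Fintype.sum_prod_type]
    simp only [e3, e4, mul_zero, Finset.sum_const_zero, zero_add, map_sum, map_mul, map_pow,
      aeval_comp, aeval_X, Finset.sum_mul]
    exact Finset.sum_congr rfl fun i _ => Finset.sum_congr rfl fun s _ => by ring
  rintro (i | ⟨i, s⟩)
  · exact hl i
  · ext n
    have hq0 : 0 < q := Nat.zero_lt_of_lt h.one_lt
    have := congrArg (fun S : k[X] => S.coeff (n * q + s)) (hr i)
    simp only [finsetSum_coeff, coeff_zero] at this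
    rw [Finset.sum_eq_single s] at this
    · rw [coeff_mul_X_pow, ← expand_eq_comp_X_pow, coeff_expand hq0,
        if_pos (Dvd.intro_left n rfl), Nat.mul_div_cancel n hq0] at this
      rw [coeff_zero]; exact this
    · intro t _ hts
      rw [coeff_mul_X_pow', ← expand_eq_comp_X_pow, coeff_expand hq0]
      split_ifs with h1 h2
      · exfalso
        refine hts (Fin.ext ?_)
        obtain ⟨d, hd⟩ := h2
        have hs := s.2
        have ht := t.2
        have he : n * q + (s : ℕ) = q * d + t := by omega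
        have := congrArg (· % q) he
        simp [Nat.mod_eq_of_lt hs, Nat.mod_eq_of_lt ht] at this
        exact this.symm
      · rfl
      · rfl
    · exact fun hs => absurd (Finset.mem_univ s) hs

theorem transcendental' : Transcendental K j := by
  rintro ⟨P, hP0, hP⟩
  obtain ⟨c, P₀, hc, hP₀, ⟨_, hi⟩⟩ := exists_primitive (A := A) (π := π)
    (fun _ : Fin 1 => P) (fun e => hP0 (congrFun e 0))
  rename_i i
  obtain ⟨h', e⟩ := G.red_aeval h.mem (P₀ i)
  refine h.transcendental ⟨(P₀ i).map π, hi, e.symm.trans ?_⟩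
  rw [G.red_congr (show aeval j ((P₀ i).map A.subtype) = 0 by rw [hP₀, map_mul, hP, mul_zero]) h']
  exact map_zero G.red

variable {ι : Type*} [Fintype ι]

/-- Residual independence at both valuations gives independence over polynomials. -/
theorem relation_eq_zero (e : ι → F) (he : ∀ l, e l ∈ G.integers)
    (he' : ∀ l, w (e l) ∈ G.integers)
    (hres : ∀ P : ι → A[X], (∑ l, aeval h.J ((P l).map π) * G.red ⟨e l, he l⟩ = 0) →
      (∑ l, aeval (h.J ^ q) ((P l).map π) * G.red ⟨w (e l), he' l⟩ = 0) →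
        ∀ l, (P l).map π = 0)
    (P : ι → K[X]) (hP : ∑ l, aeval j (P l) * e l = 0) : P = 0 := by
  by_contra hne
  obtain ⟨c, P₀, hc, hP₀, ⟨i, hi⟩⟩ := exists_primitive (A := A) (π := π) P hne
  have h0 : ∑ l, aeval j ((P₀ l).map A.subtype) * e l = 0 := by
    simp only [hP₀, map_mul, mul_assoc, aeval_C, ← Finset.mul_sum, hP, mul_zero]
  have h1 : ∑ l, aeval (w j) ((P₀ l).map A.subtype) * w (e l) = 0 := by
    simpa [map_sum, ← aeval_algHom_apply] using congrArg w h0
  refine hi (hres P₀ (G.red_relation h.mem e he P₀ h0) ?_ i)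
  rw [J, ← h.red_twist]
  exact G.red_relation h.mem' (fun l => w (e l)) he' P₀ h1

/-- Residual independence at both valuations gives independence over `K(j)`. -/
theorem linearIndependent_adjoin (e : ι → F)
    (hrel : ∀ P : ι → K[X], (∑ l, aeval j (P l) * e l = 0) → P = 0) :
    LinearIndependent K⟮j⟯ e := by
  classical
  rw [Fintype.linearIndependent_iff]
  intro c hc
  choose r s hrs using fun l => (IntermediateField.mem_adjoin_simple_iff K (c l : F)).mp (c l).2
  have hs : ∀ l, (c l : F) ≠ 0 → aeval j (s l) ≠ 0 := fun l hl e => hl (by rw [hrs, e, div_zero])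
  let P : ι → K[X] := fun l => if (c l : F) = 0 then 0 else
    r l * ∏ l' ∈ (Finset.univ.erase l).filter (fun l' => (c l' : F) ≠ 0), s l'
  let S : F := aeval j (∏ l' ∈ Finset.univ.filter (fun l' => (c l' : F) ≠ 0), s l')
  have hP : ∀ l, aeval j (P l) = S * c l := by
    intro l
    by_cases hl : (c l : F) = 0
    · simp only [P, if_pos hl, map_zero]
      rw [hl, mul_zero]
    · simp only [P, if_neg hl, S, map_mul, map_prod]
      rw [Finset.filter_erase, ← Finset.mul_prod_erase _ _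
        (Finset.mem_filter.mpr ⟨Finset.mem_univ l, hl⟩ :
          l ∈ Finset.univ.filter fun l' => (c l' : F) ≠ 0), hrs l]
      field_simp [hs l hl]
  have h0 : ∑ l, aeval j (P l) * e l = 0 := by
    simp only [hP, mul_assoc, ← Finset.mul_sum]
    have : ∑ l, (c l : F) * e l = 0 := hc
    rw [this, mul_zero]
  intro l
  by_contra hl
  have hl' : (c l : F) ≠ 0 := fun h' => hl (Subtype.ext h')
  have hS : S ≠ 0 := by
    simp only [S, map_prod]
    exact Finset.prod_ne_zero_iff.mpr fun l' hl' => hs l' (Finset.mem_filter.mp hl').2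
  refine mul_ne_zero hS hl' ?_
  rw [← hP, hrel P h0]
  simp

/-- At most `D` residually independent elements when `[F : K(j)] = (q + 1) D`. -/
theorem card_le {D : ℕ} [FiniteDimensional K⟮j⟯ F] (hD : Module.finrank K⟮j⟯ F = (q + 1) * D)
    (a : Fin m → F) (ha : ∀ i, a i ∈ G.integers)
    (hli : ∀ P : Fin m → k[X], ∑ i, aeval h.J (P i) * G.red ⟨a i, ha i⟩ = 0 → P = 0) :
    m ≤ D := by
  obtain ⟨e, he, he', hres⟩ := h.exists_family a ha hli
  have := (h.linearIndependent_adjoin e (h.relation_eq_zero e he he' hres)).fintype_card_le_finrank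
  rw [hD, Fintype.card_sum, Fintype.card_prod, Fintype.card_fin, Fintype.card_fin] at this
  nlinarith [h.one_lt]

/-- With `D` residually independent elements, integral elements satisfy relations over
`A[j]` with primitive leading coefficient. -/
theorem exists_relation {D : ℕ} [FiniteDimensional K⟮j⟯ F]
    (hD : Module.finrank K⟮j⟯ F = (q + 1) * D)
    (a : Fin D → F) (ha : ∀ i, a i ∈ G.integers)
    (hli : ∀ P : Fin D → k[X], ∑ i, aeval h.J (P i) * G.red ⟨a i, ha i⟩ = 0 → P = 0)
    {f : F} (hf : f ∈ G.integers) (hf' : w f ∈ G.integers) :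
    ∃ Φ : A[X][X], Φ.leadingCoeff.map π ≠ 0 ∧
      eval₂ (aeval j).toRingHom f (Φ.map (mapRingHom A.subtype)) = 0 := by
  classical
  obtain ⟨e, he, he', hres⟩ := h.exists_family a ha hli
  have hrel := h.relation_eq_zero e he he' hres
  have hli' := h.linearIndependent_adjoin e hrel
  have hcard : Fintype.card (Fin D ⊕ Fin D × Fin q) = Module.finrank K⟮j⟯ F := by
    rw [hD, Fintype.card_sum, Fintype.card_prod, Fintype.card_fin, Fintype.card_fin]; ring
  have key : ∀ x ∈ G.integers, w x ∈ G.integers → ∃ (Q : A[X]) (P : _ → A[X]),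
      Q.map π ≠ 0 ∧ aeval j (Q.map A.subtype) * x =
        ∑ l, aeval j ((P l).map A.subtype) * e l := by
    intro x hx hx'
    obtain ⟨c, hc0, hc⟩ : ∃ c : Option (Fin D ⊕ Fin D × Fin q) → K[X],
        c ≠ 0 ∧ aeval j (c none) * x + ∑ l, aeval j (c (some l)) * e l = 0 := by
      by_contra hcon
      push Not at hcon
      have := h.linearIndependent_adjoin (fun o : Option (Fin D ⊕ Fin D × Fin q) => o.elim x e)
        (fun P hP => by_contra fun hne => hcon P hne (by
          rw [Fintype.sum_option] at hP; exact hP))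
      have := this.fintype_card_le_finrank
      rw [Fintype.card_option, hcard] at this
      omega
    obtain ⟨a', P₀, ha', hP₀, ⟨o, ho⟩⟩ := exists_primitive (A := A) (π := π) c hc0
    have h0 : aeval j ((P₀ none).map A.subtype) * x +
        ∑ l, aeval j ((P₀ (some l)).map A.subtype) * e l = 0 := by
      simp only [hP₀, map_mul, mul_assoc, aeval_C, ← Finset.mul_sum, ← mul_add, hc, mul_zero]
    refine ⟨P₀ none, fun l => -P₀ (some l), fun hQ => ?_, ?_⟩
    · have h1 : aeval (w j) ((P₀ none).map A.subtype) * w x +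
          ∑ l, aeval (w j) ((P₀ (some l)).map A.subtype) * w (e l) = 0 := by
        simpa [map_sum, ← aeval_algHom_apply] using congrArg w h0
      have key0 : ∀ l, (P₀ (some l)).map π = 0 := by
        refine hres (fun l => P₀ (some l)) ?_ ?_
        · have := G.red_relation h.mem (fun o : Option _ => o.elim x e)
            (by rintro (_ | l); exacts [hx, he l]) P₀ (by rw [Fintype.sum_option]; exact h0)
          rw [Fintype.sum_option, hQ, map_zero, zero_mul, zero_add] at this
          exact this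
        · have := G.red_relation h.mem' (fun o : Option _ => o.elim (w x) fun l => w (e l))
            (by rintro (_ | l); exacts [hx', he' l]) P₀ (by rw [Fintype.sum_option]; exact h1)
          rw [Fintype.sum_option, hQ, map_zero, zero_mul, zero_add, h.red_twist] at this
          exact this
      cases o with
      | none => exact ho hQ
      | some l => exact ho (key0 l)
    · simp only [Polynomial.map_neg, map_neg, neg_mul, Finset.sum_neg_distrib]
      exact eq_neg_of_add_eq_zero_left h0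
  have hmul : ∀ l, f * e l ∈ G.integers ∧ w (f * e l) ∈ G.integers := fun l =>
    ⟨mul_mem hf (he l), by rw [map_mul]; exact mul_mem hf' (he' l)⟩
  choose Q P hQ hQP using fun l => key _ (hmul l).1 (hmul l).2
  set Qt := ∏ l, Q l with hQt
  let M : Matrix (Fin D ⊕ Fin D × Fin q) (Fin D ⊕ Fin D × Fin q) A[X] :=
    Matrix.of fun l l' => (∏ l'' ∈ Finset.univ.erase l, Q l'') * P l l'
  let φ : A[X] →+* F := (aeval j).toRingHom.comp (mapRingHom A.subtype)
  have hM : ∀ l, (φ Qt * f) * e l = ∑ l', φ (M l l') * e l' := by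
    intro l
    simp only [M, Matrix.of_apply, map_mul, mul_assoc, ← Finset.mul_sum]
    rw [← Finset.mul_prod_erase _ _ (Finset.mem_univ l) |>.trans hQt.symm, map_mul]
    have := hQP l
    simp only [φ, RingHom.coe_comp, Function.comp_apply, coe_mapRingHom, AlgHom.toRingHom_eq_coe,
      RingHom.coe_coe] at this ⊢
    rw [← this]
    ring
  have hdet : ((M.map φ).charpoly).eval (φ Qt * f) = 0 := by
    rw [Matrix.eval_charpoly]
    by_contra hne
    have he0 : e = 0 := Matrix.eq_zero_of_mulVec_eq_zero hne (funext fun l => by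
      simp only [Matrix.mulVec, dotProduct, Matrix.sub_apply, sub_mul, Finset.sum_sub_distrib,
        Matrix.map_apply, ← hM, Pi.zero_apply, Matrix.scalar_apply, Matrix.diagonal_apply,
        ite_mul, zero_mul, Finset.sum_ite_eq, Finset.mem_univ, if_true, sub_self])
    have : IsEmpty (Fin D ⊕ Fin D × Fin q) := ⟨fun l => hli'.ne_zero l (congrFun he0 l)⟩
    rw [Fintype.card_eq_zero, eq_comm] at hcard
    exact absurd hcard Module.finrank_pos.ne'
  refine ⟨M.charpoly.comp (C Qt * X), ?_, ?_⟩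
  · have hQt0 : Qt.map π ≠ 0 := by
      rw [hQt, Polynomial.map_prod]
      exact Finset.prod_ne_zero_iff.mpr fun l _ => hQ l
    have hne : Qt ≠ 0 := fun e => hQt0 (by simp [e])
    rw [leadingCoeff_comp (by rw [natDegree_C_mul_X _ hne]; exact one_ne_zero),
      (Matrix.charpoly_monic M).leadingCoeff, one_mul, leadingCoeff_C_mul_X, Polynomial.map_pow]
    exact pow_ne_zero _ hQt0
  · rw [eval₂_map, eval₂_comp, eval₂_mul, eval₂_C, eval₂_X]
    rw [← hdet, Matrix.charpoly_map, eval_map]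

end TwistDatum

end FermatAgent.BadRed.Semistable
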