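import Fermat.Agent.BadRed.Semistable.SeriesField
import Fermat.Agent.BadRed.Semistable.TwoVal
import Fermat.Agent.ModCurve.Fun.AtkinLehner
import Fermat.Agent.ModCurve.Fun.Psi
import Fermat.Agent.Igusa.AnyField
import Fermat.Agent.ModCurve.Torsion.DegreeRatio

/-!
# The two reductions of `X₀(q N')` at a place over `q`

`G` is the Gauss valuation of the expansion at infinity and `w` the Atkin-Lehner involution at
`q`. The residue field of `G` is the function field of `X₀(N')` in characteristic `q`, with `j`
reducing to `j` and `w j` to `j ^ q`.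
-/

set_option autoImplicit false
set_option linter.unusedSectionVars false
set_option linter.style.haveILetI false

noncomputable section

open Polynomial ModularCurve IntermediateField
open CongruenceSubgroup

namespace FermatAgent.BadRed.Semistable

open FermatAgent.Igusa FermatAgent.ModFun

namespace GaussRed

variable {K : Type*} [Field K] {A : ValuationSubring K} {k : Type*} [Field k] {π : A →+* k}
  {F : Type*} [Field F] [Algebra K F] {R : Type*} [Field R] [Algebra k R]
variable (G : GaussRed A π F R)

/-- Restrict the residue field. -/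
def codRestrict (S : IntermediateField k R) (h : ∀ x, G.red x ∈ S) : GaussRed A π F S where
  integers := G.integers
  red := G.red.codRestrict S h
  algebraMap_mem := G.algebraMap_mem
  red_algebraMap a := Subtype.ext (G.red_algebraMap a)
  exists_normalize f hf := by
    obtain ⟨c, hc, hc0⟩ := G.exists_normalize f hf
    exact ⟨c, hc, fun e => hc0 (congrArg Subtype.val e)⟩

theorem HasOrth.codRestrict {G : GaussRed A π F R} (hG : G.HasOrth) (S : IntermediateField k R)
    (h : ∀ x, G.red x ∈ S) : (G.codRestrict S h).HasOrth := by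
  intro T
  obtain ⟨r, e, he, hli, hT⟩ := hG T
  exact ⟨r, e, he, LinearIndependent.of_comp S.val.toLinearMap hli, hT⟩

end GaussRed

variable {K : Type*} [Field K] [Algebra ℚ K] {q : ℕ} [Fact q.Prime] {A : ValuationSubring K}
  {k : Type*} [Field k] {π : A →+* k} [CharP k q] (hπ : Function.Surjective π)

theorem neZero_prime (q : ℕ) [hq : Fact q.Prime] : NeZero q := ⟨hq.out.ne_zero⟩

attribute [local instance] neZero_prime

include hπ in
/-- Functions with an integral `q`-expansion. -/
theorem seriesGauss_coeffMap {M : ℕ} [NeZero M] {f : laurentBaseChange K (modularFunctionFieldFull M)}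
    {y : LaurentSeries A} (h : (f : LaurentSeries K) = coeffMap A.subtype y) :
    ∃ hf : f ∈ (seriesGauss q M hπ).integers,
      (seriesGauss q M hπ).red ⟨f, hf⟩ = coeffMap π y := by
  obtain ⟨hf, e⟩ := seriesGauss_red_of_rep (M := M) q hπ (f := f) (y := y) (z := 1)
    (h ▸ isSeriesRep_coeffMap y)
  exact ⟨hf, by rw [e, map_one, div_one]⟩

include hπ in
/-- `j(d τ)` is integral and reduces to `j(d τ)`. -/
theorem seriesGauss_jd {M : ℕ} [NeZero M] {f : laurentBaseChange K (modularFunctionFieldFull M)}
    {d : ℕ} [NeZero d] (h : (f : LaurentSeries K) = qExpand K d (jqModC K)) :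
    ∃ hf : f ∈ (seriesGauss q M hπ).integers,
      (seriesGauss q M hπ).red ⟨f, hf⟩ = qExpand k d (jqModC k) := by
  obtain ⟨hf, e⟩ := seriesGauss_coeffMap (q := q) (f := f) hπ (y := qExpand A d (jqModC A))
    (by rw [h, coeffMap_qExpand, coeffMap_jqModC])
  exact ⟨hf, by rw [e, coeffMap_qExpand, coeffMap_jqModC]⟩

theorem pow_jqModC : (jqModC k) ^ q = qExpand k q (jqModC k) := by
  have h := FermatAgent.BadRed.Carayol.Instance.pow_eq_qExpand q (Int.castRingHom k) (jqModC ℤ)
  rwa [coeffMap_jqModC] at h

section Level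

variable {N' : ℕ} [NeZero N'] (hco : q.Coprime N') [NeZero (q * N')]

variable (K) in
/-- `j(d τ)` in the function field, for `d ∣ q N'`. -/
def jdBar {d : ℕ} [NeZero d] (hd : d ∣ q * N') :
    laurentBaseChange K (modularFunctionFieldFull (q * N')) :=
  toBaseChange K _ ⟨qExpand ℚ d jq, jqd_mem_full _ hd⟩

theorem coe_jdBar {d : ℕ} [NeZero d] (hd : d ∣ q * N') :
    (jdBar K hd : LaurentSeries K) = qExpand K d (jqModC K) := by
  rw [jdBar, coe_toBaseChange, coeffEmb_qExpand]

theorem jdBar_one : jdBar K (one_dvd (q * N')) = jBar K (q * N') :=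
  Subtype.ext (by rw [coe_jdBar, qExpand_one_apply]; rfl)

include hco in
theorem coe_atkinLehner_jBar :
    (atkinLehnerBar hco K (jBar K (q * N')) : LaurentSeries K) = qExpand K q (jqModC K) := by
  haveI : NeZero (q * 1) := ⟨by simpa using (Fact.out : q.Prime).ne_zero⟩
  rw [← jdBar_one, jdBar, atkinLehnerBar_toBaseChange, coe_toBaseChange,
    (atkinLehner_qExpand hco (one_dvd N')).1, qExpand_congr (mul_one q), coeffEmb_qExpand]

include hco in
theorem finrank_level : Module.finrank K⟮jBar K (q * N')⟯
    (laurentBaseChange K (modularFunctionFieldFull (q * N'))) = (q + 1) * dedekindPsi N' := by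
  rw [finrank_adjoin_jBar_eq_dedekindPsi, mul_comm q N']
  exact ModCurveTorsion.dedekindPsi_mul_of_not_dvd (NeZero.ne N') Fact.out
    ((Nat.Prime.coprime_iff_not_dvd Fact.out).mp hco)

include hπ hco in
/-- The two valuations are interchanged by the involution. -/
theorem twistDatum (arch : ∀ b : K, ∀ c : A, π c = 0 → ∃ n : ℕ, b * (c : K) ^ n ∈ A) :
    TwistDatum (seriesGauss q (q * N') hπ) (atkinLehnerBar hco K) q (jBar K (q * N')) := by
  obtain ⟨hj, ej⟩ := seriesGauss_jd (q := q) (f := jBar K (q * N')) hπ (d := 1)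
    (by rw [qExpand_one_apply]; rfl)
  obtain ⟨hwj, ewj⟩ := seriesGauss_jd (q := q) hπ (coe_atkinLehner_jBar (K := K) hco)
  rw [qExpand_one_apply] at ej
  refine ⟨hπ, arch, (Fact.out : q.Prime).one_lt, atkinLehnerBar_atkinLehnerBar hco K, hj, hwj,
    ?_, ?_⟩
  · rw [ej]
    rintro ⟨P, hP, h⟩
    exact hP (aeval_jqModC_eq_zero h)
  · rw [ewj, ej, pow_jqModC]

include hπ hco in
/-- The residues of `G` lie in the function field of `X₀(N')`. -/
theorem red_mem_fieldC (arch : ∀ b : K, ∀ c : A, π c = 0 → ∃ n : ℕ, b * (c : K) ^ n ∈ A)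
    (x : (seriesGauss q (q * N') hπ).integers) :
    (seriesGauss q (q * N') hπ).red x ∈ modularFunctionFieldC k N' := by
  have h := twistDatum hπ hco arch
  haveI := finiteDimensional_adjoin_jBar K (q * N')
  by_contra hx
  obtain ⟨hy, ey⟩ := seriesGauss_jd (q := q) hπ (coe_jdBar (K := K) (q := q) (dvd_mul_left N' q))
  set y := jdBar K (dvd_mul_left N' q)
  set D := dedekindPsi N'
  let a : Fin (D + 1) → laurentBaseChange K (modularFunctionFieldFull (q * N')) :=
    Fin.snoc (fun i : Fin D => y ^ (i : ℕ)) x.1
  have ha : ∀ i, a i ∈ (seriesGauss q (q * N') hπ).integers := by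
    refine Fin.lastCases ?_ fun i => ?_
    · simp only [a, Fin.snoc_last]; exact x.2
    · simp only [a, Fin.snoc_castSucc]; exact pow_mem hy _
  have hJ : h.J = jqModC k := by
    obtain ⟨_, ej⟩ := seriesGauss_jd (q := q) (f := jBar K (q * N')) hπ (d := 1)
      (by rw [qExpand_one_apply]; rfl)
    rw [qExpand_one_apply] at ej
    exact ej
  refine absurd (h.card_le (finrank_level hco) a ha fun P hP => ?_) (by omega)
  rw [Fin.sum_univ_castSucc, hJ] at hP
  have e1 : ∀ i : Fin D, (seriesGauss q (q * N') hπ).red ⟨a i.castSucc, ha _⟩ = qExpand k N' (jqModC k) ^ (i : ℕ) := fun i => by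
    rw [← ey, ← map_pow]
    exact congrArg (seriesGauss q (q * N') hπ).red (Subtype.ext (by simp [a, y]))
  have e2 : (seriesGauss q (q * N') hπ).red ⟨a (Fin.last D), ha _⟩ = (seriesGauss q (q * N') hπ).red x :=
    congrArg (seriesGauss q (q * N') hπ).red (Subtype.ext (by simp [a]))
  simp only [e1, e2] at hP
  set Q : k[X][X] := ∑ i : Fin D, monomial (i : ℕ) (P i.castSucc) with hQ
  have hQev : bEval k N' Q =
      ∑ i : Fin D, aeval (jqModC k) (P i.castSucc) * qExpand k N' (jqModC k) ^ (i : ℕ) := by
    rw [hQ, map_sum]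
    exact Finset.sum_congr rfl fun i _ => by rw [bEval_monomial]; rfl
  rw [← hQev] at hP
  have hmem : ∀ p : k[X], aeval (jqModC k) p ∈ modularFunctionFieldC k N' := fun p => by
    induction p using Polynomial.induction_on' with
    | add p p' hp hp' => rw [map_add]; exact add_mem hp hp'
    | monomial n c =>
      rw [aeval_monomial]
      exact mul_mem (IntermediateField.algebraMap_mem _ _) (pow_mem (jqModC_mem k N') n)
  have hlast : P (Fin.last D) = 0 := by
    by_contra hne
    have h0 : aeval (jqModC k) (P (Fin.last D)) ≠ 0 := fun e =>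
      hne (aeval_jqModC_eq_zero e)
    refine hx ?_
    rw [show (seriesGauss q (q * N') hπ).red x = -bEval k N' Q / aeval (jqModC k) (P (Fin.last D)) by
      rw [eq_div_iff h0, mul_comm]; exact eq_neg_of_add_eq_zero_right hP]
    refine div_mem (neg_mem ?_) (hmem _)
    rw [hQev]
    exact sum_mem fun i _ => mul_mem (hmem _) (pow_mem (jqNModC_mem k N') _)
  rw [hlast, map_zero, zero_mul, add_zero] at hP
  have hQ0 : Q = 0 := eq_zero_of_bEval_charP N' q
    ((Nat.Prime.coprime_iff_not_dvd Fact.out).mp hco) k (by
      rw [ModCurveGroup.index_gamma0]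
      have hD : 0 < D := by
        rw [show D = dedekindPsi N' from rfl, ← ModCurveGroup.index_gamma0]; exact index_pos N'
      refine (Nat.lt_succ_of_le (natDegree_sum_le_of_forall_le _ _ (n := D - 1) fun i _ => ?_)).trans_le
        (by omega)
      exact (natDegree_monomial_le _).trans (by omega)) hP
  funext i
  refine Fin.lastCases hlast (fun j => ?_) i
  have := congrArg (fun R : k[X][X] => R.coeff (j : ℕ)) hQ0
  simpa [hQ, finsetSum_coeff, coeff_monomial, Fin.val_inj] using this

variable (arch : ∀ b : K, ∀ c : A, π c = 0 → ∃ n : ℕ, b * (c : K) ^ n ∈ A)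

/-- The valuation at infinity with residues in the function field of `X₀(N')`. -/
def levelGauss : GaussRed A π (laurentBaseChange K (modularFunctionFieldFull (q * N')))
    (modularFunctionFieldFullC k N') :=
  (seriesGauss q (q * N') hπ).codRestrict _ fun x =>
    modularFunctionFieldC_le_full k N' (red_mem_fieldC hπ hco arch x)

include hπ hco arch in
theorem levelGauss_hasOrth : (levelGauss hπ hco arch).HasOrth :=
  GaussRed.HasOrth.codRestrict (seriesGauss_hasOrth q hπ) _ _

variable (k N') in
/-- `j` in the residue field. -/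
def jFib : modularFunctionFieldFullC k N' :=
  ⟨jqModC k, modularFunctionFieldC_le_full k N' (jqModC_mem k N')⟩

theorem coe_jFib : (jFib k N' : LaurentSeries k) = jqModC k := rfl

theorem transcendental_jFib : Transcendental k (jFib k N') := by
  rintro ⟨p, hp, h⟩
  refine hp (aeval_jqModC_eq_zero ?_)
  rw [← coe_jFib (N' := N'), ← IntermediateField.coe_val, aeval_algHom_apply, h, map_zero]

include hπ hco arch in
theorem levelGauss_twistDatum :
    TwistDatum (levelGauss hπ hco arch) (atkinLehnerBar hco K) q (jBar K (q * N')) ∧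
      ∃ h, (levelGauss hπ hco arch).red ⟨jBar K (q * N'), h⟩ = jFib k N' := by
  have h := twistDatum hπ hco arch
  obtain ⟨hj, ej⟩ := seriesGauss_jd (q := q) (f := jBar K (q * N')) hπ (d := 1)
    (by rw [qExpand_one_apply]; rfl)
  rw [qExpand_one_apply] at ej
  have e : (levelGauss hπ hco arch).red ⟨jBar K (q * N'), hj⟩ = jFib k N' := Subtype.ext ej
  refine ⟨⟨hπ, arch, h.one_lt, h.involutive, hj, h.mem', e ▸ transcendental_jFib, ?_⟩, hj, e⟩
  exact Subtype.ext h.red_twist

end Level

end FermatAgent.BadRed.Semistable
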