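import Fermat.Agent.Curve.Basics.Value
import Fermat.Prelude.Def_AlgebraicCurve_BaseChangeGalois

/-!
# Semilinear automorphisms and values at places
-/

set_option autoImplicit false

noncomputable section

open AlgebraicCurve WithZero

namespace FermatAgent.BadRed.Semistable

open FermatAgent.Curve

variable {k F : Type*} [Field k] [Field F] [Algebra k F]

theorem valuation_semilinear_smul (g : SemilinearAut k F) (v : Place k F) (f : F) :
    (g • v).adicValuation (g • f) = v.adicValuation f := by
  rcases eq_or_ne f 0 with rfl | hf
  · rw [smul_zero, map_zero, map_zero]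
  · rw [(g • v).adicValuation_eq_exp_neg_ord ((smul_ne_zero_iff_ne g).mpr hf),
      v.adicValuation_eq_exp_neg_ord hf, SemilinearAut.ord_smul]

theorem valueAt_semilinear_smul [IsAlgClosed k] [IsFunctionField1 k F] (g : SemilinearAut k F)
    (v : Place k F) (f : F) :
    valueAt (g • v) (g • f) = SemilinearAut.baseAut g (valueAt v f) := by
  have hmem : g • f ∈ (g • v).toValuationSubring ↔ f ∈ v.toValuationSubring := by
    rw [mem_iff_ord_nonneg', mem_iff_ord_nonneg', SemilinearAut.ord_smul]
  by_cases hf : f ∈ v.toValuationSubring
  · apply valueAt_eq_of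
    rcases valueAt_spec v hf with h | h
    · left
      conv_lhs => rw [h]
      exact SemilinearAut.smul_algebraMap g _
    · right
      rwa [← SemilinearAut.smul_algebraMap, ← smul_sub, SemilinearAut.ord_smul]
  · rw [valueAt_of_notMem v hf, valueAt_of_notMem _ (mt hmem.mp hf), map_zero]

end FermatAgent.BadRed.Semistable
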