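import Fermat.Agent.BadRed.Semistable.Toric
import Fermat.Agent.BadRed.Semistable.Semilinear

/-!
# Semilinear symmetries of a nodal datum and the toric invariant
-/

set_option autoImplicit false
set_option linter.unusedSectionVars false

noncomputable section

open WithZero AlgebraicCurve

namespace FermatAgent.BadRed.Semistable

open FermatAgent.Curve FermatAgent.Curve.RR

theorem poleDiv_semilinear_smul {k F : Type*} [Field k] [Field F] [Algebra k F] [IsAlgClosed k]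
    [IsFunctionField1 k F] (g : SemilinearAut k F) {z : F} (hz : g • z = z) (v : Place k F) :
    (poleDiv z : Divisor k F) (g • v) = (poleDiv z : Divisor k F) v := by
  have h : (g • v).ord z = v.ord z := by
    conv_lhs => rw [← hz]
    exact SemilinearAut.ord_smul g v z
  rw [poleDiv_apply, poleDiv_apply, h]

theorem divisorOf_semilinear_smul {k F : Type*} [Field k] [Field F] [Algebra k F] [IsAlgClosed k]
    [IsFunctionField1 k F] (g : SemilinearAut k F) (f : F) :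
    divisorOf (K := k) (g • f) = g • divisorOf (K := k) f := by
  ext v
  rw [SemilinearAut.divisor_smul_apply, divisorOf_apply, divisorOf_apply]
  conv_lhs => rw [← smul_inv_smul g v]
  exact SemilinearAut.ord_smul g _ f

namespace NodalDatum

variable {K : Type*} [Field K] [IsAlgClosed K] {A : ValuationSubring K} {k : Type*}
    [Field k] [IsAlgClosed k] {π : A →+* k} {F F₁ F₂ : Type*} [Field F] [Field F₁] [Field F₂]
    [Algebra K F] [Algebra k F₁] [Algebra k F₂] [IsFunctionField1 K F] [IsFunctionField1 k F₁]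
    [IsFunctionField1 k F₂] [RRSetting K F] [RRSetting k F₁] [RRSetting k F₂] [Infinite k]

/-- A semilinear map which moves the reductions of places by `a` moves reduced divisors by `a`. -/
theorem redDiv_smul_of_place (d : NodalDatum A π F F₁ F₂) (Φ : SemilinearAut K F)
    {a : d.C.Pt → d.C.Pt} (h : ∀ P, d.place (Φ • P) = a (d.place P)) (D : Divisor K F) :
    d.redDiv (Φ • D) = Finsupp.mapDomain a (d.redDiv D) := by
  rw [d.redDiv_apply, d.redDiv_apply, SemilinearAut.divisor_smul_def, ← Finsupp.mapDomain_comp,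
    ← Finsupp.mapDomain_comp]
  exact congrArg (fun φ => Finsupp.mapDomain φ D) (funext h)

/-- If `a` fixes the nodes, a moved divisor still avoids them. -/
theorem place_ne_node_smul (d : NodalDatum A π F F₁ F₂) (Φ : SemilinearAut K F)
    {a : d.C.Pt → d.C.Pt} (h : ∀ P, d.place (Φ • P) = a (d.place P)) (ha : Function.Injective a)
    (hn : ∀ i, a (.node i) = .node i) {D : Divisor K F} (hD : d.IsBal D) (P : Place K F)
    (hP : (Φ • D) P ≠ 0) (i : d.C.ι) : d.place P ≠ .node i := fun e => by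
  rw [SemilinearAut.divisor_smul_apply] at hP
  refine hD.1 _ hP i (ha ?_)
  rw [← h, smul_inv_smul, e, hn]

/-- A semilinear symmetry fixing the coordinate and every node. -/
structure Symm (d : NodalDatum A π F F₁ F₂) where
  Φ : SemilinearAut K F
  Φ₁ : SemilinearAut k F₁
  Φ₂ : SemilinearAut k F₂
  θ : k ≃+* k
  base₁ : SemilinearAut.baseAut Φ₁ = θ
  base₂ : SemilinearAut.baseAut Φ₂ = θ
  smul_z : Φ • d.z = d.z
  smul_z₁ : Φ₁ • d.C.z₁ = d.C.z₁
  smul_z₂ : Φ₂ • d.C.z₂ = d.C.z₂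
  mem₁ : ∀ f, Φ • f ∈ d.g₁.integers ↔ f ∈ d.g₁.integers
  mem₂ : ∀ f, Φ • f ∈ d.g₂.integers ↔ f ∈ d.g₂.integers
  red₁ : ∀ f (h : f ∈ d.g₁.integers),
    d.g₁.red ⟨Φ • f, (mem₁ f).mpr h⟩ = Φ₁ • d.g₁.red ⟨f, h⟩
  red₂ : ∀ f (h : f ∈ d.g₂.integers),
    d.g₂.red ⟨Φ • f, (mem₂ f).mpr h⟩ = Φ₂ • d.g₂.red ⟨f, h⟩
  fix_x : ∀ i, Φ₁ • d.C.x i = d.C.x i
  fix_y : ∀ i, Φ₂ • d.C.y i = d.C.y i

namespace Symm

variable {d : NodalDatum A π F F₁ F₂} (s : d.Symm)

theorem x_ne {Q : Place k F₁} (h : ∀ i, d.C.x i ≠ Q) (i : d.C.ι) : d.C.x i ≠ s.Φ₁ • Q := fun e =>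
  h i (MulAction.injective s.Φ₁ ((s.fix_x i).trans e))

theorem y_ne {Q : Place k F₂} (h : ∀ i, d.C.y i ≠ Q) (i : d.C.ι) : d.C.y i ≠ s.Φ₂ • Q := fun e =>
  h i (MulAction.injective s.Φ₂ ((s.fix_y i).trans e))

/-- The action on the points of the glued curve. -/
def act : d.C.Pt → d.C.Pt
  | .left Q h => .left (s.Φ₁ • Q) (s.x_ne h)
  | .right Q h => .right (s.Φ₂ • Q) (s.y_ne h)
  | .node i => .node i

theorem act_injective : Function.Injective s.act := by
  intro a b e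
  cases a <;> cases b <;> simp only [act, Glued.Pt.left.injEq, Glued.Pt.right.injEq,
    Glued.Pt.node.injEq, reduceCtorEq] at e ⊢
  all_goals first
    | exact MulAction.injective _ e
    | exact e

theorem act_toPt₁ (Q : Place k F₁) : s.act (d.C.toPt₁ Q) = d.C.toPt₁ (s.Φ₁ • Q) := by
  by_cases h : ∃ i, d.C.x i = Q
  · obtain ⟨i, rfl⟩ := h
    rw [s.fix_x, d.C.toPt₁_x]
    rfl
  · push Not at h
    rw [d.C.toPt₁_of_ne Q h, d.C.toPt₁_of_ne _ (s.x_ne h)]
    rfl

theorem act_toPt₂ (Q : Place k F₂) : s.act (d.C.toPt₂ Q) = d.C.toPt₂ (s.Φ₂ • Q) := by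
  by_cases h : ∃ i, d.C.y i = Q
  · obtain ⟨i, rfl⟩ := h
    rw [s.fix_y, d.C.toPt₂_y]
    rfl
  · push Not at h
    rw [d.C.toPt₂_of_ne Q h, d.C.toPt₂_of_ne _ (s.y_ne h)]
    rfl

theorem van_act {n : ℕ} {p : F₁ × F₂} {ω : d.C.Pt} :
    d.C.Van (s.act ω) n (s.Φ₁ • p.1, s.Φ₂ • p.2) ↔ d.C.Van ω n p := by
  cases ω with
  | left Q h =>
    show (s.Φ₁ • Q).adicValuation (s.Φ₁ • p.1) < exp ((n : ℤ) * d.C.D₁ (s.Φ₁ • Q)) ↔
      Q.adicValuation p.1 < exp ((n : ℤ) * d.C.D₁ Q)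
    rw [valuation_semilinear_smul, Glued.D₁, poleDiv_semilinear_smul _ s.smul_z₁]
  | right Q h =>
    show (s.Φ₂ • Q).adicValuation (s.Φ₂ • p.2) < exp ((n : ℤ) * d.C.D₂ (s.Φ₂ • Q)) ↔
      Q.adicValuation p.2 < exp ((n : ℤ) * d.C.D₂ Q)
    rw [valuation_semilinear_smul, Glued.D₂, poleDiv_semilinear_smul _ s.smul_z₂]
  | node i =>
    show (d.C.x i).adicValuation (s.Φ₁ • p.1) < 1 ↔ (d.C.x i).adicValuation p.1 < 1
    conv_lhs => rw [← s.fix_x i, valuation_semilinear_smul]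

theorem isRed_smul {n : ℕ} {P : Place K F} {ω : d.C.Pt} (h : d.IsRed n P ω) :
    d.IsRed n (s.Φ • P) (s.act ω) := by
  intro p hp
  obtain ⟨f, hint, hf, hred⟩ := d.mem_redImage.mp hp
  set g := s.Φ⁻¹ • f
  have hfg : s.Φ • g = f := smul_inv_smul _ _
  have hg : g ∈ d.int := ⟨(s.mem₁ g).mp (hfg.symm ▸ hint.1), (s.mem₂ g).mp (hfg.symm ▸ hint.2)⟩
  have hsub : g ∈ d.sub n (Finsupp.single P 1) := by
    intro v
    have hv := hf (s.Φ • v)
    rw [← hfg, valuation_semilinear_smul] at hv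
    refine hv.trans (exp_le_exp.mpr (le_of_eq ?_))
    rw [Finsupp.sub_apply, Finsupp.sub_apply, Finsupp.smul_apply, Finsupp.smul_apply,
      show d.D (s.Φ • v) = d.D v from poleDiv_semilinear_smul _ s.smul_z v,
      ← SemilinearAut.smul_single, SemilinearAut.divisor_smul_apply_smul]
  have hv := s.van_act.mpr (h (d.red ⟨g, hg⟩) (d.mem_redImage.mpr ⟨g, hg, hsub, rfl⟩))
  have e : p = (s.Φ₁ • (d.red ⟨g, hg⟩).1, s.Φ₂ • (d.red ⟨g, hg⟩).2) := by
    rw [← hred, d.red_congr hfg.symm hint, d.red_mk, d.red_mk, s.red₁ g hg.1, s.red₂ g hg.2]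
  rwa [e]

theorem place_smul (P : Place K F) : d.place (s.Φ • P) = s.act (d.place P) :=
  (d.eq_place le_rfl (s.isRed_smul (d.isRed_place le_rfl P))).symm

theorem redDiv_smul (D : Divisor K F) :
    d.redDiv (s.Φ • D) = Finsupp.mapDomain s.act (d.redDiv D) :=
  d.redDiv_smul_of_place s.Φ s.place_smul D

theorem part₁_mapDomain (E : d.C.Pt →₀ ℤ) :
    d.C.part₁ (Finsupp.mapDomain s.act E) = s.Φ₁ • d.C.part₁ E := by
  ext Q
  rw [SemilinearAut.divisor_smul_apply, Glued.part₁_apply, Glued.part₁_apply]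
  conv_lhs => rw [← smul_inv_smul s.Φ₁ Q, ← s.act_toPt₁]
  exact Finsupp.mapDomain_apply s.act_injective E _

theorem part₂_mapDomain (E : d.C.Pt →₀ ℤ) :
    d.C.part₂ (Finsupp.mapDomain s.act E) = s.Φ₂ • d.C.part₂ E := by
  ext Q
  rw [SemilinearAut.divisor_smul_apply, Glued.part₂_apply, Glued.part₂_apply]
  conv_lhs => rw [← smul_inv_smul s.Φ₂ Q, ← s.act_toPt₂]
  exact Finsupp.mapDomain_apply s.act_injective E _

theorem isBal_smul {D : Divisor K F} (h : d.IsBal D) : d.IsBal (s.Φ • D) := by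
  refine ⟨d.place_ne_node_smul s.Φ s.place_smul s.act_injective (fun _ => rfl) h, ?_, ?_⟩
  · rw [s.redDiv_smul, s.part₁_mapDomain, SemilinearAut.degree_smul]; exact h.2.1
  · rw [s.redDiv_smul, s.part₂_mapDomain, SemilinearAut.degree_smul]; exact h.2.2

/-- The toric invariant moves by the residual automorphism. -/
theorem hasToric_smul {x : Pic0 K F} {c : d.C.ι → k} (h : d.HasToric x c) :
    d.HasToric (s.Φ • x) (s.θ ∘ c) := by
  obtain ⟨D, rfl, hb, u, hu, e1, e2, hc⟩ := h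
  refine ⟨SemilinearAut.degZeroSMulHom s.Φ D, (SemilinearAut.pic0_smul_mk s.Φ D).symm,
    s.isBal_smul hb, (s.Φ₁ • u.1, s.Φ₂ • u.2),
    ⟨(smul_ne_zero_iff_ne _).mpr hu.1, (smul_ne_zero_iff_ne _).mpr hu.2.1, fun i => ⟨?_, ?_⟩⟩,
    ?_, ?_, fun i => ?_⟩
  · conv_lhs => rw [← s.fix_x i]
    rw [SemilinearAut.ord_smul]
    exact (hu.2.2 i).1
  · conv_lhs => rw [← s.fix_y i]
    rw [SemilinearAut.ord_smul]
    exact (hu.2.2 i).2
  · rw [SemilinearAut.coe_degZeroSMulHom, s.redDiv_smul, s.part₁_mapDomain, e1,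
      divisorOf_semilinear_smul]
  · rw [SemilinearAut.coe_degZeroSMulHom, s.redDiv_smul, s.part₂_mapDomain, e2,
      divisorOf_semilinear_smul]
  · show valueAt (d.C.x i) (s.Φ₁ • u.1) = s.θ (c i) * valueAt (d.C.y i) (s.Φ₂ • u.2)
    conv_lhs => rw [← s.fix_x i, valueAt_semilinear_smul, s.base₁, hc i, map_mul]
    conv_rhs => rw [← s.fix_y i, valueAt_semilinear_smul, s.base₂]

end Symm

end NodalDatum

end FermatAgent.BadRed.Semistable
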