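import Fermat.Agent.BadRed.Semistable.Nodal
import Fermat.Agent.BadRed.Semistable.Symmetry

/-!
# Galois symmetries of the reduction of `X₀(q N')`
-/

set_option autoImplicit false
set_option linter.unusedSectionVars false
set_option maxHeartbeats 1600000

noncomputable section

open Polynomial ModularCurve AlgebraicCurve

namespace FermatAgent.BadRed.Semistable

open FermatAgent.Igusa FermatAgent.ModFun FermatAgent.Curve FermatAgent.Curve.RR FermatAgent.ES

attribute [local instance] neZero_prime

local notation "ℚ̄" => AlgebraicClosure ℚ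

variable {K : Type*} [Field K] {A : ValuationSubring K} {k : Type*} [Field k] {π : A →+* k}
  {τ : K →+* K} (τA : A →+* A) (hτA : ∀ z, (τA z : K) = τ z) {θ : k →+* k}
  (hθ : ∀ z, π (τA z) = θ (π z))

include hτA hθ in
theorem IsSeriesRep.map {x : LaurentSeries K} {y z : LaurentSeries A}
    (h : IsSeriesRep A π x y z) :
    IsSeriesRep A π (coeffMap τ x) (coeffMap τA y) (coeffMap τA z) ∧
      coeffMap π (coeffMap τA y) / coeffMap π (coeffMap τA z) =
        coeffMap θ (coeffMap π y / coeffMap π z) := by
  have e1 : A.subtype.comp τA = τ.comp A.subtype := RingHom.ext hτA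
  have e2 : π.comp τA = θ.comp π := RingHom.ext hθ
  have c1 : ∀ w : LaurentSeries A,
      coeffMap A.subtype (coeffMap τA w) = coeffMap τ (coeffMap A.subtype w) := fun w => by
    rw [coeffMap_coeffMap, coeffMap_coeffMap, coeffMap_congr e1]
  have c2 : ∀ w : LaurentSeries A, coeffMap π (coeffMap τA w) = coeffMap θ (coeffMap π w) :=
    fun w => by rw [coeffMap_coeffMap, coeffMap_coeffMap, coeffMap_congr e2]
  refine ⟨⟨?_, ?_⟩, ?_⟩
  · rw [c2]
    exact fun e => h.1 (coeffMap_injective_of_injective θ.injective (e.trans (map_zero _).symm))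
  · rw [c1, c1, ← map_mul, h.2]
  · rw [c2, c2, map_div₀]

end FermatAgent.BadRed.Semistable

namespace FermatAgent.BadRed.Semistable

open FermatAgent.Igusa FermatAgent.ModFun FermatAgent.Curve FermatAgent.Curve.RR FermatAgent.ES

attribute [local instance] neZero_prime charZero_of_algebraRat

local notation "ℚ̄" => AlgebraicClosure ℚ

variable {K : Type*} [Field K] [Algebra ℚ K] {q : ℕ} [Fact q.Prime] {N' : ℕ} [NeZero N']
  (hco : q.Coprime N') [NeZero (q * N')] {A₀ : ValuationSubring ℚ̄} {A : ValuationSubring K}
  {π : A →+* IsLocalRing.ResidueField A₀} (P : PlaceHom A₀ A π)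
  [CharP (IsLocalRing.ResidueField A₀) q] (hA : A₀.LiesOverPrime q)

/-- An automorphism of `K` preserving the place, with its residual automorphism. -/
structure PlaceAut (A : ValuationSubring K) (π : A →+* IsLocalRing.ResidueField A₀) where
  τ : K ≃ₐ[ℚ] K
  mem : ∀ z, τ z ∈ A ↔ z ∈ A
  θ : IsLocalRing.ResidueField A₀ ≃+* IsLocalRing.ResidueField A₀
  compat : ∀ (z : A) (h : τ z.1 ∈ A), π ⟨τ z.1, h⟩ = θ (π z)

namespace PlaceAut

variable (a : PlaceAut A π)

/-- The inverse. -/
def symm : PlaceAut A π where
  τ := a.τ.symm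
  mem z := by
    conv_rhs => rw [← a.τ.apply_symm_apply z]
    rw [a.mem]
  θ := a.θ.symm
  compat z h := by
    have h' := a.compat ⟨a.τ.symm z.1, h⟩ (by simp [z.2])
    rw [RingEquiv.eq_symm_apply, ← h']
    exact congrArg π (Subtype.ext (a.τ.apply_symm_apply z.1))

/-- The induced map of the valuation ring. -/
def onInt : A →+* A :=
  ((a.τ : K →+* K).comp A.subtype).codRestrict A fun z => (a.mem z.1).mpr z.2

/-- The action on the function field. -/
def lvl (M : ℕ) : SemilinearAut K (laurentBaseChange K (modularFunctionFieldFull M)) :=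
  arithmeticGalois (modularFunctionFieldFull M) a.τ

/-- The action on the fibre. -/
def fib (N' : ℕ) [NeZero N'] : SemilinearAut (IsLocalRing.ResidueField A₀)
    (modularFunctionFieldFullC (IsLocalRing.ResidueField A₀) N') :=
  coeffSemilinear N' a.θ

theorem coe_lvl {M : ℕ} (f : laurentBaseChange K (modularFunctionFieldFull M)) :
    ((a.lvl M • f : laurentBaseChange K (modularFunctionFieldFull M)) : LaurentSeries K) =
      coeffMap (a.τ : K →+* K) (f : LaurentSeries K) :=
  coe_arithmeticGalois_smul _ a.τ f

theorem coe_fib (f : modularFunctionFieldFullC (IsLocalRing.ResidueField A₀) N') :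
    ((a.fib N' • f : modularFunctionFieldFullC (IsLocalRing.ResidueField A₀) N') :
        LaurentSeries (IsLocalRing.ResidueField A₀)) =
      coeffMap (a.θ : IsLocalRing.ResidueField A₀ →+* IsLocalRing.ResidueField A₀)
        (f : LaurentSeries (IsLocalRing.ResidueField A₀)) :=
  coe_coeffSemilinear_smul N' a.θ f

include hco P in
theorem coe_levelGauss_red {f : laurentBaseChange K (modularFunctionFieldFull (q * N'))}
    (h : f ∈ (levelGauss P.surjective hco P.arch).integers) :
    (((levelGauss P.surjective hco P.arch).red ⟨f, h⟩ :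
      modularFunctionFieldFullC (IsLocalRing.ResidueField A₀) N') :
        LaurentSeries (IsLocalRing.ResidueField A₀)) =
      (seriesGauss q (q * N') P.surjective).red ⟨f, h⟩ :=
  rfl

include hco P in
theorem levelGauss_red {f : laurentBaseChange K (modularFunctionFieldFull (q * N'))}
    (hf : f ∈ (levelGauss P.surjective hco P.arch).integers) :
    ∃ h : a.lvl (q * N') • f ∈ (levelGauss P.surjective hco P.arch).integers,
      (levelGauss P.surjective hco P.arch).red ⟨a.lvl (q * N') • f, h⟩ =
        a.fib N' • (levelGauss P.surjective hco P.arch).red ⟨f, hf⟩ := by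
  obtain ⟨y, z, h⟩ : ∃ y z, IsSeriesRep A π (f : LaurentSeries K) y z := mem_fieldInt (q * N') hf
  obtain ⟨h', e⟩ := h.map (τ := (a.τ : K →+* K)) a.onInt (fun _ => rfl)
    (θ := (a.θ : IsLocalRing.ResidueField A₀ →+* IsLocalRing.ResidueField A₀))
    (fun z => a.compat z _)
  rw [← a.coe_lvl] at h'
  obtain ⟨_, e0⟩ := seriesGauss_red_of_rep (M := q * N') q P.surjective h
  obtain ⟨hh, e1⟩ := seriesGauss_red_of_rep (M := q * N') q P.surjective h'
  have hh' : a.lvl (q * N') • f ∈ (levelGauss P.surjective hco P.arch).integers := hh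
  refine ⟨hh', Subtype.ext ?_⟩
  rw [a.coe_fib, coe_levelGauss_red hco P hh', coe_levelGauss_red hco P hf]
  exact e1.trans (e.trans (congrArg _ e0.symm))

include hco P in
theorem mem_levelGauss_iff (f : laurentBaseChange K (modularFunctionFieldFull (q * N'))) :
    a.lvl (q * N') • f ∈ (levelGauss P.surjective hco P.arch).integers ↔
      f ∈ (levelGauss P.surjective hco P.arch).integers := by
  refine ⟨fun h => ?_, fun h => (a.levelGauss_red hco P h).1⟩
  obtain ⟨h', -⟩ := a.symm.levelGauss_red hco P h
  convert h'
  apply Subtype.ext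
  rw [coe_lvl, coe_lvl, coeffMap_coeffMap]
  rw [ coeffMap_congr (g := RingHom.id K) (RingHom.ext fun x => a.τ.symm_apply_apply x), coeffMap_id]

theorem lvl_atkinLehnerBar (f : laurentBaseChange K (modularFunctionFieldFull (q * N'))) :
    atkinLehnerBar hco K (a.lvl (q * N') • f) = a.lvl (q * N') • atkinLehnerBar hco K f :=
  (atkinLehnerBar_arithmeticRingAut hco K a.τ f).symm

theorem lvl_jBar : a.lvl (q * N') • jBar K (q * N') = jBar K (q * N') := Subtype.ext (by
  show coeffMap (a.τ : K →+* K) (jBar K (q * N') : LaurentSeries K) = _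
  exact coeffMap_jqModC _)

theorem fib_jFib : a.fib N' • jFib (IsLocalRing.ResidueField A₀) N' =
    jFib (IsLocalRing.ResidueField A₀) N' := Subtype.ext (by
  rw [fib, coe_coeffSemilinear_smul, coe_jFib, coeffMap_jqModC])

variable [IsAlgClosed K]
  [IsFunctionField1 K (laurentBaseChange K (modularFunctionFieldFull (q * N')))]
  [IsAlgClosed (IsLocalRing.ResidueField A₀)]
  [IsFunctionField1 (IsLocalRing.ResidueField A₀)
    (modularFunctionFieldFullC (IsLocalRing.ResidueField A₀) N')]
  [RRSetting K (laurentBaseChange K (modularFunctionFieldFull (q * N')))]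
  [RRSetting (IsLocalRing.ResidueField A₀)
    (modularFunctionFieldFullC (IsLocalRing.ResidueField A₀) N')]
  [Infinite (IsLocalRing.ResidueField A₀)]

/-- The symmetry of the nodal datum, when all nodes are fixed. -/
def levelSymm (hx : ∀ i, a.fib N' • (levelDatum hco P hA).C.x i = (levelDatum hco P hA).C.x i)
    (hy : ∀ i, a.fib N' • (levelDatum hco P hA).C.y i = (levelDatum hco P hA).C.y i) :
    (levelDatum hco P hA).Symm where
  Φ := a.lvl (q * N')
  Φ₁ := a.fib N'
  Φ₂ := a.fib N'
  θ := a.θ
  base₁ := rfl
  base₂ := rfl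
  smul_z := a.lvl_jBar
  smul_z₁ := by
    show a.fib N' • (level_twist hco P).J = (level_twist hco P).J
    rw [level_twist_J hco P, a.fib_jFib]
  smul_z₂ := by
    show a.fib N' • ((level_twist hco P).J ^ q) = (level_twist hco P).J ^ q
    rw [smul_pow', level_twist_J hco P, a.fib_jFib]
  mem₁ := a.mem_levelGauss_iff hco P
  mem₂ f := by
    show atkinLehnerBar hco K (a.lvl (q * N') • f) ∈ (levelGauss P.surjective hco P.arch).integers ↔
      atkinLehnerBar hco K f ∈ (levelGauss P.surjective hco P.arch).integers
    rw [a.lvl_atkinLehnerBar hco]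
    exact a.mem_levelGauss_iff hco P _
  red₁ f h := (a.levelGauss_red hco P h).2
  red₂ f h := by
    obtain ⟨h', e⟩ := a.levelGauss_red hco P (f := atkinLehnerBar hco K f) h
    refine Eq.trans ?_ e
    exact congrArg (levelGauss P.surjective hco P.arch).red
      (Subtype.ext (a.lvl_atkinLehnerBar hco f))
  fix_x := hx
  fix_y := hy

/-- When the residual automorphism is trivial all nodes are fixed. -/
def inertSymm (h : a.θ = RingEquiv.refl _) : (levelDatum hco P hA).Symm :=
  have e : a.fib N' = 1 := by rw [fib, h, coeffSemilinear_refl]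
  a.levelSymm hco P hA (fun i => by rw [e, one_smul]) (fun i => by rw [e, one_smul])

/-- When the residual automorphism is the square of the Frobenius all nodes are fixed. -/
def frobSqSymm (h : a.θ = frobeniusEquiv (IsLocalRing.ResidueField A₀) q *
    frobeniusEquiv (IsLocalRing.ResidueField A₀) q) : (levelDatum hco P hA).Symm :=
  have e : a.fib N' = fibPhi (IsLocalRing.ResidueField A₀) q N' *
      fibPhi (IsLocalRing.ResidueField A₀) q N' := by rw [fib, h, coeffSemilinear_mul]; rfl
  a.levelSymm hco P hA
    (fun i => by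
      obtain ⟨h1, h2⟩ := levelDatum_y hco P hA i
      rw [e, mul_smul]
      show fibPull _ q N' (fibPull _ q N' ((levelDatum hco P hA).C.x i)) = _
      rw [← h1, h2])
    (fun i => by
      obtain ⟨h1, h2⟩ := levelDatum_y hco P hA i
      rw [e, mul_smul]
      show fibPull _ q N' (fibPull _ q N' ((levelDatum hco P hA).C.y i)) = _
      rw [h2, ← h1])

end PlaceAut

end FermatAgent.BadRed.Semistable
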