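import Fermat.Agent.BadRed.Semistable.TateModel
import Fermat.Agent.RTLift.NewPart.NotOld
import Fermat.Agent.RTLift.NewPart.Supported
import Fermat.Agent.ModCurve.Forms.Genus

/-!
# The forms of level `q N'` coming from level `N'`

`(f, g) ↦ f(τ) + g(q τ)` is injective and commutes with the Hecke operators away from `q`.
-/

set_option autoImplicit false
set_option linter.unusedSectionVars false
set_option linter.style.haveILetI false

noncomputable section

open CuspForm CongruenceSubgroup ModularFormClass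

namespace FermatAgent.BadRed.Semistable

open FermatAgent.RTLift.NewPart FermatAgent.ModCurveTorsion

variable (q N' : ℕ) [Fact q.Prime] [NeZero N'] [NeZero (q * N')]

/-- `(f, g) ↦ f(τ) + g(q τ)`. -/
def oldMap : CF N' × CF N' →ₗ[ℂ] CF (q * N') where
  toFun x := (restr (L := N') (L' := q * N') (dvd_mul_left N' q) x.1 +
    vForm (Fact.out : q.Prime).ne_zero (dvd_of_eq (mul_comm N' q)) x.2 : CF (q * N'))
  map_add' x y := eq_of_qCoeff fun n => by
    simp only [DSLift.qCoeff_add', coe_restr, qCoeff_vForm, Prod.fst_add, Prod.snd_add]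
    split_ifs <;> ring
  map_smul' c x := eq_of_qCoeff fun n => by
    simp only [DSLift.qCoeff_add', DSLift.qCoeff_smul', coe_restr, qCoeff_vForm, Prod.smul_fst,
      Prod.smul_snd, RingHom.id_apply]
    split_ifs <;> ring

theorem qCoeff_oldMap (x : CF N' × CF N') (n : ℕ) :
    qCoeff ⇑(oldMap q N' x) n =
      qCoeff ⇑x.1 n + if q ∣ n then qCoeff ⇑x.2 (n / q) else 0 := by
  show qCoeff ⇑(restr (L := N') (L' := q * N') (dvd_mul_left N' q) x.1 +
    vForm (Fact.out : q.Prime).ne_zero (dvd_of_eq (mul_comm N' q)) x.2 : CF (q * N')) n = _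
  rw [DSLift.qCoeff_add', qCoeff_vForm, coe_restr]

variable {q N'} (hco : q.Coprime N')

include hco in
theorem oldMap_injective : Function.Injective (oldMap q N') := by
  have hqN : ¬ q ∣ N' := (Nat.Prime.coprime_iff_not_dvd Fact.out).mp hco
  refine (injective_iff_map_eq_zero _).mpr fun x hx => ?_
  have h : ∀ n, qCoeff ⇑x.1 n + (if q ∣ n then qCoeff ⇑x.2 (n / q) else 0) = 0 := fun n => by
    rw [← qCoeff_oldMap, hx, ← DSLift.qCoeffLin_apply, map_zero]
  have ha : (fun n => qCoeff ⇑x.1 n) = 0 :=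
    eq_zero_of_supported Fact.out hqN (mem_coeffs.mpr ⟨x.1, fun _ => rfl⟩) fun n hn => by
      simpa [hn] using h n
  have h1 : x.1 = 0 := DSLift.eq_zero_of_qCoeff_eq_zero fun n => congrFun ha n
  refine Prod.ext h1 (DSLift.eq_zero_of_qCoeff_eq_zero fun m => ?_)
  have := h (q * m)
  rw [congrFun ha (q * m), if_pos (dvd_mul_right q m),
    Nat.mul_div_cancel_left _ (Fact.out : q.Prime).pos] at this
  simpa using this

theorem heckeTLin_oldMap {l : ℕ} (hl : l.Prime) (hlM : ¬ l ∣ q * N') (hlN : ¬ l ∣ N')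
    (x : CF N' × CF N') :
    heckeTLin 2 hl hlM (oldMap q N' x) =
      oldMap q N' (heckeTLin 2 hl hlN x.1, heckeTLin 2 hl hlN x.2) := by
  have hlq : l ≠ q := fun e => hlM (e ▸ dvd_mul_right q N')
  have hq : q.Prime := Fact.out
  refine eq_of_qCoeff fun n => ?_
  simp only [qCoeff_oldMap, DSLift.qCoeff_heckeTLin]
  rcases em (q ∣ n) with hn | hn
  · obtain ⟨m, rfl⟩ := hn
    rw [if_pos (dvd_mul_right q m), if_pos (dvd_mul_of_dvd_left (dvd_mul_right q m) l),
      Nat.mul_div_cancel_left _ hq.pos, Nat.mul_assoc, Nat.mul_div_cancel_left _ hq.pos]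
    by_cases hm : l ∣ q * m
    · have hm' : l ∣ m :=
        (hl.dvd_mul.mp hm).resolve_left fun e => hlq ((Nat.prime_dvd_prime_iff_eq hl hq).mp e)
      obtain ⟨k, rfl⟩ := hm'
      have e1 : q * (l * k) / l = q * k := by
        rw [← Nat.mul_assoc, Nat.mul_comm q l, Nat.mul_assoc, Nat.mul_div_cancel_left _ hl.pos]
      rw [if_pos hm, if_pos (dvd_mul_right l k), if_pos hm, e1, if_pos (dvd_mul_right q k),
        Nat.mul_div_cancel_left _ hq.pos, Nat.mul_div_cancel_left _ hl.pos]
      ring
    · rw [if_neg hm, if_neg fun e => hm (dvd_mul_of_dvd_right e q), if_neg hm]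
      ring
  · have h1 : ¬ q ∣ n * l := fun e =>
      (hq.dvd_mul.mp e).elim hn fun e' => hlq ((Nat.prime_dvd_prime_iff_eq hq hl).mp e').symm
    rw [if_neg hn, if_neg h1, add_zero, add_zero]
    by_cases hm : l ∣ n
    · obtain ⟨k, rfl⟩ := hm
      rw [Nat.mul_div_cancel_left _ hl.pos,
        if_neg (fun e : q ∣ k => hn (dvd_mul_of_dvd_right e l)), add_zero]
    · rw [if_neg hm, if_neg hm]

variable {S S' : Set ℕ}

theorem exists_oldOp (hS : ∀ r : ℕ, r.Prime → r ∣ q * N' → r ∈ S) (hS' : S' ⊆ S)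
    (t : heckeAlgebra (q * N') 2 S) :
    ∃ t' : heckeAlgebra N' 2 S', ∀ x : CF N' × CF N',
      (t : Module.End ℂ (CF (q * N'))) (oldMap q N' x) =
        oldMap q N' ((t' : Module.End ℂ (CF N')) x.1, (t' : Module.End ℂ (CF N')) x.2) := by
  obtain ⟨t, ht⟩ := t
  induction ht using Algebra.adjoin_induction with
  | mem x hx =>
    rcases hx with ⟨l, hl, hlM, hlS, rfl⟩ | ⟨r, hrM, hr, hrS, -⟩
    · exact ⟨heckeAlgebra.T hl (fun e => hlM (dvd_mul_of_dvd_right e q)) (fun e => hlS (hS' e)),
        heckeTLin_oldMap hl hlM (fun e => hlM (dvd_mul_of_dvd_right e q))⟩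
    · exact absurd (hS r hr hrM) hrS
  | algebraMap c =>
    refine ⟨algebraMap ℤ _ c, fun x => ?_⟩
    rw [← Prod.mk.eta (p := x)]
    show algebraMap ℤ (Module.End ℂ (CF (q * N'))) c (oldMap q N' x) = oldMap q N'
      (algebraMap ℤ (Module.End ℂ (CF N')) c x.1, algebraMap ℤ (Module.End ℂ (CF N')) c x.2)
    rw [Module.algebraMap_end_apply, Module.algebraMap_end_apply, Module.algebraMap_end_apply,
      ← map_zsmul]
    rfl
  | add a b _ _ ha hb =>
    obtain ⟨a', ha⟩ := ha
    obtain ⟨b', hb⟩ := hb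
    refine ⟨a' + b', fun x => ?_⟩
    show a _ + b _ = oldMap q N' ((a' : Module.End ℂ (CF N')) x.1 + (b' : Module.End ℂ (CF N')) x.1,
      (a' : Module.End ℂ (CF N')) x.2 + (b' : Module.End ℂ (CF N')) x.2)
    rw [ha, hb, ← map_add]
    rfl
  | mul a b _ _ ha hb =>
    obtain ⟨a', ha⟩ := ha
    obtain ⟨b', hb⟩ := hb
    refine ⟨a' * b', fun x => ?_⟩
    show a (b _) = _
    rw [hb, ha]
    rfl

variable (hS : ∀ r : ℕ, r.Prime → r ∣ q * N' → r ∈ S) (hS' : S' ⊆ S)

include hco in
theorem oldOp_unique {t : Module.End ℂ (CF (q * N'))} {a b : heckeAlgebra N' 2 S'}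
    (ha : ∀ x : CF N' × CF N', t (oldMap q N' x) =
      oldMap q N' ((a : Module.End ℂ (CF N')) x.1, (a : Module.End ℂ (CF N')) x.2))
    (hb : ∀ x : CF N' × CF N', t (oldMap q N' x) =
      oldMap q N' ((b : Module.End ℂ (CF N')) x.1, (b : Module.End ℂ (CF N')) x.2)) : a = b := by
  refine Subtype.ext (LinearMap.ext fun f => ?_)
  exact congrArg Prod.fst (oldMap_injective hco ((ha (f, 0)).symm.trans (hb (f, 0))))

/-- Restriction of Hecke operators to the forms coming from level `N'`. -/
def oldRes : heckeAlgebra (q * N') 2 S →+* heckeAlgebra N' 2 S' where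
  toFun t := (exists_oldOp hS hS' t).choose
  map_one' := oldOp_unique hco (exists_oldOp hS hS' 1).choose_spec fun _ => rfl
  map_mul' a b := oldOp_unique hco (exists_oldOp hS hS' (a * b)).choose_spec fun x => by
    show (a : Module.End ℂ (CF (q * N'))) ((b : Module.End ℂ (CF (q * N'))) _) = _
    rw [(exists_oldOp hS hS' b).choose_spec, (exists_oldOp hS hS' a).choose_spec]
    rfl
  map_zero' := oldOp_unique hco (exists_oldOp hS hS' 0).choose_spec fun x => by
    show 0 = oldMap q N' (0, 0)
    exact (map_zero _).symm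
  map_add' a b := oldOp_unique hco (exists_oldOp hS hS' (a + b)).choose_spec fun x => by
    show (a : Module.End ℂ (CF (q * N'))) _ + (b : Module.End ℂ (CF (q * N'))) _ = _
    rw [(exists_oldOp hS hS' a).choose_spec, (exists_oldOp hS hS' b).choose_spec, ← map_add]
    rfl

theorem oldRes_spec (t : heckeAlgebra (q * N') 2 S) (x : CF N' × CF N') :
    (t : Module.End ℂ (CF (q * N'))) (oldMap q N' x) =
      oldMap q N' ((oldRes hco hS hS' t : Module.End ℂ (CF N')) x.1,
        (oldRes hco hS hS' t : Module.End ℂ (CF N')) x.2) :=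
  (exists_oldOp hS hS' t).choose_spec x

theorem oldRes_T {l : ℕ} (hl : l.Prime) (hlM : ¬ l ∣ q * N') (hlS : l ∉ S) (hlN : ¬ l ∣ N')
    (hlS' : l ∉ S') :
    oldRes hco hS hS' (heckeAlgebra.T hl hlM hlS) = heckeAlgebra.T hl hlN hlS' :=
  oldOp_unique hco (exists_oldOp hS hS' _).choose_spec (heckeTLin_oldMap hl hlM hlN)

variable (q N') in
/-- Two copies of the old forms in the complexified lattice. -/
def oldLift : (CF N' × CF N') × (CF N' × CF N') →ₗ[ℂ]
    (Fin (torsionModel (q * N')).rank → ℂ) :=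
  (torsionModel (q * N')).realization.symm.toLinearMap ∘ₗ
    (oldMap q N').prodMap (oldMap q N')

include hco in
theorem oldLift_injective : Function.Injective (oldLift q N') :=
  (torsionModel (q * N')).realization.symm.injective.comp
    (Function.Injective.prodMap (oldMap_injective hco) (oldMap_injective hco))

theorem heckeC_oldLift {t : heckeAlgebra (q * N') 2 S} (ht : oldRes hco hS hS' t = 0)
    (y : (CF N' × CF N') × (CF N' × CF N')) : heckeC (q * N') S t (oldLift q N' y) = 0 := by
  apply (torsionModel (q * N')).realization.injective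
  rw [realization_heckeC, map_zero, oldLift, LinearMap.comp_apply, LinearEquiv.coe_coe,
    LinearEquiv.apply_symm_apply]
  simp only [LinearMap.prodMap_apply, oldRes_spec hco hS hS', ht, ZeroMemClass.coe_zero,
    LinearMap.zero_apply]
  exact Prod.ext (map_zero _) (map_zero _)

theorem finrank_oldDomain :
    (Module.finrank ℂ ((CF N' × CF N') × (CF N' × CF N')) : ℚ) =
      4 * ModularCurve.genusFormula N' := by
  haveI := DSLift.finiteDimensional_cuspForm (ModCurve.Forms.hasIntegralStructure_two N')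
  rw [Module.finrank_prod, Module.finrank_prod, ← ModCurve.Forms.finrank_cuspForm_two N']
  push_cast
  ring

end FermatAgent.BadRed.Semistable
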