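import Mathlib

/-!
# Common eigenspaces of a commuting semisimple family
-/

set_option autoImplicit false
set_option linter.unusedSectionVars false

noncomputable section

open Module Polynomial Matrix

namespace FermatAgent.BadRed.Semistable

section General

variable {K : Type*} [Field K] {V : Type*} [AddCommGroup V] [Module K V] [FiniteDimensional K V]
  {H : Type*} [CommRing H] (φ : H →+* Module.End K V)

/-- The common eigenspace. -/
def eigSp (χ : H → K) : Submodule K V := ⨅ t, (φ t).eigenspace (χ t)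

variable {φ}

theorem mem_eigSp {χ : H → K} {v : V} : v ∈ eigSp φ χ ↔ ∀ t, φ t v = χ t • v := by
  simp [eigSp, Submodule.mem_iInf]

theorem exists_ringHom_of_eigSp_ne_bot {χ : H → K} (h : eigSp φ χ ≠ ⊥) :
    ∃ χ' : H →+* K, ⇑χ' = χ := by
  obtain ⟨v, hv, hv0⟩ := Submodule.exists_mem_ne_zero_of_ne_bot h
  rw [mem_eigSp] at hv
  have key : ∀ a b : K, a • v = b • v → a = b := fun a b e => smul_left_injective K hv0 e
  refine ⟨{ toFun := χ
            map_one' := key _ _ ?_
            map_mul' := fun a b => key _ _ ?_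
            map_zero' := key _ _ ?_
            map_add' := fun a b => key _ _ ?_ }, rfl⟩
  · rw [← hv, map_one, one_smul]; rfl
  · rw [← hv, map_mul, Module.End.mul_apply, hv b, map_smul, hv a, smul_smul, mul_comm]
  · rw [← hv, map_zero, zero_smul]; rfl
  · rw [← hv, map_add, LinearMap.add_apply, hv a, hv b, add_smul]

theorem mapsTo_eigSp {G : Module.End K V} (hG : ∀ t, Commute (φ t) G) (χ : H → K) {v : V}
    (hv : v ∈ eigSp φ χ) : G v ∈ eigSp φ χ := by
  rw [mem_eigSp] at hv ⊢
  intro t
  rw [← Module.End.mul_apply, (hG t).eq, Module.End.mul_apply, hv t, map_smul]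

theorem iSupIndep_eigSp : iSupIndep (eigSp φ) := by
  refine (Module.End.independent_iInf_maxGenEigenspace_of_forall_mapsTo (fun t => φ t)
    fun i j μ => Module.End.mapsTo_maxGenEigenspace_of_comm ((Commute.all j i).map φ) μ).mono
    fun χ => iInf_mono fun t => ?_
  exact Module.End.eigenspace_le_maxGenEigenspace

variable [IsAlgClosed K]

theorem iSup_eigSp (hss : ∀ t, (φ t).IsSemisimple) : ⨆ χ, eigSp φ χ = ⊤ := by
  have h := Module.End.iSup_iInf_maxGenEigenspace_eq_top_of_forall_mapsTo (fun t => φ t)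
    (fun i j μ => Module.End.mapsTo_maxGenEigenspace_of_comm ((Commute.all j i).map φ) μ)
    (fun t => Module.End.iSup_maxGenEigenspace_eq_top _)
  rw [← h]
  refine iSup_congr fun χ => iInf_congr fun t => ?_
  exact ((hss t).isFinitelySemisimple.maxGenEigenspace_eq_eigenspace _).symm

variable (φ) in
/-- The finitely many systems that occur. -/
def systems : Finset (H → K) :=
  (WellFoundedGT.finite_ne_bot_of_iSupIndep (iSupIndep_eigSp (φ := φ))).toFinset

theorem mem_systems {χ : H → K} : χ ∈ systems φ ↔ eigSp φ χ ≠ ⊥ := by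
  simp [systems]

/-- Every vector is a sum of components. -/
theorem exists_components (hss : ∀ t, (φ t).IsSemisimple) (v : V) :
    ∃ c : (H → K) → V, (∀ χ, c χ ∈ eigSp φ χ) ∧ ∑ χ ∈ systems φ, c χ = v := by
  have hv : v ∈ ⨆ χ, eigSp φ χ := by rw [iSup_eigSp hss]; trivial
  obtain ⟨f, hf, rfl⟩ := (Submodule.mem_iSup_iff_exists_finsupp _ _).mp hv
  refine ⟨f, hf, ?_⟩
  refine (Finsupp.sum_of_support_subset _ (fun χ hχ => ?_) (fun _ x => x) (fun _ _ => rfl)).symm
  rw [mem_systems]
  exact fun e => Finsupp.mem_support_iff.mp hχ ((Submodule.eq_bot_iff _).mp e _ (hf χ))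

theorem components_eq_zero {s : Finset (H → K)} {c : (H → K) → V}
    (hc : ∀ χ ∈ s, c χ ∈ eigSp φ χ) (h : ∑ χ ∈ s, c χ = 0) : ∀ χ ∈ s, c χ = 0 := by
  classical
  intro χ hχ
  refine Submodule.disjoint_def.mp (iSupIndep_eigSp (φ := φ) χ) _ (hc χ hχ) ?_
  rw [← Finset.add_sum_erase s c hχ, add_eq_zero_iff_eq_neg] at h
  rw [h, neg_mem_iff]
  refine sum_mem fun ψ hψ => ?_
  exact Submodule.mem_iSup_of_mem ψ (Submodule.mem_iSup_of_mem (Finset.ne_of_mem_erase hψ)
    (hc ψ (Finset.mem_of_mem_erase hψ)))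

/-- A vector killed by a set of operators lives in the systems killing the set. -/
theorem component_eq_zero_of_killed {I : Set H} {v : V} (hv : ∀ a ∈ I, φ a v = 0)
    {c : (H → K) → V} (hc : ∀ χ, c χ ∈ eigSp φ χ) (hsum : ∑ χ ∈ systems φ, c χ = v)
    {χ : H → K} (hχ : χ ∈ systems φ) {a : H} (ha : a ∈ I) (hχa : χ a ≠ 0) : c χ = 0 := by
  have h := hv a ha
  rw [← hsum, map_sum] at h
  have h0 := components_eq_zero (s := systems φ) (c := fun χ => φ a (c χ))
    (fun ψ _ => mapsTo_eigSp (fun t => (Commute.all t a).map φ) ψ (hc ψ)) h χ hχ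
  simp only [mem_eigSp.mp (hc χ) a] at h0
  exact (smul_eq_zero.mp h0).resolve_left hχa

/-- An operator equation on a sum holds on each component. -/
theorem component_eq_of_eq {G : Module.End K V} (hG : ∀ t, Commute (φ t) G) (a : K) {v : V}
    (hv : G v = a • v) {c : (H → K) → V} (hc : ∀ χ, c χ ∈ eigSp φ χ)
    (hsum : ∑ χ ∈ systems φ, c χ = v) {χ : H → K} (hχ : χ ∈ systems φ) : G (c χ) = a • c χ := by
  rw [← hsum, map_sum, Finset.smul_sum, ← sub_eq_zero, ← Finset.sum_sub_distrib] at hv
  exact sub_eq_zero.mp (components_eq_zero (s := systems φ) (c := fun χ => G (c χ) - a • c χ)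
    (fun ψ _ => sub_mem (mapsTo_eigSp hG ψ (hc ψ)) (Submodule.smul_mem _ _ (hc ψ))) hv χ hχ)

theorem finrank_biSup_le {ι : Type*} (s : Finset ι) (U : ι → Submodule K V) :
    finrank K (⨆ i ∈ s, U i : Submodule K V) ≤ ∑ i ∈ s, finrank K (U i) := by
  classical
  induction s using Finset.induction_on with
  | empty => simp
  | insert a s ha ih =>
    rw [Finset.iSup_insert, Finset.sum_insert ha]
    exact (Submodule.finrank_add_le_finrank_add_finrank _ _).trans (Nat.add_le_add_left ih _)

theorem sum_finrank_eigSp_le :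
    ∑ χ ∈ systems φ, finrank K (eigSp φ χ) ≤ finrank K V := by
  classical
  suffices h : ∀ s : Finset (H → K), ∑ χ ∈ s, finrank K (eigSp φ χ) =
      finrank K (⨆ χ ∈ s, eigSp φ χ : Submodule K V) from (h _).trans_le (Submodule.finrank_le _)
  intro s
  induction s using Finset.induction_on with
  | empty =>
    rw [Finset.sum_empty, show (⨆ χ ∈ (∅ : Finset (H → K)), eigSp φ χ) = ⊥ by simp, finrank_bot]
  | insert a s ha ih =>
    have hdisj : Disjoint (eigSp φ a) (⨆ χ ∈ s, eigSp φ χ) :=
      (iSupIndep_eigSp (φ := φ) a).mono_right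
        (iSup₂_le fun χ hχ => le_iSup₂_of_le χ (fun e : χ = a => ha (e ▸ hχ)) le_rfl)
    rw [Finset.iSup_insert, Finset.sum_insert ha, ih,
      ← Submodule.finrank_sup_add_finrank_inf_eq (eigSp φ a) (⨆ χ ∈ s, eigSp φ χ),
      hdisj.eq_bot, finrank_bot, add_zero]

end General

section Semisimple

variable {H : Type*} [CommRing H] [IsReduced H] {r : ℕ}

/-- Integer matrices forming a reduced ring are semisimple over every field of characteristic
zero. -/
theorem isSemisimple_of_isReduced (ι : H →+* Matrix (Fin r) (Fin r) ℤ)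
    (hι : Function.Injective ι) (K : Type*) [Field K] [CharZero K] (t : H) :
    Module.End.IsSemisimple (Matrix.toLin' ((ι t).map (Int.cast : ℤ → K))) := by
  classical
  set A : Matrix (Fin r) (Fin r) ℚ := (ι t).map (Int.cast : ℤ → ℚ)
  set m := minpoly ℚ A
  have hmon : m.Monic := minpoly.monic A.isIntegral
  have hsq : Squarefree m := by
    intro a ha
    by_contra hu
    obtain ⟨b, hb⟩ := ha
    have hm0 : m ≠ 0 := hmon.ne_zero
    have ha0 : a ≠ 0 := by rintro rfl; exact hm0 (by rw [hb]; ring)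
    have hb0 : b ≠ 0 := by rintro rfl; exact hm0 (by rw [hb]; ring)
    have hdeg : (a * b).natDegree < m.natDegree := by
      have hapos : 0 < a.natDegree := Nat.pos_of_ne_zero fun e => hu (by
        rw [eq_C_of_natDegree_eq_zero e] at ha0 ⊢
        exact isUnit_C.mpr (isUnit_iff_ne_zero.mpr fun h => ha0 (by rw [h, map_zero])))
      rw [hb, mul_assoc, natDegree_mul ha0 (mul_ne_zero ha0 hb0)]
      omega
    have hzero : aeval A (a * b) = 0 := by
      set P := IsLocalization.integerNormalization (nonZeroDivisors ℤ) (a * b)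
      obtain ⟨c, hc, hcP⟩ := IsLocalization.integerNormalization_spec (nonZeroDivisors ℤ) (a * b)
      have hev : ∀ Q : ℤ[X], aeval A (Q.map (algebraMap ℤ ℚ)) =
          (ι (aeval t Q)).map (Int.cast : ℤ → ℚ) := fun Q => by
        rw [aeval_map_algebraMap]
        exact aeval_algHom_apply
          (((Int.castRingHom ℚ).mapMatrix.comp ι).toIntAlgHom) t Q
      have hscale : aeval A (P.map (algebraMap ℤ ℚ)) = (c : ℤ) • aeval A (a * b) := by
        rw [hcP, map_zsmul]
      have hsquare : ι (aeval t P * aeval t P) = 0 := by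
        refine Matrix.map_injective (Int.cast_injective (α := ℚ)) ?_
        show (ι (aeval t P * aeval t P)).map (Int.cast : ℤ → ℚ) = (0 : Matrix _ _ ℤ).map Int.cast
        rw [Matrix.map_zero _ Int.cast_zero, ← map_mul (aeval t), ← hev, Polynomial.map_mul,
          map_mul (aeval A), hscale, smul_mul_assoc, mul_smul_comm, ← map_mul,
          show a * b * (a * b) = m * b by rw [hb]; ring, map_mul, minpoly.aeval, zero_mul,
          smul_zero, smul_zero]
      have ht0 : aeval t P = 0 := IsReduced.eq_zero _ ⟨2, by rw [sq]; exact hι (hsquare.trans (map_zero ι).symm)⟩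
      have hc0 : (c : ℚ) ≠ 0 := Int.cast_ne_zero.mpr (nonZeroDivisors.ne_zero hc)
      rw [hev, ht0, map_zero, Matrix.map_zero _ Int.cast_zero, eq_comm,
        ← Int.cast_smul_eq_zsmul ℚ] at hscale
      exact (smul_eq_zero.mp hscale).resolve_left hc0
    exact absurd (minpoly.degree_le_of_ne_zero ℚ A (mul_ne_zero ha0 hb0) hzero)
      (not_le.mpr (degree_lt_degree hdeg))
  have hsqK : Squarefree (m.map (algebraMap ℚ K)) :=
    (((PerfectField.separable_iff_squarefree).mpr hsq).map).squarefree
  refine Module.End.isSemisimple_of_squarefree_aeval_eq_zero hsqK ?_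
  show aeval (Matrix.toLinAlgEquiv' ((ι t).map (Int.cast : ℤ → K))) _ = 0
  rw [aeval_map_algebraMap]
  have e : (ι t).map (Int.cast : ℤ → K) = (algebraMap ℚ K).mapMatrix A := by
    ext i j; simp [A]
  rw [e]
  refine (aeval_algHom_apply ((Matrix.toLinAlgEquiv' (R := K)).toAlgHom.restrictScalars ℚ |>.comp
    (Algebra.ofId ℚ K).mapMatrix) A m).trans ?_
  rw [minpoly.aeval, map_zero]

end Semisimple

end FermatAgent.BadRed.Semistable
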