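import Fermat.Agent.BadRed.Semistable.TateLink
import Fermat.Agent.BadRed.Semistable.EigenSplit
import Fermat.Agent.ModCurve.Torsion.ForGalRep
import Fermat.Agent.ES.Main
import Fermat.Prelude.Def_GaloisRep_ComplexConjugation

/-!
# The Tate module of the torsion model, with complex conjugation and the realization
-/

set_option autoImplicit false

noncomputable section

open ModularCurve AlgebraicCurve Matrix CuspForm

namespace FermatAgent.BadRed.Semistable

open FermatAgent.GalRep FermatAgent.ModCurveTorsion

local notation "GQ" => AlgebraicClosure ℚ ≃ₐ[ℚ] AlgebraicClosure ℚ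

variable (N p : ℕ) [NeZero N] [Fact p.Prime] (S : Set ℕ)

/-- The torsion data of the chosen model. -/
def modelTorsion : HeckeTorsionData N p S where
  rank := (torsionModel N).rank
  ι := (torsionModel N).heckeMatrixAway S
  ι_injective := (torsionModel N).heckeMatrixAway_injective S
  e n := (torsionModel N).torsionEquiv (pow_pos (Fact.out : p.Prime).pos n)
  e_mul := by
    intro n x y hxy i
    have hp : p.Prime := Fact.out
    obtain ⟨v, rfl⟩ := (torsionModel N).projTorsion_surjective (pow_pos hp.pos (n + 1)) x
    have hy : y = (torsionModel N).projTorsion (pow_pos hp.pos n) v := by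
      refine Subtype.ext ?_
      rw [hxy, TorsionModel.coe_projTorsion, TorsionModel.coe_projTorsion, ← natCast_zsmul]
      have := (torsionModel N).smul_proj p (p ^ n) hp.pos (pow_pos hp.pos n) v
      rw [← pow_succ'] at this
      exact this
    rw [hy, TorsionModel.torsionEquiv_proj, TorsionModel.torsionEquiv_proj]
    simp
  e_hecke := by
    intro n ℓ hℓ hℓN hℓS x y hxy
    have hp : p.Prime := Fact.out
    obtain ⟨v, rfl⟩ := (torsionModel N).projTorsion_surjective (pow_pos hp.pos n) x
    have hy : y = (torsionModel N).projTorsion (pow_pos hp.pos n)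
        ((torsionModel N).heckeAway S (CuspForm.heckeAlgebra.T hℓ hℓN hℓS) v) := by
      refine Subtype.ext ?_
      rw [hxy, TorsionModel.coe_projTorsion, TorsionModel.coe_projTorsion,
        TorsionModel.heckeAway_T]
      exact (torsionModel N).proj_T _ (pow_pos hp.pos n) ⟨ℓ, hℓ⟩ hℓN v
    rw [hy, TorsionModel.torsionEquiv_proj, TorsionModel.torsionEquiv_proj,
      TorsionModel.redMod_hecke]
  hecke_smul n ℓ hℓ _ _ σ x _ := (galois_smul_heckeOperatorBar N σ ⟨ℓ, hℓ⟩ x).symm
  finite_level := by
    intro n
    obtain ⟨D⟩ := heckeTorsionInput N p Fact.out (S ∪ {l : ℕ | l ∣ N})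
      fun q _ hq => Or.inr hq
    exact D.finite_level n

variable {S}

/-- The Tate module data of the chosen model. -/
def modelTate (hS : ∀ q : ℕ, q.Prime → q ∣ N → q ∈ S) : HeckeTateData N p S :=
  heckeTateDataOf (modelTorsion N p S) (ES.torsionUnramified N p) (ES.torsionFrobQuadratic N p) hS

theorem torPt_intCast (v : Fin (torsionModel N).rank → ℤ) (n : ℕ) :
    torPt (modelTorsion N p S) n (fun i => (v i : ℤ_[p])) = (torsionModel N).proj (p ^ n) v := by
  have hn : 0 < p ^ n := pow_pos (Fact.out : p.Prime).pos n
  refine torPt_eq_of_e (modelTorsion N p S) ?_ ?_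
  · rw [← natCast_zsmul]
    exact (torsionModel N).zsmul_proj_self hn v
  · refine ((torsionModel N).torsionEquiv_proj hn v).trans ?_
    funext i
    exact (map_intCast (PadicInt.toZModPow n) (v i)).symm

/-- The matrix of complex conjugation on the lattice. -/
def conjMat : Matrix (Fin (torsionModel N).rank) (Fin (torsionModel N).rank) ℤ :=
  LinearMap.toMatrixAlgEquiv' (torsionModel N).conj

theorem conjMat_mulVec (v : Fin (torsionModel N).rank → ℤ) :
    conjMat N *ᵥ v = (torsionModel N).conj v := by
  rw [conjMat, ← Matrix.toLinAlgEquiv'_apply, ← LinearMap.toMatrixAlgEquiv'_symm]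
  exact LinearMap.congr_fun ((LinearMap.toMatrixAlgEquiv').symm_apply_apply _) v

theorem heckeMatrixAway_mulVec (t : heckeAlgebra N 2 S) (v : Fin (torsionModel N).rank → ℤ) :
    (torsionModel N).heckeMatrixAway S t *ᵥ v = (torsionModel N).heckeAway S t v := by
  rw [← Matrix.toLinAlgEquiv'_apply, ← LinearMap.toMatrixAlgEquiv'_symm]
  exact LinearMap.congr_fun ((LinearMap.toMatrixAlgEquiv').symm_apply_apply _) v

theorem conjMat_commute (t : heckeAlgebra N 2 S) :
    Commute (conjMat N) ((torsionModel N).heckeMatrixAway S t) := by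
  refine Matrix.ext_of_mulVec_single fun j => ?_
  rw [← Matrix.mulVec_mulVec, ← Matrix.mulVec_mulVec, conjMat_mulVec, heckeMatrixAway_mulVec,
    heckeMatrixAway_mulVec, conjMat_mulVec]
  exact (torsionModel N).conj_hecke _ _

theorem tateHom_conj_mulVec (v : Fin (torsionModel N).rank → ℤ) :
    tateHom (modelTorsion N p S) complexConjugation *ᵥ (fun i => (v i : ℤ_[p])) =
      fun i => (((torsionModel N).conj v i : ℤ) : ℤ_[p]) := by
  refine torPt_ext (modelTorsion N p S) fun n => ?_
  refine (torPt_mulVec (modelTorsion N p S) n _ _).trans ?_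
  refine (congrArg (complexConjugation • ·) (torPt_intCast N p (S := S) v n)).trans ?_
  exact ((torsionModel N).proj_conj _ (pow_pos (Fact.out : p.Prime).pos n) v).symm.trans
    (torPt_intCast N p _ n).symm

/-- Complex conjugation on the Tate module. -/
theorem tateHom_complexConjugation :
    tateHom (modelTorsion N p S) complexConjugation =
      (conjMat N).map (Int.cast : ℤ → ℤ_[p]) := by
  refine Matrix.ext fun (i : Fin (torsionModel N).rank) (j : Fin (torsionModel N).rank) => ?_
  have h := congrFun (tateHom_conj_mulVec N p (S := S) (Pi.single j 1)) i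
  have e : (fun k : Fin (torsionModel N).rank =>
      (((Pi.single j 1 : Fin (torsionModel N).rank → ℤ) k : ℤ) : ℤ_[p])) = Pi.single j 1 :=
    funext fun k => Pi.apply_single (fun _ => (Int.cast : ℤ → ℤ_[p])) (fun _ => Int.cast_zero) j 1 k
      |>.trans (by rw [Int.cast_one])
  have h2 : ((torsionModel N).conj (Pi.single j 1) i : ℤ) = conjMat N i j := by
    rw [← conjMat_mulVec, Matrix.mulVec_single_one]; rfl
  have h3 : ∀ A : Matrix (Fin (torsionModel N).rank) (Fin (torsionModel N).rank) ℤ_[p],
      (A *ᵥ Pi.single j 1) i = A i j := fun A => by rw [Matrix.mulVec_single_one]; rfl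
  rw [h2] at h
  exact ((h3 _).symm.trans (congrArg (fun w => ((tateHom (modelTorsion N p S) complexConjugation :
    Matrix (Fin (torsionModel N).rank) (Fin (torsionModel N).rank) ℤ_[p]) *ᵥ w) i) e.symm)).trans h

/-! ### The complexified lattice -/

/-- The Hecke action on the complexified lattice. -/
def heckeC (S : Set ℕ) :
    heckeAlgebra N 2 S →+* Module.End ℂ (Fin (torsionModel N).rank → ℂ) :=
  ((Matrix.toLinAlgEquiv' (R := ℂ) (n := Fin (torsionModel N).rank)).toRingEquiv.toRingHom.comp
    (Int.castRingHom ℂ).mapMatrix).comp ((torsionModel N).heckeMatrixAway S)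

theorem heckeC_apply (t : heckeAlgebra N 2 S) (v : Fin (torsionModel N).rank → ℂ) :
    heckeC N S t v = ((torsionModel N).heckeMatrixAway S t).map (Int.cast : ℤ → ℂ) *ᵥ v := rfl

/-- Complex conjugation on the complexified lattice. -/
def conjC : Module.End ℂ (Fin (torsionModel N).rank → ℂ) :=
  Matrix.toLinAlgEquiv' ((conjMat N).map (Int.cast : ℤ → ℂ))

theorem map_intCast_single (A : Matrix (Fin (torsionModel N).rank) (Fin (torsionModel N).rank) ℤ)
    (j : Fin (torsionModel N).rank) :
    A.map (Int.cast : ℤ → ℂ) *ᵥ Pi.single j 1 = fun i => (((A *ᵥ Pi.single j 1) i : ℤ) : ℂ) := by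
  funext i
  simp

theorem single_intCast (j : Fin (torsionModel N).rank) :
    (Pi.single j 1 : Fin (torsionModel N).rank → ℂ) =
      fun i => (((Pi.single j 1 : Fin (torsionModel N).rank → ℤ) i : ℤ) : ℂ) := by
  funext i
  rcases eq_or_ne i j with rfl | h
  · simp
  · simp [h]

theorem realization_heckeC (t : heckeAlgebra N 2 S) (v : Fin (torsionModel N).rank → ℂ) :
    (torsionModel N).realization (heckeC N S t v) =
      ((t : Module.End ℂ _) ((torsionModel N).realization v).1,
        (t : Module.End ℂ _) ((torsionModel N).realization v).2) := by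
  refine LinearMap.congr_fun ((Pi.basisFun ℂ (Fin (torsionModel N).rank)).ext
    (f₁ := (torsionModel N).realization.toLinearMap ∘ₗ heckeC N S t)
    (f₂ := (LinearMap.prodMap (t : Module.End ℂ _) (t : Module.End ℂ _)) ∘ₗ
      (torsionModel N).realization.toLinearMap) fun j => ?_) v
  rw [Pi.basisFun_apply, LinearMap.comp_apply, LinearMap.comp_apply, heckeC_apply,
    map_intCast_single, heckeMatrixAway_mulVec]
  conv_rhs => rw [single_intCast N j]
  exact (torsionModel N).realization_hecke _ _

theorem realization_conjC (v : Fin (torsionModel N).rank → ℂ) :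
    (torsionModel N).realization (conjC N v) =
      (-((torsionModel N).realization v).1, ((torsionModel N).realization v).2) := by
  refine LinearMap.congr_fun ((Pi.basisFun ℂ (Fin (torsionModel N).rank)).ext
    (f₁ := (torsionModel N).realization.toLinearMap ∘ₗ conjC N)
    (f₂ := (LinearMap.prodMap (-1 : Module.End ℂ (CuspForm (CongruenceSubgroup.Gamma0 N) 2))
      LinearMap.id) ∘ₗ (torsionModel N).realization.toLinearMap) fun j => ?_) v
  rw [Pi.basisFun_apply, LinearMap.comp_apply, LinearMap.comp_apply]
  conv_rhs => rw [single_intCast N j]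
  show (torsionModel N).realization ((conjMat N).map (Int.cast : ℤ → ℂ) *ᵥ Pi.single j 1) = _
  rw [map_intCast_single, conjMat_mulVec]
  exact (torsionModel N).realization_conj _

/-- Exchange of the two copies of the cusp forms. -/
def swapC : (Fin (torsionModel N).rank → ℂ) ≃ₗ[ℂ] (Fin (torsionModel N).rank → ℂ) :=
  ((torsionModel N).realization.trans (LinearEquiv.prodComm ℂ _ _)).trans
    (torsionModel N).realization.symm

theorem swapC_heckeC (t : heckeAlgebra N 2 S) (v : Fin (torsionModel N).rank → ℂ) :
    swapC N (heckeC N S t v) = heckeC N S t (swapC N v) := by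
  apply (torsionModel N).realization.injective
  simp [swapC, realization_heckeC]

theorem swapC_conjC (v : Fin (torsionModel N).rank → ℂ) :
    swapC N (conjC N v) = -conjC N (swapC N v) := by
  apply (torsionModel N).realization.injective
  simp [swapC, realization_conjC]

theorem conjC_mem_eigSp {χ : heckeAlgebra N 2 S → ℂ} {v : Fin (torsionModel N).rank → ℂ}
    (hv : v ∈ eigSp (heckeC N S) χ) : conjC N v ∈ eigSp (heckeC N S) χ :=
  mapsTo_eigSp (fun t => ((conjMat_commute N t).map
    ((Matrix.toLinAlgEquiv' (R := ℂ)).toRingEquiv.toRingHom.comp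
      (Int.castRingHom ℂ).mapMatrix)).symm) χ hv

/-- Complex conjugation has trace zero on every common eigenspace. -/
theorem trace_conjC_eigSp (χ : heckeAlgebra N 2 S → ℂ) :
    LinearMap.trace ℂ (eigSp (heckeC N S) χ)
      ((conjC N).restrict fun _ hv => conjC_mem_eigSp N hv) = 0 := by
  have hmem : ∀ v, v ∈ eigSp (heckeC N S) χ → swapC N v ∈ eigSp (heckeC N S) χ := fun v hv =>
    mem_eigSp.mpr fun t => by rw [← swapC_heckeC, mem_eigSp.mp hv t, map_smul]
  have hinv : ∀ v, swapC N (swapC N v) = v := fun v => by
    apply (torsionModel N).realization.injective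
    simp [swapC]
  let e : eigSp (heckeC N S) χ ≃ₗ[ℂ] eigSp (heckeC N S) χ :=
    LinearEquiv.ofInvolutive ((swapC N).toLinearMap.restrict hmem)
      fun v => Subtype.ext (hinv v.1)
  set f := (conjC N).restrict fun v (hv : v ∈ eigSp (heckeC N S) χ) => conjC_mem_eigSp N hv
  have he : e.conj f = -f := by
    refine LinearMap.ext fun v => Subtype.ext ?_
    rw [LinearEquiv.conj_apply_apply, LinearMap.neg_apply, Submodule.coe_neg]
    show swapC N (conjC N (swapC N v.1)) = -conjC N v.1
    rw [swapC_conjC, hinv]
  have h := LinearMap.trace_conj' f e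
  rw [he, ← neg_one_smul ℂ f, map_smul, smul_eq_mul, neg_one_mul] at h
  exact neg_eq_self.mp h

end FermatAgent.BadRed.Semistable
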