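import Fermat.Agent.JacCharts.OrthBasis
import Fermat.Agent.Igusa.RatChart
import Fermat.Prelude.Def_ModularCurve_LaurentCoeff

/-!
# Gauss valuation on Laurent series

`seriesInt A π`: quotients `y / z` of series with coefficients in `A`, `z` with non-zero reduction.
Linear combinations of series with coefficients in `ℤ_(q)` can be scaled to have coefficients in
`A` and non-zero reduction.
-/

set_option autoImplicit false
set_option linter.unusedSectionVars false
set_option linter.style.haveILetI false

noncomputable section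

open ModularCurve

namespace FermatAgent.BadRed.Semistable

variable {K : Type*} [Field K] (A : ValuationSubring K) {k : Type*} [Field k] (π : A →+* k)

theorem coeffMap_injective_of_injective {R S : Type*} [CommRing R] [CommRing S] {f : R →+* S}
    (hf : Function.Injective f) : Function.Injective (coeffMap f) := fun x y h => by
  ext n
  apply hf
  simpa using congrArg (fun s : LaurentSeries S => s.coeff n) h

/-- `x = y / z` with integral series and `z` non-zero after reduction. -/
def IsSeriesRep (x : LaurentSeries K) (y z : LaurentSeries A) : Prop :=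
  coeffMap π z ≠ 0 ∧ x * coeffMap A.subtype z = coeffMap A.subtype y

variable {A π}

theorem IsSeriesRep.mul {x x' : LaurentSeries K} {y z y' z' : LaurentSeries A}
    (h : IsSeriesRep A π x y z) (h' : IsSeriesRep A π x' y' z') :
    IsSeriesRep A π (x * x') (y * y') (z * z') :=
  ⟨by rw [map_mul]; exact mul_ne_zero h.1 h'.1, by
    rw [map_mul, map_mul, ← h.2, ← h'.2]; ring⟩

theorem IsSeriesRep.add {x x' : LaurentSeries K} {y z y' z' : LaurentSeries A}
    (h : IsSeriesRep A π x y z) (h' : IsSeriesRep A π x' y' z') :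
    IsSeriesRep A π (x + x') (y * z' + y' * z) (z * z') :=
  ⟨by rw [map_mul]; exact mul_ne_zero h.1 h'.1, by
    rw [map_mul, map_add, map_mul, map_mul, ← h.2, ← h'.2]; ring⟩

theorem IsSeriesRep.neg {x : LaurentSeries K} {y z : LaurentSeries A}
    (h : IsSeriesRep A π x y z) : IsSeriesRep A π (-x) (-y) z :=
  ⟨h.1, by rw [map_neg, neg_mul, h.2]⟩

theorem IsSeriesRep.div_eq {x : LaurentSeries K} {y z y' z' : LaurentSeries A}
    (h : IsSeriesRep A π x y z) (h' : IsSeriesRep A π x y' z') :
    coeffMap π y / coeffMap π z = coeffMap π y' / coeffMap π z' := by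
  rw [div_eq_div_iff h.1 h'.1, ← map_mul, ← map_mul]
  congr 1
  refine coeffMap_injective_of_injective (f := A.subtype) Subtype.coe_injective ?_
  rw [map_mul, map_mul, ← h.2, ← h'.2]
  ring

theorem isSeriesRep_coeffMap (y : LaurentSeries A) :
    IsSeriesRep A π (coeffMap A.subtype y) y 1 :=
  ⟨by rw [map_one]; exact one_ne_zero, by rw [map_one, mul_one]⟩

variable (A π)

/-- The ring of the Gauss valuation. -/
def seriesInt : Subring (LaurentSeries K) where
  carrier := {x | ∃ y z, IsSeriesRep A π x y z}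
  one_mem' := ⟨1, 1, by simpa using isSeriesRep_coeffMap (π := π) (1 : LaurentSeries A)⟩
  zero_mem' := ⟨0, 1, by simpa using isSeriesRep_coeffMap (π := π) (0 : LaurentSeries A)⟩
  mul_mem' := fun ⟨_, _, h⟩ ⟨_, _, h'⟩ => ⟨_, _, h.mul h'⟩
  add_mem' := fun ⟨_, _, h⟩ ⟨_, _, h'⟩ => ⟨_, _, h.add h'⟩
  neg_mem' := fun ⟨_, _, h⟩ => ⟨_, _, h.neg⟩

variable {A π}

theorem coeffMap_mem_seriesInt (y : LaurentSeries A) :
    coeffMap A.subtype y ∈ seriesInt A π := ⟨y, 1, isSeriesRep_coeffMap y⟩

/-- The reduction, as a function. -/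
def seriesRedFun (x : seriesInt A π) : LaurentSeries k :=
  coeffMap π x.2.choose / coeffMap π x.2.choose_spec.choose

theorem seriesRedFun_eq (x : seriesInt A π) {y z : LaurentSeries A}
    (h : IsSeriesRep A π x y z) : seriesRedFun x = coeffMap π y / coeffMap π z :=
  IsSeriesRep.div_eq x.2.choose_spec.choose_spec h

variable (A π)

/-- The reduction. -/
def seriesRed : seriesInt A π →+* LaurentSeries k where
  toFun := seriesRedFun
  map_one' := by
    rw [seriesRedFun_eq 1 (y := 1) (z := 1) (by simpa using isSeriesRep_coeffMap (π := π) 1)]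
    simp
  map_zero' := by
    rw [seriesRedFun_eq 0 (y := 0) (z := 1) (by simpa using isSeriesRep_coeffMap (π := π) 0)]
    simp
  map_mul' x x' := by
    obtain ⟨y, z, h⟩ := x.2
    obtain ⟨y', z', h'⟩ := x'.2
    rw [seriesRedFun_eq (x * x') (h.mul h'), seriesRedFun_eq x h, seriesRedFun_eq x' h', map_mul,
      map_mul, div_mul_div_comm]
  map_add' x x' := by
    obtain ⟨y, z, h⟩ := x.2
    obtain ⟨y', z', h'⟩ := x'.2
    rw [seriesRedFun_eq (x + x') (h.add h'), seriesRedFun_eq x h, seriesRedFun_eq x' h',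
      div_add_div _ _ h.1 h'.1]
    simp only [map_add, map_mul]
    ring

variable {A π}

theorem seriesRed_eq (x : seriesInt A π) {y z : LaurentSeries A}
    (h : IsSeriesRep A π x y z) : seriesRed A π x = coeffMap π y / coeffMap π z :=
  seriesRedFun_eq x h

theorem seriesRed_coeffMap (y : LaurentSeries A) :
    seriesRed A π ⟨_, coeffMap_mem_seriesInt y⟩ = coeffMap π y := by
  have h := seriesRed_eq (A := A) (π := π) ⟨_, coeffMap_mem_seriesInt y⟩ (y := y) (z := 1)
    (isSeriesRep_coeffMap y)
  rw [h, map_one, div_one]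

theorem seriesRed_congr {x x' : LaurentSeries K} (e : x = x') (h : x ∈ seriesInt A π) :
    seriesRed A π ⟨x, h⟩ = seriesRed A π ⟨x', e ▸ h⟩ := by subst e; rfl

theorem coeffMap_const' {R S : Type*} [CommRing R] [CommRing S] (f : R →+* S) (a : R) :
    coeffMap f (HahnSeries.C a) = HahnSeries.C (f a) := by
  rw [HahnSeries.C_apply, coeffMap_single, HahnSeries.C_apply]

theorem const_mem_seriesInt (a : A) : algebraMap K (LaurentSeries K) a ∈ seriesInt A π := by
  have := coeffMap_mem_seriesInt (π := π) (HahnSeries.C a : LaurentSeries A)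
  rwa [coeffMap_const', HahnSeries.C_apply, ← algebraMap_laurentSeries_eq_single] at this

theorem seriesRed_const (a : A) :
    seriesRed A π ⟨_, const_mem_seriesInt a⟩ = algebraMap k (LaurentSeries k) (π a) := by
  have e : algebraMap K (LaurentSeries K) a = coeffMap A.subtype (HahnSeries.C a) := by
    rw [coeffMap_const', HahnSeries.C_apply, algebraMap_laurentSeries_eq_single]; rfl
  rw [seriesRed_congr e, seriesRed_coeffMap, coeffMap_const', HahnSeries.C_apply,
    algebraMap_laurentSeries_eq_single]

section Rational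

open FermatAgent.Igusa

variable (q : ℕ) [Fact q.Prime]

/-- A non-zero series over `ℤ_(q)` is a power of `q` times one with non-zero reduction. -/
theorem exists_pow_mul (s : LaurentSeries (zlVal q)) (hs : s ≠ 0) :
    ∃ (m : ℕ) (t : LaurentSeries (zlVal q)), coeffMap (zlRes q) t ≠ 0 ∧
      s = HahnSeries.C ((q : zlVal q) ^ m) * t := by
  obtain ⟨i, hi⟩ : ∃ i, s.coeff i ≠ 0 := by
    by_contra h
    push Not at h
    exact hs (HahnSeries.ext (funext h))
  suffices key : ∀ (M : ℕ) (s : LaurentSeries (zlVal q)), ((s.coeff i : ℚ).num.natAbs = M) →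
      s.coeff i ≠ 0 → ∃ (m : ℕ) (t : LaurentSeries (zlVal q)), coeffMap (zlRes q) t ≠ 0 ∧
        s = HahnSeries.C ((q : zlVal q) ^ m) * t from key _ s rfl hi
  intro M
  induction M using Nat.strong_induction_on with
  | _ M ih =>
    intro s hM hi
    by_cases h : coeffMap (zlRes q) s = 0
    · have hz : ∀ n, zlRes q (s.coeff n) = 0 := fun n => by
        simpa using congrArg (fun x : LaurentSeries (ZMod q) => x.coeff n) h
      choose t ht using fun n => exists_eq_mul_of_zlRes_eq_zero q (hz n)
      have hq0 : (q : zlVal q) ≠ 0 := fun e => by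
        have := congrArg (Subtype.val : zlVal q → ℚ) e
        simp [(Fact.out : q.Prime).ne_zero] at this
      let s' : LaurentSeries (zlVal q) := ⟨t, s.isPWO_support.mono fun n hn => by
        rw [HahnSeries.mem_support, ht n]
        exact mul_ne_zero hq0 hn⟩
      have hss : s = HahnSeries.C (q : zlVal q) * s' := by
        ext n
        rw [HahnSeries.C_mul_eq_smul, HahnSeries.coeff_smul, ht n, smul_eq_mul]
      have hi' : s'.coeff i ≠ 0 := fun e => hi (by
        change t i = 0 at e
        rw [ht i, e, mul_zero])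
      have hlt : (s'.coeff i : ℚ).num.natAbs < M := by
        change (t i : ℚ).num.natAbs < M
        have hr : (s.coeff i : ℚ) = (q : ℚ) * (t i : ℚ) := by rw [ht i]; rfl
        have hnum : (s.coeff i : ℚ).num * (t i : ℚ).den =
            (q : ℤ) * (t i : ℚ).num * (s.coeff i : ℚ).den := by
          have h1 := (s.coeff i : ℚ).num_div_den
          have h2 := (t i : ℚ).num_div_den
          have h3 : ((s.coeff i : ℚ).num : ℚ) * (t i : ℚ).den =
              (q : ℚ) * (t i : ℚ).num * (s.coeff i : ℚ).den := by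
            rw [← h1, ← h2] at hr
            field_simp at hr
            linear_combination hr
          exact_mod_cast h3
        have hcop : ((s.coeff i : ℚ).num.natAbs).Coprime (s.coeff i : ℚ).den :=
          (s.coeff i : ℚ).reduced
        have hcop' : ((t i : ℚ).num.natAbs).Coprime (t i : ℚ).den := (t i : ℚ).reduced
        have hnat : (s.coeff i : ℚ).num.natAbs * (t i : ℚ).den =
            q * (t i : ℚ).num.natAbs * (s.coeff i : ℚ).den := by
          have := congrArg Int.natAbs hnum
          simpa [Int.natAbs_mul] using this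
        have hqd : q.Coprime (t i : ℚ).den :=
          (mem_zlVal q).mp (t i).2 |>.symm
        have hde : (t i : ℚ).den = (s.coeff i : ℚ).den := by
          refine Nat.dvd_antisymm ?_ ?_
          · refine (Nat.Coprime.mul_left hqd hcop').symm.dvd_of_dvd_mul_left ?_
            exact ⟨(s.coeff i : ℚ).num.natAbs, by rw [mul_comm (t i : ℚ).den]; exact hnat.symm⟩
          · refine hcop.symm.dvd_of_dvd_mul_left ?_
            exact ⟨q * (t i : ℚ).num.natAbs, by rw [hnat]; ring⟩
        rw [hde] at hnat
        have heq : (s.coeff i : ℚ).num.natAbs = q * (t i : ℚ).num.natAbs :=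
          Nat.eq_of_mul_eq_mul_right (s.coeff i : ℚ).den_pos hnat
        have hpos : 0 < (t i : ℚ).num.natAbs := Int.natAbs_pos.mpr
          (Rat.num_ne_zero.mpr fun e => hi' (Subtype.ext e))
        rw [← hM, heq]
        exact lt_mul_of_one_lt_left hpos (Fact.out : q.Prime).one_lt
      obtain ⟨m, u, hu, he⟩ := ih _ hlt s' rfl hi'
      exact ⟨m + 1, u, hu, by rw [hss, he, pow_succ', map_mul, mul_assoc]⟩
    · exact ⟨0, s, h, by rw [pow_zero, map_one, one_mul]⟩

/-- Finitely many series over `ℤ_(q)` are combinations of series with independent reductions. -/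
theorem exists_residual_basis (W : Submodule ℚ (LaurentSeries ℚ)) [Module.Finite ℚ W]
    (hW : ∀ w ∈ W, ∃ (c : ℚ) (y : LaurentSeries (zlVal q)),
      w = c • coeffMap (zlVal q).subtype y) :
    ∃ (r : ℕ) (e : Fin r → LaurentSeries (zlVal q)),
      LinearIndependent (ZMod q) (fun j n => zlRes q ((e j).coeff n)) ∧
      W ≤ Submodule.span ℚ (Set.range fun j => coeffMap (zlVal q).subtype (e j)) ∧
      ∀ j, coeffMap (zlVal q).subtype (e j) ∈ W := by
  classical
  suffices key : ∀ (D : ℕ) (W : Submodule ℚ (LaurentSeries ℚ)), Module.Finite ℚ W →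
      Module.finrank ℚ W ≤ D →
      (∀ w ∈ W, ∃ (c : ℚ) (y : LaurentSeries (zlVal q)),
        w = c • coeffMap (zlVal q).subtype y) →
      ∃ (r : ℕ) (e : Fin r → LaurentSeries (zlVal q)),
        (∀ j, coeffMap (zlVal q).subtype (e j) ∈ W) ∧
        LinearIndependent (ZMod q) (fun j n => zlRes q ((e j).coeff n)) ∧
        W ≤ Submodule.span ℚ (Set.range fun j => coeffMap (zlVal q).subtype (e j)) by
    obtain ⟨r, e, hm, hli, hsp⟩ := key _ W inferInstance le_rfl hW
    exact ⟨r, e, hli, hsp, hm⟩
  intro D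
  induction D with
  | zero =>
    intro W _ hD _
    refine ⟨0, Fin.elim0, fun j => j.elim0, linearIndependent_empty_type, ?_⟩
    rw [Submodule.finrank_eq_zero.mp (Nat.le_zero.mp hD)]
    exact bot_le
  | succ D ih =>
    intro W _ hD hW
    rcases eq_or_ne W ⊥ with rfl | hne
    · exact ⟨0, Fin.elim0, fun j => j.elim0, linearIndependent_empty_type, bot_le⟩
    obtain ⟨w, hw, hw0⟩ := Submodule.exists_mem_ne_zero_of_ne_bot hne
    obtain ⟨c, y, rfl⟩ := hW w hw
    have hy : y ≠ 0 := fun e => hw0 (by simp [e])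
    have hc : c ≠ 0 := fun e => hw0 (by simp [e])
    obtain ⟨m, t, ht, rfl⟩ := exists_pow_mul q y hy
    obtain ⟨i, hti⟩ : ∃ i, zlRes q (t.coeff i) ≠ 0 := by
      by_contra h
      push Not at h
      exact ht (HahnSeries.ext (funext h))
    have hq : (q : ℚ) ^ m ≠ 0 := pow_ne_zero _ (by exact_mod_cast (Fact.out : q.Prime).ne_zero)
    have htW : coeffMap (zlVal q).subtype t ∈ W := by
      have := W.smul_mem (c * (q : ℚ) ^ m)⁻¹ hw
      rw [map_mul, coeffMap_const', HahnSeries.C_mul_eq_smul, smul_smul, smul_smul,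
        show ((zlVal q).subtype) ((q : zlVal q) ^ m) = (q : ℚ) ^ m by simp,
        show (c * (q : ℚ) ^ m)⁻¹ * c * (q : ℚ) ^ m = 1 by field_simp, one_smul] at this
      exact this
    have hti' : (t.coeff i : ℚ) ≠ 0 := fun e => hti (by
      rw [show t.coeff i = 0 from Subtype.ext e, map_zero])
    let f : LaurentSeries ℚ →ₗ[ℚ] ℚ :=
      { toFun := fun s => s.coeff i
        map_add' := fun a b => rfl
        map_smul' := fun r a => rfl }
    set W' := W ⊓ LinearMap.ker f
    haveI : Module.Finite ℚ W' :=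
      Module.Finite.of_injective (Submodule.inclusion inf_le_left)
        (Submodule.inclusion_injective _)
    have hlt : Module.finrank ℚ W' < Module.finrank ℚ W :=
      Submodule.finrank_lt_finrank_of_lt (lt_of_le_of_ne inf_le_left fun e => by
        have : coeffMap (zlVal q).subtype t ∈ W' := e ▸ htW
        exact hti' (LinearMap.mem_ker.mp this.2))
    obtain ⟨r, e, heW, hli, hsp⟩ := ih W' inferInstance (by omega) fun w h => hW w h.1
    have hei : ∀ j, (e j).coeff i = 0 := fun j => Subtype.ext (LinearMap.mem_ker.mp (heW j).2)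
    refine ⟨r + 1, Fin.cons t e, Fin.cases htW (fun j => (heW j).1), ?_, fun s hs => ?_⟩
    · rw [Fintype.linearIndependent_iff]
      intro g hg
      have h0 : g 0 = 0 := by
        have := congrFun hg i
        simp [Fin.sum_univ_succ, hei] at this
        exact this.resolve_right hti
      have h1 : ∑ j, g j.succ • (fun n => zlRes q ((e j).coeff n)) = 0 := by
        simpa [Fin.sum_univ_succ, h0] using hg
      exact Fin.cases h0 fun j => Fintype.linearIndependent_iff.mp hli _ h1 j
    · set a := f s / (t.coeff i : ℚ)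
      have hs' : s - a • coeffMap (zlVal q).subtype t ∈ W' := by
        refine ⟨sub_mem hs (W.smul_mem a htW), LinearMap.mem_ker.mpr ?_⟩
        rw [map_sub, map_smul, show f (coeffMap (zlVal q).subtype t) = (t.coeff i : ℚ) from rfl,
          smul_eq_mul, div_mul_cancel₀ _ hti', sub_self]
      have hle : Submodule.span ℚ (Set.range fun j => coeffMap (zlVal q).subtype (e j)) ≤
          Submodule.span ℚ (Set.range fun j => coeffMap (zlVal q).subtype ((Fin.cons t e : Fin (r + 1) → LaurentSeries (zlVal q)) j)) :=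
        Submodule.span_mono fun _ ⟨j, hj⟩ => ⟨j.succ, by simpa using hj⟩
      have ht0 : coeffMap (zlVal q).subtype t ∈ Set.range fun j =>
          coeffMap (zlVal q).subtype ((Fin.cons t e : Fin (r + 1) → LaurentSeries (zlVal q)) j) :=
        ⟨0, by simp⟩
      have := add_mem (hle (hsp hs')) (Submodule.smul_mem _ a (Submodule.subset_span ht0))
      rwa [sub_add_cancel] at this

variable [CharP k q] [Algebra ℚ K] (hπ : Function.Surjective π)
include hπ

theorem natCast_isUnit {a : ℕ} (ha : ¬ q ∣ a) : IsUnit (a : A) := by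
  have hne : π (a : A) ≠ 0 := by
    rw [map_natCast, Ne, CharP.cast_eq_zero_iff k q]
    exact ha
  have hmax : (RingHom.ker π).IsMaximal := RingHom.ker_isMaximal_of_surjective π hπ
  by_contra hu
  exact hne (RingHom.mem_ker.mp
    ((IsLocalRing.eq_maximalIdeal hmax).symm ▸ (IsLocalRing.mem_maximalIdeal _).mpr hu))

theorem zl_mem (a : zlVal q) : algebraMap ℚ K (a : ℚ) ∈ A := by
  have hd : ¬ q ∣ (a : ℚ).den := fun h => by
    have hco := Nat.coprime_comm.mp ((mem_zlVal q).mp a.2)
    exact (Fact.out : q.Prime).one_lt.ne' (Nat.eq_one_of_dvd_coprimes hco dvd_rfl h)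
  obtain ⟨u, hu⟩ := natCast_isUnit (K := K) q hπ hd
  have e : algebraMap ℚ K (a : ℚ) = (((((a : ℚ).num : A)) * ((u⁻¹ : Aˣ) : A) : A) : K) := by
    have h1 : algebraMap ℚ K (a : ℚ) * (((a : ℚ).den : ℕ) : K) = (((a : ℚ).num : ℤ) : K) := by
      rw [← map_natCast (algebraMap ℚ K), ← map_mul, Rat.mul_den_eq_num, map_intCast]
    have h2 : ((((a : ℚ).den : ℕ)) : K) * (((u⁻¹ : Aˣ) : A) : K) = 1 := by
      have := congrArg (Subtype.val : A → K) u.mul_inv
      rw [hu] at this
      simpa using this
    push_cast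
    rw [← h1, mul_assoc, h2, mul_one]
  rw [e]
  exact SetLike.coe_mem _

/-- `ℤ_(q) → A`. -/
def zlToA : zlVal q →+* A :=
  ((algebraMap ℚ K).comp (zlVal q).subtype).codRestrict A.toSubring (zl_mem q hπ)

theorem pi_zlToA (a : zlVal q) :
    π (zlToA q hπ a) = ZMod.castHom (dvd_refl q) k (zlRes q a) := by
  have hd : (((a : ℚ).den : ℕ) : k) ≠ 0 := by
    rw [Ne, CharP.cast_eq_zero_iff k q]
    intro h
    exact den_cast_ne_zero q a ((ZMod.natCast_eq_zero_iff _ _).mpr h)
  refine mul_right_cancel₀ hd ?_
  have e : a * ((a : ℚ).den : zlVal q) = ((a : ℚ).num : zlVal q) :=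
    Subtype.ext (by push_cast; exact Rat.mul_den_eq_num _)
  have h1 := congrArg ((π.comp (zlToA q hπ))) e
  have h2 := congrArg ((ZMod.castHom (dvd_refl q) k).comp (zlRes q)) e
  simp only [RingHom.comp_apply, map_mul, map_natCast, map_intCast] at h1 h2
  rw [h1, h2]

theorem coeffEmb_zl (y : LaurentSeries (zlVal q)) :
    coeffEmb K (coeffMap (zlVal q).subtype y) =
      coeffMap A.subtype (coeffMap (zlToA q hπ) y) := by
  ext n
  simp only [coeffEmb_coeff, coeffMap_coeff]
  rfl

/-- Rational series with integral multiples: combinations can be normalised. -/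
theorem exists_normalize_combination {m : ℕ} (Y : Fin m → LaurentSeries (zlVal q))
    (c : Fin m → K)
    (h : ∑ l, algebraMap K (LaurentSeries K) (c l) *
      coeffEmb K (coeffMap (zlVal q).subtype (Y l)) ≠ 0) :
    ∃ (a : K) (y : LaurentSeries A), a ≠ 0 ∧ coeffMap π y ≠ 0 ∧
      algebraMap K (LaurentSeries K) a * (∑ l, algebraMap K (LaurentSeries K) (c l) *
        coeffEmb K (coeffMap (zlVal q).subtype (Y l))) = coeffMap A.subtype y := by
  classical
  set W := Submodule.span ℚ (Set.range fun l => coeffMap (zlVal q).subtype (Y l)) with hWdef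
  haveI : Module.Finite ℚ W := Module.Finite.span_of_finite ℚ (Set.finite_range _)
  have hq1 : ∀ w ∈ W, ∃ (c : ℚ) (y : LaurentSeries (zlVal q)),
      w = c • coeffMap (zlVal q).subtype y := by
    intro w hw
    obtain ⟨g, rfl⟩ := (Submodule.mem_span_range_iff_exists_fun ℚ).mp hw
    have hpow : ∀ r : ℚ, ∃ (n : ℕ) (a : zlVal q), n ≠ 0 ∧ r * n = (a : ℚ) := fun r =>
      ⟨r.den, (r.num : zlVal q), r.den_nz, by rw [Rat.mul_den_eq_num]; simp⟩
    choose n a hn ha using fun l => hpow (g l)
    refine ⟨(((∏ l, n l) : ℕ) : ℚ)⁻¹,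
      ∑ l, HahnSeries.C (a l * ((∏ i ∈ Finset.univ.erase l, n i : ℕ) : zlVal q)) * Y l, ?_⟩
    have hN : (((∏ l, n l) : ℕ) : ℚ) ≠ 0 := by
      exact_mod_cast Finset.prod_ne_zero_iff.mpr fun l _ => hn l
    rw [eq_inv_smul_iff₀ hN, map_sum, Finset.smul_sum]
    refine Finset.sum_congr rfl fun l _ => ?_
    rw [map_mul, coeffMap_const', HahnSeries.C_mul_eq_smul, smul_smul]
    congr 1
    rw [map_mul, map_natCast, show ((zlVal q).subtype) (a l) = g l * n l from (ha l).symm,
      ← Finset.mul_prod_erase _ _ (Finset.mem_univ l)]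
    push_cast
    ring
  obtain ⟨r, e, hli, hsp, -⟩ := exists_residual_basis q W hq1
  have hcoord : ∀ l, ∃ g : Fin r → ℚ,
      ∑ j, g j • coeffMap (zlVal q).subtype (e j) = coeffMap (zlVal q).subtype (Y l) := fun l =>
    (Submodule.mem_span_range_iff_exists_fun ℚ).mp (hsp (Submodule.subset_span ⟨l, rfl⟩))
  choose g hg using hcoord
  set C' : Fin r → K := fun j => ∑ l, c l * algebraMap ℚ K (g l j) with hC
  set x := ∑ l, algebraMap K (LaurentSeries K) (c l) *
    coeffEmb K (coeffMap (zlVal q).subtype (Y l)) with hxdef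
  have hxC : x = ∑ j, algebraMap K (LaurentSeries K) (C' j) *
      coeffEmb K (coeffMap (zlVal q).subtype (e j)) := by
    ext n
    simp only [hxdef, hC, HahnSeries.coeff_sum, algebraMap_laurentSeries_eq_single,
      HahnSeries.coeff_single_zero_mul, coeffEmb_coeff, Finset.sum_mul]
    rw [Finset.sum_comm]
    refine Finset.sum_congr rfl fun l _ => ?_
    rw [← congrArg (fun s : LaurentSeries ℚ => s.coeff n) (hg l)]
    simp only [HahnSeries.coeff_sum, HahnSeries.coeff_smul, map_sum, smul_eq_mul, map_mul,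
      Finset.mul_sum]
    exact Finset.sum_congr rfl fun j _ => by ring
  obtain ⟨j₀, -, hj₀⟩ := Finset.exists_ne_zero_of_sum_ne_zero (hxC ▸ h)
  obtain ⟨j₁, -, hmax⟩ := Finset.univ.exists_max_image (fun j => A.valuation (C' j))
    ⟨j₀, Finset.mem_univ j₀⟩
  have hj₁ : C' j₁ ≠ 0 := by
    intro hz
    have := hmax j₀ (Finset.mem_univ _)
    rw [hz, map_zero, le_zero_iff, map_eq_zero] at this
    exact hj₀ (by rw [this, map_zero, zero_mul])
  have hmem : ∀ j, C' j / C' j₁ ∈ A := fun j => (A.valuation_le_one_iff _).mp (by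
    rw [map_div₀]
    exact div_le_one_of_le₀ (hmax j (Finset.mem_univ j)) zero_le)
  set y : LaurentSeries A :=
    ∑ j, HahnSeries.C (⟨_, hmem j⟩ : A) * coeffMap (zlToA q hπ) (e j) with hy
  refine ⟨(C' j₁)⁻¹, y, inv_ne_zero hj₁, fun h0 => ?_, ?_⟩
  · have hindep := FermatAgent.JacCharts.linearIndependent_of_residual
      (ZMod.castHom (dvd_refl q) k) (RingHom.id (ZMod q))
      (fun r hr => (map_ne_zero_iff _ (RingHom.injective _)).mpr hr)
      (v := fun j n => zlRes q ((e j).coeff n)) (by simpa using hli)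
    have h1 : π (⟨_, hmem j₁⟩ : A) = 0 := by
      refine Fintype.linearIndependent_iff.mp hindep (fun j => π ⟨_, hmem j⟩) (funext fun n => ?_) j₁
      have := congrArg (fun s : LaurentSeries k => s.coeff n) h0
      simp only [hy, map_sum, map_mul, HahnSeries.coeff_sum,
        HahnSeries.C_mul_eq_smul, HahnSeries.coeff_smul, coeffMap_coeff, smul_eq_mul,
        pi_zlToA q hπ, HahnSeries.coeff_zero] at this
      simpa using this
    rw [show (⟨_, hmem j₁⟩ : A) = 1 from Subtype.ext (div_self hj₁), map_one] at h1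
    exact one_ne_zero h1
  · rw [hxC, Finset.mul_sum, hy, map_sum]
    refine Finset.sum_congr rfl fun j _ => ?_
    rw [map_mul, coeffMap_const', ← coeffEmb_zl, ← mul_assoc, ← map_mul]
    congr 1
    rw [algebraMap_laurentSeries_eq_single, HahnSeries.C_apply]
    congr 1
    show (C' j₁)⁻¹ * C' j = C' j / C' j₁
    rw [inv_mul_eq_div]

end Rational

end FermatAgent.BadRed.Semistable
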