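import Fermat.Agent.BadRed.Semistable.Orth
import Fermat.Agent.BadRed.Semistable.Series
import Fermat.Agent.Igusa.Down.Model
import Fermat.Agent.BadRed.Carayol.Instance.Laurent

/-!
# The Gauss valuation of the modular function field of any level

Over any field with a valuation subring of residue characteristic `q`, the expansion at infinity
gives a Gauss valuation with values in `k((t))`; every finite set of functions lies in the span of
a family with independent reductions.
-/

set_option autoImplicit false
set_option linter.unusedSectionVars false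
set_option linter.style.haveILetI false

noncomputable section

open ModularCurve

namespace FermatAgent.BadRed.Semistable

open FermatAgent.Igusa FermatAgent.ModFun

/-- Linear independence, phrased with the structure map. -/
theorem linearIndependent_of_algebraMap {k L : Type*} [Field k] [Field L] [Algebra k L] {ι : Type*}
    [Fintype ι] {v : ι → L} (h : ∀ g : ι → k, ∑ i, algebraMap k L (g i) * v i = 0 → ∀ i, g i = 0) :
    LinearIndependent k v :=
  Fintype.linearIndependent_iff.mpr fun g hg => h g (by simpa only [Algebra.smul_def] using hg)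

variable (K : Type*) [Field K] [Algebra ℚ K] (q : ℕ) [Fact q.Prime] (M : ℕ) [NeZero M]

/-- The functions whose series has coefficients in `ℤ_(q)`. -/
def ratSeries : Subring (laurentBaseChange K (modularFunctionFieldFull M)) :=
  ((coeffEmb K).comp (coeffMap (zlVal q).subtype)).range.comap
    (laurentBaseChange K (modularFunctionFieldFull M)).val.toRingHom

/-- Their combinations. -/
def ratSpan : Subalgebra K (laurentBaseChange K (modularFunctionFieldFull M)) :=
  Algebra.adjoin K (ratSeries K q M : Set (laurentBaseChange K (modularFunctionFieldFull M)))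

variable {K M}

theorem mem_ratSpan {f : laurentBaseChange K (modularFunctionFieldFull M)} :
    f ∈ ratSpan K q M ↔ f ∈ Submodule.span K
      (ratSeries K q M : Set (laurentBaseChange K (modularFunctionFieldFull M))) := by
  have h : Submonoid.closure
      ((ratSeries K q M : Set (laurentBaseChange K (modularFunctionFieldFull M)))) =
        (ratSeries K q M).toSubmonoid := Submonoid.closure_eq (ratSeries K q M).toSubmonoid
  rw [← Subalgebra.mem_toSubmodule, ratSpan, Algebra.adjoin_eq_span, h]
  rfl

theorem jBar_mem_ratSeries : jBar K M ∈ ratSeries K q M :=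
  ⟨jqModC (zlVal q), by
    rw [RingHom.comp_apply, coeffMap_jqModC, coeffEmb, coeffMap_jqModC]; rfl⟩

theorem jNBar_mem_ratSeries : jNBar K M ∈ ratSeries K q M :=
  ⟨jqNModC (zlVal q) M, by
    rw [RingHom.comp_apply, coeffMap_jqNModC, coeffEmb, coeffMap_jqNModC]; rfl⟩

theorem biEval_mem_ratSpan (P : Polynomial (Polynomial K)) :
    biEval (jBar K M) (jNBar K M) P ∈ ratSpan K q M := by
  have hj : jBar K M ∈ ratSpan K q M := Algebra.subset_adjoin (jBar_mem_ratSeries q)
  induction P using Polynomial.induction_on' with
  | add P P' hP hP' => rw [map_add]; exact add_mem hP hP'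
  | monomial n a =>
    rw [biEval_monomial]
    refine mul_mem ?_ (pow_mem (Algebra.subset_adjoin (jNBar_mem_ratSeries q)) _)
    induction a using Polynomial.induction_on' with
    | add a b ha hb => rw [map_add]; exact add_mem ha hb
    | monomial i c =>
      rw [Polynomial.aeval_monomial]
      exact mul_mem (Subalgebra.algebraMap_mem _ c) (pow_mem hj _)

theorem exists_num_den (f : laurentBaseChange K (modularFunctionFieldFull M)) :
    ∃ a b, a ∈ ratSpan K q M ∧ b ∈ ratSpan K q M ∧ b ≠ 0 ∧ f * b = a := by
  have hf : (f : LaurentSeries K) ∈ modularFunctionFieldC K M := by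
    rw [← laurentBaseChange_full_eq]; exact f.2
  obtain ⟨P, Q, hQ, e⟩ := Igusa.Down.exists_gev_quotient K M hf
  have hev := Igusa.Down.coe_biEval_eq_gev (K := K) (N := M) (jBar K M) (jNBar K M) rfl rfl
  refine ⟨_, _, biEval_mem_ratSpan q P, biEval_mem_ratSpan q Q, fun h => hQ ?_, Subtype.ext ?_⟩
  · rw [← hev, h]; rfl
  · rw [MulMemClass.coe_mul, hev, hev, e]

theorem coe_smul_ratSeries (c : K) (f : laurentBaseChange K (modularFunctionFieldFull M)) :
    ((c • f : laurentBaseChange K (modularFunctionFieldFull M)) : LaurentSeries K) =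
      algebraMap K (LaurentSeries K) c * (f : LaurentSeries K) := by
  rw [Algebra.smul_def, MulMemClass.coe_mul]
  rfl

variable {A : ValuationSubring K} {k : Type*} [Field k] {π : A →+* k}
variable [CharP k q] (hπ : Function.Surjective π)
include hπ

theorem exists_normalize_ratSpan {x : laurentBaseChange K (modularFunctionFieldFull M)}
    (hx : x ∈ ratSpan K q M) (hx0 : x ≠ 0) :
    ∃ (a : K) (y : LaurentSeries A), a ≠ 0 ∧ coeffMap π y ≠ 0 ∧
      ((a • x : laurentBaseChange K (modularFunctionFieldFull M)) : LaurentSeries K) =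
        coeffMap A.subtype y := by
  rw [mem_ratSpan, Submodule.mem_span_set'] at hx
  obtain ⟨n, c, g, rfl⟩ := hx
  choose Y hY using fun i => (g i).2
  have e : ((∑ i, c i • (g i : laurentBaseChange K (modularFunctionFieldFull M)) :
      laurentBaseChange K (modularFunctionFieldFull M)) : LaurentSeries K) =
      ∑ i, algebraMap K (LaurentSeries K) (c i) *
        coeffEmb K (coeffMap (zlVal q).subtype (Y i)) := by
    rw [AddSubmonoidClass.coe_finsetSum]
    exact Finset.sum_congr rfl fun i _ => by
      rw [coe_smul_ratSeries]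
      exact congrArg _ (hY i).symm
  have hne : ∑ i, algebraMap K (LaurentSeries K) (c i) *
      coeffEmb K (coeffMap (zlVal q).subtype (Y i)) ≠ 0 :=
    fun h => hx0 (Subtype.ext (e.trans h))
  obtain ⟨a, y, ha, hy, he⟩ := exists_normalize_combination q hπ Y c hne
  exact ⟨a, y, ha, hy, by rw [coe_smul_ratSeries, e, he]⟩

variable (M)

omit [CharP k q] hπ in
/-- The integers of the Gauss valuation. -/
def fieldInt (A : ValuationSubring K) (π : A →+* k) :
    Subring (laurentBaseChange K (modularFunctionFieldFull M)) :=
  (seriesInt A π).comap (laurentBaseChange K (modularFunctionFieldFull M)).val.toRingHom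

omit [CharP k q] hπ in
theorem mem_fieldInt {f : laurentBaseChange K (modularFunctionFieldFull M)}
    (h : f ∈ fieldInt M A π) : (f : LaurentSeries K) ∈ seriesInt A π := h

omit [CharP k q] hπ in
/-- The reduction on the integers. -/
def fieldRed (A : ValuationSubring K) (π : A →+* k) :
    fieldInt M A π →+* LaurentSeries k :=
  (seriesRed A π).comp
    (((laurentBaseChange K (modularFunctionFieldFull M)).val.toRingHom.comp
      (fieldInt M A π).subtype).codRestrict (seriesInt A π) fun x => mem_fieldInt M x.2)

omit [CharP k q] hπ in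
theorem fieldRed_of_rep {f : laurentBaseChange K (modularFunctionFieldFull M)}
    {y z : LaurentSeries A} (h : IsSeriesRep A π (f : LaurentSeries K) y z) :
    ∃ hf : f ∈ fieldInt M A π, fieldRed M A π ⟨f, hf⟩ = coeffMap π y / coeffMap π z :=
  ⟨⟨y, z, h⟩, seriesRed_eq _ h⟩

omit [CharP k q] hπ in
theorem fieldRed_const (a : A) :
    ∃ h : algebraMap K (laurentBaseChange K (modularFunctionFieldFull M)) (a : K) ∈ fieldInt M A π,
      fieldRed M A π ⟨_, h⟩ = algebraMap k (LaurentSeries k) (π a) :=
  ⟨const_mem_seriesInt a, seriesRed_const a⟩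

include q in
theorem fieldRed_normalize (f : laurentBaseChange K (modularFunctionFieldFull M)) (hf : f ≠ 0) :
    ∃ (c : K) (h : c • f ∈ fieldInt M A π), fieldRed M A π ⟨c • f, h⟩ ≠ 0 := by
  obtain ⟨a, b, ha, hb, hb0, e⟩ := exists_num_den q f
  have ha0 : a ≠ 0 := fun h => by
    rw [h] at e
    exact hf ((mul_eq_zero.mp e).resolve_right hb0)
  obtain ⟨α, y, hα, hy, hay⟩ := exists_normalize_ratSpan q hπ ha ha0
  obtain ⟨β, z, hβ, hz, hbz⟩ := exists_normalize_ratSpan q hπ hb hb0
  have hmul : (α / β) • f * (β • b) = α • a := by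
    rw [smul_mul_smul_comm, div_mul_cancel₀ _ hβ, e]
  have hrep : IsSeriesRep A π (((α / β) • f : laurentBaseChange K (modularFunctionFieldFull M)) :
      LaurentSeries K) y z := by
    refine ⟨hz, ?_⟩
    rw [← hay, ← hbz, ← MulMemClass.coe_mul, hmul]
  obtain ⟨h, hred⟩ := fieldRed_of_rep M hrep
  exact ⟨α / β, h, hred.symm ▸ div_ne_zero hy hz⟩

include q in
/-- The Gauss valuation with values in Laurent series. -/
def seriesGauss :
    GaussRed A π (laurentBaseChange K (modularFunctionFieldFull M)) (LaurentSeries k) where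
  integers := fieldInt M A π
  red := fieldRed M A π
  algebraMap_mem a := (fieldRed_const M a).1
  red_algebraMap a := (fieldRed_const M a).2
  exists_normalize f hf := fieldRed_normalize q M hπ f hf

variable {M}

theorem seriesGauss_red_of_rep {f : laurentBaseChange K (modularFunctionFieldFull M)}
    {y z : LaurentSeries A} (h : IsSeriesRep A π (f : LaurentSeries K) y z) :
    ∃ hf : f ∈ (seriesGauss q M hπ).integers,
      (seriesGauss q M hπ).red ⟨f, hf⟩ = coeffMap π y / coeffMap π z :=
  fieldRed_of_rep M h

theorem seriesGauss_hasOrth : (seriesGauss q M hπ).HasOrth := by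
  classical
  intro T
  choose a b ha hb hb0 e using fun f : T => exists_num_den q f.1
  set Z := ∏ f : T, b f with hZdef
  have hZ : Z ∈ ratSpan K q M := prod_mem fun f _ => hb f
  have hZ0 : Z ≠ 0 := Finset.prod_ne_zero_iff.mpr fun f _ => hb0 f
  obtain ⟨γ, z, hγ, hz, hZz⟩ := exists_normalize_ratSpan q hπ hZ hZ0
  have hnum : ∀ f : T, (f : laurentBaseChange K (modularFunctionFieldFull M)) * (γ • Z) ∈
      Submodule.span K
        (ratSeries K q M : Set (laurentBaseChange K (modularFunctionFieldFull M))) := fun f => by
    rw [← mem_ratSpan, hZdef, ← Finset.mul_prod_erase _ _ (Finset.mem_univ f), mul_smul_comm,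
      ← mul_assoc, e f]
    exact Subalgebra.smul_mem _ (mul_mem (ha f) (prod_mem fun g _ => hb g)) γ
  choose S hS hfS using fun f => Submodule.mem_span_finite_of_mem_span (hnum f)
  let U : Finset (laurentBaseChange K (modularFunctionFieldFull M)) := Finset.univ.biUnion S
  have hU : ∀ u ∈ U, u ∈ ratSeries K q M := fun u hu => by
    obtain ⟨f, -, hf⟩ := Finset.mem_biUnion.mp hu
    exact hS f hf
  choose Y hY using fun u : U => hU u.1 u.2
  let W : Submodule ℚ (LaurentSeries ℚ) :=
    Submodule.span ℚ (Set.range fun u => coeffMap (zlVal q).subtype (Y u))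
  haveI : Module.Finite ℚ W := Module.Finite.span_of_finite ℚ (Set.finite_range _)
  have hW : ∀ w ∈ W, ∃ (c : ℚ) (y : LaurentSeries (zlVal q)),
      w = c • coeffMap (zlVal q).subtype y := by
    intro w hw
    obtain ⟨g, rfl⟩ := (Submodule.mem_span_range_iff_exists_fun ℚ).mp hw
    have hpow : ∀ r : ℚ, ∃ (n : ℕ) (a : zlVal q), n ≠ 0 ∧ r * n = (a : ℚ) := fun r =>
      ⟨r.den, (r.num : zlVal q), r.den_nz, by rw [Rat.mul_den_eq_num]; simp⟩
    choose n c hn hc using fun u => hpow (g u)
    refine ⟨(((∏ u, n u) : ℕ) : ℚ)⁻¹,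
      ∑ u, HahnSeries.C (c u * ((∏ i ∈ Finset.univ.erase u, n i : ℕ) : zlVal q)) * Y u, ?_⟩
    have hN : (((∏ u, n u) : ℕ) : ℚ) ≠ 0 := by
      exact_mod_cast Finset.prod_ne_zero_iff.mpr fun u _ => hn u
    rw [eq_inv_smul_iff₀ hN, map_sum, Finset.smul_sum]
    refine Finset.sum_congr rfl fun u _ => ?_
    rw [map_mul, coeffMap_const', HahnSeries.C_mul_eq_smul, smul_smul]
    congr 1
    rw [map_mul, map_natCast, show ((zlVal q).subtype) (c u) = g u * n u from (hc u).symm,
      ← Finset.mul_prod_erase _ _ (Finset.mem_univ u)]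
    push_cast
    ring
  obtain ⟨r, ε, hli, hsp, hmem⟩ := exists_residual_basis q W hW
  have hsmul : ∀ (c : ℚ) (y : LaurentSeries ℚ), coeffEmb K (c • y) =
      algebraMap K (LaurentSeries K) (algebraMap ℚ K c) * coeffEmb K y := by
    intro c y
    ext m
    rw [coeffEmb_coeff, HahnSeries.coeff_smul, smul_eq_mul, map_mul,
      algebraMap_laurentSeries_eq_single, HahnSeries.coeff_single_zero_mul, coeffEmb_coeff]
  have hlift : ∀ j, ∃ u : laurentBaseChange K (modularFunctionFieldFull M),
      (u : LaurentSeries K) = coeffEmb K (coeffMap (zlVal q).subtype (ε j)) := by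
    intro j
    obtain ⟨g, hg⟩ := (Submodule.mem_span_range_iff_exists_fun ℚ).mp (hmem j)
    refine ⟨⟨_, ?_⟩, rfl⟩
    rw [← hg, map_sum]
    refine sum_mem fun u _ => ?_
    rw [hsmul]
    refine mul_mem (IntermediateField.algebraMap_mem _ _) ?_
    rw [show coeffEmb K (coeffMap (zlVal q).subtype (Y u)) = ((u : _) : LaurentSeries K) from hY u]
    exact (u : laurentBaseChange K (modularFunctionFieldFull M)).2
  choose E hE using hlift
  have hγZ : γ • Z ≠ 0 := smul_ne_zero hγ hZ0
  let e' : Fin r → laurentBaseChange K (modularFunctionFieldFull M) := fun j => E j * (γ • Z)⁻¹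
  have hrep : ∀ j, IsSeriesRep A π (e' j : LaurentSeries K) (coeffMap (zlToA q hπ) (ε j)) z :=
    fun j => ⟨hz, by
      rw [← coeffEmb_zl q hπ, ← hE, ← hZz, ← MulMemClass.coe_mul, inv_mul_cancel_right₀ hγZ]⟩
  refine ⟨r, e', fun j => (seriesGauss_red_of_rep q hπ (hrep j)).1, ?_, fun f hf => ?_⟩
  · have h0 := FermatAgent.JacCharts.linearIndependent_of_residual
      (ZMod.castHom (dvd_refl q) k) (RingHom.id (ZMod q))
      (fun r hr => (map_ne_zero_iff _ (RingHom.injective _)).mpr hr)
      (v := fun j n => zlRes q ((ε j).coeff n)) (by simpa using hli)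
    refine linearIndependent_of_algebraMap fun g hg => ?_
    rw [Fintype.linearIndependent_iff] at h0
    simp only [(seriesGauss_red_of_rep q hπ (hrep _)).2, ← mul_div_assoc,
      ← Finset.sum_div, div_eq_zero_iff] at hg
    have hg' := hg.resolve_right hz
    refine h0 g (funext fun n => ?_)
    have := congrArg (fun s : LaurentSeries k => s.coeff n) hg'
    simp only [HahnSeries.coeff_sum, algebraMap_laurentSeries_eq_single,
      HahnSeries.coeff_single_zero_mul, coeffMap_coeff, pi_zlToA, HahnSeries.coeff_zero] at this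
    simpa using this
  · have hUε : ∀ u : U, (u : laurentBaseChange K (modularFunctionFieldFull M)) ∈
        Submodule.span K (Set.range E) := by
      intro u
      obtain ⟨g, hg⟩ := (Submodule.mem_span_range_iff_exists_fun ℚ).mp
        (hsp (Submodule.subset_span ⟨u, rfl⟩))
      have : (u : laurentBaseChange K (modularFunctionFieldFull M)) =
          ∑ j, algebraMap ℚ K (g j) • E j := by
        refine Subtype.ext ?_
        rw [AddSubmonoidClass.coe_finsetSum]
        refine (hY u).symm.trans ((congrArg (coeffEmb K) hg).symm.trans ?_)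
        rw [map_sum]
        exact Finset.sum_congr rfl fun j _ => by rw [coe_smul_ratSeries, hE, hsmul]
      rw [this]
      exact sum_mem fun j _ => Submodule.smul_mem _ _ (Submodule.subset_span ⟨j, rfl⟩)
    have hf' : f * (γ • Z) ∈ Submodule.span K (Set.range E) :=
      Submodule.span_le.mpr (fun u hu => hUε ⟨u, Finset.mem_biUnion.mpr
        ⟨⟨f, hf⟩, Finset.mem_univ _, hu⟩⟩) (hfS ⟨f, hf⟩)
    have h1 := Submodule.mem_map_of_mem (f := LinearMap.mulRight K (γ • Z)⁻¹) hf'
    rw [Submodule.map_span, ← Set.range_comp, LinearMap.mulRight_apply,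
      mul_inv_cancel_right₀ hγZ] at h1
    exact h1

end FermatAgent.BadRed.Semistable
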