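import Fermat.Agent.BadRed.Semistable.Glue

/-!
# Simultaneous approximation by a subalgebra of a product of two function fields

`B` is a subalgebra of `F₁ × F₂`, regular at a finite set `S` of points of the two curves. If `B`
has at every point an element of order one which vanishes to second order at the other points
not separated from it, then every pair with equal values at unseparated points is approximated
to any order on `S` by a finite-dimensional piece of `B`.
-/

set_option autoImplicit false
set_option linter.unusedSectionVars false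

noncomputable section

open WithZero AlgebraicCurve

namespace FermatAgent.BadRed.Semistable

open FermatAgent.Curve FermatAgent.Curve.RR

variable {k F₁ F₂ : Type*} [Field k] [Field F₁] [Field F₂] [Algebra k F₁] [Algebra k F₂]
  [IsAlgClosed k] [IsFunctionField1 k F₁] [IsFunctionField1 k F₂]

/-- A point of one of the two curves. -/
abbrev PairPt (k F₁ F₂ : Type*) [Field k] [Field F₁] [Field F₂] [Algebra k F₁] [Algebra k F₂] :=
  Place k F₁ ⊕ Place k F₂

namespace PairPt

/-- The valuation at a point. -/
def val : PairPt k F₁ F₂ → Valuation (F₁ × F₂) ℤᵐ⁰ :=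
  Sum.elim (fun v => v.adicValuation.comap (RingHom.fst F₁ F₂))
    fun v => v.adicValuation.comap (RingHom.snd F₁ F₂)

/-- The value at a point. -/
def value : PairPt k F₁ F₂ → F₁ × F₂ → k :=
  Sum.elim (fun v p => valueAt v p.1) fun v p => valueAt v p.2

variable {P : PairPt k F₁ F₂} {p p' : F₁ × F₂}

@[simp] theorem val_inl (v : Place k F₁) (p : F₁ × F₂) :
    val (Sum.inl v : PairPt k F₁ F₂) p = v.adicValuation p.1 := rfl

@[simp] theorem val_inr (v : Place k F₂) (p : F₁ × F₂) :
    val (Sum.inr v : PairPt k F₁ F₂) p = v.adicValuation p.2 := rfl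

@[simp] theorem value_inl (v : Place k F₁) (p : F₁ × F₂) :
    value (Sum.inl v : PairPt k F₁ F₂) p = valueAt v p.1 := rfl

@[simp] theorem value_inr (v : Place k F₂) (p : F₁ × F₂) :
    value (Sum.inr v : PairPt k F₁ F₂) p = valueAt v p.2 := rfl

theorem value_sub (h : val P p ≤ 1) (h' : val P p' ≤ 1) :
    value P (p - p') = value P p - value P p' := by
  cases P <;> exact valueAt_sub _ (mem_of_le_one h) (mem_of_le_one h')

theorem value_mul (h : val P p ≤ 1) (h' : val P p' ≤ 1) :
    value P (p * p') = value P p * value P p' := by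
  cases P <;> exact valueAt_mul _ (mem_of_le_one h) (mem_of_le_one h')

theorem value_smul (h : val P p ≤ 1) (c : k) : value P (c • p) = c * value P p := by
  cases P <;> exact valueAt_smul h c

theorem value_algebraMap (c : k) : value P (algebraMap k (F₁ × F₂) c) = c := by
  cases P <;> exact valueAt_algebraMap _ c

theorem value_one : value P (1 : F₁ × F₂) = 1 := by
  rw [← map_one (algebraMap k (F₁ × F₂)), value_algebraMap]

theorem value_eq_zero_iff (h : val P p ≤ 1) : value P p = 0 ↔ val P p ≤ exp (-1) := by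
  cases P with
  | inl v =>
    refine ((adicValuation_lt_one_iff h).symm).trans ⟨fun hlt => le_exp_of_lt_exp_succ ?_,
      lt_one_of_le_exp_neg (by norm_num)⟩
    simpa using hlt
  | inr v =>
    refine ((adicValuation_lt_one_iff h).symm).trans ⟨fun hlt => le_exp_of_lt_exp_succ ?_,
      lt_one_of_le_exp_neg (by norm_num)⟩
    simpa using hlt

theorem val_smul_le (c : k) : val P (c • p) ≤ val P p := by
  cases P with
  | inl v =>
    show v.adicValuation (c • p.1) ≤ _
    rw [Algebra.smul_def, map_mul]
    exact mul_le_of_le_one_left' ((mem_iff_adicValuation_le_one v).mp (v.algebraMap_mem' c))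
  | inr v =>
    show v.adicValuation (c • p.2) ≤ _
    rw [Algebra.smul_def, map_mul]
    exact mul_le_of_le_one_left' ((mem_iff_adicValuation_le_one v).mp (v.algebraMap_mem' c))

theorem exists_leading {F : Type*} [Field F] [Algebra k F] [IsFunctionField1 k F] (v : Place k F)
    {f w : F} {n : ℤ} (hf : v.adicValuation f ≤ exp n) (hw : v.adicValuation w = exp n) :
    ∃ c : k, v.adicValuation (f - c • w) ≤ exp (n - 1) := by
  have hw0 : w ≠ 0 := fun e => exp_ne_zero (hw.symm.trans (by rw [e, map_zero]))
  have hq : v.adicValuation (f / w) ≤ 1 := by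
    rw [map_div₀, hw, div_le_iff₀ exp_pos, one_mul]; exact hf
  have hc : v.adicValuation (algebraMap k F (valueAt v (f / w))) ≤ 1 :=
    (mem_iff_adicValuation_le_one v).mp (v.algebraMap_mem' _)
  have hd : v.adicValuation (f / w - algebraMap k F (valueAt v (f / w))) ≤ 1 :=
    (Valuation.map_sub _ _ _).trans (max_le hq hc)
  refine ⟨valueAt v (f / w), le_exp_of_lt_exp_succ ?_⟩
  rw [sub_add_cancel, show f - valueAt v (f / w) • w =
      (f / w - algebraMap k F (valueAt v (f / w))) * w by
    rw [Algebra.smul_def, sub_mul, div_mul_cancel₀ _ hw0], map_mul, hw]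
  refine mul_lt_of_lt_one_left exp_pos ((adicValuation_lt_one_iff hd).mpr ?_)
  rw [valueAt_sub _ (mem_of_le_one hq) (v.algebraMap_mem' _), valueAt_algebraMap, sub_self]

theorem exists_sub_smul_le {n : ℤ} {w : F₁ × F₂} (hp : val P p ≤ exp n)
    (hw : val P w = exp n) : ∃ c : k, val P (p - c • w) ≤ exp (n - 1) := by
  cases P <;> exact exists_leading _ hp hw

theorem val_mono {a : ℤ} {b : ℤ} (h : val P p ≤ exp a) (hab : a ≤ b) : val P p ≤ exp b :=
  h.trans (exp_le_exp.mpr hab)

/-- `P` and `P'` are not separated by `B`. -/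
def Ident (B : Subalgebra k (F₁ × F₂)) (P P' : PairPt k F₁ F₂) : Prop :=
  ∀ b ∈ B, value P b = value P' b

theorem Ident.symm {B : Subalgebra k (F₁ × F₂)} {P P' : PairPt k F₁ F₂} (h : Ident B P P') :
    Ident B P' P := fun b hb => (h b hb).symm

end PairPt

open PairPt

variable (B : Subalgebra k (F₁ × F₂)) (S : Finset (PairPt k F₁ F₂))

/-- Being regular and compatible with the identifications made by `B`. -/
def Compatible (p : F₁ × F₂) : Prop :=
  (∀ P ∈ S, val P p ≤ 1) ∧ ∀ P ∈ S, ∀ P' ∈ S, Ident B P P' → value P p = value P' p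

variable {B S}
variable (hreg : ∀ b ∈ B, ∀ P ∈ S, val P b ≤ 1)
include hreg

theorem compatible_of_mem {b : F₁ × F₂} (hb : b ∈ B) : Compatible B S b :=
  ⟨hreg b hb, fun _ _ _ _ h => h b hb⟩

theorem Compatible.sub {p p' : F₁ × F₂} (h : Compatible B S p) (h' : Compatible B S p') :
    Compatible B S (p - p') :=
  ⟨fun P hP => (Valuation.map_sub _ _ _).trans (max_le (h.1 P hP) (h'.1 P hP)),
    fun P hP P' hP' hI => by
      rw [value_sub (h.1 P hP) (h'.1 P hP), value_sub (h.1 P' hP') (h'.1 P' hP'), h.2 P hP P' hP' hI,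
        h'.2 P hP P' hP' hI]⟩

/-- An element of `B` with value one at `P` and zero at the points separated from it. -/
theorem exists_idem (P : PairPt k F₁ F₂) (hP : P ∈ S) :
    ∃ e ∈ B, value P e = 1 ∧ ∀ P' ∈ S, ¬ Ident B P P' → value P' e = 0 := by
  classical
  suffices ∀ T ⊆ S, ∃ e ∈ B, value P e = 1 ∧ ∀ P' ∈ T, ¬ Ident B P P' → value P' e = 0 from
    this S subset_rfl
  intro T
  induction T using Finset.induction with
  | empty => exact fun _ => ⟨1, one_mem B, value_one, by simp⟩
  | @insert Q T _ ih =>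
    intro hT
    rw [Finset.insert_subset_iff] at hT
    obtain ⟨e, he, heP, heT⟩ := ih hT.2
    by_cases hI : Ident B P Q
    · refine ⟨e, he, heP, fun P' hP' hn => ?_⟩
      rcases Finset.mem_insert.mp hP' with rfl | h
      · exact absurd hI hn
      · exact heT P' h hn
    · simp only [Ident, not_forall] at hI
      obtain ⟨b, hb, hne⟩ := hI
      have hd : value P b - value Q b ≠ 0 := sub_ne_zero.mpr hne
      let g : F₁ × F₂ := (value P b - value Q b)⁻¹ • (b - algebraMap k (F₁ × F₂) (value Q b))
      have hg : g ∈ B := B.smul_mem (sub_mem hb (B.algebraMap_mem _)) _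
      have hgv : ∀ R ∈ S, value R g = (value P b - value Q b)⁻¹ * (value R b - value Q b) := by
        intro R hR
        rw [value_smul (hreg _ (sub_mem hb (B.algebraMap_mem _)) R hR),
          value_sub (hreg b hb R hR) (hreg _ (B.algebraMap_mem _) R hR), value_algebraMap]
      refine ⟨e * g, mul_mem he hg, ?_, fun P' hP' hn => ?_⟩
      · rw [value_mul (hreg e he P hP) (hreg g hg P hP), heP, hgv P hP, inv_mul_cancel₀ hd, one_mul]
      · have hP'S : P' ∈ S := Finset.insert_subset_iff.mpr hT hP'
        rw [value_mul (hreg e he P' hP'S) (hreg g hg P' hP'S)]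
        rcases Finset.mem_insert.mp hP' with rfl | h
        · rw [hgv P' hP'S, sub_self, mul_zero, mul_zero]
        · rw [heT P' h hn, zero_mul]

/-- Approximation of the values. -/
theorem exists_approx_zero : ∃ G : Finset (F₁ × F₂), (G : Set (F₁ × F₂)) ⊆ B ∧
    ∀ p, Compatible B S p → ∃ b ∈ Submodule.span k (G : Set (F₁ × F₂)),
      ∀ P ∈ S, val P (p - b) ≤ exp (-1) := by
  classical
  choose e he hev hez using fun P : S => exists_idem hreg P.1 P.2
  let G := Finset.univ.image e
  have hG : (G : Set (F₁ × F₂)) ⊆ B := by simp [G, Set.range_subset_iff, he]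
  have hspan : Submodule.span k (G : Set (F₁ × F₂)) ≤ B.toSubmodule :=
    Submodule.span_le.mpr hG
  refine ⟨G, hG, fun p hp => ?_⟩
  suffices ∀ T ⊆ S, ∃ b ∈ Submodule.span k (G : Set (F₁ × F₂)),
      ∀ P ∈ T, value P (p - b) = 0 by
    obtain ⟨b, hb, hbv⟩ := this S subset_rfl
    exact ⟨b, hb, fun P hP => (value_eq_zero_iff
      ((hp.sub hreg (compatible_of_mem hreg (hspan hb))).1 P hP)).mp (hbv P hP)⟩
  intro T
  induction T using Finset.induction with
  | empty => exact fun _ => ⟨0, zero_mem _, by simp⟩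
  | @insert Q T _ ih =>
    intro hT
    rw [Finset.insert_subset_iff] at hT
    obtain ⟨b, hb, hbT⟩ := ih hT.2
    have hr := hp.sub hreg (compatible_of_mem hreg (hspan hb))
    by_cases hI : ∃ Q' ∈ T, Ident B Q Q'
    · obtain ⟨Q', hQ', hI⟩ := hI
      refine ⟨b, hb, fun P hP => ?_⟩
      rcases Finset.mem_insert.mp hP with rfl | h
      · rw [hr.2 P hT.1 Q' (hT.2 hQ') hI, hbT Q' hQ']
      · exact hbT P h
    · push Not at hI
      set c := value Q (p - b)
      have he' : c • e ⟨Q, hT.1⟩ ∈ Submodule.span k (G : Set (F₁ × F₂)) :=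
        Submodule.smul_mem _ _ (Submodule.subset_span (by simp [G]))
      have hval : ∀ P ∈ S, value P (p - (b + c • e ⟨Q, hT.1⟩)) =
          value P (p - b) - c * value P (e ⟨Q, hT.1⟩) := fun P hP => by
        rw [← sub_sub, value_sub (hr.1 P hP) ((val_smul_le c).trans (hreg _ (he _) P hP)),
          value_smul (hreg _ (he _) P hP)]
      refine ⟨b + c • e ⟨Q, hT.1⟩, add_mem hb he', fun P hP => ?_⟩
      rw [hval P (Finset.insert_subset_iff.mpr hT hP)]
      rcases Finset.mem_insert.mp hP with rfl | h
      · rw [hev ⟨P, hT.1⟩, mul_one, sub_self]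
      · rw [hez ⟨Q, hT.1⟩ P (hT.2 h) (hI P h), hbT P h, mul_zero, sub_zero]

variable (hu : ∀ P ∈ S, ∃ u ∈ B, val P u = exp (-1) ∧
  ∀ P' ∈ S, P' ≠ P → Ident B P P' → val P' u ≤ exp (-2))
include hu

/-- An element of order exactly one at `P` and at least two at the other points. -/
theorem exists_unif (P : PairPt k F₁ F₂) (hP : P ∈ S) :
    ∃ u ∈ B, val P u = exp (-1) ∧ ∀ P' ∈ S, P' ≠ P → val P' u ≤ exp (-2) := by
  obtain ⟨u, hu1, huP, huI⟩ := hu P hP
  obtain ⟨e, he, heP, heS⟩ := exists_idem hreg P hP
  have heP' : val P e = 1 := by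
    refine le_antisymm (hreg e he P hP) (not_lt.mp fun hlt => ?_)
    have h0 : val P e ≤ exp (-1) := by
      cases P <;> exact le_exp_of_lt_exp_succ (by simpa using hlt)
    rw [← value_eq_zero_iff (hreg e he P hP), heP] at h0
    exact one_ne_zero h0
  refine ⟨u * e ^ 2, mul_mem hu1 (pow_mem he 2), ?_, fun P' hP' hne => ?_⟩
  · rw [map_mul, map_pow, heP', one_pow, mul_one, huP]
  · rw [map_mul, map_pow]
    by_cases hI : Ident B P P'
    · exact (mul_le_of_le_one_right' (pow_le_one₀ zero_le (hreg e he P' hP'))).trans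
        (huI P' hP' hne hI)
    · have h0 := (value_eq_zero_iff (hreg e he P' hP')).mp (heS P' hP' hI)
      refine (mul_le_of_le_one_left' (hreg u hu1 P' hP')).trans ?_
      refine (pow_le_pow_left₀ zero_le h0 2).trans ?_
      rw [← exp_nsmul]
      norm_num

/-- Approximation to any order by a finite-dimensional piece of `B`. -/
theorem exists_approx (N : ℕ) : ∃ G : Finset (F₁ × F₂), (G : Set (F₁ × F₂)) ⊆ B ∧
    ∀ p, Compatible B S p → ∃ b ∈ Submodule.span k (G : Set (F₁ × F₂)),
      ∀ P ∈ S, val P (p - b) ≤ exp (-((N : ℤ) + 1)) := by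
  classical
  induction N with
  | zero => simpa using exists_approx_zero hreg
  | succ N ih =>
    obtain ⟨G, hG, hGp⟩ := ih
    choose u hu1 huP huS using fun P : S => exists_unif hreg hu P.1 P.2
    set G' := G ∪ Finset.univ.image fun P => u P ^ (N + 1)
    have hG' : (G' : Set (F₁ × F₂)) ⊆ B := by
      simp only [G', Finset.coe_union, Finset.coe_image, Finset.coe_univ, Set.image_univ,
        Set.union_subset_iff, Set.range_subset_iff]
      exact ⟨hG, fun P => pow_mem (hu1 P) _⟩
    refine ⟨G', hG', fun p hp => ?_⟩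
    obtain ⟨b, hb, hbS⟩ := hGp p hp
    have hw : ∀ P : S, val P.1 (u P ^ (N + 1)) = exp (-((N : ℤ) + 1)) := fun P => by
      rw [map_pow, huP, ← exp_nsmul]
      simp
    choose c hc using fun P : S => exists_sub_smul_le (hbS P.1 P.2) (hw P)
    refine ⟨b + ∑ P : S, c P • u P ^ (N + 1), add_mem ?_ (sum_mem fun P _ => ?_), fun P hP => ?_⟩
    · exact Submodule.span_mono (by simp [G']) hb
    · exact Submodule.smul_mem _ _ (Submodule.subset_span (by simp [G']))
    · have e : p - (b + ∑ Q : S, c Q • u Q ^ (N + 1)) =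
          (p - b - c ⟨P, hP⟩ • u ⟨P, hP⟩ ^ (N + 1)) -
            ∑ Q ∈ Finset.univ.erase ⟨P, hP⟩, c Q • u Q ^ (N + 1) := by
        rw [← Finset.add_sum_erase _ _ (Finset.mem_univ (⟨P, hP⟩ : S))]
        abel
      rw [e]
      refine (Valuation.map_sub _ _ _).trans (max_le (val_mono (hc ⟨P, hP⟩) (by push_cast; omega))
        (Valuation.map_sum_le _ fun Q hQ => (val_smul_le _).trans ?_))
      rw [map_pow]
      refine (pow_le_pow_left₀ zero_le (huS Q P hP fun h =>
        Finset.ne_of_mem_erase hQ (Subtype.ext h.symm)) _).trans ?_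
      rw [← exp_nsmul, exp_le_exp]
      simp
      omega

end FermatAgent.BadRed.Semistable
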