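import Fermat.Agent.ModCurve.Torsion.BaseToComplex
import Fermat.Agent.Curve.Descent.Aut

/-!
# Galois and extension of constants to `ℂ`
-/

set_option autoImplicit false
set_option maxHeartbeats 1600000

noncomputable section

open ModularCurve AlgebraicCurve

namespace FermatAgent.BadRed.Semistable

open FermatAgent.Curve FermatAgent.Curve.Descent FermatAgent.Curve.RR FermatAgent.ModCurveTorsion
open FermatAgent.ModCurve.Points (FieldC)
open FermatAgent.ModFun (qbarToC)

theorem smul_extPlace_of_comm {K K' F F' : Type*} [Field K] [Field K'] [Field F] [Field F']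
    [Algebra K K'] [Algebra K F] [Algebra K' F'] [Algebra F F'] [Algebra K F']
    [IsScalarTower K K' F'] [IsScalarTower K F F'] [IsAlgClosed K] [IsAlgClosed K']
    [IsFunctionField1 K F] [IsFunctionField1 K' F'] [IsConstantExtension K K' F F'] [CharZero K]
    (g : SemilinearAut K' F') (g₀ : SemilinearAut K F)
    (h : ∀ x : F, g • algebraMap F F' x = algebraMap F F' (g₀ • x)) (P : Place K F) :
    g • extPlace K' F' P = extPlace K' F' (g₀ • P) := by
  obtain ⟨π, hπ0, hπ⟩ := Curve.exists_ord_eq P 1
  have key : ∀ y : F, (g • extPlace K' F' P).ord (algebraMap F F' (g₀ • y)) = P.ord y := fun y => by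
    rw [← h, SemilinearAut.ord_smul, ord_extPlace]
  obtain ⟨P', hP'⟩ := exists_extPlace_eq (K := K) (Q := g • extPlace K' F' P) (x := g₀ • π)
    (by rw [key]; omega)
  rw [← hP']
  refine congrArg _ (place_eq_of_ord_eq fun f => ?_)
  have h1 := key (g₀⁻¹ • f)
  rw [smul_inv_smul, ← hP', ord_extPlace] at h1
  rw [h1]
  conv_rhs => rw [← smul_inv_smul g₀ f]
  exact (SemilinearAut.ord_smul g₀ P _).symm

attribute [local instance] qbarAlgebraC qbarAlgebraFieldC fieldBarAlgebraC
  qbar_isScalarTower_const qbar_isScalarTower_ext qbar_isConstantExtension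

local notation "ℚbar" => AlgebraicClosure ℚ
local notation "GQ" => AlgebraicClosure ℚ ≃ₐ[ℚ] AlgebraicClosure ℚ

variable {N : ℕ} [NeZero N]

/-- `J₀(N)(ℚbar) → J₀(N)(ℂ)` commutes with a compatible pair of automorphisms. -/
theorem jBaseC_galois_smul (σ : GQ) (τ : ℂ ≃ₐ[ℚ] ℂ) (hτ : ∀ a, τ (qbarToC a) = qbarToC (σ a))
    (x : JZero N) : jBaseC N (σ • x) = arithmeticGalois (modularFunctionFieldFull N) τ • jBaseC N x := by
  have hcomm : ∀ y : FieldBar N,
      arithmeticGalois (modularFunctionFieldFull N) τ • algebraMap (FieldBar N) (FieldC N) y =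
        algebraMap (FieldBar N) (FieldC N) (arithmeticGalois (modularFunctionFieldFull N) σ • y) := by
    intro y
    refine Subtype.ext ?_
    rw [coe_arithmeticGalois_smul, coe_algebraMap_fieldBar, coe_algebraMap_fieldBar,
      coe_arithmeticGalois_smul, coeffMap_coeffMap, coeffMap_coeffMap]
    exact coeffMap_congr (RingHom.ext hτ) _
  obtain ⟨D, rfl⟩ := Pic0.mk_surjective x
  rw [galois_smul_pic0_def, SemilinearAut.pic0_smul_mk, jBaseC_mk, jBaseC_mk,
    SemilinearAut.pic0_smul_mk]
  congr 1
  refine Subtype.ext ?_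
  show divBaseC N (arithmeticGalois (modularFunctionFieldFull N) σ • (D : Divisor ℚbar (FieldBar N))) = arithmeticGalois (modularFunctionFieldFull N) τ • divBaseC N (D : Divisor ℚbar (FieldBar N))
  generalize (D : Divisor ℚbar (FieldBar N)) = E
  induction E using Finsupp.induction_linear with
  | zero => rw [smul_zero, map_zero, smul_zero]
  | add a b ha hb => rw [smul_add, map_add, map_add, smul_add, ha, hb]
  | single P n =>
    rw [SemilinearAut.smul_single]
    show extDivisor ℂ (FieldC N) _ = _ • extDivisor ℂ (FieldC N) _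
    rw [extDivisor_single, extDivisor_single, SemilinearAut.smul_single,
      smul_extPlace_of_comm _ _ hcomm]

end FermatAgent.BadRed.Semistable
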