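import Fermat.Agent.BadRed.Semistable.Approx

/-!
# Identifications made by a chart of the reduction

`ψ` is an endomorphism of the function field `F` with `ord_v (ψ r) = q * ord_{pull v} r`. A
subalgebra of `F × F` which is regular where the coordinate `z` is and contains `(r, ψ r)` and
`(ψ r, r)` for all `r` regular there identifies at most a point `Q` of the first copy with
`pull Q` of the second, and only if `pull (pull Q) = Q`.
-/

set_option autoImplicit false
set_option linter.unusedSectionVars false

noncomputable section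

open WithZero AlgebraicCurve

namespace FermatAgent.BadRed.Semistable

open FermatAgent.Curve FermatAgent.Curve.RR

variable {k F : Type*} [Field k] [Field F] [Algebra k F] [IsAlgClosed k] [IsFunctionField1 k F]

/-- An inseparable endomorphism and its effect on places. -/
structure InsepData (ψ : F →ₐ[k] F) (q : ℕ) (pull : Place k F → Place k F) : Prop where
  one_lt : 1 < q
  valuation : ∀ (v : Place k F) (r : F), v.adicValuation (ψ r) = (pull v).adicValuation r ^ q

namespace InsepData

variable {ψ : F →ₐ[k] F} {q : ℕ} {pull : Place k F → Place k F} (h : InsepData ψ q pull)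
include h

theorem le_one_iff (v : Place k F) (r : F) :
    v.adicValuation (ψ r) ≤ 1 ↔ (pull v).adicValuation r ≤ 1 := by
  rw [h.valuation]
  exact pow_le_one_iff_of_nonneg zero_le (by linarith [h.one_lt])

theorem lt_one_iff (v : Place k F) (r : F) :
    v.adicValuation (ψ r) < 1 ↔ (pull v).adicValuation r < 1 := by
  rw [h.valuation]
  exact pow_lt_one_iff_of_nonneg zero_le (by linarith [h.one_lt])

theorem valueAt_eq {v : Place k F} {r : F} (hr : (pull v).adicValuation r ≤ 1) :
    valueAt v (ψ r) = valueAt (pull v) r := by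
  set c := valueAt (pull v) r with hc
  have hcle : ∀ w : Place k F, w.adicValuation (algebraMap k F c) ≤ 1 := fun w =>
    (mem_iff_adicValuation_le_one w).mp (w.algebraMap_mem' c)
  have h1 : (pull v).adicValuation (r - algebraMap k F c) < 1 := by
    refine (adicValuation_lt_one_iff ((Valuation.map_sub _ _ _).trans
      (max_le hr (hcle _)))).mpr ?_
    rw [valueAt_sub _ (mem_of_le_one hr) ((pull v).algebraMap_mem' c), valueAt_algebraMap, sub_self]
  rw [← h.lt_one_iff, map_sub, AlgHom.commutes] at h1
  rw [valueAt_eq_of_sub_lt_one (hcle v) h1, valueAt_algebraMap]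

theorem ord_nonneg_iff {z : F} (hz : ψ z = z ^ q) (v : Place k F) :
    (pull v).adicValuation z ≤ 1 ↔ v.adicValuation z ≤ 1 := by
  rw [← h.le_one_iff, hz, map_pow]
  exact pow_le_one_iff_of_nonneg zero_le (by linarith [h.one_lt])

end InsepData

theorem le_one_iff_ord {v : Place k F} {z : F} : v.adicValuation z ≤ 1 ↔ 0 ≤ v.ord z := by
  rw [← exp_zero, v.adicValuation_le_exp_iff, neg_zero]
  refine ⟨fun h => ?_, Or.inr⟩
  rcases h with rfl | h
  · simp
  · exact h

theorem poleDiv_eq_zero_of_le_one {v : Place k F} {z : F} (h : v.adicValuation z ≤ 1) :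
    (poleDiv z : Divisor k F) v = 0 := by
  rw [poleDiv_apply]
  have := le_one_iff_ord.mp h
  omega

/-- A function regular off the poles of `z` with prescribed values to order two. -/
theorem exists_regular [RRSetting k F] {z : F} (hz : Transcendental k z)
    (S : Finset (Place k F)) (hS : ∀ v ∈ S, v.adicValuation z ≤ 1) (T : Place k F → F)
    (hT : ∀ v ∈ S, v.adicValuation (T v) ≤ 1) (N : ℕ) :
    ∃ r : F, (∀ v : Place k F, v.adicValuation z ≤ 1 → v.adicValuation r ≤ 1) ∧
      ∀ v ∈ S, v.adicValuation (r - T v) ≤ exp (-(N : ℤ)) := by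
  classical
  set D : Divisor k F := poleDiv z
  set E : Divisor k F := ∑ v ∈ S, Finsupp.single v (N : ℤ)
  have hEv : ∀ v, E v = if v ∈ S then (N : ℤ) else 0 := fun v => by
    simp [E, Finsupp.single_apply]
  have hE : 0 ≤ E := Finsupp.le_def.mpr fun v => by
    rw [hEv]; split_ifs <;> simp
  set n : ℕ := 2 * genusFF k F + (Divisor.degree E).toNat
  have hd : 2 * (genusFF k F : ℤ) - 1 ≤ Divisor.degree (n • D - E) := by
    have h1 : 1 ≤ Divisor.degree D := degree_poleDiv_pos hz
    rw [map_sub, map_nsmul, nsmul_eq_mul]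
    have h2 : (n : ℤ) * 1 ≤ n * Divisor.degree D := mul_le_mul_of_nonneg_left h1 (by positivity)
    have h3 := Int.self_le_toNat (Divisor.degree E)
    simp only [n] at h2 ⊢
    push_cast at h2 ⊢
    omega
  obtain ⟨r, hr, hrS⟩ := exists_interpolate hE hd S T
  refine ⟨r, fun v hv => ?_, fun v hv => ?_⟩
  · simpa [D, poleDiv_eq_zero_of_le_one hv] using hr v
  · have h0 : (n • D : Divisor k F) v = 0 := by
      simp [D, poleDiv_eq_zero_of_le_one (hS v hv)]
    have := hrS v hv (by rw [h0, exp_zero]; exact hT v hv)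
    rwa [h0, hEv, if_pos hv, zero_sub] at this

theorem exists_uniformizer (v : Place k F) : ∃ t : F, v.adicValuation t = exp (-1) := by
  obtain ⟨t, ht⟩ := IsDiscreteValuationRing.exists_irreducible v.toValuationSubring
  exact ⟨t, v.adicValuation_coe_irreducible ht⟩

/-- A chart: regular where `z` is, with the two families of inseparable pairs. -/
structure ChartAlg (ψ : F →ₐ[k] F) (q : ℕ) (z : F) (B : Subalgebra k (F × F)) : Prop where
  transcendental : Transcendental k z
  map_z : ψ z = z ^ q
  regular : ∀ b ∈ B, ∀ v : Place k F, v.adicValuation z ≤ 1 →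
    v.adicValuation b.1 ≤ 1 ∧ v.adicValuation b.2 ≤ 1
  pair_mem : ∀ r : F, (∀ v : Place k F, v.adicValuation z ≤ 1 → v.adicValuation r ≤ 1) →
    (r, ψ r) ∈ B ∧ (ψ r, r) ∈ B

/-- The place under a point. -/
def ptPlace : PairPt k F F → Place k F := Sum.elim id id

namespace ChartAlg

open PairPt

variable [RRSetting k F] {ψ : F →ₐ[k] F} {q : ℕ} {pull : Place k F → Place k F} {z : F}
  {B : Subalgebra k (F × F)} (hB : ChartAlg ψ q z B) (h : InsepData ψ q pull)
include hB h

/-- The possible identifications. -/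
theorem of_ident {P P' : PairPt k F F} (hP : (ptPlace P).adicValuation z ≤ 1)
    (hP' : (ptPlace P').adicValuation z ≤ 1) (hI : Ident B P P') :
    P = P' ∨ (∃ Q, pull (pull Q) = Q ∧
      ((P = .inl Q ∧ P' = .inr (pull Q)) ∨ (P' = .inl Q ∧ P = .inr (pull Q)))) := by
  classical
  have sep : ∀ v w : Place k F, v.adicValuation z ≤ 1 → w.adicValuation z ≤ 1 → v ≠ w →
      ∃ r : F, (∀ u : Place k F, u.adicValuation z ≤ 1 → u.adicValuation r ≤ 1) ∧
        valueAt v r = 1 ∧ valueAt w r = 0 := by
    intro v w hv hw hvw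
    obtain ⟨r, hr, hrS⟩ := exists_regular hB.transcendental {v, w}
      (by simp [hv, hw]) (fun u => if u = v then 1 else 0)
      (fun u _ => by split_ifs <;> simp) 1
    refine ⟨r, hr, ?_, ?_⟩
    · have := valueAt_eq_of_sub_lt_one (f := r) (g := (1 : F)) (by simp)
        (lt_one_of_le_exp_neg (n := -1) (by norm_num) (by simpa using hrS v (by simp)))
      rw [this, ← map_one (algebraMap k F), valueAt_algebraMap]
    · have := valueAt_eq_of_sub_lt_one (f := r) (g := (0 : F)) (by simp)
        (lt_one_of_le_exp_neg (n := -1) (by norm_num)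
          (by simpa [Ne.symm hvw] using hrS w (by simp)))
      rw [this, ← map_zero (algebraMap k F), valueAt_algebraMap]
  have cross : ∀ Q R : Place k F, Q.adicValuation z ≤ 1 → R.adicValuation z ≤ 1 →
      Ident B (.inl Q) (.inr R) → R = pull Q ∧ pull R = Q := by
    intro Q R hQ hR hI
    have hQ' := (h.ord_nonneg_iff hB.map_z Q).mpr hQ
    have hR' := (h.ord_nonneg_iff hB.map_z R).mpr hR
    constructor
    · by_contra hne
      obtain ⟨r, hr, h1, h0⟩ := sep R (pull Q) hR hQ' hne
      have := hI _ (hB.pair_mem r hr).2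
      simp only [value_inl, value_inr, h.valueAt_eq (hr _ hQ'), h0, h1] at this
      exact zero_ne_one this
    · by_contra hne
      obtain ⟨r, hr, h1, h0⟩ := sep (pull R) Q hR' hQ hne
      have := hI _ (hB.pair_mem r hr).1
      simp only [value_inl, value_inr, h.valueAt_eq (hr _ hR'), h0, h1] at this
      exact zero_ne_one this
  cases P with
  | inl Q => cases P' with
    | inl Q' =>
      left
      by_contra hne
      obtain ⟨r, hr, h1, h0⟩ := sep Q Q' hP hP' fun e => hne (by rw [e])
      have := hI _ (hB.pair_mem r hr).1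
      simp only [value_inl, h0, h1] at this
      exact one_ne_zero this
    | inr R =>
      obtain ⟨rfl, e⟩ := cross Q R hP hP' hI
      exact Or.inr ⟨Q, e, Or.inl ⟨rfl, rfl⟩⟩
  | inr R => cases P' with
    | inl Q =>
      obtain ⟨rfl, e⟩ := cross Q R hP' hP hI.symm
      exact Or.inr ⟨Q, e, Or.inr ⟨rfl, rfl⟩⟩
    | inr R' =>
      left
      by_contra hne
      obtain ⟨r, hr, h1, h0⟩ := sep R R' hP hP' fun e => hne (by rw [e])
      have := hI _ (hB.pair_mem r hr).2
      simp only [value_inr, h0, h1] at this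
      exact one_ne_zero this

/-- Elements of order one, vanishing to second order at identified points. -/
theorem exists_unif_hyp (S : Finset (PairPt k F F))
    (hS : ∀ P ∈ S, (ptPlace P).adicValuation z ≤ 1) :
    ∀ P ∈ S, ∃ u ∈ B, val P u = exp (-1) ∧
      ∀ P' ∈ S, P' ≠ P → Ident B P P' → val P' u ≤ exp (-2) := by
  classical
  have key : ∀ Q : Place k F, Q.adicValuation z ≤ 1 → ∃ r : F,
      (∀ u : Place k F, u.adicValuation z ≤ 1 → u.adicValuation r ≤ 1) ∧ Q.adicValuation r = exp (-1) := by
    intro Q hQ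
    obtain ⟨t, ht⟩ := exists_uniformizer Q
    obtain ⟨r, hr, hrS⟩ := exists_regular hB.transcendental {Q} (by simpa using hQ) (fun _ => t)
      (fun v hv => by
        rw [Finset.mem_singleton.mp hv, ht, ← exp_zero]
        exact exp_le_exp.mpr (by norm_num)) 2
    refine ⟨r, hr, ?_⟩
    rw [Valuation.map_eq_of_sub_lt Q.adicValuation (x := t) (y := r) ?_, ht]
    rw [ht]
    exact (hrS Q (by simp)).trans_lt (exp_lt_exp.mpr (by norm_num))
  have second : ∀ (Q R : Place k F) (r : F), pull R = Q → Q.adicValuation r = exp (-1) →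
      R.adicValuation (ψ r) ≤ exp (-2) := by
    intro Q R r e hr
    rw [h.valuation, e, hr, ← exp_nsmul, exp_le_exp]
    simp
    linarith [h.one_lt]
  intro P hP
  obtain ⟨r, hr, hrP⟩ := key (ptPlace P) (hS P hP)
  cases P with
  | inl Q =>
    refine ⟨(r, ψ r), (hB.pair_mem r hr).1, hrP, fun P' hP' hne hI => ?_⟩
    rcases of_ident hB h (hS _ hP) (hS _ hP') hI with e | ⟨Q', e, ⟨e1, e2⟩ | ⟨e1, e2⟩⟩
    · exact absurd e.symm hne
    · rw [Sum.inl.injEq] at e1
      subst e1 e2
      exact second Q (pull Q) r e hrP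
    · exact absurd e2 (by simp)
  | inr R =>
    refine ⟨(ψ r, r), (hB.pair_mem r hr).2, hrP, fun P' hP' hne hI => ?_⟩
    rcases of_ident hB h (hS _ hP) (hS _ hP') hI with e | ⟨Q', e, ⟨e1, e2⟩ | ⟨e1, e2⟩⟩
    · exact absurd e.symm hne
    · exact absurd e1 (by simp)
    · rw [Sum.inr.injEq] at e2
      subst e1
      exact second R Q' r e2.symm hrP

/-- Approximation in a chart. -/
theorem exists_approx_chart (S : Finset (PairPt k F F))
    (hS : ∀ P ∈ S, (ptPlace P).adicValuation z ≤ 1) (N : ℕ) :
    ∃ G : Finset (F × F), (G : Set (F × F)) ⊆ B ∧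
      ∀ p, Compatible B S p → ∃ b ∈ Submodule.span k (G : Set (F × F)),
        ∀ P ∈ S, val P (p - b) ≤ exp (-((N : ℤ) + 1)) :=
  exists_approx (fun b hb P hP => by
      cases P
      · exact (hB.regular b hb _ (hS _ hP)).1
      · exact (hB.regular b hb _ (hS _ hP)).2)
    (exists_unif_hyp hB h S hS) N

end ChartAlg

end FermatAgent.BadRed.Semistable
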