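import Mathlib.RingTheory.AdicCompletion.Basic
import Mathlib.RingTheory.Nakayama
import Mathlib.RingTheory.LocalRing.MaximalIdeal.Basic
import Mathlib.RingTheory.Jacobson.Ideal
import Mathlib.RingTheory.Finiteness.Basic
import Mathlib.Tactic
import Mathlib.RingTheory.Valuation.ValuationRing
import Mathlib.RingTheory.Valuation.Integers

/-!
# Newton iteration for moving zeros of order `n`

Linear forms `α i j c` (the `j`-th coefficient at the centre `c` of the `i`-th disc) on a free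
module over a complete valuation ring. An approximate common solution of `α i j = 0` for `j < n`,
with the `n`-th coefficient a unit, deforms to an exact one.
-/

set_option autoImplicit false

noncomputable section

namespace FermatAgent.BadRed.Semistable

section Adic

variable {R : Type*} [CommRing R]

theorem sModEq_pow_iff (ε : R) (m : ℕ) (a b : R) :
    a ≡ b [SMOD (Ideal.span {ε} ^ m • ⊤ : Submodule R R)] ↔ ε ^ m ∣ a - b := by
  rw [SModEq.sub_mem, Ideal.span_singleton_pow, smul_eq_mul, Ideal.mul_top,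
    Ideal.mem_span_singleton]

/-- Limits of `ε`-adically Cauchy sequences. -/
theorem exists_adic_limit (ε : R) [IsAdicComplete (Ideal.span {ε}) R] (f : ℕ → R)
    (h : ∀ m, ε ^ m ∣ f (m + 1) - f m) : ∃ L, ∀ m, ε ^ m ∣ L - f m := by
  have key : ∀ m p, ε ^ m ∣ f (m + p) - f m := by
    intro m p
    induction p with
    | zero => simp
    | succ p ih =>
      have := ((pow_dvd_pow ε (Nat.le_add_right m p)).trans (h (m + p))).add ih
      rwa [sub_add_sub_cancel, add_assoc] at this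
  obtain ⟨L, hL⟩ := IsPrecomplete.prec (I := Ideal.span {ε}) (M := R) inferInstance (f := f)
    (fun {m p} hmp => by
      rw [sModEq_pow_iff]
      obtain ⟨q, rfl⟩ := Nat.exists_eq_add_of_le hmp
      exact (dvd_neg.mpr (key m q)).trans (by rw [neg_sub]))
  refine ⟨L, fun m => ?_⟩
  have := (sModEq_pow_iff ε m _ _).mp (hL m)
  rwa [← dvd_neg, neg_sub] at this

theorem eq_zero_of_forall_pow_dvd (ε : R) [IsAdicComplete (Ideal.span {ε}) R] {z : R}
    (h : ∀ m, ε ^ m ∣ z) : z = 0 :=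
  IsHausdorff.haus (I := Ideal.span {ε}) (M := R) inferInstance z fun m =>
    (sModEq_pow_iff ε m z 0).mpr (by rw [sub_zero]; exact h m)

end Adic

section Newton

set_option linter.unusedSectionVars false

variable {R k : Type*} [CommRing R] [IsDomain R] [ValuationRing R] [Field k] {π : R →+* k}

theorem exists_dvd_all {ι : Type*} (s : Finset ι) (f : ι → R) (hf : ∀ i ∈ s, π (f i) = 0) :
    ∃ ε, π ε = 0 ∧ ∀ i ∈ s, ε ∣ f i := by
  classical
  induction s using Finset.induction with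
  | empty => exact ⟨0, map_zero π, by simp⟩
  | @insert a s ha ih =>
    obtain ⟨ε, hε, hdvd⟩ := ih fun i hi => hf i (Finset.mem_insert_of_mem hi)
    rcases ValuationRing.dvd_total ε (f a) with h | h
    · exact ⟨ε, hε, fun i hi => by
        rcases Finset.mem_insert.mp hi with rfl | hi
        · exact h
        · exact hdvd i hi⟩
    · exact ⟨f a, hf a (Finset.mem_insert_self _ _), fun i hi => by
        rcases Finset.mem_insert.mp hi with rfl | hi
        · exact dvd_rfl
        · exact h.trans (hdvd i hi)⟩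

theorem isUnit_of_map_ne_zero (hπ : Function.Surjective π) {a : R} (h : π a ≠ 0) : IsUnit a := by
  by_contra hn
  refine h ?_
  have := IsLocalRing.eq_maximalIdeal (RingHom.ker_isMaximal_of_surjective π hπ)
  rw [← RingHom.mem_ker, this]
  exact hn

theorem map_eq_zero_of_dvd {a b : R} (h : a ∣ b) (ha : π a = 0) : π b = 0 := by
  obtain ⟨c, rfl⟩ := h
  rw [map_mul, ha, zero_mul]

variable {I : Type*} [Fintype I] {N n : ℕ} (α : I → ℕ → R → (Fin N → R) →ₗ[R] R)

/-- The first order compatibilities. -/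
structure CoeffSystem (π : R →+* k) (n : ℕ) : Prop where
  lip : ∀ i j c c', π c = 0 → π c' = 0 → ∀ x, (c' - c) ∣ α i j c' x - α i j c x
  second : ∀ i j c c', π c = 0 → π c' = 0 → ∀ x,
    (c' - c) ^ 2 ∣ α i j c' x - (α i j c x + (j + 1 : ℕ) * (c' - c) * α i (j + 1) c x)
  surj : ∀ r : I → Fin (n - 1) → k, ∃ y : Fin N → R,
    ∀ i (j : Fin (n - 1)), π (α i j 0 y) = r i j

variable {α}

theorem dvd_map_of_forall_dvd (f : (Fin N → R) →ₗ[R] R) {x : Fin N → R} {η : R}
    (h : ∀ l, η ∣ x l) : η ∣ f x := by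
  choose y hy using h
  rw [show x = η • y from funext fun l => by rw [Pi.smul_apply, smul_eq_mul, ← hy], map_smul,
    smul_eq_mul]
  exact dvd_mul_right _ _

theorem map_congr_residue (f : (Fin N → R) →ₗ[R] R) {x x' : Fin N → R}
    (h : ∀ l, π (x l) = π (x' l)) : π (f x) = π (f x') := by
  obtain ⟨η, hη, hd⟩ := exists_dvd_all (π := π) Finset.univ (x - x')
    (fun l _ => by rw [Pi.sub_apply, map_sub, h l, sub_self])
  have := map_eq_zero_of_dvd (dvd_map_of_forall_dvd f fun l => hd l (Finset.mem_univ l)) hη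
  rwa [map_sub, map_sub, sub_eq_zero] at this

variable (hα : CoeffSystem α π n) (hπ : Function.Surjective π)
include hα hπ

theorem CoeffSystem.map_eq (i : I) (j : ℕ) {c : R} (hc : π c = 0) {x x' : Fin N → R}
    (h : ∀ l, π (x l) = π (x' l)) : π (α i j c x) = π (α i j 0 x') := by
  have h1 := hα.lip i j 0 c (map_zero π) hc x
  rw [sub_zero] at h1
  have := map_eq_zero_of_dvd h1 hc
  rw [map_sub, sub_eq_zero] at this
  rw [this, map_congr_residue _ h]

theorem CoeffSystem.exists_preimage (c : I → R) (hc : ∀ i, π (c i) = 0)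
    (r : I → Fin (n - 1) → R) : ∃ y, ∀ i (j : Fin (n - 1)), α i j (c i) y = r i j := by
  classical
  let Φ : (Fin N → R) →ₗ[R] I × Fin (n - 1) → R :=
    LinearMap.pi fun p => α p.1 p.2 (c p.1)
  have hle : (⊤ : Submodule R (I × Fin (n - 1) → R)) ≤
      LinearMap.range Φ ⊔ IsLocalRing.maximalIdeal R • ⊤ := by
    intro t _
    obtain ⟨y, hy⟩ := hα.surj fun i j => π (t (i, j))
    refine Submodule.mem_sup.mpr ⟨Φ y, ⟨y, rfl⟩, t - Φ y, ?_, add_sub_cancel _ _⟩
    rw [show t - Φ y = ∑ p, (t - Φ y) p • Pi.single p (1 : R) from by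
      conv_lhs => rw [pi_eq_sum_univ' (t - Φ y)]]
    refine Submodule.sum_mem _ fun p _ => Submodule.smul_mem_smul ?_ Submodule.mem_top
    rw [← IsLocalRing.eq_maximalIdeal (RingHom.ker_isMaximal_of_surjective π hπ),
      RingHom.mem_ker, Pi.sub_apply, map_sub, sub_eq_zero]
    change _ = π (α p.1 p.2 (c p.1) y)
    rw [hα.map_eq hπ p.1 p.2 (hc p.1) (fun _ => rfl), hy]
  have htop := Submodule.le_of_le_smul_of_le_jacobson_bot (Module.Finite.fg_top)
    (IsLocalRing.maximalIdeal_le_jacobson ⊥) hle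
  obtain ⟨y, hy⟩ := htop (Submodule.mem_top (x := fun p => r p.1 p.2))
  exact ⟨y, fun i j => congrFun hy (i, j)⟩

/-- One step doubles the accuracy. -/
theorem CoeffSystem.step (hn : (n : k) ≠ 0) {η : R} (hη : π η = 0) {x : Fin N → R} {c : I → R}
    (hc : ∀ i, π (c i) = 0) (hx : ∀ i, ∀ j < n, η ∣ α i j (c i) x)
    (hun : ∀ i, π (α i n (c i) x) ≠ 0) :
    ∃ (x' : Fin N → R) (c' : I → R), (∀ l, η ∣ x' l - x l) ∧ (∀ i, η ∣ c' i - c i) ∧
      ∀ i, ∀ j < n, η ^ 2 ∣ α i j (c' i) x' := by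
  have hn1 : 1 ≤ n := Nat.pos_of_ne_zero fun e => hn (by simp [e])
  have hex : ∀ i (j : Fin (n - 1)), ∃ q, α i j (c i) x = η * q :=
    fun i j => hx i j (lt_of_lt_of_le j.2 (Nat.sub_le _ _))
  choose q hq using hex
  obtain ⟨y, hy⟩ := hα.exists_preimage hπ c hc fun i j => -q i j
  set x₁ := x + η • y with hx₁
  have h0 : ∀ i, ∀ j < n - 1, α i j (c i) x₁ = 0 := fun i j hj => by
    rw [hx₁, map_add, map_smul, hq i ⟨j, hj⟩, hy i ⟨j, hj⟩, smul_eq_mul]
    ring
  have h1 : ∀ i, ∀ j < n, η ∣ α i j (c i) x₁ := fun i j hj => by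
    rw [hx₁, map_add, map_smul, smul_eq_mul]
    exact (hx i j hj).add (dvd_mul_right _ _)
  have hu : ∀ i, IsUnit ((n : R) * α i n (c i) x₁) := fun i => by
    refine isUnit_of_map_ne_zero hπ ?_
    rw [map_mul, map_natCast, hx₁, map_add, map_add, map_smul, smul_eq_mul, map_mul, hη, zero_mul,
      add_zero]
    exact mul_ne_zero hn (hun i)
  choose u hu using hu
  set δ : I → R := fun i => -(α i (n - 1) (c i) x₁) * ↑(u i)⁻¹ with hδ
  have hδη : ∀ i, η ∣ δ i := fun i => by
    rw [hδ]; exact (h1 i (n - 1) (by omega)).neg_right.mul_right _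
  have hc' : ∀ i, π (c i + δ i) = 0 := fun i => by
    rw [map_add, hc i, map_eq_zero_of_dvd (hδη i) hη, add_zero]
  refine ⟨x₁, fun i => c i + δ i, fun l => ?_, fun i => by simpa using hδη i, fun i j hj => ?_⟩
  · simp [hx₁]
  have hsec := hα.second i j (c i) (c i + δ i) (hc i) (hc' i) x₁
  rw [add_sub_cancel_left] at hsec
  have hsq : η ^ 2 ∣ δ i ^ 2 := pow_dvd_pow_of_dvd (hδη i) 2
  have key : η ^ 2 ∣ α i j (c i) x₁ + (j + 1 : ℕ) * δ i * α i (j + 1) (c i) x₁ := by
    by_cases hj' : j < n - 1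
    · rw [h0 i j hj', zero_add, pow_two, mul_assoc]
      exact (mul_dvd_mul (hδη i) (h1 i (j + 1) (by omega))).mul_left _
    · obtain rfl : j = n - 1 := by omega
      have hu' : (n : R) * α i n (c i) x₁ * ↑(u i)⁻¹ = 1 := by
        rw [← hu i, Units.mul_inv]
      have hz : α i (n - 1) (c i) x₁ + (n - 1 + 1 : ℕ) * δ i * α i (n - 1 + 1) (c i) x₁ = 0 := by
        rw [Nat.sub_add_cancel hn1, hδ]
        linear_combination -(α i (n - 1) (c i) x₁) * hu'
      rw [hz]
      exact dvd_zero _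
  have := (hsq.trans hsec).add key
  rwa [sub_add_cancel] at this

/-- An approximate solution deforms to an exact one. -/
theorem CoeffSystem.exists_solution (hn : (n : k) ≠ 0)
    (hcomplete : ∀ ε : R, π ε = 0 → IsAdicComplete (Ideal.span {ε}) R) {x₀ : Fin N → R}
    (h₀ : ∀ i, ∀ j < n, π (α i j 0 x₀) = 0) (hun : ∀ i, π (α i n 0 x₀) ≠ 0) :
    ∃ (x : Fin N → R) (c : I → R), (∀ l, π (x l) = π (x₀ l)) ∧ (∀ i, π (c i) = 0) ∧
      ∀ i, ∀ j < n, α i j (c i) x = 0 := by
  classical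
  obtain ⟨ε, hε, hεd⟩ := exists_dvd_all (π := π) (Finset.univ : Finset (I × Fin n))
    (fun p => α p.1 p.2 0 x₀) (fun p _ => h₀ p.1 p.2 p.2.2)
  have := hcomplete ε hε
  let Good : ℕ → (Fin N → R) × (I → R) → Prop := fun m s =>
    (∀ l, π (s.1 l) = π (x₀ l)) ∧ (∀ i, π (s.2 i) = 0) ∧
      ∀ i, ∀ j < n, ε ^ (m + 1) ∣ α i j (s.2 i) s.1
  have hnext : ∀ m s, Good m s → ∃ s', Good (m + 1) s' ∧ (∀ l, ε ^ m ∣ s'.1 l - s.1 l) ∧
      ∀ i, ε ^ m ∣ s'.2 i - s.2 i := by
    rintro m ⟨x, c⟩ ⟨hx, hc, hd⟩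
    have hη : π (ε ^ (m + 1)) = 0 := by rw [map_pow, hε, zero_pow (Nat.succ_ne_zero m)]
    obtain ⟨x', c', hxx, hcc, hd'⟩ := hα.step hπ hn hη hc hd
      (fun i => by rw [hα.map_eq hπ i n (hc i) hx]; exact hun i)
    have hm : ε ^ m ∣ ε ^ (m + 1) := pow_dvd_pow ε (Nat.le_succ m)
    refine ⟨(x', c'), ⟨fun l => ?_, fun i => ?_, fun i j hj => ?_⟩,
      fun l => hm.trans (hxx l), fun i => hm.trans (hcc i)⟩
    · have := map_eq_zero_of_dvd (hxx l) hη
      rw [map_sub, sub_eq_zero] at this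
      exact this.trans (hx l)
    · have := map_eq_zero_of_dvd (hcc i) hη
      rw [map_sub, sub_eq_zero] at this
      exact this.trans (hc i)
    · refine (pow_dvd_pow ε ?_).trans (by simpa [← pow_mul] using hd' i j hj)
      omega
  choose next hgood hnx hnc using hnext
  have hinit : Good 0 (x₀, fun _ => 0) :=
    ⟨fun _ => rfl, fun _ => map_zero π, fun i j hj => by
      rw [pow_one]; exact hεd (i, ⟨j, hj⟩) (Finset.mem_univ _)⟩
  let seq : ∀ m, {s // Good m s} := fun m => Nat.rec ⟨_, hinit⟩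
    (fun m s => ⟨next m s.1 s.2, hgood m s.1 s.2⟩) m
  have hLx : ∀ l, ∃ L, ∀ m, ε ^ m ∣ L - (seq m).1.1 l := fun l =>
    exists_adic_limit ε _ fun m => hnx m (seq m).1 (seq m).2 l
  have hLc : ∀ i, ∃ L, ∀ m, ε ^ m ∣ L - (seq m).1.2 i := fun i =>
    exists_adic_limit ε _ fun m => hnc m (seq m).1 (seq m).2 i
  choose x hx using hLx
  choose c hc using hLc
  have hcπ : ∀ i, π (c i) = 0 := fun i => by
    have := map_eq_zero_of_dvd (hc i 1) (by rw [pow_one, hε])
    rw [map_sub, (seq 1).2.2.1 i, sub_zero] at this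
    exact this
  refine ⟨x, c, fun l => ?_, hcπ, fun i j hj => eq_zero_of_forall_pow_dvd ε fun m => ?_⟩
  · have := map_eq_zero_of_dvd (hx l 1) (by rw [pow_one, hε])
    rw [map_sub, sub_eq_zero] at this
    exact this.trans ((seq 1).2.1 l)
  · obtain ⟨-, hsc, hsd⟩ := (seq m).2
    have h1 := (hc i m).trans (hα.lip i j _ (c i) (hsc i) (hcπ i) x)
    have h2 : ε ^ m ∣ α i j ((seq m).1.2 i) x - α i j ((seq m).1.2 i) (seq m).1.1 := by
      rw [← map_sub]
      exact dvd_map_of_forall_dvd _ fun l => hx l m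
    have h3 := (pow_dvd_pow ε (Nat.le_succ m)).trans (hsd i j hj)
    have := (h1.add h2).add h3
    rwa [sub_add_sub_cancel, sub_add_cancel] at this

end Newton

end FermatAgent.BadRed.Semistable
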