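import Fermat.Agent.BadRed.Semistable.Taylor
import Fermat.Agent.BadRed.Semistable.NewtonStep

/-!
# The linear forms on a space of functions attached to one disc

For functions with poles on the disc only at one place `P₀`, of order at most `e`, the
coefficients of `(T - T(P₀))^e f` form a family of linear forms in the coordinates of `f`.
-/

set_option autoImplicit false

noncomputable section

open WithZero AlgebraicCurve

namespace FermatAgent.BadRed.Semistable

open FermatAgent.Curve FermatAgent.Curve.RR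

namespace NodalDatum

variable {K : Type*} [Field K] [IsAlgClosed K] {A : ValuationSubring K} {k : Type*}
    [Field k] [IsAlgClosed k] {π : A →+* k} {F F₁ F₂ : Type*} [Field F] [Field F₁] [Field F₂]
    [Algebra K F] [Algebra k F₁] [Algebra k F₂] [IsFunctionField1 K F] [IsFunctionField1 k F₁]
    [IsFunctionField1 k F₂] [RRSetting K F] [RRSetting k F₁] [RRSetting k F₂] [Infinite k]
variable {d : NodalDatum A π F F₁ F₂} {G : Type*} [Field G] [Algebra k G] [IsFunctionField1 k G]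
  [RRSetting k G] (σ : d.Side G)

open scoped Classical

/-- The coefficient as an element of the valuation ring. -/
def Side.coefA (T : F) (c : A) (j : ℕ) (g : F) : A :=
  if h : σ.tay T c j g ∈ A then ⟨σ.tay T c j g, h⟩ else 0

theorem Side.coe_coefA {T : F} (hT : σ.IsCoord T) {c : A} (hπ : π c = 0) {g : F}
    (hg : g ∈ σ.reg) (j : ℕ) : ((σ.coefA T c j g : A) : K) = σ.tay T c j g := by
  rw [Side.coefA, dif_pos (σ.tay_mem hT c.2 hπ hg j)]

theorem Side.tay_sum {T : F} (hT : σ.IsCoord T) {c : A} (hπ : π c = 0) {N : ℕ}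
    (x : Fin N → A) (β : Fin N → F) (hβ : ∀ l, β l ∈ σ.reg) (j : ℕ) :
    σ.tay T c j (∑ l, (x l : K) • β l) = ∑ l, (x l : K) * σ.tay T c j (β l) := by
  induction (Finset.univ : Finset (Fin N)) using Finset.induction with
  | empty =>
    rw [Finset.sum_empty, Finset.sum_empty]
    have := σ.tay_smul hT c.2 hπ (zero_mem σ.reg) (0 : K) j
    rwa [smul_zero, zero_mul] at this
  | @insert l s hl ih =>
    rw [Finset.sum_insert hl, Finset.sum_insert hl,
      σ.tay_add hT c.2 hπ (σ.smul_mem_reg (x l).2 (hβ l))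
        (sum_mem fun m _ => σ.smul_mem_reg (x m).2 (hβ m)), σ.tay_smul hT c.2 hπ (hβ l), ih]

/-- Linear forms giving the coefficients of a function on the disc. -/
theorem Side.exists_coeff {T : F} (hT : σ.IsCoord T) {N : ℕ} {b : Fin N → F}
    (hb : ∀ l, b l ∈ d.int) {e : ℕ} {P₀ : Place K F} (hP₀ : d.place P₀ = σ.ω)
    (hpole : ∀ l P, d.place P = σ.ω →
      P.adicValuation (b l) ≤ exp (if P = P₀ then (e : ℤ) else 0)) :
    ∃ α : ℕ → A → (Fin N → A) →ₗ[A] A,
      (∀ j c c', π c = 0 → π c' = 0 → ∀ x, (c' - c) ∣ α j c' x - α j c x) ∧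
      (∀ j c c', π c = 0 → π c' = 0 → ∀ x,
        (c' - c) ^ 2 ∣ α j c' x - (α j c x + (j + 1 : ℕ) * (c' - c) * α (j + 1) c x)) ∧
      (∀ x : Fin N → A, ∀ h : ∑ l, (x l : K) • b l ∈ d.int, ∀ m : ℕ,
        (∀ j < m, π (α j 0 x) = 0) ↔
          σ.Q.adicValuation (σ.pr (d.red ⟨_, h⟩)) ≤ exp ((e : ℤ) - m)) ∧
      ∀ (x : Fin N → A) (c : A), π c = 0 → ∀ m : ℕ, (∀ j < m, α j c x = 0) →
        ∃ P, d.place P = σ.ω ∧
          P.adicValuation (∑ l, (x l : K) • b l) ≤
            exp ((if P = P₀ then (e : ℤ) else 0) - m) := by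
  obtain ⟨hc₀, hπ₀, hi₀, hiT, hr₀, ho₀⟩ := σ.exists_centred hT P₀ hP₀
  set T₀ := T - algebraMap K F (valueAt P₀ T) with hT₀
  have hne : T₀ ≠ 0 := fun h => by
    have := ho₀ P₀ hP₀
    rw [h, Place.ord_zero, if_pos rfl] at this
    omega
  have hvT : ∀ P, d.place P = σ.ω →
      P.adicValuation (T₀ ^ e) = exp (-(if P = P₀ then (e : ℤ) else 0)) := fun P hP => by
    rw [map_pow, P.adicValuation_eq_exp_neg_ord hne, ho₀ P hP, ← exp_nsmul, nsmul_eq_mul]
    split_ifs <;> simp
  set β : Fin N → F := fun l => T₀ ^ e * b l with hβdef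
  have hβ : ∀ l, β l ∈ σ.reg := fun l => σ.mem_reg.mpr
    ⟨mul_mem (pow_mem hi₀ e) (hb l), fun P hP => mem_of_le_one (by
      rw [hβdef, map_mul, hvT P hP]
      refine (mul_le_mul' le_rfl (hpole l P hP)).trans ?_
      rw [← exp_add, neg_add_cancel, exp_zero])⟩
  let α : ℕ → A → (Fin N → A) →ₗ[A] A := fun j c =>
    Fintype.linearCombination A fun l => σ.coefA T c j (β l)
  have hα : ∀ j c, π c = 0 → ∀ x : Fin N → A,
      (α j c x : K) = σ.tay T c j (∑ l, (x l : K) • β l) := fun j c hc x => by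
    rw [σ.tay_sum hT hc x β hβ j]
    simp only [α, Fintype.linearCombination_apply, smul_eq_mul, AddSubmonoidClass.coe_finsetSum,
      MulMemClass.coe_mul, σ.coe_coefA hT hc (hβ _)]
  have hfβ : ∀ x : Fin N → A, ∑ l, (x l : K) • β l = T₀ ^ e * ∑ l, (x l : K) • b l := fun x => by
    simp only [hβdef, Finset.mul_sum, mul_smul_comm]
  have hreg : ∀ x : Fin N → A, ∑ l, (x l : K) • β l ∈ σ.reg := fun x =>
    sum_mem fun l _ => σ.smul_mem_reg (x l).2 (hβ l)
  refine ⟨α, fun j c c' hc hc' x => ?_, fun j c c' hc hc' x => ?_, fun x h m => ?_,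
    fun x c hc m hx => ?_⟩
  · obtain ⟨u, hu, he⟩ := σ.tay_lip hT c.2 hc c'.2 hc' (hreg x) j
    refine ⟨⟨u, hu⟩, Subtype.ext ?_⟩
    simp only [AddSubgroupClass.coe_sub, MulMemClass.coe_mul, hα j c' hc' x, hα j c hc x]
    exact he
  · obtain ⟨u, hu, he⟩ := σ.tay_second hT c.2 hc c'.2 hc' (hreg x) j
    refine ⟨⟨u, hu⟩, Subtype.ext ?_⟩
    push_cast [hα j c' hc' x, hα j c hc x, hα (j + 1) c hc x]
    push_cast at he
    exact he
  · have h0 : π (0 : A) = 0 := map_zero π
    have key := σ.red_tay_iff hT (zero_mem A) h0 (hreg x) m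
    have hA : ∀ j, π (α j 0 x) = π ⟨σ.tay T ((0 : A) : K) j (∑ l, (x l : K) • β l),
        σ.tay_mem hT (zero_mem A) h0 (hreg x) j⟩ :=
      fun j => congrArg π (Subtype.ext (hα j 0 h0 x))
    simp only [hA]
    refine key.trans ?_
    have hr : σ.pr (d.red ⟨_, (σ.mem_reg.mp (hreg x)).1⟩) =
        σ.pr (d.red ⟨T, hiT⟩) ^ e * σ.pr (d.red ⟨_, h⟩) := by
      rw [d.red_congr (hfβ x), d.red_mul (pow_mem hi₀ e) h, map_mul, ← map_pow]
      congr 2
      rw [← hr₀, ← map_pow]
      rfl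
    obtain ⟨hi, h1, h2, ho, -⟩ := hT
    rw [hr, map_mul, map_pow, σ.Q.adicValuation_eq_exp_neg_ord (σ.ne_zero _ h1 h2), ho,
      ← exp_nsmul, nsmul_eq_mul]
    refine ⟨fun h' => ?_, fun h' => ?_⟩
    · have := mul_le_mul' (le_refl (exp (e : ℤ))) h'
      rw [← mul_assoc, ← exp_add, ← exp_add] at this
      simpa [sub_eq_add_neg] using this
    · refine (mul_le_mul' le_rfl h').trans ?_
      rw [← exp_add]
      exact exp_le_exp.mpr (by omega)
  · obtain ⟨hP, -⟩ := σ.point_spec hT c.2 hc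
    refine ⟨σ.point T c, hP, ?_⟩
    have := σ.le_exp_of_tay_eq_zero hT c.2 hc (hreg x) m (fun j hj => by
      rw [← hα j c hc x, hx j hj]; rfl)
    rw [hfβ x, map_mul, hvT _ hP] at this
    have h2 := mul_le_mul' (le_refl (exp (if σ.point T c = P₀ then (e : ℤ) else 0))) this
    rw [← mul_assoc, ← exp_add, add_neg_cancel, exp_zero, one_mul, ← exp_add] at h2
    rwa [sub_eq_add_neg]

end NodalDatum

end FermatAgent.BadRed.Semistable
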