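import Fermat.Agent.BadRed.Semistable.Disc

/-!
# Existence of coordinates on residue discs
-/

set_option autoImplicit false
set_option linter.style.haveILetI false

noncomputable section

open WithZero AlgebraicCurve

namespace FermatAgent.BadRed.Semistable

open FermatAgent.Curve FermatAgent.Curve.RR

section Comp

variable {k F : Type*} [Field k] [Field F] [Algebra k F] [IsAlgClosed k] [IsFunctionField1 k F]
  [RRSetting k F]

/-- A section vanishing to order exactly one at a place, with value one at given places. -/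
theorem exists_sec_simple {D : Divisor k F} (Q : Place k F) (S : Finset (Place k F))
    (hQS : Q ∉ S) (hS : ∀ v ∈ S, D v = 0)
    (h : 2 * (genusFF k F : ℤ) + 1 + S.card ≤ Divisor.degree D) :
    ∃ g ∈ riemannRochSpace D, g ≠ 0 ∧ Q.ord g + D Q = 1 ∧ ∀ v ∈ S, valueAt v g = 1 := by
  classical
  let E : Divisor k F := Finsupp.single Q 2 + ∑ v ∈ S, Finsupp.single v (1 : ℤ)
  have hE : 0 ≤ E := add_nonneg (by simp) (Finset.sum_nonneg fun i _ => by simp)
  have hdE : Divisor.degree E = 2 + S.card := by simp [E, Curve.deg_eq_one]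
  obtain ⟨t, ht0, hto⟩ := Curve.exists_ord_eq Q (1 - D Q)
  let T : Place k F → F := fun v => if v = Q then t else 1
  have hval : Q.adicValuation t = exp (D Q - 1) := by
    rw [Q.adicValuation_eq_exp_neg_ord ht0, hto, neg_sub]
  obtain ⟨g, hg, hgv⟩ := exists_interpolate (D := D) hE (by rw [map_sub, hdE]; linarith)
    (insert Q S) T
  have hEQ : E Q = 2 := by simp [E, Finsupp.single_apply, hQS]
  have h1 := hgv Q (Finset.mem_insert_self _ _) (by
    simp only [T, if_true, hval]; exact exp_le_exp.mpr (by omega))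
  simp only [T, if_true, hEQ] at h1
  have hlt : Q.adicValuation (g - t) < Q.adicValuation t := by
    rw [hval]; exact h1.trans_lt (exp_lt_exp.mpr (by omega))
  have hgval : Q.adicValuation g = exp (D Q - 1) := by
    have := Valuation.map_add_eq_of_lt_left Q.adicValuation hlt
    rw [add_sub_cancel] at this
    rw [this, hval]
  refine ⟨g, hg, fun e => ?_, ?_, fun v hv => ?_⟩
  · rw [e, map_zero] at hgval
    exact exp_ne_zero hgval.symm
  · simp [Place.ord, hgval]
  · have hvQ : v ≠ Q := fun e => hQS (e ▸ hv)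
    have hTv : T v = 1 := by simp [T, hvQ]
    have hEv : E v = 1 := by simp [E, hv, Ne.symm hvQ, Finsupp.single_apply]
    have h2 := hgv v (Finset.mem_insert_of_mem hv) (by simp [hTv, hS v hv])
    rw [hTv, hS v hv, hEv] at h2
    rw [valueAt_eq_of_sub_lt_one (by rw [map_one]) (lt_one_of_le_exp_neg (by norm_num) h2),
      show (1 : F) = algebraMap k F 1 by simp, valueAt_algebraMap]

end Comp

namespace NodalDatum

variable {K : Type*} [Field K] [IsAlgClosed K] {A : ValuationSubring K} {k : Type*}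
    [Field k] [IsAlgClosed k] {π : A →+* k} {F F₁ F₂ : Type*} [Field F] [Field F₁] [Field F₂]
    [Algebra K F] [Algebra k F₁] [Algebra k F₂] [IsFunctionField1 K F] [IsFunctionField1 k F₁]
    [IsFunctionField1 k F₂] [RRSetting K F] [RRSetting k F₁] [RRSetting k F₂] [Infinite k]
variable (d : NodalDatum A π F F₁ F₂)

/-- A ratio of sections, the numerator vanishing once at `ω`, the denominator not. -/
theorem exists_coord_of_section {b : ℕ} (hb : d.N₁ + 1 ≤ b) {p : F₁ × F₂} (hp : p ∈ d.C.glue b)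
    (p1 : p.1 ≠ 0) (p2 : p.2 ≠ 0) (ω : d.C.Pt) (hω : d.C.secDiv b p ω = 1) :
    ∃ (T : F) (h : T ∈ d.int), (d.red ⟨T, h⟩).1 ≠ 0 ∧ (d.red ⟨T, h⟩).2 ≠ 0 ∧
      d.C.secDiv 0 (d.red ⟨T, h⟩) ω = 1 ∧ ∀ P, d.place P = ω → 0 ≤ P.ord T := by
  classical
  have hb0 : d.n₀ ≤ b := by unfold N₁ N₀ at hb; omega
  obtain ⟨t, ht, htL, htr⟩ := d.exists_lift hb0 hp
  obtain ⟨s, hs, hsL, s1, s2, hsv⟩ := d.exists_section_not_van {ω} (b := b) (by simpa using hb)
  obtain ⟨hs1, hsr1⟩ := d.g₁.inv_mem d.residue_surjective hs.1 s1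
  obtain ⟨hs2, hsr2⟩ := d.g₂.inv_mem d.residue_surjective hs.2 s2
  have hsi : s⁻¹ ∈ d.int := ⟨hs1, hs2⟩
  have hr : d.red ⟨t * s⁻¹, mul_mem ht hsi⟩ = p * (d.red ⟨s, hs⟩)⁻¹ := by
    rw [d.red_mul ht hsi, htr]; exact congrArg _ (Prod.ext hsr1 hsr2)
  have n1 : (d.red ⟨t * s⁻¹, mul_mem ht hsi⟩).1 ≠ 0 := by
    rw [hr]; exact mul_ne_zero p1 (inv_ne_zero s1)
  have n2 : (d.red ⟨t * s⁻¹, mul_mem ht hsi⟩).2 ≠ 0 := by
    rw [hr]; exact mul_ne_zero p2 (inv_ne_zero s2)
  have hs0 : d.C.secDiv b (d.red ⟨s, hs⟩) ω = 0 := by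
    by_contra hne
    refine hsv ω (Finset.mem_singleton_self _) ?_
    rw [← d.C.mem_support_secDiv (d.red_mem_glue hb0 hs hsL) s1 s2]
    exact Finsupp.mem_support_iff.mpr hne
  have hsne := d.ne_zero_of_red_fst hs s1
  have htne := d.ne_zero_of_red_fst ht (by rw [htr]; exact p1)
  refine ⟨t * s⁻¹, mul_mem ht hsi, n1, n2, ?_, fun P hP => ?_⟩
  · have e := d.secDiv_mul 0 b n1 n2 s1 s2
    rw [Nat.zero_add, ← d.red_mul (mul_mem ht hsi) hs,
      d.red_congr (by rw [mul_assoc, inv_mul_cancel₀ hsne, mul_one]) _] at e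
    have := DFunLike.congr_fun e ω
    rw [Finsupp.add_apply, hs0, add_zero, htr, hω] at this
    exact this.symm
  · have hmap := d.mapDomain_secDivF hb0 hs hsL s1 s2
    have hnn := d.secDivF_nonneg hsne hsL
    have hP0 : d.secDivF b s P = 0 := by
      have h0 := DFunLike.congr_fun hmap ω
      rw [hs0, mapDomain_place_apply] at h0
      by_contra hne
      refine hne ?_
      have := (Finset.sum_eq_zero_iff_of_nonneg (fun R _ => by
        split_ifs
        · exact Finsupp.le_def.mp hnn R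
        · exact le_rfl)).mp h0 P (Finsupp.mem_support_iff.mpr hne)
      simpa [hP] using this
    have h1 := neg_le_ord_of_le_exp htne (htL P)
    rw [secDivF_apply] at hP0
    simp at h1
    rw [P.ord_mul htne (inv_ne_zero hsne), P.ord_inv]
    omega

theorem exists_coord_left (Q : Place k F₁) (hQ : ∀ i, d.C.x i ≠ Q) :
    ∃ T : F, (d.sideLeft Q hQ).IsCoord T := by
  classical
  set b := d.N₁ + Fintype.card d.C.ι + 3 + 2 * genusFF k F₁ with hb
  have hd := d.C.le_degree₁ b
  have hc : (Finset.univ.image d.C.x).card ≤ Fintype.card d.C.ι := Finset.card_image_le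
  obtain ⟨g, hg, hg0, hgo, hgv⟩ := exists_sec_simple (D := b • d.C.D₁) Q (Finset.univ.image d.C.x)
    (fun h => by obtain ⟨i, -, e⟩ := Finset.mem_image.mp h; exact hQ i e)
    (fun v hv => by obtain ⟨i, -, rfl⟩ := Finset.mem_image.mp hv; simp) (by omega)
  haveI := infinite_place (K := k) (F := F₂)
  obtain ⟨A', hA'⟩ := Infinite.exists_notMem_finset (Finset.univ.image d.C.y)
  have hd' := d.C.le_degree₂ b
  have hc' : (insert A' (Finset.univ.image d.C.y)).card ≤ Fintype.card d.C.ι + 1 :=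
    (Finset.card_insert_le _ _).trans (add_le_add Finset.card_image_le le_rfl)
  obtain ⟨g', hg', hgv'⟩ := exists_sec (D := b • d.C.D₂) (insert A' (Finset.univ.image d.C.y))
    (fun _ => False) (by unfold N₁ Glued.bound at hb; omega)
  have hmem : (g, g') ∈ d.C.glue b := ⟨hg, hg', fun i => by
    have e := hgv (d.C.x i) (Finset.mem_image_of_mem _ (Finset.mem_univ i))
    have e' := (hgv' (d.C.y i) (Finset.mem_insert_of_mem
      (Finset.mem_image_of_mem _ (Finset.mem_univ i)))).2.2 not_false (by simp)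
    simp [e, e']⟩
  have hg'0 : g' ≠ 0 := fun e =>
    (hgv' A' (Finset.mem_insert_self _ _)).2.1 not_false (by simp [e])
  have hω : d.C.secDiv b (g, g') (.left Q hQ) = 1 := by
    rw [Glued.secDiv_left]
    simpa using hgo
  obtain ⟨T, hT, n1, n2, ho, hpole⟩ := d.exists_coord_of_section (b := b) (by omega) hmem
    hg0 hg'0 _ hω
  exact ⟨T, hT, n1, n2, ((d.sideLeft Q hQ).secDiv_zero _).symm.trans ho, hpole⟩

theorem exists_coord_right (Q : Place k F₂) (hQ : ∀ i, d.C.y i ≠ Q) :
    ∃ T : F, (d.sideRight Q hQ).IsCoord T := by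
  classical
  set b := d.N₁ + Fintype.card d.C.ι + 3 + 2 * genusFF k F₂ with hb
  have hd := d.C.le_degree₂ b
  have hc : (Finset.univ.image d.C.y).card ≤ Fintype.card d.C.ι := Finset.card_image_le
  obtain ⟨g, hg, hg0, hgo, hgv⟩ := exists_sec_simple (D := b • d.C.D₂) Q (Finset.univ.image d.C.y)
    (fun h => by obtain ⟨i, -, e⟩ := Finset.mem_image.mp h; exact hQ i e)
    (fun v hv => by obtain ⟨i, -, rfl⟩ := Finset.mem_image.mp hv; simp) (by omega)
  haveI := infinite_place (K := k) (F := F₁)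
  obtain ⟨A', hA'⟩ := Infinite.exists_notMem_finset (Finset.univ.image d.C.x)
  have hd' := d.C.le_degree₁ b
  have hc' : (insert A' (Finset.univ.image d.C.x)).card ≤ Fintype.card d.C.ι + 1 :=
    (Finset.card_insert_le _ _).trans (add_le_add Finset.card_image_le le_rfl)
  obtain ⟨g', hg', hgv'⟩ := exists_sec (D := b • d.C.D₁) (insert A' (Finset.univ.image d.C.x))
    (fun _ => False) (by unfold N₁ Glued.bound at hb; omega)
  have hmem : (g', g) ∈ d.C.glue b := ⟨hg', hg, fun i => by
    have e := hgv (d.C.y i) (Finset.mem_image_of_mem _ (Finset.mem_univ i))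
    have e' := (hgv' (d.C.x i) (Finset.mem_insert_of_mem
      (Finset.mem_image_of_mem _ (Finset.mem_univ i)))).2.2 not_false (by simp)
    simp [e, e']⟩
  have hg'0 : g' ≠ 0 := fun e =>
    (hgv' A' (Finset.mem_insert_self _ _)).2.1 not_false (by simp [e])
  have hω : d.C.secDiv b (g', g) (.right Q hQ) = 1 := by
    rw [Glued.secDiv_right]
    simpa using hgo
  obtain ⟨T, hT, n1, n2, ho, hpole⟩ := d.exists_coord_of_section (b := b) (by omega) hmem
    hg'0 hg0 _ hω
  exact ⟨T, hT, n1, n2, ((d.sideRight Q hQ).secDiv_zero _).symm.trans ho, hpole⟩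

end NodalDatum

end FermatAgent.BadRed.Semistable
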