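import Fermat.Agent.BadRed.Semistable.Place

/-!
# Divisors reduce to divisors

For a section `t` of `l • D` with non-zero reduction on both components, the reduction of places
sends the divisor of `t` to the divisor of its reduction.
-/

set_option autoImplicit false
set_option linter.unusedSectionVars false
set_option linter.style.haveILetI false

noncomputable section

open WithZero AlgebraicCurve

namespace FermatAgent.BadRed.Semistable

open FermatAgent.Curve FermatAgent.Curve.RR

namespace NodalDatum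

variable {K : Type*} [Field K] [IsAlgClosed K] {A : ValuationSubring K} {k : Type*}
    [Field k] [IsAlgClosed k] {π : A →+* k} {F F₁ F₂ : Type*} [Field F] [Field F₁] [Field F₂]
    [Algebra K F] [Algebra k F₁] [Algebra k F₂] [IsFunctionField1 K F] [IsFunctionField1 k F₁]
    [IsFunctionField1 k F₂] [RRSetting K F] [RRSetting k F₁] [RRSetting k F₂] [Infinite k]
variable (d : NodalDatum A π F F₁ F₂)

/-- The effective divisor of a section of `l • D`. -/
def secDivF (l : ℕ) (t : F) : Divisor K F := divisorOf t + l • d.D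

theorem secDivF_apply (l : ℕ) (t : F) (P : Place K F) :
    d.secDivF l t P = P.ord t + l * d.D P := by simp [secDivF]

theorem secDivF_nonneg {l : ℕ} {t : F} (ht0 : t ≠ 0) (ht : t ∈ riemannRochSpace (l • d.D)) :
    0 ≤ d.secDivF l t := Finsupp.le_def.mpr fun P => by
  have := neg_le_ord_of_le_exp ht0 (ht P)
  rw [secDivF_apply]
  simp at this ⊢
  linarith

theorem degree_secDivF (l : ℕ) (t : F) : Divisor.degree (d.secDivF l t) = l * d.C.deg := by
  rw [secDivF, map_add, degree_divisorOf, map_nsmul, d.degree_D, nsmul_eq_mul, zero_add]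

/-- Multiplying a section into the sections vanishing on part of its divisor. -/
theorem mul_mem_sub_of_le {l m : ℕ} {t f : F} {Z : Divisor K F}
    (hZ : Z ≤ d.secDivF l t) (hf : f ∈ riemannRochSpace (m • d.D)) :
    t * f ∈ d.sub (l + m) Z := by
  refine d.mul_mem_sub' (fun P => ?_) hf
  refine adicValuation_le_exp_of_ord ?_
  have := Finsupp.le_def.mp hZ P
  rw [secDivF_apply] at this
  simp
  linarith

theorem prod_pow_mem_sub {b : ℕ} {ι : Type*} (s : Finset ι) (c : ι → ℕ) (P : ι → Place K F)
    (h : ι → F) (hh : ∀ i ∈ s, h i ∈ d.sub b (Finsupp.single (P i) 1)) :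
    ∏ i ∈ s, h i ^ c i ∈ d.sub ((∑ i ∈ s, c i) * b) (∑ i ∈ s, Finsupp.single (P i) (c i : ℤ)) := by
  classical
  induction s using Finset.induction with
  | empty =>
    simp only [Finset.prod_empty, Finset.sum_empty, Nat.zero_mul, sub, zero_smul, sub_zero]
    exact one_mem_rrSpace le_rfl
  | @insert i s hi ih =>
    rw [Finset.prod_insert hi, Finset.sum_insert hi, Finset.sum_insert hi, Nat.add_mul]
    refine d.mul_mem_sub ?_ (ih fun j hj => hh j (Finset.mem_insert_of_mem hj))
    have := d.pow_mem_sub (hh i (Finset.mem_insert_self _ _)) (c i)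
    simpa [Finsupp.smul_single] using this

/-- At each point, the zeros of `t` reducing there are at most the order of the reduction. -/
theorem mapDomain_secDivF_le {l : ℕ} (hl : d.n₀ ≤ l) {t : F} (h : t ∈ d.int)
    (ht : t ∈ riemannRochSpace (l • d.D)) (h1 : (d.red ⟨t, h⟩).1 ≠ 0)
    (h2 : (d.red ⟨t, h⟩).2 ≠ 0) (ω : d.C.Pt) :
    Finsupp.mapDomain d.place (d.secDivF l t) ω ≤ d.C.secDiv l (d.red ⟨t, h⟩) ω := by
  classical
  have ht0 : t ≠ 0 := fun e => h1 (by
    rw [d.red_congr e h, show (⟨(0 : F), zero_mem _⟩ : d.int) = 0 from rfl, map_zero]; rfl)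
  have hnn := d.secDivF_nonneg ht0 ht
  set p := d.red ⟨t, h⟩
  have hp : p ∈ d.C.glue l := d.red_mem_glue hl h ht
  set Z : Divisor K F := (d.secDivF l t).filter (fun P => d.place P = ω) with hZdef
  have hZ_apply : ∀ P, Z P = if d.place P = ω then d.secDivF l t P else 0 := fun P => by
    rw [hZdef, Finsupp.filter_apply]
  have hZnn : 0 ≤ Z := Finsupp.le_def.mpr fun P => by
    rw [hZ_apply]
    split_ifs
    · exact Finsupp.le_def.mp hnn P
    · exact le_rfl
  have hZle : Z ≤ d.secDivF l t := Finsupp.le_def.mpr fun P => by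
    rw [hZ_apply]
    split_ifs
    · exact le_rfl
    · exact Finsupp.le_def.mp hnn P
  have hdegZ : Divisor.degree Z = Finsupp.mapDomain d.place (d.secDivF l t) ω := by
    rw [degree_eq_sum]
    simp only [Finsupp.mapDomain, Finsupp.sum_apply, Finsupp.single_apply, hZdef]
    rw [Finsupp.sum_filter_index]
    simp [Finsupp.sum, Finset.sum_filter]
  rw [← hdegZ]
  set c : Place K F → ℕ := fun P => (Z P).toNat with hc
  set cs : ℕ := ∑ P ∈ Z.support, c P with hcs
  have hZsum : Z = ∑ P ∈ Z.support, Finsupp.single P (c P : ℤ) := by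
    conv_lhs => rw [← Finsupp.sum_single Z]
    refine Finset.sum_congr rfl fun P _ => ?_
    rw [hc, Int.toNat_of_nonneg (Finsupp.le_def.mp hZnn P)]
  have hcsdeg : (cs : ℤ) = Divisor.degree Z := by
    conv_rhs => rw [hZsum, map_sum]
    rw [hcs]
    push_cast
    exact Finset.sum_congr rfl fun P _ => by rw [Divisor.degree_single, Curve.deg_eq_one]; simp
  set T : Finset d.C.Pt := (d.C.secDiv l p).support.erase ω
  set b := d.N₁ + T.card with hb
  obtain ⟨q, hq, -, -, hqω, hqT⟩ := d.C.exists_separating ω T (Finset.notMem_erase _ _) (b := b)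
    (by rw [hb]; unfold N₁; omega)
  have hlift : ∀ P ∈ Z.support, ∃ (f : F) (hf : f ∈ d.int),
      f ∈ d.sub b (Finsupp.single P 1) ∧ d.red ⟨f, hf⟩ = q := fun P hP => by
    refine d.exists_lift_vanishing (by omega) P hq ?_
    have := Finsupp.mem_support_iff.mp hP
    rw [hZ_apply] at this
    split_ifs at this with hP'
    · rw [hP']; exact hqω
    · exact absurd rfl this
  choose! f hfint hfsub hfred using hlift
  set H := ∏ P ∈ Z.support, f P ^ c P
  have hHint : H ∈ d.int := prod_mem fun P hP => pow_mem (hfint P hP) _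
  have hHsub : H ∈ d.sub (cs * b) Z := by
    have := d.prod_pow_mem_sub Z.support c id f (fun P hP => hfsub P hP)
    simp only [id_eq, ← hZsum] at this
    exact this
  have hHred : d.red ⟨H, hHint⟩ = q ^ cs := by
    have e : (⟨H, hHint⟩ : d.int) =
        ∏ P ∈ Z.support.attach, (⟨f P.1, hfint P.1 P.2⟩ : d.int) ^ c P.1 := Subtype.ext (by
      rw [SubmonoidClass.coe_finsetProd]
      exact (Finset.prod_attach Z.support (fun P => f P ^ c P)).symm)
    rw [e, map_prod]
    simp only [map_pow, hfred _ (Subtype.mem _)]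
    rw [Finset.prod_pow_eq_pow_sum, Finset.sum_attach Z.support c]
  set m₁ := d.N₀ + d.C.bound + cs * b + l * d.C.deg with hm₁
  set N := l + m₁ with hN
  set m₂ := N - cs * b with hm₂
  have hm₂' : l + m₁ = cs * b + m₂ := by omega
  have hbound : d.C.bound + l ≤ m₂ := by omega
  obtain ⟨S, hSle, hSloc, hSfin⟩ := d.C.exists_locDiv_submodule (a := l) (N := N)
    (by omega) hp h1 h2 ω
  have hSW : S ≤ d.redImage (d.sub N Z) := by
    intro g hg
    obtain ⟨u, hu, x, hx, rfl⟩ := d.C.exists_bezout (a := l) (b := cs * b) hm₂' hbound hp h1 h2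
      (d.C.pow_mem_glue hq cs) (hSle hg) (fun τ hτ => by
        by_cases hτω : τ = ω
        · subst hτω; exact hSloc g hg
        · refine d.C.locDiv_of_not_van hp (hSle hg) fun hv => ?_
          refine d.C.not_van_pow (hqT τ (Finset.mem_erase.mpr ⟨hτω, ?_⟩)) cs hτ
          exact (d.C.mem_support_secDiv hp h1 h2 τ).mpr hv)
    rw [← d.redImage_rrSpace (show d.n₀ ≤ m₁ by unfold N₀ at hm₁; omega)] at hu
    rw [← d.redImage_rrSpace (show d.n₀ ≤ m₂ by unfold N₀ at hm₁; omega)] at hx
    obtain ⟨u', hu'i, hu'L, rfl⟩ := hu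
    obtain ⟨x', hx'i, hx'L, rfl⟩ := hx
    refine add_mem ⟨t * u', mul_mem h hu'i, d.mul_mem_sub_of_le hZle hu'L, d.red_mul h hu'i⟩
      ⟨H * x', mul_mem hHint hx'i, ?_, by rw [d.red_mul hHint hx'i, hHred]⟩
    rw [show N = cs * b + m₂ from hm₂']
    exact d.mul_mem_sub' hHsub hx'L
  have hWfin : Module.Finite k (d.redImage (d.sub N Z)) := by
    haveI := d.C.finite_glue N
    have hle : d.redImage (d.sub N Z) ≤ d.C.glue N :=
      (d.redImage_mono (d.sub_le hZnn)).trans
        (d.redImage_rrSpace (by unfold N₀ at hm₁; omega)).le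
    exact Module.Finite.of_injective (Submodule.inclusion hle) (Submodule.inclusion_injective hle)
  have h3 := Submodule.finrank_mono hSW
  have hdle : Divisor.degree Z ≤ l * d.C.deg := by
    rw [← d.degree_secDivF l t]
    have := degree_nonneg_of_nonneg (sub_nonneg.mpr hZle)
    rw [map_sub] at this
    omega
  have h4 := d.finrank_sub hZnn (n := N) (by
    have := degree_nonneg_of_nonneg hZnn
    have e : ((l * d.C.deg : ℕ) : ℤ) = (l : ℤ) * d.C.deg := by push_cast; rfl
    omega)
  omega

/-- The divisor of a section reduces to the divisor of its reduction. -/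
theorem mapDomain_secDivF {l : ℕ} (hl : d.n₀ ≤ l) {t : F} (h : t ∈ d.int)
    (ht : t ∈ riemannRochSpace (l • d.D)) (h1 : (d.red ⟨t, h⟩).1 ≠ 0)
    (h2 : (d.red ⟨t, h⟩).2 ≠ 0) :
    Finsupp.mapDomain d.place (d.secDivF l t) = d.C.secDiv l (d.red ⟨t, h⟩) := by
  classical
  set a := Finsupp.mapDomain d.place (d.secDivF l t) with ha
  set m := d.C.secDiv l (d.red ⟨t, h⟩) with hm
  have hsum : (m - a).sum (fun _ x => x) = 0 := by
    rw [Finsupp.sum_sub_index (fun _ _ _ => rfl), hm, Glued.sum_secDiv, ha,
      Finsupp.sum_mapDomain_index (fun _ => rfl) (fun _ _ _ => rfl), ← degree_eq_sum,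
      d.degree_secDivF, sub_self]
  have hnn : ∀ ω, 0 ≤ (m - a) ω := fun ω => by
    have := d.mapDomain_secDivF_le hl h ht h1 h2 ω
    rw [Finsupp.sub_apply]
    exact sub_nonneg.mpr this
  ext ω
  by_contra hne
  have hω : ω ∈ (m - a).support := by
    rw [Finsupp.mem_support_iff, Finsupp.sub_apply]
    omega
  have := (Finset.sum_eq_zero_iff_of_nonneg fun τ _ => hnn τ).mp hsum ω hω
  exact Finsupp.mem_support_iff.mp hω this

end NodalDatum

end FermatAgent.BadRed.Semistable
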