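import Fermat.Agent.BadRed.Semistable.Toric

/-!
# Residue discs of smooth points

Coordinates on the disc over a smooth point, and the first order behaviour of a function all
whose zeros and poles have order divisible by `n`.
-/

set_option autoImplicit false
set_option linter.unusedSectionVars false

noncomputable section

open WithZero AlgebraicCurve

namespace FermatAgent.BadRed.Semistable

open FermatAgent.Curve FermatAgent.Curve.RR

namespace NodalDatum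

variable {K : Type*} [Field K] [IsAlgClosed K] {A : ValuationSubring K} {k : Type*}
    [Field k] [IsAlgClosed k] {π : A →+* k} {F F₁ F₂ : Type*} [Field F] [Field F₁] [Field F₂]
    [Algebra K F] [Algebra k F₁] [Algebra k F₂] [IsFunctionField1 K F] [IsFunctionField1 k F₁]
    [IsFunctionField1 k F₂] [RRSetting K F] [RRSetting k F₁] [RRSetting k F₂] [Infinite k]
variable (d : NodalDatum A π F F₁ F₂)

/-- A point of the glued curve seen on one component `G`. -/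
structure Side (G : Type*) [Field G] [Algebra k G] where
  pr : F₁ × F₂ →ₐ[k] G
  Q : Place k G
  ω : d.C.Pt
  smooth : ∀ i, ω ≠ .node i
  secDiv_zero : ∀ p : F₁ × F₂, d.C.secDiv 0 p ω = Q.ord (pr p)
  le_ord : ∀ (f : F) (h : f ∈ d.int), pr (d.red ⟨f, h⟩) ≠ 0 →
    Finsupp.mapDomain d.place (divisorOf f) ω ≤ Q.ord (pr (d.red ⟨f, h⟩))
  ne_zero : ∀ p : F₁ × F₂, p.1 ≠ 0 → p.2 ≠ 0 → pr p ≠ 0

/-- The side of a smooth point of the first component. -/
def sideLeft (Q : Place k F₁) (hQ : ∀ i, d.C.x i ≠ Q) : d.Side F₁ where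
  pr := AlgHom.fst k F₁ F₂
  Q := Q
  ω := .left Q hQ
  smooth i := by simp
  secDiv_zero p := by simp [Glued.secDiv_left]
  le_ord _ h h1 := d.mapDomain_le_left h h1 Q hQ
  ne_zero _ h _ := h

/-- The side of a smooth point of the second component. -/
def sideRight (Q : Place k F₂) (hQ : ∀ i, d.C.y i ≠ Q) : d.Side F₂ where
  pr := AlgHom.snd k F₁ F₂
  Q := Q
  ω := .right Q hQ
  smooth i := by simp
  secDiv_zero p := by simp [Glued.secDiv_right]
  le_ord _ h h1 := d.mapDomain_le_right h h1 Q hQ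
  ne_zero _ _ h := h

theorem mapDomain_place_apply (D : Divisor K F) (ω : d.C.Pt) [DecidableEq d.C.Pt] :
    Finsupp.mapDomain d.place D ω = ∑ P ∈ D.support, if d.place P = ω then D P else 0 := by
  rw [Finsupp.mapDomain, Finsupp.sum, Finsupp.finsetSum_apply]
  simp [Finsupp.single_apply]

theorem le_mapDomain_fibre {f : F} {ω : d.C.Pt} (h : ∀ P, d.place P = ω → 0 ≤ P.ord f)
    (P₀ : Place K F) (hP₀ : d.place P₀ = ω) :
    P₀.ord f ≤ Finsupp.mapDomain d.place (divisorOf f) ω := by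
  classical
  rw [mapDomain_place_apply]
  by_cases hm : P₀ ∈ (divisorOf (K := K) f).support
  · refine le_trans ?_ (Finset.single_le_sum (fun P _ => ?_) hm)
    · simp [hP₀]
    · split_ifs with hP
      · exact h P hP
      · exact le_rfl
  · rw [Finsupp.notMem_support_iff, divisorOf_apply] at hm
    rw [hm]
    refine Finset.sum_nonneg fun P _ => ?_
    split_ifs with hP
    · exact h P hP
    · exact le_rfl

theorem exists_place (ω : d.C.Pt) : ∃ P : Place K F, d.place P = ω := by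
  classical
  obtain ⟨q, hq, q1, q2, hv, -⟩ := d.C.exists_separating ω ∅ (Finset.notMem_empty _) (b := d.N₁)
    (by unfold N₁; simp; omega)
  obtain ⟨f, hf, hfL, rfl⟩ := d.exists_lift (show d.n₀ ≤ d.N₁ by unfold N₁ N₀; omega) hq
  have hmem := (d.C.mem_support_secDiv hq q1 q2 ω).mpr hv
  rw [← d.mapDomain_secDivF (show d.n₀ ≤ d.N₁ by unfold N₁ N₀; omega) hf hfL q1 q2] at hmem
  obtain ⟨P, -, hP⟩ := Finset.mem_image.mp (Finsupp.mapDomain_support hmem)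
  exact ⟨P, hP⟩

section Side

open scoped Classical

variable {d} {G : Type*} [Field G] [Algebra k G] [IsFunctionField1 k G] [RRSetting k G]
  (σ : d.Side G)

/-- A coordinate of the disc: regular on it, reducing to a uniformiser. -/
def Side.IsCoord (T : F) : Prop :=
  ∃ h : T ∈ d.int, (d.red ⟨T, h⟩).1 ≠ 0 ∧ (d.red ⟨T, h⟩).2 ≠ 0 ∧
    σ.Q.ord (σ.pr (d.red ⟨T, h⟩)) = 1 ∧ ∀ P, d.place P = σ.ω → 0 ≤ P.ord T

theorem Side.value_integral {T : F} (h : T ∈ d.int) (hpole : ∀ P, d.place P = σ.ω → 0 ≤ P.ord T) (P₀ : Place K F) (hP₀ : d.place P₀ = σ.ω) :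
    ∃ hc : valueAt P₀ T ∈ A, 0 < σ.Q.ord (σ.pr (d.red ⟨T, h⟩)) → π ⟨valueAt P₀ T, hc⟩ = 0 := by
  classical
  set c := valueAt P₀ T with hc
  have hTmem : T ∈ P₀.toValuationSubring := (mem_iff_ord_nonneg' P₀).mpr (hpole P₀ hP₀)
  have hpolec : ∀ a : K, ∀ P, d.place P = σ.ω → 0 ≤ P.ord (T - algebraMap K F a) := fun a P hP =>
    ord_nonneg_of_mem' P (sub_mem ((mem_iff_ord_nonneg' P).mpr (hpole P hP)) (P.algebraMap_mem' a))
  have hcA : c ∈ A := by
    by_contra hn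
    have hc0 : c ≠ 0 := fun e => hn (e ▸ A.zero_mem)
    set h' := (1 : F) - c⁻¹ • T with hh'
    have hint : h' ∈ d.int := sub_mem (one_mem _) (d.smul_mem (inv_mem_of_not_mem hn) h)
    have hred : d.red ⟨h', hint⟩ = 1 := by
      rw [show (⟨h', hint⟩ : d.int) = 1 - ⟨c⁻¹ • T, d.smul_mem (inv_mem_of_not_mem hn) h⟩ from rfl,
        map_sub, map_one, d.red_smul (inv_mem_of_not_mem hn) h,
        pi_inv_of_not_mem d.residue_surjective hn, zero_smul, sub_zero]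
    have e : h' = (-c⁻¹) • (T - algebraMap K F c) := by
      have : algebraMap K F c ≠ 0 := by simpa using hc0
      rw [hh', Algebra.smul_def, Algebra.smul_def, map_neg, map_inv₀]
      field_simp
      ring
    have hne : T - algebraMap K F c ≠ 0 := fun e0 => by
      have : h' = 0 := by rw [e, e0, smul_zero]
      rw [d.red_congr this hint, show (⟨(0 : F), zero_mem _⟩ : d.int) = 0 from rfl, map_zero] at hred
      exact zero_ne_one hred
    have hP : 0 < P₀.ord h' := by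
      rw [e, Curve.ord_smul_const P₀ (by simpa using hc0)]
      exact ((valueAt_spec P₀ hTmem).resolve_left (fun e0 => hne (sub_eq_zero.mpr e0)))
    have h1 := d.mapDomain_divisorOf hint (by rw [hred]; simp) (by rw [hred]; simp)
    have h2 := d.le_mapDomain_fibre (f := h') (fun P hPω => by
      rw [e, Curve.ord_smul_const P (by simpa using hc0)]; exact hpolec c P hPω) P₀ hP₀
    rw [h1, hred, σ.secDiv_zero, map_one, Place.ord_one] at h2
    omega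
  refine ⟨hcA, fun hpos => ?_⟩
  by_contra hπ
  set h' := T - algebraMap K F c with hh'
  have hint : h' ∈ d.int := sub_mem h ⟨d.g₁.algebraMap_mem ⟨c, hcA⟩, d.g₂.algebraMap_mem ⟨c, hcA⟩⟩
  have hred : d.red ⟨h', hint⟩ = d.red ⟨T, h⟩ - algebraMap k (F₁ × F₂) (π ⟨c, hcA⟩) := by
    rw [show (⟨h', hint⟩ : d.int) = ⟨T, h⟩ - ⟨algebraMap K F c,
      ⟨d.g₁.algebraMap_mem ⟨c, hcA⟩, d.g₂.algebraMap_mem ⟨c, hcA⟩⟩⟩ from rfl, map_sub]
    exact congrArg _ (Prod.ext (d.g₁.red_algebraMap ⟨c, hcA⟩) (d.g₂.red_algebraMap ⟨c, hcA⟩))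
  have hpr : σ.pr (d.red ⟨h', hint⟩) =
      algebraMap k G (-π ⟨c, hcA⟩) + σ.pr (d.red ⟨T, h⟩) := by
    rw [hred, map_sub, AlgHom.commutes, map_neg]; ring
  have ho : σ.Q.ord (σ.pr (d.red ⟨h', hint⟩)) = 0 ∧ σ.pr (d.red ⟨h', hint⟩) ≠ 0 := by
    have hne : algebraMap k G (-π ⟨c, hcA⟩) ≠ 0 := by simpa using hπ
    have hlt : σ.pr (d.red ⟨T, h⟩) = 0 ∨ σ.Q.ord (algebraMap k G (-π ⟨c, hcA⟩)) <
        σ.Q.ord (σ.pr (d.red ⟨T, h⟩)) := Or.inr (by rw [Curve.ord_algebraMap_const]; exact hpos)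
    rw [hpr, Curve.ord_add_eq_left σ.Q hne hlt, Curve.ord_algebraMap_const]
    exact ⟨rfl, Curve.add_ne_zero_of_ord_lt σ.Q hne hlt⟩
  have h2 := d.le_mapDomain_fibre (f := h') (hpolec c) P₀ hP₀
  have h3 := σ.le_ord h' hint ho.2
  have hne' : h' ≠ 0 := fun e => ho.2 (by
    rw [d.red_congr e hint, show (⟨(0 : F), zero_mem _⟩ : d.int) = 0 from rfl, map_zero, map_zero])
  have hP := (valueAt_spec P₀ hTmem).resolve_left (fun e0 => hne' (sub_eq_zero.mpr e0))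
  rw [ho.1] at h3
  change 0 < P₀.ord h' at hP
  omega

/-- The coordinate centred at a place of the disc. -/
theorem Side.exists_centred {T : F} (hT : σ.IsCoord T) (P₀ : Place K F)
    (hP₀ : d.place P₀ = σ.ω) :
    ∃ hc : valueAt P₀ T ∈ A, π ⟨valueAt P₀ T, hc⟩ = 0 ∧
      ∃ h : T - algebraMap K F (valueAt P₀ T) ∈ d.int, ∃ hT' : T ∈ d.int,
        d.red ⟨_, h⟩ = d.red ⟨T, hT'⟩ ∧
        ∀ P, d.place P = σ.ω →
          P.ord (T - algebraMap K F (valueAt P₀ T)) = if P = P₀ then 1 else 0 := by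
  classical
  obtain ⟨hi, h1, h2, ho, hpole⟩ := hT
  obtain ⟨hc, hπ⟩ := σ.value_integral hi hpole P₀ hP₀
  have hπ0 := hπ (by omega)
  set T₀ := T - algebraMap K F (valueAt P₀ T) with hT₀
  have hcint : algebraMap K F (valueAt P₀ T) ∈ d.int :=
    ⟨d.g₁.algebraMap_mem ⟨_, hc⟩, d.g₂.algebraMap_mem ⟨_, hc⟩⟩
  have hi₀ : T₀ ∈ d.int := sub_mem hi hcint
  have hred : d.red ⟨T₀, hi₀⟩ = d.red ⟨T, hi⟩ := by
    rw [show (⟨T₀, hi₀⟩ : d.int) = ⟨T, hi⟩ - ⟨_, hcint⟩ from rfl, map_sub, sub_eq_self]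
    exact Prod.ext ((d.g₁.red_algebraMap ⟨_, hc⟩).trans (by simp [hπ0]))
      ((d.g₂.red_algebraMap ⟨_, hc⟩).trans (by simp [hπ0]))
  refine ⟨hc, hπ0, hi₀, hi, hred, ?_⟩
  have hnn : ∀ P, d.place P = σ.ω → 0 ≤ P.ord T₀ := fun P hP =>
    ord_nonneg_of_mem' P (sub_mem ((mem_iff_ord_nonneg' P).mpr (hpole P hP)) (P.algebraMap_mem' _))
  have hne : T₀ ≠ 0 := d.ne_zero_of_red_fst hi₀ (by rw [hred]; exact h1)
  have hP₀pos : 0 < P₀.ord T₀ :=
    (valueAt_spec P₀ ((mem_iff_ord_nonneg' P₀).mpr (hpole P₀ hP₀))).resolve_left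
      (fun e0 => hne (sub_eq_zero.mpr e0))
  have hsum : Finsupp.mapDomain d.place (divisorOf T₀) σ.ω = 1 := by
    rw [d.mapDomain_divisorOf hi₀ (by rw [hred]; exact h1) (by rw [hred]; exact h2), hred,
      σ.secDiv_zero, ho]
  intro P hP
  split_ifs with hPP
  · subst hPP
    have := d.le_mapDomain_fibre hnn P hP
    omega
  · by_contra hne'
    have hpos : 0 < P.ord T₀ := lt_of_le_of_ne (hnn P hP) (Ne.symm hne')
    rw [mapDomain_place_apply] at hsum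
    have hsub : ({P, P₀} : Finset (Place K F)) ⊆ (divisorOf (K := K) T₀).support := by
      intro R hR
      rw [Finsupp.mem_support_iff, divisorOf_apply]
      rcases Finset.mem_insert.mp hR with rfl | hR
      · omega
      · rw [Finset.mem_singleton.mp hR]; omega
    have := Finset.sum_le_sum_of_subset_of_nonneg hsub (f := fun R =>
      if d.place R = σ.ω then (divisorOf (K := K) T₀) R else 0) (fun R _ _ => by
        split_ifs with hR
        · exact hnn R hR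
        · exact le_rfl)
    rw [Finset.sum_pair hPP, hsum] at this
    simp only [hP, hP₀, if_true, divisorOf_apply] at this
    omega

theorem mem_valuationSubring_of_ord {P : Place K F} {f : F} (h : 0 ≤ P.ord f) :
    f ∈ P.toValuationSubring := (mem_iff_ord_nonneg' P).mpr h

/-- First order constraint: if on the disc the divisor of `f = 1 + s • g` is `n • (P₁ - P₀)`, then
the leading term of `(f - 1, P₁ - P₀)` has at most a simple pole of controlled residue. -/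
theorem Side.exists_first_order {T : F} (hT : σ.IsCoord T) {n : ℕ} {f g : F} {s : K}
    (hf : f = 1 + s • g) (hf0 : f ≠ 0) (hg : g ∈ d.int) (P₀ P₁ : Place K F)
    (hP₀ : d.place P₀ = σ.ω) (hP₁ : d.place P₁ = σ.ω)
    (hord : ∀ P, d.place P = σ.ω →
      P.ord f = (n : ℤ) * ((if P = P₁ then 1 else 0) - (if P = P₀ then 1 else 0))) :
    ∃ (δ : K) (u : G), u ≠ 0 ∧ σ.Q.ord u = 1 ∧
      ∀ μ : K, μ ≠ 0 → ∀ (hs : s / μ ∈ A) (hδ : δ / μ ∈ A),
        σ.Q.adicValuation (π ⟨s / μ, hs⟩ • σ.pr (d.red ⟨g, hg⟩) +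
          (π ⟨δ / μ, hδ⟩ * (n : k)) • u⁻¹) ≤ 1 := by
  classical
  obtain ⟨hc₀, hπ₀, hi₀, hiT, hr₀, ho₀⟩ := σ.exists_centred hT P₀ hP₀
  obtain ⟨hc₁, hπ₁, hi₁, hiT', hr₁, ho₁⟩ := σ.exists_centred hT P₁ hP₁
  obtain ⟨hi, h1, h2, ho, -⟩ := hT
  set c₀ := valueAt P₀ T
  set c₁ := valueAt P₁ T
  set T₀ := T - algebraMap K F c₀ with hT₀
  set T₁ := T - algebraMap K F c₁ with hT₁
  have hT₁ne : T₁ ≠ 0 := d.ne_zero_of_red_fst hi₁ (by rw [hr₁]; exact h1)
  have hT₀ne : T₀ ≠ 0 := d.ne_zero_of_red_fst hi₀ (by rw [hr₀]; exact h1)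
  obtain ⟨hinv₁, hinvr₁⟩ := d.g₁.inv_mem d.residue_surjective hi₁.1
    (show (d.red ⟨T₁, hi₁⟩).1 ≠ 0 by rw [hr₁]; exact h1)
  obtain ⟨hinv₂, hinvr₂⟩ := d.g₂.inv_mem d.residue_surjective hi₁.2
    (show (d.red ⟨T₁, hi₁⟩).2 ≠ 0 by rw [hr₁]; exact h2)
  have hi₁' : T₁⁻¹ ∈ d.int := ⟨hinv₁, hinv₂⟩
  have hrinv : d.red ⟨T₁⁻¹, hi₁'⟩ = (d.red ⟨T, hi⟩)⁻¹ := by
    rw [← hr₁]; exact Prod.ext hinvr₁ hinvr₂
  set δ := c₁ - c₀ with hδdef
  set S := ∑ i ∈ Finset.range n, T₀ ^ i * T₁ ^ (n - 1 - i) with hS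
  have hSint : S ∈ d.int := sum_mem fun i _ => mul_mem (pow_mem hi₀ i) (pow_mem hi₁ _)
  set u := σ.pr (d.red ⟨T, hi⟩) with hu
  have hu0 : u ≠ 0 := σ.ne_zero _ h1 h2
  refine ⟨δ, u, hu0, ho, fun μ hμ hs hδ => ?_⟩
  set ψ := (s / μ) • (g * T₀ ^ n * T₁⁻¹ ^ n) + (δ / μ) • (S * T₁⁻¹ ^ n) with hψ
  have hψi : ψ ∈ d.int := add_mem
    (d.smul_mem hs (mul_mem (mul_mem hg (pow_mem hi₀ n)) (pow_mem hi₁' n)))
    (d.smul_mem hδ (mul_mem hSint (pow_mem hi₁' n)))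
  have hkey : ψ = μ⁻¹ • (f * T₀ ^ n * T₁⁻¹ ^ n - 1) := by
    have hgs : S * (T₀ - T₁) = T₀ ^ n - T₁ ^ n := geom_sum₂_mul T₀ T₁ n
    have hd : T₀ - T₁ = algebraMap K F δ := by rw [hT₀, hT₁, hδdef, map_sub]; ring
    rw [hd] at hgs
    have hpow : T₁ ^ n * T₁⁻¹ ^ n = 1 := by
      rw [← mul_pow, mul_inv_cancel₀ hT₁ne, one_pow]
    rw [hψ, hf]
    simp only [Algebra.smul_def, map_inv₀, div_eq_mul_inv, map_mul]
    linear_combination (algebraMap K F μ)⁻¹ * T₁⁻¹ ^ n * hgs +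
      -(algebraMap K F μ)⁻¹ * hpow
  have hψmem : ∀ P, d.place P = σ.ω → ψ ∈ P.toValuationSubring := by
    intro P hP
    rw [hkey, Algebra.smul_def]
    refine mul_mem (P.algebraMap_mem' _) (sub_mem (mem_valuationSubring_of_ord ?_) (one_mem _))
    rw [P.ord_mul (mul_ne_zero hf0 (pow_ne_zero _ hT₀ne)) (pow_ne_zero _ (inv_ne_zero hT₁ne)),
      P.ord_mul hf0 (pow_ne_zero _ hT₀ne), Curve.ord_pow', Curve.ord_pow', P.ord_inv, ho₀ P hP,
      ho₁ P hP, hord P hP]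
    linarith
  have hpr : σ.pr (d.red ⟨ψ, hψi⟩) = π ⟨s / μ, hs⟩ • σ.pr (d.red ⟨g, hg⟩) +
      (π ⟨δ / μ, hδ⟩ * (n : k)) • u⁻¹ := by
    have hrS : d.red ⟨S, hSint⟩ = (n : F₁ × F₂) * d.red ⟨T, hi⟩ ^ (n - 1) := by
      have e : (⟨S, hSint⟩ : d.int) = ∑ i ∈ Finset.range n,
          (⟨T₀, hi₀⟩ : d.int) ^ i * (⟨T₁, hi₁⟩ : d.int) ^ (n - 1 - i) := Subtype.ext (by
        rw [AddSubmonoidClass.coe_finsetSum]; rfl)
      rw [e, map_sum]
      simp only [map_mul, map_pow]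
      rw [Finset.sum_congr rfl (g := fun _ => d.red ⟨T, hi⟩ ^ (n - 1)) fun i hi' => ?_,
        Finset.sum_const, Finset.card_range, nsmul_eq_mul]
      rw [show d.red ⟨T₀, hi₀⟩ = d.red ⟨T, hi⟩ from hr₀,
        show d.red ⟨T₁, hi₁⟩ = d.red ⟨T, hi⟩ from hr₁, ← pow_add]
      congr 1
      have := Finset.mem_range.mp hi'
      omega
    have hq1 : d.red ⟨g * T₀ ^ n * T₁⁻¹ ^ n,
        mul_mem (mul_mem hg (pow_mem hi₀ n)) (pow_mem hi₁' n)⟩ = d.red ⟨g, hg⟩ := by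
      rw [d.red_mul (mul_mem hg (pow_mem hi₀ n)) (pow_mem hi₁' n), d.red_mul hg (pow_mem hi₀ n)]
      rw [show d.red ⟨T₀ ^ n, pow_mem hi₀ n⟩ = d.red ⟨T, hi⟩ ^ n by
          rw [← hr₀, ← map_pow]; rfl,
        show d.red ⟨T₁⁻¹ ^ n, pow_mem hi₁' n⟩ = (d.red ⟨T, hi⟩)⁻¹ ^ n by
          rw [← hrinv, ← map_pow]; rfl, mul_assoc, ← mul_pow]
      refine Prod.ext ?_ ?_ <;> simp [h1, h2]
    have hq2 : σ.pr (d.red ⟨S * T₁⁻¹ ^ n, mul_mem hSint (pow_mem hi₁' n)⟩) = (n : G) * u⁻¹ := by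
      rw [d.red_mul hSint (pow_mem hi₁' n), show d.red ⟨T₁⁻¹ ^ n, pow_mem hi₁' n⟩ =
        d.red ⟨T₁⁻¹, hi₁'⟩ ^ n by rw [← map_pow]; rfl, hrS]
      have hui : σ.pr (d.red ⟨T₁⁻¹, hi₁'⟩) = u⁻¹ := by
        refine eq_inv_of_mul_eq_one_left ?_
        rw [hrinv, hu, ← map_mul,
          show (d.red ⟨T, hi⟩)⁻¹ * d.red ⟨T, hi⟩ = 1 by
            refine Prod.ext ?_ ?_ <;> simp [h1, h2], map_one]
      rw [map_mul, map_mul, map_natCast, map_pow, map_pow, ← hu, hui]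
      rcases n.eq_zero_or_pos with rfl | hn
      · simp
      · rw [inv_pow, mul_assoc]
        congr 1
        conv_lhs => rw [show u ^ n = u ^ (n - 1) * u by rw [← pow_succ, Nat.sub_add_cancel hn]]
        rw [mul_inv, ← mul_assoc, mul_inv_cancel₀ (pow_ne_zero _ hu0), one_mul]
    rw [show (⟨ψ, hψi⟩ : d.int) =
        ⟨_, d.smul_mem hs (mul_mem (mul_mem hg (pow_mem hi₀ n)) (pow_mem hi₁' n))⟩ +
          ⟨_, d.smul_mem hδ (mul_mem hSint (pow_mem hi₁' n))⟩ from rfl,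
      map_add, map_add, d.red_smul hs (mul_mem (mul_mem hg (pow_mem hi₀ n)) (pow_mem hi₁' n)),
      d.red_smul hδ (mul_mem hSint (pow_mem hi₁' n)), map_smul, map_smul, hq1, hq2, mul_smul,
      Algebra.smul_def (n : k), map_natCast]
  rw [← hpr]
  rcases eq_or_ne (σ.pr (d.red ⟨ψ, hψi⟩)) 0 with h0 | h0
  · simp [h0]
  · refine σ.Q.adicValuation_le_one_iff.mpr (Or.inr (le_trans ?_ (σ.le_ord ψ hψi h0)))
    exact le_trans (ord_nonneg_of_mem' P₀ (hψmem P₀ hP₀))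
      (d.le_mapDomain_fibre (fun P hP => ord_nonneg_of_mem' P (hψmem P hP)) P₀ hP₀)

end Side

end NodalDatum

end FermatAgent.BadRed.Semistable
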