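import Fermat.Agent.BadRed.Semistable.Residue
import Fermat.Agent.BadRed.Semistable.ChartPoints
import Fermat.Agent.BadRed.Semistable.Semilinear
import Fermat.Agent.ES.Series

/-!
# The Frobenius endomorphism of the function field of `X₀(N)` in characteristic `q`

`fibFrob` is `f(τ) ↦ f(q τ)` on expansions; it is the `q`-th power of the inverse coefficientwise
Frobenius, so it multiplies valuations by `q` along `fibPull`.
-/

set_option autoImplicit false
set_option linter.unusedSectionVars false

noncomputable section

open AlgebraicCurve ModularCurve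

namespace FermatAgent.BadRed.Semistable

open FermatAgent.Curve FermatAgent.ES

attribute [local instance] neZero_prime

variable (k : Type*) [Field k] [IsAlgClosed k] (q : ℕ) [Fact q.Prime] [CharP k q]
  (N : ℕ) [NeZero N]

/-- The coefficientwise Frobenius. -/
def fibPhi : SemilinearAut k (modularFunctionFieldFullC k N) :=
  coeffSemilinear N (frobeniusEquiv k q)

/-- The effect of the Frobenius endomorphism on places. -/
def fibPull (v : Place k (modularFunctionFieldFullC k N)) :
    Place k (modularFunctionFieldFullC k N) :=
  fibPhi k q N • v

theorem qExpand_eq_pow (r : modularFunctionFieldFullC k N) :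
    qExpand k q (r : LaurentSeries k) =
      ((((fibPhi k q N)⁻¹ • r) ^ q : modularFunctionFieldFullC k N) : LaurentSeries k) := by
  rw [fibPhi, coeffSemilinear_inv, SubmonoidClass.coe_pow, coe_coeffSemilinear_smul, ← map_pow,
    pow_char_eq q, coeffMap_coeffMap,
    coeffMap_congr (g := RingHom.id k) (RingHom.ext fun a => ?_), coeffMap_id]
  show (frobeniusEquiv k q).symm (frobenius k q a) = a
  exact (frobeniusEquiv k q).symm_apply_apply a

/-- `f(τ) ↦ f(q τ)`. -/
def fibFrob : modularFunctionFieldFullC k N →ₐ[k] modularFunctionFieldFullC k N where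
  toRingHom := ((qExpand k q).comp
    (modularFunctionFieldFullC k N).val.toRingHom).codRestrict _ fun r => by
      show qExpand k q (r : LaurentSeries k) ∈ _
      rw [qExpand_eq_pow]
      exact SetLike.coe_mem _
  commutes' a := Subtype.ext ((qExpandAlgHomC k q).commutes a)

theorem coe_fibFrob (r : modularFunctionFieldFullC k N) :
    (fibFrob k q N r : LaurentSeries k) = qExpand k q (r : LaurentSeries k) := rfl

theorem fibFrob_eq_pow (r : modularFunctionFieldFullC k N) :
    fibFrob k q N r = ((fibPhi k q N)⁻¹ • r) ^ q :=
  Subtype.ext (qExpand_eq_pow k q N r)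

theorem fibFrob_jFib : fibFrob k q N (jFib k N) = jFib k N ^ q := by
  apply Subtype.ext
  rw [coe_fibFrob, coe_jFib, SubmonoidClass.coe_pow, coe_jFib, pow_jqModC]

variable [IsFunctionField1 k (modularFunctionFieldFullC k N)]

/-- The inseparable pairs. -/
theorem insepData : InsepData (fibFrob k q N) q (fibPull k q N) where
  one_lt := (Fact.out : q.Prime).one_lt
  valuation v r := by
    rw [fibFrob_eq_pow, map_pow]
    congr 1
    have := valuation_semilinear_smul (fibPhi k q N) v ((fibPhi k q N)⁻¹ • r)
    rw [smul_inv_smul] at this
    exact this.symm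

end FermatAgent.BadRed.Semistable
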