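import Fermat.Agent.BadRed.Semistable.Interp

/-!
# Two curves glued transversally in finitely many pairs of points

`Glued k F₁ F₂` records functions `z₁`, `z₂` and node pairs `(x i, y i)` at which both are
finite. `glue n` is the space of sections of `n` times the pole divisor of `(z₁, z₂)` on the glued
curve: pairs of sections with equal values at the nodes.
-/

set_option autoImplicit false
set_option linter.unusedSectionVars false

noncomputable section

open WithZero AlgebraicCurve

namespace FermatAgent.BadRed.Semistable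

open FermatAgent.Curve FermatAgent.Curve.RR

/-! ### Values and valuations -/

section Value

variable {k F : Type*} [Field k] [Field F] [Algebra k F] [IsAlgClosed k] [IsFunctionField1 k F]
variable {v : Place k F}

theorem mem_of_le_one {f : F} (h : v.adicValuation f ≤ 1) : f ∈ v.toValuationSubring :=
  (mem_iff_adicValuation_le_one v).mpr h

theorem adicValuation_lt_one_iff {f : F} (hf : v.adicValuation f ≤ 1) :
    v.adicValuation f < 1 ↔ valueAt v f = 0 := by
  rw [valueAt_eq_zero_iff v (mem_of_le_one hf)]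
  rcases eq_or_ne f 0 with rfl | hf0
  · simp
  rw [v.adicValuation_eq_exp_neg_ord hf0, ← exp_zero, exp_lt_exp]
  simp [hf0]

theorem valueAt_eq_of_sub_lt_one {f g : F} (hg : v.adicValuation g ≤ 1)
    (h : v.adicValuation (f - g) < 1) : valueAt v f = valueAt v g := by
  have hf : v.adicValuation f ≤ 1 := by
    have := Valuation.map_add v.adicValuation (f - g) g
    rw [sub_add_cancel] at this
    exact this.trans (max_le h.le hg)
  have h0 := (adicValuation_lt_one_iff h.le).mp h
  rw [valueAt_sub v (mem_of_le_one hf) (mem_of_le_one hg), sub_eq_zero] at h0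
  exact h0

theorem valueAt_smul {f : F} (hf : v.adicValuation f ≤ 1) (c : k) :
    valueAt v (c • f) = c * valueAt v f := by
  rw [Algebra.smul_def, valueAt_mul v (v.algebraMap_mem' c) (mem_of_le_one hf),
    valueAt_algebraMap]

theorem le_exp_of_lt_exp_succ {f : F} {n : ℤ} (h : v.adicValuation f < exp (n + 1)) :
    v.adicValuation f ≤ exp n := by
  rcases eq_or_ne f 0 with rfl | hf
  · simp
  rw [v.adicValuation_eq_exp_neg_ord hf, exp_lt_exp] at h
  rw [v.adicValuation_eq_exp_neg_ord hf, exp_le_exp]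
  omega

theorem lt_one_of_le_exp_neg {f : F} {n : ℤ} (hn : n < 0) (h : v.adicValuation f ≤ exp n) :
    v.adicValuation f < 1 :=
  h.trans_lt (by rw [← exp_zero]; exact exp_lt_exp.mpr hn)

/-- The part of the Bezout lemma on one component. -/
theorem exists_bezout_comp [RRSetting k F] {z : F} (hz : Transcendental k z)
    (S : Finset (Place k F)) (hS : ∀ v ∈ S, (poleDiv z : Divisor k F) v = 0) (V : Place k F → Prop)
    {a b m₁ m₂ : ℕ} (hN : a + m₁ = b + m₂) (hm : 2 * genusFF k F + a + S.card + 1 ≤ m₂)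
    {p p' g : F} (hp : p ∈ riemannRochSpace (a • (poleDiv z : Divisor k F))) (hp0 : p ≠ 0)
    (hp' : p' ∈ riemannRochSpace (b • (poleDiv z : Divisor k F)))
    (hg : g ∈ riemannRochSpace ((a + m₁) • (poleDiv z : Divisor k F)))
    (hnon : ∀ v, ¬ V v → ¬ v.adicValuation p' < exp ((b : ℤ) * (poleDiv z : Divisor k F) v))
    (hV : ∀ v, V v → v.adicValuation (g / p) ≤ exp ((m₁ : ℤ) * (poleDiv z : Divisor k F) v)) :
    ∃ x ∈ riemannRochSpace (m₂ • (poleDiv z : Divisor k F)), (g - p' * x) / p ∈ riemannRochSpace (m₁ • (poleDiv z : Divisor k F)) ∧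
      ∀ v ∈ S, ((V v → v.adicValuation x < 1) ∧ (¬ V v → v.adicValuation (x - g / p') < 1)) ∧
        ((V v → v.adicValuation ((g - p' * x) / p - g / p) < 1) ∧
          (¬ V v → v.adicValuation ((g - p' * x) / p) < 1)) := by
  classical
  set P : Divisor k F := (poleDiv z : Divisor k F) with hP
  set E₀ : Divisor k F := divisorOf p + (a : ℤ) • P with hE₀
  set E : Divisor k F := E₀ + ∑ v ∈ S, Finsupp.single v (1 : ℤ) with hE
  have hE₀v : ∀ v, E₀ v = v.ord p + a * P v := fun v => by simp [hE₀]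
  have hE₀nn : ∀ v, 0 ≤ E₀ v := fun v => by
    have := neg_le_ord_of_le_exp hp0 (hp v)
    rw [hE₀v]
    simp at this ⊢
    linarith
  have hEv : ∀ v, E v = E₀ v + if v ∈ S then 1 else 0 := fun v => by
    simp [hE, Finsupp.single_apply]
  have hEnn : 0 ≤ E := Finsupp.le_def.mpr fun v => by
    have := hE₀nn v
    rw [hEv]
    split_ifs <;> simp <;> omega
  have hdE : Divisor.degree E = a * Divisor.degree P + S.card := by
    simp [hE, hE₀, map_add, map_sum, degree_divisorOf, deg_eq_one]
  have hdP : 0 < Divisor.degree P := degree_poleDiv_pos hz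
  have hdeg : 2 * (genusFF k F : ℤ) - 1 ≤ Divisor.degree (m₂ • P - E) := by
    rw [map_sub, hdE, map_nsmul, nsmul_eq_mul]
    have h1 : ((2 * genusFF k F + S.card + 1 : ℕ) : ℤ) * 1 ≤ ((m₂ : ℤ) - a) * Divisor.degree P := by
      refine mul_le_mul ?_ (by omega) (by norm_num) (by omega)
      push_cast
      omega
    push_cast at h1 ⊢
    linarith
  have hp'val : ∀ v, ¬ V v → v.adicValuation p' = exp ((b : ℤ) * P v) := fun v hv =>
    le_antisymm (by simpa using hp' v) (not_lt.mp (hnon v hv))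
  have hgv : ∀ v, v.adicValuation g ≤ exp (((a : ℤ) + m₁) * P v) := fun v => by
    simpa using hg v
  have hNz : (a : ℤ) + m₁ = b + m₂ := by exact_mod_cast hN
  let T : Place k F → F := fun v => if V v then 0 else g / p'
  have hT : ∀ v, v.adicValuation (T v) ≤ exp ((m₂ : ℤ) * P v) := by
    intro v
    simp only [T]
    split_ifs with hv
    · simp
    · rw [map_div₀, hp'val v hv, div_le_iff₀ exp_pos, ← exp_add]
      refine (hgv v).trans (exp_le_exp.mpr ?_)
      rw [hNz]
      ring_nf
      exact le_rfl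
  obtain ⟨x, hx, hxv⟩ := exists_interpolate hEnn hdeg (E.support ∪ S) T
  have hxE : ∀ v, v ∈ E.support ∪ S →
      v.adicValuation (x - T v) ≤ exp ((m₂ : ℤ) * P v - E v) := fun v hv => by
    simpa using hxv v hv (by simpa using hT v)
  have hvp : ∀ v, v.adicValuation p = exp ((a : ℤ) * P v - E₀ v) := fun v => by
    rw [v.adicValuation_eq_exp_neg_ord hp0, hE₀v]
    ring_nf
  have key : ∀ v, v ∈ E.support ∪ S → v.adicValuation
      ((g - p' * x) / p - (if V v then g / p else 0)) ≤
        exp ((m₁ : ℤ) * P v - if v ∈ S then 1 else 0) := by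
    intro v hv
    have hx' := hxE v hv
    have hexp : (b : ℤ) * P v + ((m₂ : ℤ) * P v - E v) - ((a : ℤ) * P v - E₀ v) ≤
        (m₁ : ℤ) * P v - if v ∈ S then 1 else 0 := by
      rw [hEv]
      have : ((a : ℤ) + m₁) * P v = (b + m₂) * P v := by rw [hNz]
      linarith
    have hb : v.adicValuation (p' * (x - T v) / p) ≤
        exp ((m₁ : ℤ) * P v - if v ∈ S then 1 else 0) := by
      rw [map_div₀, map_mul, hvp v, div_le_iff₀ exp_pos, ← exp_add]
      refine (mul_le_mul' (by simpa using hp' v) hx').trans ?_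
      rw [← exp_add, exp_le_exp]
      linarith
    have e : (g - p' * x) / p - (if V v then g / p else 0) = -(p' * (x - T v) / p) := by
      simp only [T]
      split_ifs with hv'
      · ring
      · have hp'0 : p' ≠ 0 := by
          intro h
          have := hp'val v hv'
          rw [h, map_zero] at this
          exact exp_ne_zero this.symm
        field_simp
        ring
    rw [e, Valuation.map_neg]
    exact hb
  refine ⟨x, hx, fun v => ?_, fun v hv => ?_⟩
  · rw [show ((m₁ • P : Divisor k F) v) = (m₁ : ℤ) * P v by simp]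
    by_cases hv : v ∈ E.support ∪ S
    · have h1 := (key v hv).trans (exp_le_exp.mpr (by split_ifs <;> omega) :
        exp ((m₁ : ℤ) * P v - if v ∈ S then 1 else 0) ≤ exp ((m₁ : ℤ) * P v))
      by_cases hVv : V v
      · rw [if_pos hVv] at h1
        have := Valuation.map_add v.adicValuation ((g - p' * x) / p - g / p) (g / p)
        rw [sub_add_cancel] at this
        exact this.trans (max_le h1 (hV v hVv))
      · simpa [hVv] using h1
    · simp only [Finset.mem_union, Finsupp.mem_support_iff, not_or, not_not] at hv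
      have hE0 : E₀ v = 0 := by
        have := hEv v
        rw [hv.1, if_neg hv.2] at this
        omega
      rw [map_div₀, hvp v, div_le_iff₀ exp_pos, ← exp_add, hE0, sub_zero,
        show (m₁ : ℤ) * P v + a * P v = ((a : ℤ) + m₁) * P v by ring]
      refine (Valuation.map_sub _ _ _).trans (max_le (hgv v) ?_)
      rw [map_mul]
      refine (mul_le_mul' (by simpa using hp' v) (by simpa using hx v)).trans ?_
      rw [← exp_add, exp_le_exp, hNz]
      linarith
  · have hv' : v ∈ E.support ∪ S := Finset.mem_union_right _ hv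
    have hP0 : P v = 0 := hS v hv
    have hEge : 1 ≤ E v := by
      have := hE₀nn v
      rw [hEv, if_pos hv]
      omega
    have hx0 : v.adicValuation (x - T v) < 1 :=
      lt_one_of_le_exp_neg (by rw [hP0]; omega) (hxE v hv')
    have hk := key v hv'
    rw [if_pos hv, hP0] at hk
    have hk0 := lt_one_of_le_exp_neg (by omega) hk
    exact ⟨⟨fun h => by simpa [T, h] using hx0, fun h => by simpa [T, h] using hx0⟩,
      ⟨fun h => by simpa [h] using hk0, fun h => by simpa [h] using hk0⟩⟩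

end Value

/-! ### The glued curve -/

/-- Two function fields with coordinates and node pairs. -/
structure Glued (k F₁ F₂ : Type*) [Field k] [Field F₁] [Field F₂] [Algebra k F₁] [Algebra k F₂]
    [IsAlgClosed k] [IsFunctionField1 k F₁] [IsFunctionField1 k F₂] where
  z₁ : F₁
  z₂ : F₂
  transcendental₁ : Transcendental k z₁
  transcendental₂ : Transcendental k z₂
  ι : Type
  fintype : Fintype ι
  nonempty : Nonempty ι
  x : ι → Place k F₁
  y : ι → Place k F₂
  x_injective : Function.Injective x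
  y_injective : Function.Injective y
  x_finite : ∀ i, 0 ≤ (x i).ord z₁
  y_finite : ∀ i, 0 ≤ (y i).ord z₂

attribute [instance] Glued.fintype

namespace Glued

variable {k F₁ F₂ : Type*} [Field k] [Field F₁] [Field F₂] [Algebra k F₁] [Algebra k F₂]
  [IsAlgClosed k] [IsFunctionField1 k F₁] [IsFunctionField1 k F₂]
variable (C : Glued k F₁ F₂)

/-- The pole divisor of the first coordinate. -/
def D₁ : Divisor k F₁ := poleDiv C.z₁

/-- The pole divisor of the second coordinate. -/
def D₂ : Divisor k F₂ := poleDiv C.z₂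

@[simp] theorem D₁_x (i : C.ι) : C.D₁ (C.x i) = 0 := by
  have := C.x_finite i
  rw [D₁, poleDiv_apply]
  omega

@[simp] theorem D₂_y (i : C.ι) : C.D₂ (C.y i) = 0 := by
  have := C.y_finite i
  rw [D₂, poleDiv_apply]
  omega

theorem le_one_x {n : ℕ} {f : F₁} (hf : f ∈ riemannRochSpace (n • C.D₁)) (i : C.ι) :
    (C.x i).adicValuation f ≤ 1 := by
  simpa using hf (C.x i)

theorem le_one_y {n : ℕ} {f : F₂} (hf : f ∈ riemannRochSpace (n • C.D₂)) (i : C.ι) :
    (C.y i).adicValuation f ≤ 1 := by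
  simpa using hf (C.y i)

/-- Sections of `n` times the pole divisor on the glued curve. -/
def glue (n : ℕ) : Submodule k (F₁ × F₂) where
  carrier := {p | p.1 ∈ riemannRochSpace (n • C.D₁) ∧ p.2 ∈ riemannRochSpace (n • C.D₂) ∧
    ∀ i, valueAt (C.x i) p.1 = valueAt (C.y i) p.2}
  zero_mem' := ⟨zero_mem _, zero_mem _, fun i => by
    rw [show ((0 : F₁ × F₂).1) = algebraMap k F₁ 0 by simp, valueAt_algebraMap,
      show ((0 : F₁ × F₂).2) = algebraMap k F₂ 0 by simp, valueAt_algebraMap]⟩
  add_mem' := by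
    rintro p q ⟨h1, h2, h3⟩ ⟨h1', h2', h3'⟩
    refine ⟨add_mem h1 h1', add_mem h2 h2', fun i => ?_⟩
    rw [Prod.fst_add, Prod.snd_add,
      valueAt_add _ (mem_of_le_one (C.le_one_x h1 i)) (mem_of_le_one (C.le_one_x h1' i)),
      valueAt_add _ (mem_of_le_one (C.le_one_y h2 i)) (mem_of_le_one (C.le_one_y h2' i)),
      h3 i, h3' i]
  smul_mem' := by
    rintro c p ⟨h1, h2, h3⟩
    refine ⟨Submodule.smul_mem _ c h1, Submodule.smul_mem _ c h2, fun i => ?_⟩
    rw [Prod.smul_fst, Prod.smul_snd, valueAt_smul (C.le_one_x h1 i),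
      valueAt_smul (C.le_one_y h2 i), h3 i]

theorem mem_glue {n : ℕ} {p : F₁ × F₂} : p ∈ C.glue n ↔
    p.1 ∈ riemannRochSpace (n • C.D₁) ∧ p.2 ∈ riemannRochSpace (n • C.D₂) ∧
      ∀ i, valueAt (C.x i) p.1 = valueAt (C.y i) p.2 := Iff.rfl

theorem mul_mem_glue {n m : ℕ} {p q : F₁ × F₂} (hp : p ∈ C.glue n) (hq : q ∈ C.glue m) :
    p * q ∈ C.glue (n + m) := by
  obtain ⟨h1, h2, h3⟩ := hp
  obtain ⟨h1', h2', h3'⟩ := hq
  refine ⟨?_, ?_, fun i => ?_⟩
  · rw [add_smul]; exact mul_mem_rrSpace h1 h1'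
  · rw [add_smul]; exact mul_mem_rrSpace h2 h2'
  · rw [Prod.fst_mul, Prod.snd_mul,
      valueAt_mul _ (mem_of_le_one (C.le_one_x h1 i)) (mem_of_le_one (C.le_one_x h1' i)),
      valueAt_mul _ (mem_of_le_one (C.le_one_y h2 i)) (mem_of_le_one (C.le_one_y h2' i)),
      h3 i, h3' i]

theorem one_mem_glue (n : ℕ) : (1 : F₁ × F₂) ∈ C.glue n := by
  refine ⟨one_mem_rrSpace (nsmul_nonneg (poleDiv_nonneg _) n),
    one_mem_rrSpace (nsmul_nonneg (poleDiv_nonneg _) n), fun i => ?_⟩
  rw [show (1 : F₁ × F₂).1 = algebraMap k F₁ 1 by simp, valueAt_algebraMap,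
    show (1 : F₁ × F₂).2 = algebraMap k F₂ 1 by simp, valueAt_algebraMap]

theorem pow_mem_glue {n : ℕ} {p : F₁ × F₂} (hp : p ∈ C.glue n) (a : ℕ) :
    p ^ a ∈ C.glue (a * n) := by
  induction a with
  | zero => simpa using C.one_mem_glue (0 * n)
  | succ a ih =>
    rw [pow_succ, Nat.succ_mul]
    exact C.mul_mem_glue ih hp

/-! ### Points of the glued curve -/

/-- A point of the glued curve: a non-node place of a component, or a node. -/
inductive Pt where
  | left (Q : Place k F₁) (hQ : ∀ i, C.x i ≠ Q)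
  | right (Q : Place k F₂) (hQ : ∀ i, C.y i ≠ Q)
  | node (i : C.ι)

/-- A section vanishes at a point. -/
def Van : C.Pt → ℕ → F₁ × F₂ → Prop
  | .left Q _, n, p => Q.adicValuation p.1 < exp ((n : ℤ) * C.D₁ Q)
  | .right Q _, n, p => Q.adicValuation p.2 < exp ((n : ℤ) * C.D₂ Q)
  | .node i, _, p => (C.x i).adicValuation p.1 < 1

theorem van_node_iff {n : ℕ} {p : F₁ × F₂} (hp : p ∈ C.glue n) (i : C.ι) :
    C.Van (.node i) n p ↔ (C.y i).adicValuation p.2 < 1 := by
  show (C.x i).adicValuation p.1 < 1 ↔ _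
  rw [adicValuation_lt_one_iff (C.le_one_x hp.1 i), adicValuation_lt_one_iff (C.le_one_y hp.2.1 i),
    hp.2.2 i]

/-- `g / p` is regular at a point, as a section of degree `N - a`. -/
def LocDiv : C.Pt → ℕ → ℕ → F₁ × F₂ → F₁ × F₂ → Prop
  | .left Q _, a, N, p, g => Q.adicValuation (g.1 / p.1) ≤ exp (((N : ℤ) - a) * C.D₁ Q)
  | .right Q _, a, N, p, g => Q.adicValuation (g.2 / p.2) ≤ exp (((N : ℤ) - a) * C.D₂ Q)
  | .node i, _, _, p, g => (C.x i).adicValuation (g.1 / p.1) ≤ 1 ∧
      (C.y i).adicValuation (g.2 / p.2) ≤ 1 ∧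
      valueAt (C.x i) (g.1 / p.1) = valueAt (C.y i) (g.2 / p.2)

/-- A degree beyond which interpolation below holds. -/
def bound : ℕ := 2 * genusFF k F₁ + 2 * genusFF k F₂ + Fintype.card C.ι + 1

variable [RRSetting k F₁] [RRSetting k F₂]

/-- Bezout on the glued curve: sections locally in `(p, p')` are globally in `(p, p')`. -/
theorem exists_bezout {a b m₁ m₂ : ℕ} (hN : a + m₁ = b + m₂) (hm : C.bound + a ≤ m₂)
    {p p' g : F₁ × F₂} (hp : p ∈ C.glue a) (hp1 : p.1 ≠ 0) (hp2 : p.2 ≠ 0) (hp' : p' ∈ C.glue b)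
    (hg : g ∈ C.glue (a + m₁))
    (h : ∀ ω : C.Pt, C.Van ω b p' → C.LocDiv ω a (a + m₁) p g) :
    ∃ u ∈ C.glue m₁, ∃ x ∈ C.glue m₂, g = p * u + p' * x := by
  classical
  set N := a + m₁ with hNdef
  let V₁ : Place k F₁ → Prop := fun Q => Q.adicValuation p'.1 < exp ((b : ℤ) * C.D₁ Q)
  let V₂ : Place k F₂ → Prop := fun Q => Q.adicValuation p'.2 < exp ((b : ℤ) * C.D₂ Q)
  let S₁ : Finset (Place k F₁) := Finset.univ.image C.x
  let S₂ : Finset (Place k F₂) := Finset.univ.image C.y
  have hS₁ : ∀ v ∈ S₁, C.D₁ v = 0 := by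
    intro v hv
    obtain ⟨i, -, rfl⟩ := Finset.mem_image.mp hv
    exact C.D₁_x i
  have hS₂ : ∀ v ∈ S₂, C.D₂ v = 0 := by
    intro v hv
    obtain ⟨i, -, rfl⟩ := Finset.mem_image.mp hv
    exact C.D₂_y i
  have hc1 : S₁.card ≤ Fintype.card C.ι := Finset.card_image_le
  have hc2 : S₂.card ≤ Fintype.card C.ι := Finset.card_image_le
  have hsub : ((N : ℕ) : ℤ) - a = (m₁ : ℤ) := by rw [hNdef]; push_cast; ring
  have hV1 : ∀ i, V₁ (C.x i) ↔ C.Van (.node i) b p' := fun i => by simp [V₁, Van]
  have hV2 : ∀ i, V₂ (C.y i) ↔ C.Van (.node i) b p' := fun i => by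
    rw [C.van_node_iff hp' i]
    simp [V₂]
  obtain ⟨x₁, hx₁, hu₁, hn₁⟩ := exists_bezout_comp C.transcendental₁ S₁ hS₁ V₁ hN
    (by unfold bound at hm; omega) hp.1 hp1 hp'.1 hg.1 (fun v hv => hv) (fun v hv => by
      by_cases hv' : ∃ i, C.x i = v
      · obtain ⟨i, rfl⟩ := hv'
        have := (h (.node i) ((hV1 i).mp hv)).1
        exact this.trans (by rw [← D₁, C.D₁_x, mul_zero, exp_zero])
      · push Not at hv'
        have := h (.left v hv') hv
        simpa [LocDiv, hsub, D₁] using this)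
  obtain ⟨x₂, hx₂, hu₂, hn₂⟩ := exists_bezout_comp C.transcendental₂ S₂ hS₂ V₂ hN
    (by unfold bound at hm; omega) hp.2.1 hp2 hp'.2.1 hg.2.1 (fun v hv => hv) (fun v hv => by
      by_cases hv' : ∃ i, C.y i = v
      · obtain ⟨i, rfl⟩ := hv'
        have := (h (.node i) ((hV2 i).mp hv)).2.1
        exact this.trans (by rw [← D₂, C.D₂_y, mul_zero, exp_zero])
      · push Not at hv'
        have := h (.right v hv') hv
        simpa [LocDiv, hsub, D₂] using this)
  have hx : (x₁, x₂) ∈ C.glue m₂ := by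
    refine ⟨hx₁, hx₂, fun i => ?_⟩
    obtain ⟨⟨hA, hA'⟩, -⟩ := hn₁ (C.x i) (Finset.mem_image_of_mem _ (Finset.mem_univ i))
    obtain ⟨⟨hB, hB'⟩, -⟩ := hn₂ (C.y i) (Finset.mem_image_of_mem _ (Finset.mem_univ i))
    by_cases hv : C.Van (.node i) b p'
    · rw [(adicValuation_lt_one_iff (hA ((hV1 i).mpr hv)).le).mp (hA ((hV1 i).mpr hv)),
        (adicValuation_lt_one_iff (hB ((hV2 i).mpr hv)).le).mp (hB ((hV2 i).mpr hv))]
    · have hv1 : ¬ V₁ (C.x i) := fun h' => hv ((hV1 i).mp h')
      have hv2 : ¬ V₂ (C.y i) := fun h' => hv ((hV2 i).mp h')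
      have e1 : (C.x i).adicValuation p'.1 = 1 :=
        le_antisymm (C.le_one_x hp'.1 i) (by simpa [V₁] using hv1)
      have e2 : (C.y i).adicValuation p'.2 = 1 :=
        le_antisymm (C.le_one_y hp'.2.1 i) (by simpa [V₂] using hv2)
      have hq1 : (C.x i).adicValuation (g.1 / p'.1) ≤ 1 := by
        rw [map_div₀, e1, div_one]; exact C.le_one_x hg.1 i
      have hq2 : (C.y i).adicValuation (g.2 / p'.2) ≤ 1 := by
        rw [map_div₀, e2, div_one]; exact C.le_one_y hg.2.1 i
      rw [valueAt_eq_of_sub_lt_one hq1 (hA' hv1), valueAt_eq_of_sub_lt_one hq2 (hB' hv2)]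
      have o1 : (C.x i).ord p'.1 = 0 := by simp [Place.ord, e1]
      have o2 : (C.y i).ord p'.2 = 0 := by simp [Place.ord, e2]
      rw [div_eq_mul_inv, div_eq_mul_inv,
        valueAt_mul _ (mem_of_le_one (C.le_one_x hg.1 i)) (mem_of_le_one (by simp [e1])),
        valueAt_mul _ (mem_of_le_one (C.le_one_y hg.2.1 i)) (mem_of_le_one (by simp [e2])),
        valueAt_inv _ o1, valueAt_inv _ o2, hg.2.2 i, hp'.2.2 i]
  refine ⟨((g.1 - p'.1 * x₁) / p.1, (g.2 - p'.2 * x₂) / p.2), ⟨hu₁, hu₂, fun i => ?_⟩,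
    (x₁, x₂), hx, ?_⟩
  · obtain ⟨-, hA, hA'⟩ := hn₁ (C.x i) (Finset.mem_image_of_mem _ (Finset.mem_univ i))
    obtain ⟨-, hB, hB'⟩ := hn₂ (C.y i) (Finset.mem_image_of_mem _ (Finset.mem_univ i))
    by_cases hv : C.Van (.node i) b p'
    · obtain ⟨l1, l2, l3⟩ := h (.node i) hv
      rw [valueAt_eq_of_sub_lt_one l1 (hA ((hV1 i).mpr hv)),
        valueAt_eq_of_sub_lt_one l2 (hB ((hV2 i).mpr hv)), l3]
    · have hA0 := hA' fun h' => hv ((hV1 i).mp h')
      have hB0 := hB' fun h' => hv ((hV2 i).mp h')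
      rw [(adicValuation_lt_one_iff hA0.le).mp hA0, (adicValuation_lt_one_iff hB0.le).mp hB0]
  · refine Prod.ext ?_ ?_ <;> simp only [Prod.fst_add, Prod.snd_add, Prod.fst_mul, Prod.snd_mul]
    · rw [mul_div_cancel₀ _ hp1]; ring
    · rw [mul_div_cancel₀ _ hp2]; ring

/-- The number of sections of a large multiple of the pole divisor. -/
theorem finrank_glue {n : ℕ} (hn : C.bound ≤ n) :
    (Module.finrank k (C.glue n) : ℤ) =
      n * (Divisor.degree C.D₁ + Divisor.degree C.D₂) + 2 - genusFF k F₁ - genusFF k F₂ -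
        Fintype.card C.ι := by
  classical
  let L₁ := riemannRochSpace (n • C.D₁)
  let L₂ := riemannRochSpace (n • C.D₂)
  let φ : (L₁ × L₂) →ₗ[k] (C.ι → k) :=
    { toFun := fun p i => valueAt (C.x i) (p.1 : F₁) - valueAt (C.y i) (p.2 : F₂)
      map_add' := fun p q => funext fun i => by
        simp only [Prod.fst_add, Prod.snd_add, Submodule.coe_add, Pi.add_apply]
        rw [valueAt_add _ (mem_of_le_one (C.le_one_x p.1.2 i)) (mem_of_le_one (C.le_one_x q.1.2 i)),
          valueAt_add _ (mem_of_le_one (C.le_one_y p.2.2 i)) (mem_of_le_one (C.le_one_y q.2.2 i))]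
        ring
      map_smul' := fun c p => funext fun i => by
        simp only [Prod.smul_fst, Prod.smul_snd, Submodule.coe_smul, Pi.smul_apply, smul_eq_mul,
          RingHom.id_apply]
        rw [valueAt_smul (C.le_one_x p.1.2 i), valueAt_smul (C.le_one_y p.2.2 i)]
        ring }
  have hdpos := degree_poleDiv_pos (K := k) C.transcendental₁
  have hdeg2 := degree_poleDiv_pos (K := k) C.transcendental₂
  have hge : (n : ℤ) ≤ n * Divisor.degree C.D₁ :=
    le_mul_of_one_le_right (Int.natCast_nonneg n) hdpos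
  have hsurj : Function.Surjective φ := by
    intro c
    let E : Divisor k F₁ := ∑ i, Finsupp.single (C.x i) (1 : ℤ)
    have hE : 0 ≤ E := Finset.sum_nonneg fun i _ => by simp
    have hdE : Divisor.degree E = (Fintype.card C.ι : ℤ) := by simp [E, deg_eq_one]
    have hd : 2 * (genusFF k F₁ : ℤ) - 1 ≤ Divisor.degree (n • C.D₁ - E) := by
      rw [map_sub, hdE, map_nsmul, nsmul_eq_mul]
      unfold bound at hn
      omega
    let T : Place k F₁ → F₁ := fun v =>
      if h : ∃ i, C.x i = v then algebraMap k F₁ (c h.choose) else 0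
    obtain ⟨g, hg, hgv⟩ := exists_interpolate hE hd (Finset.univ.image C.x) T
    refine ⟨(⟨g, hg⟩, 0), funext fun i => ?_⟩
    have hT : T (C.x i) = algebraMap k F₁ (c i) := by
      have h : ∃ j, C.x j = C.x i := ⟨i, rfl⟩
      simp only [T, dif_pos h]
      rw [C.x_injective h.choose_spec]
    have hTle : (C.x i).adicValuation (T (C.x i)) ≤ 1 := by
      rw [hT]; exact (C.x i).adicValuation_algebraMap_le_one _
    have h1 := hgv (C.x i) (Finset.mem_image_of_mem _ (Finset.mem_univ i)) (by simpa using hTle)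
    have hEi : E (C.x i) = 1 := by
      simp [E, Finsupp.finsetSum_apply, Finsupp.single_apply, C.x_injective.eq_iff]
    have h2 : (C.x i).adicValuation (g - T (C.x i)) < 1 :=
      lt_one_of_le_exp_neg (by simp [hEi]) h1
    show valueAt (C.x i) g - valueAt (C.y i) ((0 : L₂) : F₂) = c i
    rw [valueAt_eq_of_sub_lt_one hTle h2, hT, valueAt_algebraMap, Submodule.coe_zero,
      show (0 : F₂) = algebraMap k F₂ 0 by simp, valueAt_algebraMap, sub_zero]
  have hker : Module.finrank k (LinearMap.ker φ) = Module.finrank k (C.glue n) :=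
    LinearEquiv.finrank_eq
      { toFun := fun p => ⟨((p.1.1 : F₁), (p.1.2 : F₂)), p.1.1.2, p.1.2.2, fun i =>
          sub_eq_zero.mp (congrFun (LinearMap.mem_ker.mp p.2) i)⟩
        map_add' := fun _ _ => rfl
        map_smul' := fun _ _ => rfl
        invFun := fun p => ⟨(⟨p.1.1, p.2.1⟩, ⟨p.1.2, p.2.2.1⟩), funext fun i =>
          sub_eq_zero.mpr (p.2.2.2 i)⟩
        left_inv := fun _ => rfl
        right_inv := fun _ => rfl }
  have hrk := LinearMap.finrank_range_add_finrank_ker φ
  rw [LinearMap.range_eq_top.mpr hsurj, finrank_top, Module.finrank_pi, hker,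
    Module.finrank_prod] at hrk
  have hb1 : 2 * (genusFF k F₁ : ℤ) - 1 ≤ Divisor.degree (n • C.D₁) := by
    rw [map_nsmul, nsmul_eq_mul]; unfold bound at hn; omega
  have hge2 : (n : ℤ) ≤ n * Divisor.degree C.D₂ :=
    le_mul_of_one_le_right (Int.natCast_nonneg n) hdeg2
  have hb2 : 2 * (genusFF k F₂ : ℤ) - 1 ≤ Divisor.degree (n • C.D₂) := by
    rw [map_nsmul, nsmul_eq_mul]; unfold bound at hn; omega
  have e1 := finrank_rrSpace_of_degree_ge hb1
  have e2 := finrank_rrSpace_of_degree_ge hb2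
  rw [map_nsmul, nsmul_eq_mul] at e1 e2
  change Fintype.card C.ι + Module.finrank k (C.glue n) =
    Module.finrank k L₁ + Module.finrank k L₂ at hrk
  simp only [L₁, L₂] at hrk
  rw [mul_add]
  omega

end Glued

end FermatAgent.BadRed.Semistable
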