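import Fermat.Agent.BadRed.Semistable.GluePoints

/-!
# Sections divisible by a given section at a point
-/

set_option autoImplicit false
set_option linter.unusedSectionVars false
set_option linter.style.haveILetI false

noncomputable section

open WithZero AlgebraicCurve

namespace FermatAgent.BadRed.Semistable

open FermatAgent.Curve FermatAgent.Curve.RR

namespace Glued

variable {k F₁ F₂ : Type*} [Field k] [Field F₁] [Field F₂] [Algebra k F₁] [Algebra k F₂]
  [IsAlgClosed k] [IsFunctionField1 k F₁] [IsFunctionField1 k F₂]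
  [RRSetting k F₁] [RRSetting k F₂]
variable (C : Glued k F₁ F₂)

theorem finrank_le_of_quot {V : Type*} [AddCommGroup V] [Module k V] (S : Submodule k (F₁ × F₂))
    [Module.Finite k S] (φ : S →ₗ[k] V) [Module.Finite k V] (T : Submodule k (F₁ × F₂))
    (hT : ∀ g : S, φ g = 0 → (g : F₁ × F₂) ∈ T) :
    Module.finrank k S ≤ Module.finrank k (S ⊓ T : Submodule k (F₁ × F₂)) + Module.finrank k V := by
  have h := LinearMap.finrank_range_add_finrank_ker φ
  have h1 : Module.finrank k (LinearMap.range φ) ≤ Module.finrank k V := Submodule.finrank_le _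
  have h2 : Module.finrank k (LinearMap.ker φ) ≤
      Module.finrank k (S ⊓ T : Submodule k (F₁ × F₂)) := by
    haveI : Module.Finite k (S ⊓ T : Submodule k (F₁ × F₂)) :=
      Submodule.finiteDimensional_inf_left S T
    let f : LinearMap.ker φ →ₗ[k] (S ⊓ T : Submodule k (F₁ × F₂)) :=
      { toFun := fun g => ⟨((g : S) : F₁ × F₂), (g : S).2, hT _ (LinearMap.mem_ker.mp g.2)⟩
        map_add' := fun _ _ => rfl
        map_smul' := fun _ _ => rfl }
    exact LinearMap.finrank_le_finrank_of_injective (f := f) fun a b e =>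
      Subtype.ext (Subtype.ext (congrArg (fun t : (S ⊓ T : Submodule k (F₁ × F₂)) =>
        (t : F₁ × F₂)) e))
  omega

instance finite_glue (n : ℕ) : Module.Finite k (C.glue n) :=
  Module.Finite.of_injective
    (LinearMap.prod
      ((LinearMap.fst k F₁ F₂).restrict (p := C.glue n) (q := riemannRochSpace (n • C.D₁))
        fun _ h => h.1)
      ((LinearMap.snd k F₁ F₂).restrict (p := C.glue n) (q := riemannRochSpace (n • C.D₂))
        fun _ h => h.2.1))
    fun _ _ e => Subtype.ext (Prod.ext (congrArg (fun t => ((t.1 : riemannRochSpace (n • C.D₁)) :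
      F₁)) e) (congrArg (fun t => ((t.2 : riemannRochSpace (n • C.D₂)) : F₂)) e))

theorem locDiv_left_iff {a N : ℕ} {p g : F₁ × F₂} (hp1 : p.1 ≠ 0) (Q : Place k F₁)
    (h : ∀ i, C.x i ≠ Q) :
    C.LocDiv (.left Q h) a N p g ↔
      Q.adicValuation g.1 ≤ exp ((N : ℤ) * C.D₁ Q - C.secDiv a p (.left Q h)) := by
  show Q.adicValuation (g.1 / p.1) ≤ _ ↔ _
  rw [secDiv_left, map_div₀, Q.adicValuation_eq_exp_neg_ord hp1, div_le_iff₀ exp_pos, ← exp_add]
  ring_nf

theorem locDiv_right_iff {a N : ℕ} {p g : F₁ × F₂} (hp2 : p.2 ≠ 0) (Q : Place k F₂)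
    (h : ∀ i, C.y i ≠ Q) :
    C.LocDiv (.right Q h) a N p g ↔
      Q.adicValuation g.2 ≤ exp ((N : ℤ) * C.D₂ Q - C.secDiv a p (.right Q h)) := by
  show Q.adicValuation (g.2 / p.2) ≤ _ ↔ _
  rw [secDiv_right, map_div₀, Q.adicValuation_eq_exp_neg_ord hp2, div_le_iff₀ exp_pos, ← exp_add]
  ring_nf

theorem secDiv_le {a : ℕ} {p : F₁ × F₂} (hp : p ∈ C.glue a) (hp1 : p.1 ≠ 0) (hp2 : p.2 ≠ 0)
    (ω : C.Pt) : C.secDiv a p ω ≤ a * C.deg := by
  classical
  rw [← C.sum_secDiv a p]
  by_cases hω : ω ∈ (C.secDiv a p).support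
  · exact Finset.single_le_sum (f := fun τ => C.secDiv a p τ)
      (fun τ _ => C.secDiv_nonneg hp hp1 hp2 τ) hω
  · rw [Finsupp.notMem_support_iff.mp hω]
    exact Finset.sum_nonneg fun τ _ => C.secDiv_nonneg hp hp1 hp2 τ

/-- Sections divisible by `p` at `ω` have codimension at most the multiplicity of `p` at `ω`. -/
theorem exists_locDiv_submodule {a N : ℕ} (hN : C.bound + a * C.deg ≤ N) {p : F₁ × F₂}
    (hp : p ∈ C.glue a) (hp1 : p.1 ≠ 0) (hp2 : p.2 ≠ 0) (ω : C.Pt) :
    ∃ T : Submodule k (F₁ × F₂), T ≤ C.glue N ∧ (∀ g ∈ T, C.LocDiv ω a N p g) ∧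
      (Module.finrank k (C.glue N) : ℤ) ≤ Module.finrank k T + C.secDiv a p ω := by
  classical
  have hmle := C.secDiv_le hp hp1 hp2 ω
  have hmnn := C.secDiv_nonneg hp hp1 hp2 ω
  have hNz : ((C.bound : ℤ) + a * C.deg) ≤ N := by exact_mod_cast hN
  have hd1 := C.le_degree₁ N
  have hd2 := C.le_degree₂ N
  unfold bound at hNz
  push_cast at hNz
  cases ω with
  | left Q hQ =>
    obtain ⟨m, hm⟩ := Int.eq_ofNat_of_zero_le hmnn
    have hquot := finrank_quot_le (D := N • C.D₁) Q m (by omega)
    let T : Submodule k (F₁ × F₂) := C.glue N ⊓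
      (riemannRochSpace (N • C.D₁ - Finsupp.single Q (m : ℤ))).comap (LinearMap.fst k F₁ F₂)
    refine ⟨T, inf_le_left, fun g hg => (C.locDiv_left_iff hp1 Q hQ).mpr ?_, ?_⟩
    · rw [hm]
      simpa using adicValuation_le_of_mem_sub (Submodule.mem_comap.mp hg.2)
    · have h := finrank_le_of_quot (C.glue N) ((Submodule.mkQ
          ((riemannRochSpace (N • C.D₁ - Finsupp.single Q (m : ℤ))).comap
            (riemannRochSpace (N • C.D₁)).subtype)) ∘ₗ
          ((LinearMap.fst k F₁ F₂).restrict (p := C.glue N) (q := riemannRochSpace (N • C.D₁))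
            fun _ h => h.1))
        ((riemannRochSpace (N • C.D₁ - Finsupp.single Q (m : ℤ))).comap (LinearMap.fst k F₁ F₂))
        (fun g hg => by
          have := (Submodule.Quotient.mk_eq_zero _).mp hg
          exact this)
      rw [hquot] at h
      change (Module.finrank k (C.glue N) : ℤ) ≤ Module.finrank k T + _
      rw [hm]
      exact_mod_cast h
  | right Q hQ =>
    obtain ⟨m, hm⟩ := Int.eq_ofNat_of_zero_le hmnn
    have hquot := finrank_quot_le (D := N • C.D₂) Q m (by omega)
    let T : Submodule k (F₁ × F₂) := C.glue N ⊓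
      (riemannRochSpace (N • C.D₂ - Finsupp.single Q (m : ℤ))).comap (LinearMap.snd k F₁ F₂)
    refine ⟨T, inf_le_left, fun g hg => (C.locDiv_right_iff hp2 Q hQ).mpr ?_, ?_⟩
    · rw [hm]
      simpa using adicValuation_le_of_mem_sub (Submodule.mem_comap.mp hg.2)
    · have h := finrank_le_of_quot (C.glue N) ((Submodule.mkQ
          ((riemannRochSpace (N • C.D₂ - Finsupp.single Q (m : ℤ))).comap
            (riemannRochSpace (N • C.D₂)).subtype)) ∘ₗ
          ((LinearMap.snd k F₁ F₂).restrict (p := C.glue N) (q := riemannRochSpace (N • C.D₂))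
            fun _ h => h.2.1))
        ((riemannRochSpace (N • C.D₂ - Finsupp.single Q (m : ℤ))).comap (LinearMap.snd k F₁ F₂))
        (fun g hg => by
          have := (Submodule.Quotient.mk_eq_zero _).mp hg
          exact this)
      rw [hquot] at h
      change (Module.finrank k (C.glue N) : ℤ) ≤ Module.finrank k T + _
      rw [hm]
      exact_mod_cast h
  | node i =>
    have hsd := C.secDiv_node a p i
    have h1 := C.ord_add_nonneg₁ hp hp1 (C.x i)
    have h2 := C.ord_add_nonneg₂ hp hp2 (C.y i)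
    simp only [D₁_x, D₂_y, mul_zero, add_zero] at h1 h2
    by_cases hv : C.Van (.node i) a p
    swap
    · exact ⟨C.glue N, le_rfl, fun g hg => C.locDiv_of_not_van hp hg hv, by omega⟩
    obtain ⟨m₁, hm₁⟩ := Int.eq_ofNat_of_zero_le h1
    obtain ⟨m₂, hm₂⟩ := Int.eq_ofNat_of_zero_le h2
    have e1 := (C.van_left_iff (n := a) hp1 (C.x i)).mp (by simpa [Van] using hv)
    have e2 := (C.van_right_iff (n := a) hp2 (C.y i)).mp
      (by simpa using (C.van_node_iff hp i).mp hv)
    simp only [D₁_x, D₂_y, mul_zero, add_zero] at e1 e2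
    let A₁ := (riemannRochSpace (N • C.D₁ - Finsupp.single (C.x i) (m₁ : ℤ))).comap
      (LinearMap.fst k F₁ F₂)
    let A₂ := (riemannRochSpace (N • C.D₂ - Finsupp.single (C.y i) (m₂ : ℤ))).comap
      (LinearMap.snd k F₁ F₂)
    have step1 := finrank_le_of_quot (C.glue N) ((Submodule.mkQ
        ((riemannRochSpace (N • C.D₁ - Finsupp.single (C.x i) (m₁ : ℤ))).comap
          (riemannRochSpace (N • C.D₁)).subtype)) ∘ₗ
        ((LinearMap.fst k F₁ F₂).restrict (p := C.glue N) (q := riemannRochSpace (N • C.D₁))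
          fun _ h => h.1)) A₁
      (fun g hg => by
        have := (Submodule.Quotient.mk_eq_zero _).mp hg
        exact this)
    rw [finrank_quot_le (D := N • C.D₁) (C.x i) m₁ (by omega)] at step1
    haveI : Module.Finite k (C.glue N ⊓ A₁ : Submodule k (F₁ × F₂)) :=
      Submodule.finiteDimensional_inf_left _ _
    have hval : ∀ g : (C.glue N ⊓ A₁ : Submodule k (F₁ × F₂)),
        (g : F₁ × F₂).2 ∈ riemannRochSpace (N • C.D₂ - Finsupp.single (C.y i) (1 : ℤ)) := by
      intro g
      have hA := adicValuation_le_of_mem_sub (Submodule.mem_comap.mp g.2.2)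
      simp only [Finsupp.coe_smul, Pi.smul_apply, D₁_x, smul_zero, LinearMap.fst_apply] at hA
      have hlt : C.Van (.node i) N (g : F₁ × F₂) := lt_one_of_le_exp_neg (by omega) hA
      have h2' := (C.van_node_iff g.2.1 i).mp hlt
      refine mem_sub_single g.2.1.2.1 ?_
      simp only [Finsupp.coe_smul, Pi.smul_apply, D₂_y, smul_zero]
      refine le_exp_of_lt_exp_succ ?_
      simpa using h2'
    have hd2' : Divisor.degree (N • C.D₂ - Finsupp.single (C.y i) (1 : ℤ)) =
        Divisor.degree (N • C.D₂) - 1 := by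
      rw [map_sub, Divisor.degree_single, Curve.deg_eq_one]; simp
    have step2 := finrank_le_of_quot (C.glue N ⊓ A₁ : Submodule k (F₁ × F₂)) ((Submodule.mkQ
        ((riemannRochSpace ((N • C.D₂ - Finsupp.single (C.y i) (1 : ℤ)) -
          Finsupp.single (C.y i) ((m₂ - 1 : ℕ) : ℤ))).comap
          (riemannRochSpace (N • C.D₂ - Finsupp.single (C.y i) (1 : ℤ))).subtype)) ∘ₗ
        ((LinearMap.snd k F₁ F₂).restrict (p := C.glue N ⊓ A₁)
          (q := riemannRochSpace (N • C.D₂ - Finsupp.single (C.y i) (1 : ℤ)))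
          fun g h => hval ⟨g, h⟩)) A₂
      (fun g hg => by
        have h := (Submodule.Quotient.mk_eq_zero _).mp hg
        have hm : (1 : ℤ) + ((m₂ - 1 : ℕ) : ℤ) = m₂ := by omega
        rw [Submodule.mem_comap, sub_sub, ← Finsupp.single_add, hm] at h
        exact h)
    rw [finrank_quot_le (D := N • C.D₂ - Finsupp.single (C.y i) (1 : ℤ)) (C.y i) (m₂ - 1)
      (by rw [hd2']; omega)] at step2
    haveI : Module.Finite k (C.glue N ⊓ A₁ ⊓ A₂ : Submodule k (F₁ × F₂)) :=
      Submodule.finiteDimensional_inf_left _ _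
    have hle : ∀ g : (C.glue N ⊓ A₁ ⊓ A₂ : Submodule k (F₁ × F₂)),
        (C.x i).adicValuation ((g : F₁ × F₂).1 / p.1) ≤ 1 ∧
        (C.y i).adicValuation ((g : F₁ × F₂).2 / p.2) ≤ 1 := by
      intro g
      refine ⟨?_, ?_⟩
      · rw [map_div₀, (C.x i).adicValuation_eq_exp_neg_ord hp1, div_le_iff₀ exp_pos, one_mul]
        have := adicValuation_le_of_mem_sub (Submodule.mem_comap.mp g.2.1.2)
        simpa [hm₁] using this
      · rw [map_div₀, (C.y i).adicValuation_eq_exp_neg_ord hp2, div_le_iff₀ exp_pos, one_mul]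
        have := adicValuation_le_of_mem_sub (Submodule.mem_comap.mp g.2.2)
        simpa [hm₂] using this
    let ψ : (C.glue N ⊓ A₁ ⊓ A₂ : Submodule k (F₁ × F₂)) →ₗ[k] k :=
      { toFun := fun g => valueAt (C.x i) ((g : F₁ × F₂).1 / p.1) -
          valueAt (C.y i) ((g : F₁ × F₂).2 / p.2)
        map_add' := fun g g' => by
          simp only [Submodule.coe_add, Prod.fst_add, Prod.snd_add, add_div]
          rw [valueAt_add _ (mem_of_le_one (hle g).1) (mem_of_le_one (hle g').1),
            valueAt_add _ (mem_of_le_one (hle g).2) (mem_of_le_one (hle g').2)]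
          ring
        map_smul' := fun c g => by
          simp only [Submodule.coe_smul, Prod.smul_fst, Prod.smul_snd, smul_div_assoc,
            RingHom.id_apply, smul_eq_mul]
          rw [valueAt_smul (hle g).1, valueAt_smul (hle g).2]
          ring }
    let T : Submodule k (F₁ × F₂) :=
      (LinearMap.ker ψ).map (C.glue N ⊓ A₁ ⊓ A₂ : Submodule k (F₁ × F₂)).subtype
    refine ⟨T, ?_, ?_, ?_⟩
    · rintro g ⟨g', -, rfl⟩
      exact g'.2.1.1
    · rintro g ⟨g', hg', rfl⟩
      exact ⟨(hle g').1, (hle g').2, sub_eq_zero.mp (LinearMap.mem_ker.mp hg')⟩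
    · have step3 := LinearMap.finrank_range_add_finrank_ker ψ
      have hr : Module.finrank k (LinearMap.range ψ) ≤ 1 :=
        (Submodule.finrank_le _).trans (Module.finrank_self k).le
      have hT : Module.finrank k T = Module.finrank k (LinearMap.ker ψ) :=
        (Submodule.equivSubtypeMap _ _).finrank_eq.symm
      rw [hsd, hm₁, hm₂]
      omega

end Glued

end FermatAgent.BadRed.Semistable
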