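import Fermat.Agent.BadRed.Semistable.Glue

/-!
# Points of a glued curve: divisors of sections, separation, local conditions
-/

set_option autoImplicit false
set_option linter.unusedSectionVars false
set_option linter.style.haveILetI false

noncomputable section

open WithZero AlgebraicCurve

namespace FermatAgent.BadRed.Semistable

open FermatAgent.Curve FermatAgent.Curve.RR

section Comp

variable {k F : Type*} [Field k] [Field F] [Algebra k F] [IsAlgClosed k] [IsFunctionField1 k F]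
  [RRSetting k F]

/-- A section with prescribed vanishing and non-vanishing at finitely many places. -/
theorem exists_sec {D : Divisor k F} (S : Finset (Place k F)) (Z : Place k F → Prop)
    (h : 2 * (genusFF k F : ℤ) - 1 + S.card ≤ Divisor.degree D) :
    ∃ g ∈ riemannRochSpace D, ∀ v ∈ S,
      (Z v → v.adicValuation g < exp (D v)) ∧ (¬ Z v → ¬ v.adicValuation g < exp (D v)) ∧
        (¬ Z v → D v = 0 → valueAt v g = 1) := by
  classical
  let E : Divisor k F := ∑ v ∈ S, Finsupp.single v (1 : ℤ)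
  have hE : 0 ≤ E := Finset.sum_nonneg fun i _ => by simp
  have hdE : Divisor.degree E = (S.card : ℤ) := by simp [E, Curve.deg_eq_one]
  let T : Place k F → F := fun v =>
    if Z v then 0 else if D v = 0 then 1 else (Curve.exists_ord_eq v (-(D v))).choose
  have hT : ∀ v, ¬ Z v → v.adicValuation (T v) = exp (D v) := by
    intro v hv
    simp only [T, if_neg hv]
    split_ifs with h0
    · simp [h0]
    · obtain ⟨h1, h2⟩ := (Curve.exists_ord_eq v (-(D v))).choose_spec
      rw [v.adicValuation_eq_exp_neg_ord h1, h2, neg_neg]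
  have hTle : ∀ v, v.adicValuation (T v) ≤ exp (D v) := by
    intro v
    by_cases hv : Z v
    · simp [T, hv]
    · exact (hT v hv).le
  obtain ⟨g, hg, hgv⟩ := exists_interpolate (D := D) hE (by rw [map_sub, hdE]; linarith) S T
  refine ⟨g, hg, fun v hv => ?_⟩
  have hlt : v.adicValuation (g - T v) < exp (D v) := by
    refine (hgv v hv (hTle v)).trans_lt (exp_lt_exp.mpr ?_)
    have : E v = 1 := by simp [E, hv, Finsupp.single_apply]
    omega
  refine ⟨fun hz => by simpa [T, hz] using hlt, fun hz => ?_, fun hz h0 => ?_⟩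
  · rw [← hT v hz] at hlt ⊢
    have := Valuation.map_add_eq_of_lt_left v.adicValuation hlt
    rw [add_sub_cancel] at this
    rw [this]
    exact lt_irrefl _
  · have hTv : T v = 1 := by simp [T, hz, h0]
    rw [hTv, h0, exp_zero] at hlt
    rw [valueAt_eq_of_sub_lt_one (by rw [map_one]) hlt,
      show (1 : F) = algebraMap k F 1 by simp, valueAt_algebraMap]

/-- For divisors of large degree, the sections vanishing to order `m` at a place have codimension
`m`. -/
theorem finrank_quot_le {D : Divisor k F} (v : Place k F) (m : ℕ)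
    (h : 2 * (genusFF k F : ℤ) - 1 + m ≤ Divisor.degree D) :
    Module.finrank k (riemannRochSpace D ⧸
      (riemannRochSpace (D - Finsupp.single v (m : ℤ))).comap (riemannRochSpace D).subtype) = m := by
  have h1 := Submodule.finrank_quotient_add_finrank
    ((riemannRochSpace (D - Finsupp.single v (m : ℤ))).comap (riemannRochSpace D).subtype)
  have hsub : riemannRochSpace (D - Finsupp.single v (m : ℤ)) ≤ riemannRochSpace D :=
    rrSpace_mono (by simp)
  rw [(Submodule.comapSubtypeEquivOfLe hsub).finrank_eq] at h1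
  have h2 := finrank_rrSpace_sub (D := D) (E := Finsupp.single v (m : ℤ)) (by simp)
    (by rw [map_sub, Divisor.degree_single, Curve.deg_eq_one]; push_cast; linarith)
  rw [Divisor.degree_single, Curve.deg_eq_one] at h2
  push_cast at h2
  omega

theorem adicValuation_le_of_mem_sub {D : Divisor k F} {v : Place k F} {m : ℤ} {f : F}
    (hf : f ∈ riemannRochSpace (D - Finsupp.single v m)) :
    v.adicValuation f ≤ exp (D v - m) := by
  simpa using hf v

theorem mem_sub_single {D : Divisor k F} {v : Place k F} {m : ℤ} {f : F}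
    (hf : f ∈ riemannRochSpace D) (h : v.adicValuation f ≤ exp (D v - m)) :
    f ∈ riemannRochSpace (D - Finsupp.single v m) := by
  classical
  intro w
  rw [Finsupp.sub_apply, Finsupp.single_apply]
  split_ifs with hw
  · subst hw; exact h
  · simpa using hf w

end Comp

namespace Glued

variable {k F₁ F₂ : Type*} [Field k] [Field F₁] [Field F₂] [Algebra k F₁] [Algebra k F₂]
  [IsAlgClosed k] [IsFunctionField1 k F₁] [IsFunctionField1 k F₂]
  [RRSetting k F₁] [RRSetting k F₂]
variable (C : Glued k F₁ F₂)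

open Classical in
/-- The point of the glued curve under a place of the first component. -/
def toPt₁ (Q : Place k F₁) : C.Pt :=
  if h : ∃ i, C.x i = Q then .node h.choose else .left Q (fun i hi => h ⟨i, hi⟩)

open Classical in
/-- The point of the glued curve under a place of the second component. -/
def toPt₂ (Q : Place k F₂) : C.Pt :=
  if h : ∃ i, C.y i = Q then .node h.choose else .right Q (fun i hi => h ⟨i, hi⟩)

theorem toPt₁_x (i : C.ι) : C.toPt₁ (C.x i) = .node i := by
  have h : ∃ j, C.x j = C.x i := ⟨i, rfl⟩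
  rw [toPt₁, dif_pos h]
  exact congrArg Pt.node (C.x_injective h.choose_spec)

theorem toPt₂_y (i : C.ι) : C.toPt₂ (C.y i) = .node i := by
  have h : ∃ j, C.y j = C.y i := ⟨i, rfl⟩
  rw [toPt₂, dif_pos h]
  exact congrArg Pt.node (C.y_injective h.choose_spec)

theorem toPt₁_of_ne (Q : Place k F₁) (h : ∀ i, C.x i ≠ Q) : C.toPt₁ Q = .left Q h := by
  rw [toPt₁, dif_neg (fun ⟨i, hi⟩ => h i hi)]

theorem toPt₂_of_ne (Q : Place k F₂) (h : ∀ i, C.y i ≠ Q) : C.toPt₂ Q = .right Q h := by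
  rw [toPt₂, dif_neg (fun ⟨i, hi⟩ => h i hi)]

theorem toPt₁_eq_left_iff {Q Q' : Place k F₁} (h : ∀ i, C.x i ≠ Q) :
    C.toPt₁ Q' = .left Q h ↔ Q' = Q := by
  refine ⟨fun e => ?_, fun e => e ▸ C.toPt₁_of_ne Q h⟩
  rw [toPt₁] at e
  split_ifs at e
  exact Pt.left.inj e

theorem toPt₂_eq_right_iff {Q Q' : Place k F₂} (h : ∀ i, C.y i ≠ Q) :
    C.toPt₂ Q' = .right Q h ↔ Q' = Q := by
  refine ⟨fun e => ?_, fun e => e ▸ C.toPt₂_of_ne Q h⟩
  rw [toPt₂] at e
  split_ifs at e
  exact Pt.right.inj e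

theorem toPt₁_ne_right (Q' : Place k F₁) (Q : Place k F₂) (h : ∀ i, C.y i ≠ Q) :
    C.toPt₁ Q' ≠ .right Q h := by
  rw [toPt₁]
  split_ifs <;> simp

theorem toPt₂_ne_left (Q' : Place k F₂) (Q : Place k F₁) (h : ∀ i, C.x i ≠ Q) :
    C.toPt₂ Q' ≠ .left Q h := by
  rw [toPt₂]
  split_ifs <;> simp

theorem toPt₁_eq_node_iff {Q : Place k F₁} {i : C.ι} : C.toPt₁ Q = .node i ↔ Q = C.x i := by
  refine ⟨fun e => ?_, fun e => e ▸ C.toPt₁_x i⟩
  rw [toPt₁] at e
  split_ifs at e with h
  rw [← Pt.node.inj e]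
  exact h.choose_spec.symm

theorem toPt₂_eq_node_iff {Q : Place k F₂} {i : C.ι} : C.toPt₂ Q = .node i ↔ Q = C.y i := by
  refine ⟨fun e => ?_, fun e => e ▸ C.toPt₂_y i⟩
  rw [toPt₂] at e
  split_ifs at e with h
  rw [← Pt.node.inj e]
  exact h.choose_spec.symm

/-- The degree of the pole divisor of the glued curve. -/
def deg : ℕ := (Divisor.degree C.D₁ + Divisor.degree C.D₂).toNat

theorem deg_eq : (C.deg : ℤ) = Divisor.degree C.D₁ + Divisor.degree C.D₂ :=
  Int.toNat_of_nonneg (add_nonneg (degree_poleDiv_pos C.transcendental₁).le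
    (degree_poleDiv_pos C.transcendental₂).le)

theorem le_degree₁ (n : ℕ) : (n : ℤ) ≤ Divisor.degree (n • C.D₁) := by
  rw [map_nsmul, nsmul_eq_mul]
  exact le_mul_of_one_le_right (Int.natCast_nonneg n) (degree_poleDiv_pos C.transcendental₁)

theorem le_degree₂ (n : ℕ) : (n : ℤ) ≤ Divisor.degree (n • C.D₂) := by
  rw [map_nsmul, nsmul_eq_mul]
  exact le_mul_of_one_le_right (Int.natCast_nonneg n) (degree_poleDiv_pos C.transcendental₂)

/-- The divisor of a section on the glued curve. -/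
def secDiv (n : ℕ) (p : F₁ × F₂) : C.Pt →₀ ℤ :=
  Finsupp.mapDomain C.toPt₁ (divisorOf p.1 + (n : ℤ) • C.D₁) +
    Finsupp.mapDomain C.toPt₂ (divisorOf p.2 + (n : ℤ) • C.D₂)

theorem mapDomain_apply_fibre {α β : Type*} [DecidableEq α] (f : α → β) (D : α →₀ ℤ) (b : β)
    (a : α) (h : ∀ a', f a' = b ↔ a' = a) : Finsupp.mapDomain f D b = D a := by
  classical
  induction D using Finsupp.induction with
  | zero => simp
  | single_add a' n D _ _ ih =>
    rw [Finsupp.mapDomain_add, Finsupp.mapDomain_single, Finsupp.add_apply, Finsupp.add_apply, ih,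
      Finsupp.single_apply, Finsupp.single_apply]
    simp only [h]

theorem mapDomain_apply_empty {α β : Type*} (f : α → β) (D : α →₀ ℤ) (b : β)
    (h : ∀ a', f a' ≠ b) : Finsupp.mapDomain f D b = 0 :=
  Finsupp.mapDomain_of_notMem_range _ _ fun ⟨a, ha⟩ => h a ha

theorem secDiv_left (n : ℕ) (p : F₁ × F₂) (Q : Place k F₁) (h : ∀ i, C.x i ≠ Q) :
    C.secDiv n p (.left Q h) = Q.ord p.1 + n * C.D₁ Q := by
  classical
  rw [secDiv, Finsupp.add_apply,
    mapDomain_apply_fibre _ _ _ Q (fun a => C.toPt₁_eq_left_iff h),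
    mapDomain_apply_empty _ _ _ (fun a => C.toPt₂_ne_left a Q h)]
  simp

theorem secDiv_right (n : ℕ) (p : F₁ × F₂) (Q : Place k F₂) (h : ∀ i, C.y i ≠ Q) :
    C.secDiv n p (.right Q h) = Q.ord p.2 + n * C.D₂ Q := by
  classical
  rw [secDiv, Finsupp.add_apply,
    mapDomain_apply_fibre _ _ _ Q (fun a => C.toPt₂_eq_right_iff h),
    mapDomain_apply_empty _ _ _ (fun a => C.toPt₁_ne_right a Q h)]
  simp

theorem secDiv_node (n : ℕ) (p : F₁ × F₂) (i : C.ι) :
    C.secDiv n p (.node i) = (C.x i).ord p.1 + (C.y i).ord p.2 := by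
  classical
  rw [secDiv, Finsupp.add_apply,
    mapDomain_apply_fibre _ _ _ (C.x i) (fun a => C.toPt₁_eq_node_iff),
    mapDomain_apply_fibre _ _ _ (C.y i) (fun a => C.toPt₂_eq_node_iff)]
  simp

theorem sum_secDiv (n : ℕ) (p : F₁ × F₂) :
    (C.secDiv n p).sum (fun _ m => m) = n * C.deg := by
  classical
  rw [secDiv, Finsupp.sum_add_index' (fun _ => rfl) (fun _ _ _ => rfl),
    Finsupp.sum_mapDomain_index (fun _ => rfl) (fun _ _ _ => rfl),
    Finsupp.sum_mapDomain_index (fun _ => rfl) (fun _ _ _ => rfl),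
    ← degree_eq_sum, ← degree_eq_sum, map_add, map_add, degree_divisorOf, degree_divisorOf,
    map_zsmul, map_zsmul, deg_eq, smul_eq_mul, smul_eq_mul]
  ring

theorem ord_add_nonneg₁ {n : ℕ} {p : F₁ × F₂} (hp : p ∈ C.glue n) (hp1 : p.1 ≠ 0)
    (Q : Place k F₁) : 0 ≤ Q.ord p.1 + n * C.D₁ Q := by
  have := neg_le_ord_of_le_exp hp1 (hp.1 Q)
  simp at this
  linarith

theorem ord_add_nonneg₂ {n : ℕ} {p : F₁ × F₂} (hp : p ∈ C.glue n) (hp2 : p.2 ≠ 0)
    (Q : Place k F₂) : 0 ≤ Q.ord p.2 + n * C.D₂ Q := by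
  have := neg_le_ord_of_le_exp hp2 (hp.2.1 Q)
  simp at this
  linarith

theorem van_left_iff {n : ℕ} {p : F₁ × F₂} (hp1 : p.1 ≠ 0) (Q : Place k F₁) :
    Q.adicValuation p.1 < exp ((n : ℤ) * C.D₁ Q) ↔ 0 < Q.ord p.1 + n * C.D₁ Q := by
  rw [Q.adicValuation_eq_exp_neg_ord hp1, exp_lt_exp]
  constructor <;> intro h <;> linarith

theorem van_right_iff {n : ℕ} {p : F₁ × F₂} (hp2 : p.2 ≠ 0) (Q : Place k F₂) :
    Q.adicValuation p.2 < exp ((n : ℤ) * C.D₂ Q) ↔ 0 < Q.ord p.2 + n * C.D₂ Q := by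
  rw [Q.adicValuation_eq_exp_neg_ord hp2, exp_lt_exp]
  constructor <;> intro h <;> linarith

/-- A section vanishes exactly at the points of its divisor. -/
theorem van_iff_secDiv_pos {n : ℕ} {p : F₁ × F₂} (hp : p ∈ C.glue n) (hp1 : p.1 ≠ 0)
    (hp2 : p.2 ≠ 0) (ω : C.Pt) : C.Van ω n p ↔ 0 < C.secDiv n p ω := by
  cases ω with
  | left Q h => rw [secDiv_left, Van]; exact C.van_left_iff hp1 Q
  | right Q h => rw [secDiv_right, Van]; exact C.van_right_iff hp2 Q
  | node i =>
    rw [secDiv_node]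
    have h1 := C.ord_add_nonneg₁ hp hp1 (C.x i)
    have h2 := C.ord_add_nonneg₂ hp hp2 (C.y i)
    simp only [D₁_x, D₂_y, mul_zero, add_zero] at h1 h2
    have e1 := C.van_left_iff (n := n) hp1 (C.x i)
    have e2 := C.van_right_iff (n := n) hp2 (C.y i)
    simp only [D₁_x, D₂_y, mul_zero, add_zero, exp_zero] at e1 e2
    constructor
    · intro h
      have := e1.mp h
      omega
    · intro h
      by_contra hv
      have hv1 : ¬ 0 < (C.x i).ord p.1 := fun h' => hv (e1.mpr h')
      have hv2 : ¬ 0 < (C.y i).ord p.2 := fun h' => hv ((C.van_node_iff hp i).mpr (e2.mpr h'))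
      omega

theorem secDiv_nonneg {n : ℕ} {p : F₁ × F₂} (hp : p ∈ C.glue n) (hp1 : p.1 ≠ 0)
    (hp2 : p.2 ≠ 0) (ω : C.Pt) : 0 ≤ C.secDiv n p ω := by
  cases ω with
  | left Q h => rw [secDiv_left]; exact C.ord_add_nonneg₁ hp hp1 Q
  | right Q h => rw [secDiv_right]; exact C.ord_add_nonneg₂ hp hp2 Q
  | node i =>
    rw [secDiv_node]
    have h1 := C.ord_add_nonneg₁ hp hp1 (C.x i)
    have h2 := C.ord_add_nonneg₂ hp hp2 (C.y i)
    simp only [D₁_x, D₂_y, mul_zero, add_zero] at h1 h2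
    omega

theorem mem_support_secDiv {n : ℕ} {p : F₁ × F₂} (hp : p ∈ C.glue n) (hp1 : p.1 ≠ 0)
    (hp2 : p.2 ≠ 0) (ω : C.Pt) : ω ∈ (C.secDiv n p).support ↔ C.Van ω n p := by
  rw [Finsupp.mem_support_iff, C.van_iff_secDiv_pos hp hp1 hp2 ω]
  have := C.secDiv_nonneg hp hp1 hp2 ω
  omega

/-- The sections vanishing at a point. -/
def vanSub (ω : C.Pt) (n : ℕ) : Submodule k (F₁ × F₂) where
  carrier := {p | C.Van ω n p}
  zero_mem' := by cases ω <;> simp [Van]
  add_mem' := by
    intro p q hp hq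
    cases ω <;> simp only [Set.mem_ofPred_eq, Van] at hp hq ⊢ <;>
      exact (Valuation.map_add _ _ _).trans_lt (max_lt hp hq)
  smul_mem' := by
    intro c p hp
    cases ω <;> simp only [Set.mem_ofPred_eq, Van] at hp ⊢ <;>
      (refine lt_of_le_of_lt ?_ hp
       first
        | (rw [Prod.smul_fst, Algebra.smul_def, map_mul]
           exact mul_le_of_le_one_left' (Place.adicValuation_algebraMap_le_one _ c))
        | (rw [Prod.smul_snd, Algebra.smul_def, map_mul]
           exact mul_le_of_le_one_left' (Place.adicValuation_algebraMap_le_one _ c)))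

theorem not_van_mul {ω : C.Pt} {n m : ℕ} {p q : F₁ × F₂} (h : ¬ C.Van ω n p)
    (h' : ¬ C.Van ω m q) : ¬ C.Van ω (n + m) (p * q) := by
  cases ω with
  | left Q hQ =>
    show ¬ Q.adicValuation (p * q).1 < _
    simp only [Van, not_lt] at h h' ⊢
    rw [Prod.fst_mul, map_mul, Nat.cast_add, add_mul, exp_add]
    exact mul_le_mul' h h'
  | right Q hQ =>
    show ¬ Q.adicValuation (p * q).2 < _
    simp only [Van, not_lt] at h h' ⊢
    rw [Prod.snd_mul, map_mul, Nat.cast_add, add_mul, exp_add]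
    exact mul_le_mul' h h'
  | node i =>
    show ¬ (C.x i).adicValuation (p * q).1 < 1
    simp only [Van, not_lt] at h h' ⊢
    rw [Prod.fst_mul, map_mul]
    exact one_le_mul h h'

theorem not_van_one (ω : C.Pt) : ¬ C.Van ω 0 1 := by cases ω <;> simp [Van]

theorem not_van_pow {ω : C.Pt} {n : ℕ} {p : F₁ × F₂} (h : ¬ C.Van ω n p) (a : ℕ) :
    ¬ C.Van ω (a * n) (p ^ a) := by
  induction a with
  | zero => simpa using C.not_van_one ω
  | succ a ih =>
    rw [pow_succ, Nat.succ_mul]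
    exact C.not_van_mul ih h

theorem locDiv_of_not_van {ω : C.Pt} {a N : ℕ} {p g : F₁ × F₂} (hp : p ∈ C.glue a)
    (hg : g ∈ C.glue N) (h : ¬ C.Van ω a p) : C.LocDiv ω a N p g := by
  cases ω with
  | left Q hQ =>
    have e : Q.adicValuation p.1 = exp ((a : ℤ) * C.D₁ Q) :=
      le_antisymm (by simpa using hp.1 Q) (not_lt.mp h)
    show Q.adicValuation (g.1 / p.1) ≤ _
    rw [map_div₀, e, div_le_iff₀ exp_pos, ← exp_add,
      show ((N : ℤ) - a) * C.D₁ Q + a * C.D₁ Q = N * C.D₁ Q by ring]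
    simpa using hg.1 Q
  | right Q hQ =>
    have e : Q.adicValuation p.2 = exp ((a : ℤ) * C.D₂ Q) :=
      le_antisymm (by simpa using hp.2.1 Q) (not_lt.mp h)
    show Q.adicValuation (g.2 / p.2) ≤ _
    rw [map_div₀, e, div_le_iff₀ exp_pos, ← exp_add,
      show ((N : ℤ) - a) * C.D₂ Q + a * C.D₂ Q = N * C.D₂ Q by ring]
    simpa using hg.2.1 Q
  | node i =>
    have e1 : (C.x i).adicValuation p.1 = 1 := le_antisymm (C.le_one_x hp.1 i) (not_lt.mp h)
    have e2 : (C.y i).adicValuation p.2 = 1 :=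
      le_antisymm (C.le_one_y hp.2.1 i) (not_lt.mp fun h' => h ((C.van_node_iff hp i).mpr h'))
    refine ⟨by rw [map_div₀, e1, div_one]; exact C.le_one_x hg.1 i,
      by rw [map_div₀, e2, div_one]; exact C.le_one_y hg.2.1 i, ?_⟩
    have o1 : (C.x i).ord p.1 = 0 := by simp [Place.ord, e1]
    have o2 : (C.y i).ord p.2 = 0 := by simp [Place.ord, e2]
    rw [div_eq_mul_inv, div_eq_mul_inv,
      valueAt_mul _ (mem_of_le_one (C.le_one_x hg.1 i)) (mem_of_le_one (by simp [e1])),
      valueAt_mul _ (mem_of_le_one (C.le_one_y hg.2.1 i)) (mem_of_le_one (by simp [e2])),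
      valueAt_inv _ o1, valueAt_inv _ o2, hg.2.2 i, hp.2.2 i]

/-- A section vanishing at a given point and at none of finitely many others. -/
theorem exists_separating [Infinite k] (ω : C.Pt) (T : Finset C.Pt) (hω : ω ∉ T) {b : ℕ}
    (hb : C.bound + Fintype.card C.ι + T.card + 2 ≤ b) :
    ∃ q ∈ C.glue b, q.1 ≠ 0 ∧ q.2 ≠ 0 ∧ C.Van ω b q ∧ ∀ τ ∈ T, ¬ C.Van τ b q := by
  classical
  haveI := infinite_place (K := k) (F := F₁)
  haveI := infinite_place (K := k) (F := F₂)
  let l : C.Pt → Finset (Place k F₁) := fun τ => match τ with | .left Q _ => {Q} | _ => ∅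
  let r : C.Pt → Finset (Place k F₂) := fun τ => match τ with | .right Q _ => {Q} | _ => ∅
  have hl : ∀ τ, (l τ).card ≤ 1 := fun τ => by cases τ <;> simp [l]
  have hr : ∀ τ, (r τ).card ≤ 1 := fun τ => by cases τ <;> simp [r]
  let B₁ := Finset.univ.image C.x ∪ (insert ω T).biUnion l
  let B₂ := Finset.univ.image C.y ∪ (insert ω T).biUnion r
  have hB₁ : B₁.card ≤ Fintype.card C.ι + (T.card + 1) :=
    (Finset.card_union_le _ _).trans (add_le_add Finset.card_image_le
      ((Finset.card_biUnion_le_card_mul _ _ 1 (fun τ _ => hl τ)).trans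
        (by rw [mul_one]; exact Finset.card_insert_le _ _)))
  have hB₂ : B₂.card ≤ Fintype.card C.ι + (T.card + 1) :=
    (Finset.card_union_le _ _).trans (add_le_add Finset.card_image_le
      ((Finset.card_biUnion_le_card_mul _ _ 1 (fun τ _ => hr τ)).trans
        (by rw [mul_one]; exact Finset.card_insert_le _ _)))
  obtain ⟨A₁, hA₁⟩ := Infinite.exists_notMem_finset B₁
  obtain ⟨A₂, hA₂⟩ := Infinite.exists_notMem_finset B₂
  let Z₁ : Place k F₁ → Prop := fun v => C.toPt₁ v = ω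
  let Z₂ : Place k F₂ → Prop := fun v => C.toPt₂ v = ω
  have d1 := C.le_degree₁ b
  have d2 := C.le_degree₂ b
  have i1 := Finset.card_insert_le A₁ B₁
  have i2 := Finset.card_insert_le A₂ B₂
  obtain ⟨g₁, hg₁, hgv₁⟩ := exists_sec (D := b • C.D₁) (insert A₁ B₁) Z₁
    (by unfold bound at hb; omega)
  obtain ⟨g₂, hg₂, hgv₂⟩ := exists_sec (D := b • C.D₂) (insert A₂ B₂) Z₂
    (by unfold bound at hb; omega)
  have hx : ∀ i, C.x i ∈ insert A₁ B₁ := fun i => Finset.mem_insert_of_mem
    (Finset.mem_union_left _ (Finset.mem_image_of_mem _ (Finset.mem_univ i)))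
  have hy : ∀ i, C.y i ∈ insert A₂ B₂ := fun i => Finset.mem_insert_of_mem
    (Finset.mem_union_left _ (Finset.mem_image_of_mem _ (Finset.mem_univ i)))
  have hq : (g₁, g₂) ∈ C.glue b := by
    refine ⟨hg₁, hg₂, fun i => ?_⟩
    obtain ⟨hA, -, hA'⟩ := hgv₁ (C.x i) (hx i)
    obtain ⟨hB, -, hB'⟩ := hgv₂ (C.y i) (hy i)
    by_cases hi : ω = .node i
    · have a1 := hA (show Z₁ (C.x i) by simp [Z₁, toPt₁_x, hi])
      have a2 := hB (show Z₂ (C.y i) by simp [Z₂, toPt₂_y, hi])
      simp only [Finsupp.coe_smul, Pi.smul_apply, D₁_x, D₂_y, smul_zero, exp_zero] at a1 a2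
      rw [(adicValuation_lt_one_iff a1.le).mp a1, (adicValuation_lt_one_iff a2.le).mp a2]
    · rw [hA' (by simp [Z₁, toPt₁_x, eq_comm, hi]) (by simp),
        hB' (by simp [Z₂, toPt₂_y, eq_comm, hi]) (by simp)]
  have hne₁ : C.toPt₁ A₁ ≠ ω := by
    intro h
    apply hA₁
    cases ω with
    | node i =>
      rw [toPt₁_eq_node_iff] at h
      exact Finset.mem_union_left _ (Finset.mem_image.mpr ⟨i, Finset.mem_univ i, h.symm⟩)
    | left Q hQ =>
      rw [toPt₁_eq_left_iff] at h
      exact Finset.mem_union_right _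
        (Finset.mem_biUnion.mpr ⟨_, Finset.mem_insert_self _ _, by simp [l, h]⟩)
    | right Q hQ => exact absurd h (C.toPt₁_ne_right _ Q hQ)
  have hne₂ : C.toPt₂ A₂ ≠ ω := by
    intro h
    apply hA₂
    cases ω with
    | node i =>
      rw [toPt₂_eq_node_iff] at h
      exact Finset.mem_union_left _ (Finset.mem_image.mpr ⟨i, Finset.mem_univ i, h.symm⟩)
    | right Q hQ =>
      rw [toPt₂_eq_right_iff] at h
      exact Finset.mem_union_right _
        (Finset.mem_biUnion.mpr ⟨_, Finset.mem_insert_self _ _, by simp [r, h]⟩)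
    | left Q hQ => exact absurd h (C.toPt₂_ne_left _ Q hQ)
  refine ⟨(g₁, g₂), hq, fun h => (hgv₁ A₁ (Finset.mem_insert_self _ _)).2.1 hne₁ ?_,
    fun h => (hgv₂ A₂ (Finset.mem_insert_self _ _)).2.1 hne₂ ?_, ?_, fun τ hτ => ?_⟩
  · simp [show g₁ = 0 from h]
  · simp [show g₂ = 0 from h]
  · cases ω with
    | left Q hQ =>
      have h1 := (hgv₁ Q (Finset.mem_insert_of_mem (Finset.mem_union_right _
        (Finset.mem_biUnion.mpr ⟨_, Finset.mem_insert_self _ _, by simp [l]⟩)))).1
        (C.toPt₁_of_ne Q hQ)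
      simpa [Van] using h1
    | right Q hQ =>
      have h1 := (hgv₂ Q (Finset.mem_insert_of_mem (Finset.mem_union_right _
        (Finset.mem_biUnion.mpr ⟨_, Finset.mem_insert_self _ _, by simp [r]⟩)))).1
        (C.toPt₂_of_ne Q hQ)
      simpa [Van] using h1
    | node i => simpa [Van] using (hgv₁ (C.x i) (hx i)).1 (C.toPt₁_x i)
  · have hne : τ ≠ ω := fun h => hω (h ▸ hτ)
    cases τ with
    | left Q hQ =>
      have h1 := (hgv₁ Q (Finset.mem_insert_of_mem (Finset.mem_union_right _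
        (Finset.mem_biUnion.mpr ⟨_, Finset.mem_insert_of_mem hτ, by simp [l]⟩)))).2.1
        (fun h => hne ((C.toPt₁_of_ne Q hQ).symm.trans h))
      simpa [Van] using h1
    | right Q hQ =>
      have h1 := (hgv₂ Q (Finset.mem_insert_of_mem (Finset.mem_union_right _
        (Finset.mem_biUnion.mpr ⟨_, Finset.mem_insert_of_mem hτ, by simp [r]⟩)))).2.1
        (fun h => hne ((C.toPt₂_of_ne Q hQ).symm.trans h))
      simpa [Van] using h1
    | node i =>
      have h1 := (hgv₁ (C.x i) (hx i)).2.1 (fun h => hne ((C.toPt₁_x i).symm.trans h))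
      simpa [Van] using h1

/-- A linear combination avoiding finitely many points, if each can be avoided. -/
theorem exists_forall_not_van [Infinite k] {n : ℕ} (W : Submodule k (F₁ × F₂))
    (h : ∀ ω : C.Pt, ∃ q ∈ W, ¬ C.Van ω n q) (T : Finset C.Pt) :
    ∃ q ∈ W, ∀ τ ∈ T, ¬ C.Van τ n q := by
  classical
  induction T using Finset.induction with
  | empty => exact ⟨0, zero_mem _, by simp⟩
  | @insert τ T _ ih =>
    obtain ⟨p, hp, hpT⟩ := ih
    obtain ⟨q, hq, hqτ⟩ := h τ
    let bad : C.Pt → Set k := fun σ => {c | C.Van σ n (p + c • q)}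
    have hbad : ∀ σ ∈ insert τ T, (bad σ).Subsingleton := by
      intro σ hσ c hc c' hc'
      by_contra hne
      have hsub : p + c • q - (p + c' • q) ∈ C.vanSub σ n := sub_mem hc hc'
      rw [show p + c • q - (p + c' • q) = (c - c') • q by module,
        Submodule.smul_mem_iff _ (sub_ne_zero.mpr hne)] at hsub
      have hp' : p + c • q - c • q ∈ C.vanSub σ n := sub_mem hc (Submodule.smul_mem _ c hsub)
      rw [add_sub_cancel_right] at hp'
      rcases Finset.mem_insert.mp hσ with rfl | hσT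
      · exact hqτ hsub
      · exact hpT σ hσT hp'
    have hfin : (⋃ σ ∈ insert τ T, bad σ).Finite :=
      Set.Finite.biUnion (Finset.finite_toSet _) fun σ hσ => (hbad σ hσ).finite
    obtain ⟨c, hc⟩ := hfin.infinite_compl.nonempty
    refine ⟨p + c • q, add_mem hp (W.smul_mem c hq), fun σ hσ hv => hc ?_⟩
    exact Set.mem_biUnion hσ hv

/-- A base-point-free subspace of sections generates all sections of large degree. -/
theorem exists_eq_mul_add_mul [Infinite k] {n m : ℕ} (hm : C.bound + n ≤ m)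
    (W : Submodule k (F₁ × F₂)) (hW : W ≤ C.glue n) (h : ∀ ω : C.Pt, ∃ q ∈ W, ¬ C.Van ω n q)
    {g : F₁ × F₂} (hg : g ∈ C.glue (n + m)) :
    ∃ p ∈ W, ∃ p' ∈ W, ∃ u ∈ C.glue m, ∃ x ∈ C.glue m, g = p * u + p' * x := by
  classical
  haveI := infinite_place (K := k) (F := F₁)
  haveI := infinite_place (K := k) (F := F₂)
  obtain ⟨A₁, hA₁⟩ := Infinite.exists_notMem_finset (Finset.univ.image C.x)
  obtain ⟨A₂, hA₂⟩ := Infinite.exists_notMem_finset (Finset.univ.image C.y)
  have hA₁' : ∀ i, C.x i ≠ A₁ := fun i e =>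
    hA₁ (Finset.mem_image.mpr ⟨i, Finset.mem_univ i, e⟩)
  have hA₂' : ∀ i, C.y i ≠ A₂ := fun i e =>
    hA₂ (Finset.mem_image.mpr ⟨i, Finset.mem_univ i, e⟩)
  obtain ⟨p, hp, hpT⟩ := C.exists_forall_not_van W h {.left A₁ hA₁', .right A₂ hA₂'}
  have hp1 : p.1 ≠ 0 := fun e => hpT _ (Finset.mem_insert_self _ _) (by simp [Van, e])
  have hp2 : p.2 ≠ 0 := fun e =>
    hpT _ (Finset.mem_insert_of_mem (Finset.mem_singleton_self _)) (by simp [Van, e])
  obtain ⟨p', hp', hp'T⟩ := C.exists_forall_not_van W h (C.secDiv n p).support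
  obtain ⟨u, hu, x, hx, e⟩ := C.exists_bezout (a := n) (b := n) (m₁ := m) (m₂ := m) rfl hm
    (hW hp) hp1 hp2 (hW hp') hg (fun ω hω => by
      refine C.locDiv_of_not_van (hW hp) hg fun hv => ?_
      exact hp'T ω ((C.mem_support_secDiv (hW hp) hp1 hp2 ω).mpr hv) hω)
  exact ⟨p, hp, p', hp', u, hu, x, hx, e⟩

end Glued

end FermatAgent.BadRed.Semistable
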