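import Fermat.Agent.BadRed.Semistable.ChartPoints
import Mathlib.LinearAlgebra.Charpoly.Basic

/-!
# From reductions of sections to a glued curve

`GlueInput` records what is known about the reductions `V n` of the sections of multiples of the
polar divisor: their codimension `c` in the two components, the inseparable pairs in both charts,
and an element separating the two components at infinity. The conclusion is that `V n` is the
space of sections on the curve glued at `c` pairs `(Q, pull Q)`.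
-/

set_option autoImplicit false
set_option linter.unusedSectionVars false

noncomputable section

open WithZero AlgebraicCurve

namespace FermatAgent.BadRed.Semistable

open FermatAgent.Curve FermatAgent.Curve.RR

variable (k F : Type*) [Field k] [Field F] [Algebra k F] [IsAlgClosed k] [IsFunctionField1 k F]

/-- Reductions of sections on the two components. -/
structure GlueInput where
  ψ : F →ₐ[k] F
  q : ℕ
  pull : Place k F → Place k F
  insep : InsepData ψ q pull
  J : F
  transcendental : Transcendental k J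
  map_J : ψ J = J ^ q
  V : ℕ → Submodule k (F × F)
  one_mem : ∀ n, (1 : F × F) ∈ V n
  mul_mem : ∀ (m n : ℕ) (p p' : F × F), p ∈ V m → p' ∈ V n → p * p' ∈ V (m + n)
  T_mem : (J, J ^ q) ∈ V 1
  le : ∀ (n : ℕ), ∀ p ∈ V n, p.1 ∈ riemannRochSpace (n • (poleDiv J : Divisor k F)) ∧
    p.2 ∈ riemannRochSpace (n • (poleDiv (J ^ q) : Divisor k F))
  c : ℕ
  c_pos : 0 < c
  n₀ : ℕ
  finrank_eq : ∀ n, n₀ ≤ n → Module.finrank k (V n) + c =
    Module.finrank k (riemannRochSpace (n • (poleDiv J : Divisor k F))) +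
      Module.finrank k (riemannRochSpace (n • (poleDiv (J ^ q) : Divisor k F)))
  fin_mem : ∀ r : F, (∀ v : Place k F, v.adicValuation J ≤ 1 → v.adicValuation r ≤ 1) →
    ∃ n, (r, ψ r) ∈ V n ∧ (ψ r, r) ∈ V n
  inf_mem : ∀ r : F, (∀ v : Place k F, v.adicValuation J⁻¹ ≤ 1 → v.adicValuation r ≤ 1) →
    ∃ n, (J, J ^ q) ^ n * (r, ψ r) ∈ V n ∧ (J, J ^ q) ^ n * (ψ r, r) ∈ V n
  sep : ∃ n, ∃ p ∈ V n, ∀ v : Place k F, v.adicValuation J⁻¹ < 1 →
    valueAt v (p.1 / J ^ n) = 0 ∧ valueAt v (p.2 / (J ^ q) ^ n) ≠ 0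

variable {k F}

theorem transcendental_pow' {z : F} (hz : Transcendental k z) {n : ℕ} (hn : 0 < n) :
    Transcendental k (z ^ n) := fun h => hz (IsAlgebraic.of_pow hn h)

theorem valuation_eq_exp_poleDiv {v : Place k F} {z : F} (hz : z ≠ 0)
    (h : v.adicValuation z⁻¹ ≤ 1) :
    v.adicValuation z = exp ((poleDiv z : Divisor k F) v) := by
  have h' := le_one_iff_ord.mp h
  rw [v.ord_inv] at h'
  rw [v.adicValuation_eq_exp_neg_ord hz, poleDiv_apply, max_eq_left (by omega)]

theorem poleDiv_pow (z : F) (n : ℕ) (v : Place k F) :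
    (poleDiv (z ^ n) : Divisor k F) v = n * (poleDiv z : Divisor k F) v := by
  rcases eq_or_ne z 0 with rfl | hz
  · rcases n.eq_zero_or_pos with rfl | hn
    · simp
    · simp [zero_pow hn.ne']
  rw [poleDiv_apply, poleDiv_apply, ← zpow_natCast, v.ord_zpow, mul_max_of_nonneg _ _ (by simp),
    mul_zero, mul_neg]

theorem exists_mem_rrSpace {z : F} (r : F)
    (hr : ∀ v : Place k F, v.adicValuation z ≤ 1 → v.adicValuation r ≤ 1) :
    ∃ n : ℕ, ∀ m, n ≤ m → r ∈ riemannRochSpace (m • (poleDiv z : Divisor k F)) := by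
  classical
  refine ⟨∑ v ∈ (poleDiv z : Divisor k F).support, (-(v.ord r)).toNat, fun m hm v => ?_⟩
  by_cases hv : v ∈ (poleDiv z : Divisor k F).support
  · refine adicValuation_le_exp_of_ord ?_
    have h1 : (1 : ℤ) ≤ (poleDiv z : Divisor k F) v := by
      have := Finsupp.mem_support_iff.mp hv
      have := Finsupp.le_def.mp (poleDiv_nonneg (K := k) z) v
      simp only [Finsupp.coe_zero, Pi.zero_apply] at this
      omega
    have h2 : (-(v.ord r)).toNat ≤ m := le_trans (Finset.single_le_sum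
      (f := fun v : Place k F => (-(v.ord r)).toNat) (fun _ _ => Nat.zero_le _) hv) hm
    have h3 : ((-(v.ord r)).toNat : ℤ) * 1 ≤ m * (poleDiv z : Divisor k F) v :=
      mul_le_mul (by exact_mod_cast h2) h1 (by norm_num) (by simp)
    have h4 := Int.self_le_toNat (-(v.ord r))
    rw [show ((m • (poleDiv z : Divisor k F)) v) = (m : ℤ) * (poleDiv z : Divisor k F) v by simp]
    omega
  · have h0 : (poleDiv z : Divisor k F) v = 0 := Finsupp.notMem_support_iff.mp hv
    rw [show ((m • (poleDiv z : Divisor k F)) v) = 0 by simp [h0], exp_zero]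
    refine hr v (le_one_iff_ord.mpr ?_)
    rw [poleDiv_apply] at h0
    omega

namespace GlueInput

variable (I : GlueInput k F)

/-- The pair of coordinates. -/
def T : F × F := (I.J, I.J ^ I.q)

theorem q_pos : 0 < I.q := lt_trans Nat.zero_lt_one I.insep.one_lt

theorem J_ne_zero : I.J ≠ 0 := fun h => I.transcendental (by rw [h]; exact isAlgebraic_zero)

theorem le_one_pow_iff (v : Place k F) :
    v.adicValuation (I.J ^ I.q) ≤ 1 ↔ v.adicValuation I.J ≤ 1 := by
  rw [map_pow]
  exact pow_le_one_iff_of_nonneg zero_le I.q_pos.ne'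

theorem pow_mem (n : ℕ) : I.T ^ n ∈ I.V n := by
  induction n with
  | zero => simpa using I.one_mem 0
  | succ n ih => rw [pow_succ]; exact I.mul_mem n 1 _ _ ih I.T_mem

theorem V_mono {m n : ℕ} (h : m ≤ n) : I.V m ≤ I.V n := fun p hp => by
  obtain ⟨d, rfl⟩ := Nat.exists_eq_add_of_le h
  simpa using I.mul_mem m d p 1 hp (I.one_mem d)

theorem scaled_mono {m n : ℕ} (h : m ≤ n) {p : F × F} (hp : I.T ^ m * p ∈ I.V m) :
    I.T ^ n * p ∈ I.V n := by
  obtain ⟨d, rfl⟩ := Nat.exists_eq_add_of_le h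
  rw [pow_add, mul_right_comm]
  exact I.mul_mem m d _ _ hp (I.pow_mem d)

/-- The finite chart. -/
def finAlg : Subalgebra k (F × F) where
  carrier := {p | ∃ n, p ∈ I.V n}
  mul_mem' := fun ⟨m, hm⟩ ⟨n, hn⟩ => ⟨m + n, I.mul_mem m n _ _ hm hn⟩
  one_mem' := ⟨0, I.one_mem 0⟩
  add_mem' := fun ⟨m, hm⟩ ⟨n, hn⟩ => ⟨max m n,
    add_mem (I.V_mono (le_max_left _ _) hm) (I.V_mono (le_max_right _ _) hn)⟩
  zero_mem' := ⟨0, zero_mem _⟩
  algebraMap_mem' c := ⟨0, by rw [Algebra.algebraMap_eq_smul_one]; exact (I.V 0).smul_mem c (I.one_mem 0)⟩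

/-- The chart at infinity. -/
def infAlg : Subalgebra k (F × F) where
  carrier := {p | ∃ n, I.T ^ n * p ∈ I.V n}
  mul_mem' := fun {p p'} ⟨m, hm⟩ ⟨n, hn⟩ => ⟨m + n, by
    have := I.mul_mem m n _ _ hm hn
    rwa [show I.T ^ (m + n) * (p * p') = (I.T ^ m * p) * (I.T ^ n * p') by rw [pow_add]; ring]⟩
  one_mem' := ⟨0, by simpa using I.one_mem 0⟩
  add_mem' := fun ⟨m, hm⟩ ⟨n, hn⟩ => ⟨max m n, by
    rw [mul_add]
    exact add_mem (I.scaled_mono (le_max_left _ _) hm) (I.scaled_mono (le_max_right _ _) hn)⟩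
  zero_mem' := ⟨0, by simp⟩
  algebraMap_mem' c := ⟨0, by
    rw [pow_zero, one_mul, Algebra.algebraMap_eq_smul_one]
    exact (I.V 0).smul_mem c (I.one_mem 0)⟩

theorem chart_fin : ChartAlg I.ψ I.q I.J I.finAlg where
  transcendental := I.transcendental
  map_z := I.map_J
  regular := by
    rintro b ⟨n, hb⟩ v hv
    obtain ⟨h1, h2⟩ := I.le n b hb
    have h1' := h1 v
    have h2' := h2 v
    simp only [Finsupp.coe_smul, Pi.smul_apply, poleDiv_pow, poleDiv_eq_zero_of_le_one hv,
      mul_zero, smul_zero, exp_zero] at h1' h2'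
    exact ⟨h1', h2'⟩
  pair_mem r hr := by
    obtain ⟨n, h1, h2⟩ := I.fin_mem r hr
    exact ⟨⟨n, h1⟩, ⟨n, h2⟩⟩

theorem chart_inf : ChartAlg I.ψ I.q I.J⁻¹ I.infAlg where
  transcendental := fun h => I.transcendental (inv_inv I.J ▸ h.inv)
  map_z := by rw [map_inv₀, I.map_J, inv_pow]
  regular := by
    rintro b ⟨n, hb⟩ v hv
    obtain ⟨h1, h2⟩ := I.le n _ hb
    have hJ := valuation_eq_exp_poleDiv I.J_ne_zero hv
    have h1' := h1 v
    have h2' := h2 v
    simp only [T, Prod.pow_fst, Prod.pow_snd, Prod.fst_mul, Prod.snd_mul, map_mul, map_pow,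
      Finsupp.coe_smul, Pi.smul_apply, poleDiv_pow, hJ, ← exp_nsmul, nsmul_eq_mul] at h1' h2'
    exact ⟨le_of_mul_le_mul_left (h1'.trans_eq (mul_one _).symm) exp_pos,
      le_of_mul_le_mul_left (h2'.trans_eq (mul_one _).symm) exp_pos⟩
  pair_mem r hr := by
    obtain ⟨n, h1, h2⟩ := I.inf_mem r hr
    exact ⟨⟨n, h1⟩, ⟨n, h2⟩⟩

variable [RRSetting k F]

/-- The space containing `V n`. -/
def box (n : ℕ) : Submodule k (F × F) :=
  (riemannRochSpace (n • (poleDiv I.J : Divisor k F))).prod
    (riemannRochSpace (n • (poleDiv (I.J ^ I.q) : Divisor k F)))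

/-- The regular pairs on the finite chart. -/
def regPairs : Submodule k (F × F) where
  carrier := {p | ∀ v : Place k F, v.adicValuation I.J ≤ 1 →
    v.adicValuation p.1 ≤ 1 ∧ v.adicValuation p.2 ≤ 1}
  zero_mem' := fun v _ => by simp
  add_mem' := fun {p p'} h h' v hv =>
    ⟨(Valuation.map_add _ _ _).trans (max_le (h v hv).1 (h' v hv).1),
      (Valuation.map_add _ _ _).trans (max_le (h v hv).2 (h' v hv).2)⟩
  smul_mem' := fun c p h v hv =>
    ⟨(PairPt.val_smul_le (P := (Sum.inl v : PairPt k F F)) c).trans (h v hv).1,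
      (PairPt.val_smul_le (P := (Sum.inr v : PairPt k F F)) c).trans (h v hv).2⟩

theorem exists_mem_box {p : F × F} (hp : p ∈ I.regPairs) : ∃ n, ∀ m, n ≤ m → p ∈ I.box m := by
  obtain ⟨a, ha⟩ := exists_mem_rrSpace p.1 fun v hv => (hp v hv).1
  obtain ⟨b, hb⟩ := exists_mem_rrSpace (z := I.J ^ I.q) p.2
    fun v hv => (hp v ((I.le_one_pow_iff v).mp hv)).2
  exact ⟨max a b, fun m hm => ⟨ha m (le_of_max_le_left hm), hb m (le_of_max_le_right hm)⟩⟩

theorem finrank_box (n : ℕ) : Module.finrank k (I.box n) =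
    Module.finrank k (riemannRochSpace (n • (poleDiv I.J : Divisor k F))) +
      Module.finrank k (riemannRochSpace (n • (poleDiv (I.J ^ I.q) : Divisor k F))) := by
  rw [← Module.finrank_prod]
  exact LinearEquiv.finrank_eq
    { toFun := fun p => (⟨p.1.1, p.2.1⟩, ⟨p.1.2, p.2.2⟩)
      invFun := fun p => ⟨(p.1.1, p.2.1), p.1.2, p.2.2⟩
      map_add' := fun _ _ => rfl
      map_smul' := fun _ _ => rfl }

instance finite_box (n : ℕ) : Module.Finite k (I.box n) :=
  Module.Finite.equiv (LinearEquiv.symm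
    { toFun := fun p => (⟨p.1.1, p.2.1⟩, ⟨p.1.2, p.2.2⟩)
      invFun := fun p => ⟨(p.1.1, p.2.1), p.1.2, p.2.2⟩
      map_add' := fun _ _ => rfl
      map_smul' := fun _ _ => rfl } :
    ((riemannRochSpace (n • (poleDiv I.J : Divisor k F))) ×
      (riemannRochSpace (n • (poleDiv (I.J ^ I.q) : Divisor k F)))) ≃ₗ[k] I.box n)

/-- A non-zero polynomial in the coordinates carries regular pairs into the finite chart. -/
theorem exists_conductor : ∃ P : Polynomial k, P ≠ 0 ∧
    ∀ p ∈ I.regPairs, Polynomial.aeval I.T P * p ∈ I.finAlg := by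
  classical
  let N : Submodule k I.regPairs := (Subalgebra.toSubmodule I.finAlg).comap I.regPairs.subtype
  let W := I.regPairs ⧸ N
  have hrank : Module.rank k W ≤ I.c := by
    refine rank_le fun s hs => ?_
    choose e he using fun x : W => Submodule.Quotient.mk_surjective N x
    choose m hm using fun x : W => I.exists_mem_box (e x).2
    set n := max I.n₀ (s.sup m)
    by_contra hlt
    let U : Submodule k (I.box n) := (I.V n).comap (I.box n).subtype
    have hU : Module.finrank k U = Module.finrank k (I.V n) :=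
      (Submodule.comapSubtypeEquivOfLe fun p hp =>
        Submodule.mem_prod.mpr ⟨(I.le n p hp).1, (I.le n p hp).2⟩).finrank_eq
    have hquot : Module.finrank k (I.box n ⧸ U) = I.c := by
      have h1 := Submodule.finrank_quotient_add_finrank U
      have h2 := I.finrank_eq n (le_max_left _ _)
      have h3 := I.finrank_box n
      omega
    let f : (s → k) →ₗ[k] I.box n ⧸ U := Fintype.linearCombination k fun x : s =>
      U.mkQ ⟨(e x : F × F), hm x n ((Finset.le_sup x.2).trans (le_max_right _ _))⟩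
    have hker : ¬ Function.Injective f := fun hinj => by
      have := LinearMap.finrank_le_finrank_of_injective hinj
      rw [Module.finrank_pi, Fintype.card_coe, hquot] at this
      exact hlt this
    rw [← LinearMap.ker_eq_bot, Submodule.eq_bot_iff] at hker
    push Not at hker
    obtain ⟨g, hg, hg0⟩ := hker
    refine hg0 (funext (Fintype.linearIndependent_iff.mp hs g ?_))
    have hmem : (∑ x : s, g x • (e x : F × F)) ∈ I.V n := by
      have h1 : f g = U.mkQ (∑ x : s, g x • (⟨(e x : F × F),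
          hm x n ((Finset.le_sup x.2).trans (le_max_right _ _))⟩ : I.box n)) := by
        rw [Fintype.linearCombination_apply, map_sum]
        exact Finset.sum_congr rfl fun x _ => (map_smul U.mkQ _ _).symm
      rw [LinearMap.mem_ker.mp hg, eq_comm, Submodule.mkQ_apply, Submodule.Quotient.mk_eq_zero]
        at h1
      simpa [U] using h1
    have h2 : (∑ x : s, g x • (x : W)) = N.mkQ (∑ x : s, g x • e x) := by
      simp [map_sum, he]
    rw [h2, Submodule.mkQ_apply, Submodule.Quotient.mk_eq_zero]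
    show ((∑ x : s, g x • e x : I.regPairs) : F × F) ∈ I.finAlg
    exact ⟨n, by simpa using hmem⟩
  have : Module.Finite k W := Module.rank_lt_aleph0_iff.mp
    (hrank.trans_lt (Cardinal.natCast_lt_aleph0))
  have hTB : I.T ∈ I.finAlg := ⟨1, I.T_mem⟩
  have hreg : ∀ p ∈ I.regPairs, I.T * p ∈ I.regPairs := by
    intro p hp v hv
    simp only [T, Prod.fst_mul, Prod.snd_mul, map_mul]
    exact ⟨mul_le_one' hv (hp v hv).1,
      mul_le_one' ((I.le_one_pow_iff v).mpr hv) (hp v hv).2⟩
  let μ : I.regPairs →ₗ[k] I.regPairs :=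
    (LinearMap.mulLeft k I.T).restrict hreg
  let f : W →ₗ[k] W := N.mapQ N μ fun p hp => I.finAlg.mul_mem hTB hp
  have key : ∀ (P : Polynomial k) (p : I.regPairs), ∃ hP : Polynomial.aeval I.T P * p ∈ I.regPairs,
      Polynomial.aeval f P (N.mkQ p) = N.mkQ ⟨_, hP⟩ := by
    intro P
    induction P using Polynomial.induction_on with
    | C a =>
      intro p
      refine ⟨by rw [Polynomial.aeval_C, ← Algebra.smul_def]; exact I.regPairs.smul_mem a p.2, ?_⟩
      rw [Polynomial.aeval_C, Module.algebraMap_end_apply, ← map_smul]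
      congr 1
      exact Subtype.ext (by simp [Algebra.smul_def])
    | add P Q hP hQ =>
      intro p
      obtain ⟨h1, e1⟩ := hP p
      obtain ⟨h2, e2⟩ := hQ p
      refine ⟨by rw [map_add, add_mul]; exact add_mem h1 h2, ?_⟩
      rw [map_add, LinearMap.add_apply, e1, e2, ← map_add]
      congr 1
      exact Subtype.ext (by simp [add_mul])
    | monomial n a ih =>
      intro p
      obtain ⟨h1, e1⟩ := ih (μ p)
      have e : Polynomial.aeval I.T (Polynomial.C a * Polynomial.X ^ n) * (μ p : F × F) =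
          Polynomial.aeval I.T (Polynomial.C a * Polynomial.X ^ (n + 1)) * (p : F × F) := by
        rw [pow_succ, ← mul_assoc, map_mul _ (Polynomial.C a * Polynomial.X ^ n) Polynomial.X,
          Polynomial.aeval_X, mul_assoc]
        rfl
      refine ⟨e ▸ h1, ?_⟩
      have hf : Polynomial.aeval f (Polynomial.C a * Polynomial.X ^ (n + 1)) =
          Polynomial.aeval f (Polynomial.C a * Polynomial.X ^ n) * f := by
        rw [pow_succ, ← mul_assoc, map_mul, Polynomial.aeval_X]
      rw [hf, Module.End.mul_apply,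
        show f (N.mkQ p) = N.mkQ (μ p) from N.mapQ_apply N μ p, e1]
      congr 1
      exact Subtype.ext e
  refine ⟨f.charpoly, f.charpoly_monic.ne_zero, fun p hp => ?_⟩
  obtain ⟨h1, e1⟩ := key f.charpoly ⟨p, hp⟩
  rw [LinearMap.aeval_self_charpoly, LinearMap.zero_apply, eq_comm, Submodule.mkQ_apply,
    Submodule.Quotient.mk_eq_zero] at e1
  exact e1

end GlueInput

end FermatAgent.BadRed.Semistable
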