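import Fermat.Agent.GalRep.Construct.Constituent
import Fermat.Agent.Duality.Euler.BrauerNesbitt

/-!
# Traces of representations with a quadratic relation

If `r g + ω g • r g⁻¹ = s g • 1` and some involution `c` with `ω c = -1` has trace zero, the trace
of `r g` is half the dimension times `s g`.
-/

set_option autoImplicit false
set_option linter.style.haveILetI false

noncomputable section

open Module Polynomial

namespace FermatAgent.BadRed.Semistable

open FermatAgent.GalRep

variable {K : Type} [Field K]

theorem trace_eq_neg_nextCoeff {V : Type} [AddCommGroup V] [Module K V] [FiniteDimensional K V]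
    (e : V →ₗ[K] V) : LinearMap.trace K V e = -e.charpoly.nextCoeff := by
  classical
  let b := Module.Free.chooseBasis K V
  rw [LinearMap.trace_eq_matrix_trace K b, Matrix.trace_eq_neg_charpoly_nextCoeff,
    LinearMap.charpoly_toMatrix]

theorem trace_add_trace_quot {V : Type} [AddCommGroup V] [Module K V] [FiniteDimensional K V]
    (W : Submodule K V) (e : V →ₗ[K] V) (he : W ≤ W.comap e) :
    LinearMap.trace K V e = LinearMap.trace K W (e.restrict he) +
      LinearMap.trace K (V ⧸ W) (W.mapQ W e he) := by
  rw [trace_eq_neg_nextCoeff, trace_eq_neg_nextCoeff, trace_eq_neg_nextCoeff, Duality.Euler.charpoly_eq_mul_of_invariant W e he,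
    (LinearMap.charpoly_monic _).nextCoeff_mul (LinearMap.charpoly_monic _)]
  ring

variable {G : Type} [Group G] (ω : G →* K) (s : G → K)

/-- A character satisfying the relation. -/
def IsQuadChar (l : G →* K) : Prop := ∀ g, l g + ω g * l g⁻¹ = s g

variable {ω s}

theorem isQuadChar_unique {l l' : G →* K} (hl : IsQuadChar ω s l) (hl' : IsQuadChar ω s l') :
    (∀ g, l' g = l g) ∨ (∀ g, l' g = s g - l g) := by
  have hinv : ∀ (m : G →* K) g, m g * m g⁻¹ = 1 := fun m g => by
    rw [← map_mul, mul_inv_cancel, map_one]
  have hor : ∀ g, l' g = l g ∨ l' g = s g - l g := fun g => by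
    have h1 := hl g
    have h2 := hl' g
    have h : (l' g - l g) * (l' g + l g - s g) = 0 := by
      linear_combination l' g * h2 - l g * h1 - ω g * hinv l' g + ω g * hinv l g
    rcases mul_eq_zero.mp h with h | h
    · exact Or.inl (sub_eq_zero.mp h)
    · exact Or.inr (by linear_combination h)
  let μ : G →* K :=
    { toFun := fun g => ω g * l g⁻¹
      map_one' := by rw [inv_one, map_one, map_one, mul_one]
      map_mul' := fun g k => by rw [map_mul, _root_.mul_inv_rev, map_mul]; ring }
  have hμ : ∀ g, s g - l g = μ g := fun g => by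
    show _ = ω g * l g⁻¹
    linear_combination -hl g
  by_contra! hc
  obtain ⟨⟨a, ha⟩, ⟨b, hb⟩⟩ := hc
  have ha' : l' a = μ a := hμ a ▸ (hor a).resolve_left ha
  have hb' : l' b = l b := (hor b).resolve_right hb
  have hne : ∀ (m : G →* K) g, m g ≠ 0 := fun m g e => by
    have := hinv m g
    rw [e, zero_mul] at this
    exact zero_ne_one this
  rcases hor (a * b) with h | h
  · rw [map_mul, map_mul, hb'] at h
    exact ha (mul_right_cancel₀ (hne l b) h)
  · rw [hμ, map_mul, map_mul, ha'] at h
    exact hb (by rw [hμ]; exact mul_left_cancel₀ (hne μ a) h)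

theorem exists_eq_mul_of_quadratic [IsAlgClosed K] (D : G → K)
    (hD : ∀ l, IsQuadChar ω s l → ∃ e : K, ∀ g, 2 * l g - s g = e * D g) :
    ∀ {n : ℕ} {V : Type} [AddCommGroup V] [Module K V] [FiniteDimensional K V],
      finrank K V = n → ∀ r : G →* Module.End K V,
        (∀ g, r g + ω g • r g⁻¹ = s g • 1) →
        ∃ e : K, ∀ g, 2 * LinearMap.trace K V (r g) - (n : K) * s g = e * D g := by
  intro n
  induction n using Nat.strong_induction_on with
  | _ n ih =>
    intro V _ _ _ hn r h
    rcases Nat.eq_zero_or_pos n with rfl | hpos
    · refine ⟨0, fun g => ?_⟩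
      haveI : Subsingleton V := Module.finrank_zero_iff.mp hn
      rw [Subsingleton.elim (r g) 0, map_zero]
      simp
    haveI : Nontrivial V := Module.nontrivial_of_finrank_pos (R := K) (hn ▸ hpos)
    obtain ⟨W, hW0, hW, hmin⟩ := exists_irreducible_invariant r
    haveI : Nontrivial W := Submodule.nontrivial_iff_ne_bot.mpr hW0
    have hle : ∀ g, W ≤ W.comap (r g) := fun g x hx => hW g x hx
    let r₁ : G →* Module.End K W :=
      { toFun := fun g => (r g).restrict (hle g)
        map_one' := by ext; simp
        map_mul' := fun g k => by ext; simp }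
    let r₂ : G →* Module.End K (V ⧸ W) :=
      { toFun := fun g => W.mapQ W (r g) (hle g)
        map_one' := by ext; simp
        map_mul' := fun g k => by ext; simp }
    have h₁ : ∀ g, r₁ g + ω g • r₁ g⁻¹ = s g • 1 := fun g => by
      refine LinearMap.ext fun x => Subtype.ext ?_
      simpa [r₁] using LinearMap.congr_fun (h g) x
    have h₂ : ∀ g, r₂ g + ω g • r₂ g⁻¹ = s g • 1 := fun g => by
      refine Submodule.linearMap_qext _ (LinearMap.ext fun x => ?_)
      simpa [r₂, Submodule.mkQ_apply] using congrArg (Submodule.Quotient.mk (p := W))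
        (LinearMap.congr_fun (h g) x)
    have hirr : ∀ U : Submodule K W, (∀ g, ∀ x ∈ U, r₁ g x ∈ U) → U = ⊥ ∨ U = ⊤ := by
      intro U hU
      rcases hmin (U.map W.subtype) (Submodule.map_subtype_le W U) (fun g x hx => by
        obtain ⟨y, hy, rfl⟩ := hx
        exact ⟨r₁ g y, hU g y hy, rfl⟩) with h1 | h1
      · exact Or.inl (Submodule.map_injective_of_injective W.injective_subtype (by simpa using h1))
      · exact Or.inr (Submodule.map_injective_of_injective W.injective_subtype (by simpa using h1))
    have hspan := span_range_eq_top_of_irreducible r₁ hirr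
    have hdim : finrank K W ≤ 2 := finrank_le_two_of_quadratic r₁ ω s h₁ hspan
    have hWpos : 0 < finrank K W := Module.finrank_pos
    have hsum : finrank K (V ⧸ W) + finrank K W = n := hn ▸ Submodule.finrank_quotient_add_finrank W
    obtain ⟨e₂, he₂⟩ := ih (finrank K (V ⧸ W)) (by omega) rfl r₂ h₂
    have hbase : ∃ e₁ : K, ∀ g,
        2 * LinearMap.trace K W (r₁ g) - (finrank K W : K) * s g = e₁ * D g := by
      interval_cases hd : finrank K W
      · let b := Module.finBasisOfFinrankEq K W hd
        let l : G →* K :=
          { toFun := fun g => LinearMap.toMatrixAlgEquiv b (r₁ g) 0 0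
            map_one' := by rw [map_one, map_one, Matrix.one_apply_eq]
            map_mul' := fun g k => by rw [map_mul, map_mul, Matrix.mul_apply]; simp }
        have hl : IsQuadChar ω s l := fun g => by
          have h1 := congrArg (fun f => LinearMap.toMatrixAlgEquiv b f 0 0) (h₁ g)
          simp only [map_add, map_smul, map_one, Matrix.add_apply, Matrix.smul_apply,
            Matrix.one_apply_eq, smul_eq_mul, mul_one] at h1
          exact h1
        obtain ⟨e, he⟩ := hD l hl
        refine ⟨e, fun g => ?_⟩
        rw [← he g, LinearMap.trace_eq_matrix_trace K b, Matrix.trace, Fin.sum_univ_one,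
          Nat.cast_one, one_mul]
        rfl
      · let b := Module.finBasisOfFinrankEq K W hd
        let E := LinearMap.toMatrixAlgEquiv b
        let r₃ : G →* Matrix (Fin 2) (Fin 2) K := (E : _ ≃* _).toMonoidHom.comp r₁
        have hspan₃ : Submodule.span K (Set.range r₃) = ⊤ := by
          have hrange : Set.range r₃ = E.toLinearMap '' Set.range r₁ := by
            rw [← Set.range_comp]; rfl
          rw [hrange, Submodule.span_image, hspan, Submodule.map_top, LinearMap.range_eq_top]
          exact E.surjective
        have htd := trace_det_of_quadratic r₃ ω s (fun g => by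
          have h1 := congrArg E (h₁ g)
          simp only [map_add, map_smul, map_one] at h1
          exact h1) hspan₃
        refine ⟨0, fun g => ?_⟩
        rw [LinearMap.trace_eq_matrix_trace K b]
        have := (htd g).1
        change (LinearMap.toMatrix b b (r₁ g)).trace = s g at this
        rw [this]
        push_cast
        ring
    obtain ⟨e₁, he₁⟩ := hbase
    refine ⟨e₁ + e₂, fun g => ?_⟩
    rw [trace_add_trace_quot W (r g) (hle g), ← hsum, add_mul, ← he₁ g, ← he₂ g]
    push_cast
    show 2 * (LinearMap.trace K W (r₁ g) + LinearMap.trace K (V ⧸ W) (r₂ g)) - _ = _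
    ring

/-- **Half the dimension times `s`.** -/
theorem two_mul_trace_of_quadratic [IsAlgClosed K] [CharZero K] {V : Type} [AddCommGroup V]
    [Module K V] [FiniteDimensional K V] (r : G →* Module.End K V)
    (h : ∀ g, r g + ω g • r g⁻¹ = s g • 1) {c : G} (hc : c * c = 1) (hωc : ω c = -1)
    (htr : LinearMap.trace K V (r c) = 0) (g : G) :
    2 * LinearMap.trace K V (r g) = (finrank K V : K) * s g := by
  rcases eq_or_ne (finrank K V) 0 with h0 | h0
  · haveI : Subsingleton V := Module.finrank_zero_iff.mp h0
    rw [Subsingleton.elim (r g) 0, map_zero, h0]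
    simp
  haveI : Nontrivial V := Module.nontrivial_of_finrank_pos (R := K) (Nat.pos_of_ne_zero h0)
  have hsc : s c = 0 := by
    have h1 := h c
    rw [inv_eq_of_mul_eq_one_right hc, hωc, neg_smul, one_smul, add_neg_cancel] at h1
    exact (smul_eq_zero.mp h1.symm).resolve_right one_ne_zero
  classical
  let D : G → K :=
    if hex : ∃ l, IsQuadChar ω s l then fun g => 2 * hex.choose g - s g else 0
  obtain ⟨e, he⟩ := exists_eq_mul_of_quadratic D (fun l hl => by
    have hex : ∃ l, IsQuadChar ω s l := ⟨l, hl⟩
    simp only [D, dif_pos hex]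
    rcases isQuadChar_unique hex.choose_spec hl with hu | hu
    · exact ⟨1, fun g => by rw [hu, one_mul]⟩
    · exact ⟨-1, fun g => by rw [hu]; ring⟩) rfl r h
  have hzero : ∀ g, e * D g = 0 := by
    by_cases hex : ∃ l, IsQuadChar ω s l
    · have hec := he c
      rw [htr, hsc, mul_zero, mul_zero, sub_zero] at hec
      rcases mul_eq_zero.mp hec.symm with e0 | e0
      · exact fun g => by rw [e0, zero_mul]
      · simp only [D, dif_pos hex, hsc, sub_zero, mul_eq_zero] at e0
        have h1 : hex.choose c * hex.choose c = 1 := by rw [← map_mul, hc, map_one]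
        rcases e0 with e0 | e0
        · exact absurd e0 two_ne_zero
        · rw [e0, zero_mul] at h1
          exact absurd h1 zero_ne_one
    · exact fun g => by simp [D, dif_neg hex]
  have := he g
  rw [hzero] at this
  linear_combination this

/-- The space where an element acts with one of two distinct quadratic roots has at most half the
dimension. -/
theorem two_mul_finrank_le_of_root [CharZero K] {V : Type} [AddCommGroup V] [Module K V]
    [FiniteDimensional K V] (f : Module.End K V) (a b σ : K) (hab : a ≠ b)
    (hf : f * f - (a + b) • f + (a * b) • 1 = 0) (hσ : σ = a + b)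
    (htr : 2 * LinearMap.trace K V f = (finrank K V : K) * σ) (U : Submodule K V)
    (hU : ∀ u ∈ U, f u = a • u) : 2 * finrank K U ≤ finrank K V := by
  set P : Module.End K V := (a - b)⁻¹ • (f - b • 1)
  have hab' : a - b ≠ 0 := sub_ne_zero.mpr hab
  have hPa : ∀ v, f (P v) = a • P v := fun v => by
    have := LinearMap.congr_fun hf v
    simp only [P, LinearMap.add_apply, LinearMap.sub_apply, LinearMap.smul_apply,
      Module.End.mul_apply, Module.End.one_apply, LinearMap.zero_apply, map_smul, map_sub] at this ⊢
    linear_combination (norm := module) (a - b)⁻¹ • this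
  have hfix : ∀ v, f v = a • v → P v = v := fun v hv => by
    simp only [P, LinearMap.smul_apply, LinearMap.sub_apply, Module.End.one_apply, hv, ← sub_smul,
      smul_smul, inv_mul_cancel₀ hab', one_smul]
  have hproj : LinearMap.IsProj (LinearMap.range P) P :=
    ⟨fun v => LinearMap.mem_range_self P v, fun v hv => by
      obtain ⟨w, rfl⟩ := hv
      exact hfix _ (hPa w)⟩
  have hle : U ≤ LinearMap.range P := fun u hu => ⟨u, hfix u (hU u hu)⟩
  have htP : LinearMap.trace K V P = (finrank K (LinearMap.range P) : K) := hproj.trace
  have h2 : 2 * (finrank K (LinearMap.range P) : K) = (finrank K V : K) := by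
    rw [← htP]
    simp only [P, map_smul, map_sub, LinearMap.trace_one, smul_eq_mul]
    field_simp
    linear_combination htr + (finrank K V : K) * hσ
  have h3 : 2 * finrank K (LinearMap.range P) = finrank K V := by exact_mod_cast h2
  have := Submodule.finrank_mono hle
  omega

end FermatAgent.BadRed.Semistable
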