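import Fermat.Agent.BadRed.Semistable.EigenSplit
import Fermat.Agent.BadRed.Semistable.QuadTrace

/-!
# Counting toric vectors in the eigenspaces

A representation commutes with a semisimple commutative algebra and `R g + ω g R g⁻¹` is a scalar
on each eigenspace. If a space of toric vectors fills half of what the old eigenspaces leave, every
new eigenspace contains a toric vector.
-/

set_option autoImplicit false
set_option linter.unusedSectionVars false

noncomputable section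

open Module

namespace FermatAgent.BadRed.Semistable

variable {K : Type} [Field K] [IsAlgClosed K] [CharZero K] {V : Type} [AddCommGroup V] [Module K V]
  [FiniteDimensional K V] {H : Type} [CommRing H] (φ : H →+* Module.End K V)
  {G : Type} [Group G] (R : G →* Module.End K V)

/-- Vectors fixed by `Γ` on which `R F` squares to `Q²`. -/
def toricPart (Γ : Set G) (F : G) (Q : K) : Submodule K V :=
  (⨅ γ ∈ Γ, LinearMap.ker (R γ - 1)) ⊓ LinearMap.ker (R F * R F - Q ^ 2 • 1)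

variable {φ R} {Γ : Set G} {F : G} {Q : K}

theorem mem_toricPart {v : V} :
    v ∈ toricPart R Γ F Q ↔ (∀ γ ∈ Γ, R γ v = v) ∧ R F (R F v) = Q ^ 2 • v := by
  simp [toricPart, sub_eq_zero]

variable {ω : G →* K} {s : (H → K) → G → K}
  (hX : ∀ χ g, ∀ v ∈ eigSp φ χ, R g v + ω g • R g⁻¹ v = s χ g • v)

include hX in
/-- A toric vector in an eigenspace determines the scalars. -/
theorem scalars_of_toric (hΓ : ∀ γ ∈ Γ, ω γ = 1) (hΓinv : ∀ γ ∈ Γ, γ⁻¹ ∈ Γ) (hF : ω F = Q)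
    (hQ : Q ≠ 0) {χ : H → K} {v : V} (hv : v ∈ eigSp φ χ) (hv' : v ∈ toricPart R Γ F Q)
    (hv0 : v ≠ 0) :
    (∀ γ ∈ Γ, s χ γ = 2) ∧ s χ F ^ 2 = (Q + 1) ^ 2 ∧ (1 + Q⁻¹) • R F v = s χ F • v := by
  rw [mem_toricPart] at hv'
  refine ⟨fun γ hγ => ?_, ?_⟩
  · have h := hX χ γ v hv
    rw [hv'.1 γ hγ, hv'.1 _ (hΓinv γ hγ), hΓ γ hγ, one_smul, ← two_smul K v] at h
    exact (smul_left_injective K hv0 h).symm
  have hinv : R F⁻¹ (Q ^ 2 • v) = R F v := by
    rw [← hv'.2, ← Module.End.mul_apply, ← map_mul, inv_mul_cancel, map_one, Module.End.one_apply]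
  have hinv' : R F⁻¹ v = (Q ^ 2)⁻¹ • R F v := by
    rw [← hinv, map_smul, smul_smul, inv_mul_cancel₀ (pow_ne_zero 2 hQ), one_smul]
  have h := hX χ F v hv
  rw [hF, hinv', smul_smul, show Q * (Q ^ 2)⁻¹ = Q⁻¹ by field_simp] at h
  have h1 : (1 + Q⁻¹) • R F v = s χ F • v := by rw [add_smul, one_smul, h]
  refine ⟨smul_left_injective K hv0 ?_, h1⟩
  have h2 := congrArg (R F) h1
  rw [map_smul, map_smul, hv'.2] at h2
  have h3 : ((1 + Q⁻¹) * ((1 + Q⁻¹) * Q ^ 2)) • v = s χ F ^ 2 • v := by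
    rw [mul_smul, mul_smul, h2, smul_comm, h1, smul_smul, sq]
  rw [show (Q + 1) ^ 2 = (1 + Q⁻¹) * ((1 + Q⁻¹) * Q ^ 2) by field_simp]
  exact h3.symm

variable (hR : ∀ g t, Commute (φ t) (R g))

/-- The representation on an eigenspace. -/
def repEig (χ : H → K) : G →* Module.End K (eigSp φ χ) where
  toFun g := (R g).restrict fun _ hv => mapsTo_eigSp (fun t => hR g t) χ hv
  map_one' := by ext; simp
  map_mul' g k := by ext; simp

variable {c : G} (hc : c * c = 1) (hωc : ω c = -1)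
  (htr : ∀ χ : H → K, LinearMap.trace K (eigSp φ χ) (repEig hR χ c) = 0)

include hX hc hωc htr in
/-- At most half of an eigenspace is toric. -/
theorem two_mul_finrank_toric_le (hΓ : ∀ γ ∈ Γ, ω γ = 1) (hΓinv : ∀ γ ∈ Γ, γ⁻¹ ∈ Γ)
    (hF : ω F = Q) (hQ : Q ≠ 0) (hQ1 : Q ≠ 1) (hQ2 : Q + 1 ≠ 0) (χ : H → K) :
    2 * finrank K (eigSp φ χ ⊓ toricPart R Γ F Q : Submodule K V) ≤ finrank K (eigSp φ χ) := by
  rcases eq_or_ne (eigSp φ χ ⊓ toricPart R Γ F Q) ⊥ with h0 | h0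
  · rw [h0, finrank_bot, mul_zero]; exact Nat.zero_le _
  obtain ⟨v₀, hv₀, hv₀0⟩ := Submodule.exists_mem_ne_zero_of_ne_bot h0
  have hs := (scalars_of_toric hX hΓ hΓinv hF hQ hv₀.1 hv₀.2 hv₀0).2.1
  set σ := s χ F
  have hσ0 : σ ≠ 0 := fun e => by
    rw [e, zero_pow two_ne_zero] at hs
    exact hQ2 (pow_eq_zero_iff two_ne_zero |>.mp hs.symm)
  set ε := (Q + 1) / σ
  have hε : ε ≠ 0 := div_ne_zero hQ2 hσ0
  have hσ : σ = ε * Q + ε := by
    simp only [ε]
    field_simp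
    linear_combination hs
  have hε2 : ε * ε = 1 := by
    simp only [ε]
    field_simp
    linear_combination -hs
  have hXW : ∀ g, repEig hR χ g + ω g • repEig hR χ g⁻¹ = s χ g • 1 := fun g =>
    LinearMap.ext fun w => Subtype.ext (hX χ g w.1 w.2)
  have ht := two_mul_trace_of_quadratic (repEig hR χ) hXW hc hωc (htr χ) F
  have hquad : repEig hR χ F * repEig hR χ F - (ε * Q + ε) • repEig hR χ F + (ε * Q * ε) • 1 =
      0 := by
    have h := congrArg (repEig hR χ F * ·) (hXW F)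
    simp only [mul_add, mul_smul_comm, ← map_mul, mul_inv_cancel, map_one, mul_one, hF] at h
    rw [← map_mul, show ε * Q * ε = Q by linear_combination Q * hε2, ← hσ]
    linear_combination (norm := module) h
  let U : Submodule K (eigSp φ χ) :=
    (eigSp φ χ ⊓ toricPart R Γ F Q).comap (eigSp φ χ).subtype
  have hU : ∀ u ∈ U, repEig hR χ F u = (ε * Q) • u := fun u hu => by
    rcases eq_or_ne (u : V) 0 with e | e
    · rw [(Submodule.coe_eq_zero.mp e : u = 0), map_zero, smul_zero]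
    refine Subtype.ext ?_
    show R F u.1 = (ε * Q) • u.1
    have h1 : (1 + Q⁻¹) • R F u.1 = σ • u.1 :=
      (scalars_of_toric hX hΓ hΓinv hF hQ hu.1 hu.2 e).2.2
    have hne : 1 + Q⁻¹ ≠ 0 := fun h => hQ2 (by field_simp at h; linear_combination h)
    refine smul_right_injective V hne (show (1 + Q⁻¹) • R F u.1 = _ from ?_)
    simp only [smul_smul]
    rw [h1, show (1 + Q⁻¹) * (ε * Q) = σ by rw [hσ]; field_simp]
  have hle := two_mul_finrank_le_of_root (repEig hR χ F) (ε * Q) ε σ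
    (fun e => hQ1 (by
      have h1 := mul_left_cancel₀ hε (e.trans (mul_one ε).symm)
      exact h1))
    hquad hσ ht U hU
  rwa [(Submodule.comapSubtypeEquivOfLe (inf_le_left :
    eigSp φ χ ⊓ toricPart R Γ F Q ≤ eigSp φ χ)).finrank_eq] at hle

include hX hR hc hωc htr in
/-- **Every new eigensystem is toric.** -/
theorem scalars_of_new (hss : ∀ t, (φ t).IsSemisimple) (hΓ : ∀ γ ∈ Γ, ω γ = 1)
    (hΓinv : ∀ γ ∈ Γ, γ⁻¹ ∈ Γ) (hF : ω F = Q) (hQ : Q ≠ 0) (hQ1 : Q ≠ 1) (hQ2 : Q + 1 ≠ 0)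
    (I : Set H) (hold : ∀ χ ∈ systems φ, (∀ a ∈ I, χ a = 0) → s χ F ^ 2 ≠ (Q + 1) ^ 2)
    (O : Submodule K V) (hO : ∀ v ∈ O, ∀ a ∈ I, φ a v = 0)
    (T : Submodule K V) (hT : T ≤ toricPart R Γ F Q)
    (hdim : finrank K V ≤ 2 * finrank K T + finrank K O)
    {χ : H → K} (hχ : χ ∈ systems φ) (hnew : ∃ a ∈ I, χ a ≠ 0) :
    (∀ γ ∈ Γ, s χ γ = 2) ∧ s χ F ^ 2 = (Q + 1) ^ 2 := by
  classical
  set U : (H → K) → Submodule K V := fun χ => eigSp φ χ ⊓ toricPart R Γ F Q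
  rcases eq_or_ne (U χ) ⊥ with h0 | h0
  swap
  · obtain ⟨v, hv, hv0⟩ := Submodule.exists_mem_ne_zero_of_ne_bot h0
    exact ⟨(scalars_of_toric hX hΓ hΓinv hF hQ hv.1 hv.2 hv0).1,
      (scalars_of_toric hX hΓ hΓinv hF hQ hv.1 hv.2 hv0).2.1⟩
  exfalso
  set old := (systems φ).filter fun χ => ∀ a ∈ I, χ a = 0
  set new := (systems φ).filter fun χ => ¬ ∀ a ∈ I, χ a = 0
  have hUold : ∀ ψ ∈ old, U ψ = ⊥ := fun ψ hψ => by
    rw [Finset.mem_filter] at hψ
    refine (Submodule.eq_bot_iff _).mpr fun v hv => by_contra fun hv0 => ?_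
    exact hold ψ hψ.1 hψ.2 (scalars_of_toric hX hΓ hΓinv hF hQ hv.1 hv.2 hv0).2.1
  have hTU : T ≤ ⨆ ψ ∈ systems φ, U ψ := by
    intro v hv
    obtain ⟨d, hd, hsum⟩ := exists_components hss v
    have hvt := mem_toricPart.mp (hT hv)
    rw [← hsum]
    refine sum_mem fun ψ hψ => Submodule.mem_iSup_of_mem ψ
      (Submodule.mem_iSup_of_mem hψ ⟨hd ψ, mem_toricPart.mpr ⟨fun γ hγ => ?_, ?_⟩⟩)
    · have := component_eq_of_eq (G := R γ) (fun t => hR γ t) 1 (v := v)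
        (by rw [one_smul]; exact hvt.1 γ hγ) hd hsum hψ
      rwa [one_smul] at this
    · exact component_eq_of_eq (G := R F * R F) (fun t => (hR F t).mul_right (hR F t)) (Q ^ 2)
        (v := v) hvt.2 hd hsum hψ
  have hOW : O ≤ ⨆ ψ ∈ old, eigSp φ ψ := by
    intro v hv
    obtain ⟨d, hd, hsum⟩ := exists_components hss v
    rw [← hsum]
    refine sum_mem fun ψ hψ => ?_
    by_cases h : ∀ a ∈ I, ψ a = 0
    · exact Submodule.mem_iSup_of_mem ψ
        (Submodule.mem_iSup_of_mem (Finset.mem_filter.mpr ⟨hψ, h⟩) (hd ψ))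
    · push Not at h
      obtain ⟨a, ha, hne⟩ := h
      rw [component_eq_zero_of_killed (hO v hv) hd hsum hψ ha hne]
      exact zero_mem _
  have hT1 : finrank K T ≤ ∑ ψ ∈ new, finrank K (U ψ) := by
    refine (Submodule.finrank_mono hTU).trans ((finrank_biSup_le _ _).trans ?_)
    rw [← Finset.sum_filter_add_sum_filter_not (systems φ) (fun ψ => ∀ a ∈ I, ψ a = 0),
      Finset.sum_eq_zero fun ψ hψ => by rw [hUold ψ hψ, finrank_bot], zero_add]
  have hO1 : finrank K O ≤ ∑ ψ ∈ old, finrank K (eigSp φ ψ) :=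
    (Submodule.finrank_mono hOW).trans (finrank_biSup_le _ _)
  have hsum := sum_finrank_eigSp_le (φ := φ)
  rw [← Finset.sum_filter_add_sum_filter_not (systems φ) (fun ψ => ∀ a ∈ I, ψ a = 0)] at hsum
  have hχnew : χ ∈ new := Finset.mem_filter.mpr ⟨hχ, fun h => by
    obtain ⟨a, ha, hne⟩ := hnew
    exact hne (h a ha)⟩
  have hlt : 2 * (∑ ψ ∈ new, finrank K (U ψ)) < ∑ ψ ∈ new, finrank K (eigSp φ ψ) := by
    rw [Finset.mul_sum]
    refine Finset.sum_lt_sum (fun ψ _ =>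
      two_mul_finrank_toric_le hX hR hc hωc htr hΓ hΓinv hF hQ hQ1 hQ2 ψ) ⟨χ, hχnew, ?_⟩
    rw [h0, finrank_bot, mul_zero]
    exact Nat.pos_of_ne_zero fun e => mem_systems.mp hχ (Submodule.finrank_eq_zero.mp e)
  simp only [old, new] at hO1 hT1 hlt
  omega

end FermatAgent.BadRed.Semistable
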