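import Fermat.Agent.BadRed.Semistable.Toric

/-!
# Non-special configurations on the glued curve

`g` smooth points of the glued curve such that only the constants are glued sections with at most
simple poles there.
-/

set_option autoImplicit false
set_option linter.unusedSectionVars false
set_option linter.style.haveILetI false

noncomputable section

open WithZero AlgebraicCurve

namespace FermatAgent.BadRed.Semistable

open FermatAgent.Curve FermatAgent.Curve.RR

section Comp

variable {k F : Type*} [Field k] [Field F] [Algebra k F] [IsAlgClosed k] [IsFunctionField1 k F]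
  [RRSetting k F]

/-- General points keep `l = 0` up to degree `g - 1`. -/
theorem exists_ell_zero [Infinite k] (D : Divisor k F) (hD : ell D = 0)
    {S : Set (Place k F)} (hS : S.Finite) (j : ℕ)
    (hj : Divisor.degree D + j + 1 ≤ genusFF k F) :
    ∃ s : Finset (Place k F), s.card = j ∧ (∀ P ∈ s, P ∉ S) ∧
      ell (D + ∑ P ∈ s, Finsupp.single P (1 : ℤ)) = 0 := by
  classical
  induction j with
  | zero => exact ⟨∅, rfl, by simp, by simpa using hD⟩
  | succ j ih =>
    obtain ⟨s, hs, hsS, hl⟩ := ih (by push_cast at hj ⊢; omega)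
    set E := D + ∑ P ∈ s, Finsupp.single P (1 : ℤ) with hE
    have hdeg : Divisor.degree E = Divisor.degree D + j := by
      simp [hE, Curve.deg_eq_one, hs]
    have hrr := riemann_roch E
    have hpos : 0 < ell (weilCanonical k F - E) := by push_cast at hj; omega
    obtain ⟨f, hf, hf0⟩ := Submodule.exists_mem_ne_zero_of_ne_bot
      (p := riemannRochSpace (weilCanonical k F - E)) (fun h => by
        unfold ell at hpos; rw [h, finrank_bot] at hpos; omega)
    haveI := infinite_place (K := k) (F := F)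
    obtain ⟨P, hP⟩ := ((((hS.union s.finite_toSet).union
      (weilCanonical k F - E).support.finite_toSet)).union
        (finite_ord_ne_zero (K := k) f)).infinite_compl.nonempty
    simp only [Set.mem_compl_iff, Set.mem_union, not_or, Finset.mem_coe,
      Finsupp.mem_support_iff, not_not, Set.mem_ofPred_eq] at hP
    obtain ⟨⟨⟨hPS, hPs⟩, hPW⟩, hPf⟩ := hP
    refine ⟨insert P s, by rw [Finset.card_insert_of_notMem hPs, hs], ?_, ?_⟩
    · intro Q hQ
      rcases Finset.mem_insert.mp hQ with rfl | hQ
      · exact hPS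
      · exact hsS Q hQ
    · rw [Finset.sum_insert hPs, add_left_comm, ← hE]
      have e : weilCanonical k F - E =
          weilCanonical k F - (Finsupp.single P 1 + E) + Finsupp.single P 1 := by abel
      have hrr' := riemann_roch (Finsupp.single P (1 : ℤ) + E)
      rw [map_add, degree_single] at hrr'
      rw [e] at hf
      have := ell_add_single_of_notMem hf (fun hcon => by
        have h3 := (mem_riemannRochSpace_iff.mp hcon P).resolve_left hf0
        rw [Finsupp.sub_apply, Finsupp.add_apply, Finsupp.single_eq_same] at h3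
        rw [Finsupp.sub_apply] at hPW
        omega)
      rw [← e] at this
      omega

theorem single_sum_apply {α : Type*} [DecidableEq α] (s : Finset α) (a : α) :
    (∑ P ∈ s, Finsupp.single P (1 : ℤ)) a = if a ∈ s then 1 else 0 := by
  rw [Finsupp.finsetSum_apply]
  simp [Finsupp.single_apply]

end Comp

namespace Glued

variable {k F₁ F₂ : Type*} [Field k] [Field F₁] [Field F₂] [Algebra k F₁] [Algebra k F₂]
  [IsAlgClosed k] [IsFunctionField1 k F₁] [IsFunctionField1 k F₂]
  [RRSetting k F₁] [RRSetting k F₂]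
variable (C : Glued k F₁ F₂)

/-- Smooth points with only constant glued sections having simple poles there. -/
structure NonSpecial where
  S₁ : Finset (Place k F₁)
  S₂ : Finset (Place k F₂)
  smooth₁ : ∀ Q ∈ S₁, ∀ i, C.x i ≠ Q
  smooth₂ : ∀ Q ∈ S₂, ∀ i, C.y i ≠ Q
  card_eq : S₁.card + S₂.card + 1 = genusFF k F₁ + genusFF k F₂ + Fintype.card C.ι
  const : ∀ a ∈ riemannRochSpace (∑ Q ∈ S₁, Finsupp.single Q (1 : ℤ)),
    ∀ b ∈ riemannRochSpace (∑ Q ∈ S₂, Finsupp.single Q (1 : ℤ)),
      (∀ i, valueAt (C.x i) a = valueAt (C.y i) b) →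
        ∃ β : k, a = algebraMap k F₁ β ∧ b = algebraMap k F₂ β
  interp : ∀ e : C.ι → k, ∃ a ∈ riemannRochSpace (∑ Q ∈ S₁, Finsupp.single Q (1 : ℤ)),
    ∀ i, valueAt (C.x i) a = e i

theorem exists_nonSpecial [Infinite k] : Nonempty C.NonSpecial := by
  classical
  obtain ⟨s₂, hs₂, hs₂S, hl₂, -⟩ := exists_nonspecial (K := k) (F := F₂)
    (S := Set.range C.y) (Set.finite_range _)
  set D : Divisor k F₁ := -∑ i, Finsupp.single (C.x i) (1 : ℤ) with hD
  have hdeg : Divisor.degree D = -(Fintype.card C.ι : ℤ) := by simp [hD, Curve.deg_eq_one]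
  have ht := Fintype.card_pos_iff.mpr C.nonempty
  obtain ⟨s₁, hs₁, hs₁S, hl₁⟩ := exists_ell_zero D (ell_eq_zero_of_degree_neg (by omega))
    (S := Set.range C.x) (Set.finite_range _) (genusFF k F₁ + Fintype.card C.ι - 1)
    (by push_cast [Nat.cast_sub (show 1 ≤ genusFF k F₁ + Fintype.card C.ι by omega)]; omega)
  have hker : ∀ a ∈ riemannRochSpace (∑ Q ∈ s₁, Finsupp.single Q (1 : ℤ)), ∀ β : k,
      (∀ i, valueAt (C.x i) a = β) → a = algebraMap k F₁ β := by
    intro a ha β hval
    have hmem : a - algebraMap k F₁ β ∈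
        riemannRochSpace (D + ∑ Q ∈ s₁, Finsupp.single Q (1 : ℤ)) := by
      intro v
      rw [Finsupp.add_apply, single_sum_apply]
      have hv := ha v
      rw [single_sum_apply] at hv
      have hc : v.adicValuation (algebraMap k F₁ β) ≤ 1 :=
        v.adicValuation_le_one_of_mem (v.algebraMap_mem' β)
      by_cases h : ∃ i, C.x i = v
      · obtain ⟨i, rfl⟩ := h
        have hns : C.x i ∉ s₁ := fun hm => hs₁S _ hm ⟨i, rfl⟩
        rw [if_neg hns, exp_zero] at hv
        have hDx : D (C.x i) = -1 := by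
          simp [hD, Finsupp.single_apply, C.x_injective.eq_iff]
        rw [if_neg hns, hDx, add_zero]
        refine le_exp_of_lt_exp_succ ?_
        rw [show (-1 : ℤ) + 1 = 0 by norm_num, exp_zero]
        refine (adicValuation_lt_one_iff ((Valuation.map_sub _ _ _).trans (max_le hv hc))).mpr ?_
        rw [valueAt_sub _ (mem_of_le_one hv) ((C.x i).algebraMap_mem' β), valueAt_algebraMap,
          hval i, sub_self]
      · push Not at h
        have hDv : D v = 0 := by simp [hD, h]
        rw [hDv, zero_add]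
        refine (Valuation.map_sub _ _ _).trans (max_le hv (hc.trans ?_))
        rw [← exp_zero]
        exact exp_le_exp.mpr (by split_ifs <;> omega)
    rw [show riemannRochSpace (D + ∑ Q ∈ s₁, Finsupp.single Q (1 : ℤ)) = ⊥ from
      Submodule.finrank_eq_zero.mp hl₁, Submodule.mem_bot, sub_eq_zero] at hmem
    exact hmem
  have hle : ∀ a ∈ riemannRochSpace (∑ Q ∈ s₁, Finsupp.single Q (1 : ℤ)), ∀ i,
      (C.x i).adicValuation a ≤ 1 := fun a ha i => by
    have := ha (C.x i)
    rwa [single_sum_apply, if_neg (fun hm => hs₁S _ hm ⟨i, rfl⟩), exp_zero] at this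
  refine ⟨⟨s₁, s₂, fun Q hQ i e => hs₁S Q hQ ⟨i, e⟩, fun Q hQ i e => hs₂S Q hQ ⟨i, e⟩,
    by omega, fun a ha b hb hval => ?_, fun e => ?_⟩⟩
  · have heq : riemannRochSpace (0 : Divisor k F₂) =
        riemannRochSpace (∑ Q ∈ s₂, Finsupp.single Q (1 : ℤ)) :=
      Submodule.eq_of_le_of_finrank_eq
        (rrSpace_mono (Finset.sum_nonneg fun Q _ => RR.single_one_nonneg Q))
        (ell_zero.trans hl₂.symm)
    rw [← heq, mem_riemannRochSpace_zero_iff] at hb
    obtain ⟨β, rfl⟩ := hb
    exact ⟨β, hker a ha β fun i => by rw [hval i, valueAt_algebraMap], rfl⟩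
  · let φ : riemannRochSpace (∑ Q ∈ s₁, Finsupp.single Q (1 : ℤ)) →ₗ[k] (C.ι → k) :=
      { toFun := fun a i => valueAt (C.x i) (a : F₁)
        map_add' := fun a a' => funext fun i => by
          rw [Submodule.coe_add, valueAt_add _ (mem_of_le_one (hle _ a.2 i))
            (mem_of_le_one (hle _ a'.2 i))]
          rfl
        map_smul' := fun r a => funext fun i => by
          rw [Submodule.coe_smul, valueAt_smul (hle _ a.2 i)]
          rfl }
    have hinj : Function.Injective φ := by
      rw [← LinearMap.ker_eq_bot, Submodule.eq_bot_iff]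
      intro a ha
      exact Subtype.ext ((hker _ a.2 0 fun i => congrFun ha i).trans (map_zero _))
    have hfin : Module.finrank k (riemannRochSpace (∑ Q ∈ s₁, Finsupp.single Q (1 : ℤ))) =
        Module.finrank k (C.ι → k) := by
      refine le_antisymm (LinearMap.finrank_le_finrank_of_injective hinj) ?_
      rw [Module.finrank_pi]
      have h1 := riemann_inequality (∑ Q ∈ s₁, Finsupp.single Q (1 : ℤ))
      simp only [map_sum, degree_single, Finset.sum_const, hs₁, nsmul_one] at h1
      unfold ell at h1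
      omega
    obtain ⟨a, ha⟩ := (LinearMap.injective_iff_surjective_of_finrank_eq_finrank hfin).mp hinj e
    exact ⟨a, a.2, fun i => congrFun ha i⟩

variable {C} (ns : C.NonSpecial)

open scoped Classical in
/-- The points of the configuration. -/
def NonSpecial.points : Finset C.Pt := ns.S₁.image C.toPt₁ ∪ ns.S₂.image C.toPt₂

/-- The divisor of the configuration. -/
def NonSpecial.divisor : C.Pt →₀ ℤ := ∑ ω ∈ ns.points, Finsupp.single ω 1

theorem NonSpecial.toPt₁_mem_iff (Q : Place k F₁) : C.toPt₁ Q ∈ ns.points ↔ Q ∈ ns.S₁ := by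
  classical
  simp only [points, Finset.mem_union, Finset.mem_image]
  refine ⟨?_, fun h => Or.inl ⟨Q, h, rfl⟩⟩
  rintro (⟨Q', h', e⟩ | ⟨Q', h', e⟩)
  · exact C.toPt₁_injective e ▸ h'
  · rw [C.toPt₂_of_ne Q' (ns.smooth₂ Q' h')] at e
    exact absurd e.symm (C.toPt₁_ne_right Q Q' _)

theorem NonSpecial.toPt₂_mem_iff (Q : Place k F₂) : C.toPt₂ Q ∈ ns.points ↔ Q ∈ ns.S₂ := by
  classical
  simp only [points, Finset.mem_union, Finset.mem_image]
  refine ⟨?_, fun h => Or.inr ⟨Q, h, rfl⟩⟩
  rintro (⟨Q', h', e⟩ | ⟨Q', h', e⟩)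
  · rw [C.toPt₁_of_ne Q' (ns.smooth₁ Q' h')] at e
    exact absurd e.symm (C.toPt₂_ne_left Q Q' _)
  · exact C.toPt₂_injective e ▸ h'

theorem NonSpecial.node_notMem (i : C.ι) : Pt.node i ∉ ns.points := by
  rw [← C.toPt₁_x i, ns.toPt₁_mem_iff]
  exact fun h => ns.smooth₁ _ h i rfl

theorem NonSpecial.card_points : ns.points.card = ns.S₁.card + ns.S₂.card := by
  classical
  rw [points, Finset.card_union_of_disjoint, Finset.card_image_of_injective _ C.toPt₁_injective,
    Finset.card_image_of_injective _ C.toPt₂_injective]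
  rw [Finset.disjoint_left]
  rintro ω h h'
  obtain ⟨Q, hQ, rfl⟩ := Finset.mem_image.mp h
  obtain ⟨Q', hQ', e⟩ := Finset.mem_image.mp h'
  rw [C.toPt₂_of_ne Q' (ns.smooth₂ Q' hQ')] at e
  exact C.toPt₁_ne_right Q Q' _ e.symm

open scoped Classical in
theorem NonSpecial.divisor_apply (ω : C.Pt) :
    ns.divisor ω = if ω ∈ ns.points then 1 else 0 := single_sum_apply _ _

theorem NonSpecial.part₁_divisor :
    C.part₁ ns.divisor = ∑ Q ∈ ns.S₁, Finsupp.single Q (1 : ℤ) := by
  classical
  ext Q
  rw [part₁_apply, divisor_apply, single_sum_apply]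
  simp [ns.toPt₁_mem_iff]

theorem NonSpecial.part₂_divisor :
    C.part₂ ns.divisor = ∑ Q ∈ ns.S₂, Finsupp.single Q (1 : ℤ) := by
  classical
  ext Q
  rw [part₂_apply, divisor_apply, single_sum_apply]
  simp [ns.toPt₂_mem_iff]

variable (C) in
theorem ext_parts {E E' : C.Pt →₀ ℤ} (h₁ : C.part₁ E = C.part₁ E')
    (h₂ : C.part₂ E = C.part₂ E') : E = E' := by
  ext ω
  cases ω with
  | left Q hQ => simpa [C.toPt₁_of_ne Q hQ] using DFunLike.congr_fun h₁ Q
  | right Q hQ => simpa [C.toPt₂_of_ne Q hQ] using DFunLike.congr_fun h₂ Q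
  | node i => simpa [C.toPt₁_x i] using DFunLike.congr_fun h₁ (C.x i)

end Glued

end FermatAgent.BadRed.Semistable
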