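import Fermat.Agent.BadRed.Semistable.Coord
import Fermat.Agent.BadRed.Semistable.NonSpecial

/-!
# Injectivity of the toric invariant on torsion prime to the residue characteristic
-/

set_option autoImplicit false
set_option linter.unusedSectionVars false
set_option linter.style.haveILetI false

noncomputable section

open WithZero AlgebraicCurve

namespace FermatAgent.BadRed.Semistable

open FermatAgent.Curve FermatAgent.Curve.RR

namespace NodalDatum

variable {K : Type*} [Field K] [IsAlgClosed K] {A : ValuationSubring K} {k : Type*}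
    [Field k] [IsAlgClosed k] {π : A →+* k} {F F₁ F₂ : Type*} [Field F] [Field F₁] [Field F₂]
    [Algebra K F] [Algebra k F₁] [Algebra k F₂] [IsFunctionField1 K F] [IsFunctionField1 k F₁]
    [IsFunctionField1 k F₂] [RRSetting K F] [RRSetting k F₁] [RRSetting k F₂] [Infinite k]
variable (d : NodalDatum A π F F₁ F₂)

open scoped Classical

/-- Some place over each point of the glued curve. -/
def above (ω : d.C.Pt) : Place K F := (d.exists_place ω).choose

@[simp] theorem place_above (ω : d.C.Pt) : d.place (d.above ω) = ω :=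
  (d.exists_place ω).choose_spec

theorem genus_eq_card (ns : d.C.NonSpecial) : genusFF K F = ns.points.card := by
  have := d.genus_eq
  have := ns.card_eq
  have := ns.card_points
  omega

/-- The lift of a configuration. -/
def liftDiv (ns : d.C.NonSpecial) : Divisor K F :=
  ∑ ω ∈ ns.points, Finsupp.single (d.above ω) 1

theorem degree_liftDiv (ns : d.C.NonSpecial) :
    Divisor.degree (d.liftDiv ns) = genusFF K F := by
  simp [liftDiv, Curve.deg_eq_one, d.genus_eq_card ns]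

theorem redDiv_liftDiv (ns : d.C.NonSpecial) : d.redDiv (d.liftDiv ns) = ns.divisor := by
  rw [liftDiv, map_sum]
  exact Finset.sum_congr rfl fun ω _ => by rw [redDiv_apply, Finsupp.mapDomain_single, place_above]

theorem liftDiv_apply (ns : d.C.NonSpecial) (P : Place K F) :
    d.liftDiv ns P = if d.place P ∈ ns.points ∧ P = d.above (d.place P) then 1 else 0 := by
  rw [liftDiv, Finsupp.finsetSum_apply]
  split_ifs with h
  · rw [Finset.sum_eq_single (d.place P) (fun ω _ hω => by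
      rw [Finsupp.single_apply, if_neg]
      exact fun e => hω (by rw [← d.place_above ω, e])) (fun hn => absurd h.1 hn)]
    rw [← h.2, Finsupp.single_eq_same]
  · refine Finset.sum_eq_zero fun ω hω => ?_
    rw [Finsupp.single_apply, if_neg]
    intro e
    refine h ⟨?_, ?_⟩
    · rw [← e, place_above]; exact hω
    · rw [← e, place_above]

theorem IsToricRep.scale {D : Divisor K F} {c : d.C.ι → k} (h : d.IsToricRep D c) {a : k}
    (ha : a ≠ 0) : d.IsToricRep D (fun i => a * c i) := by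
  obtain ⟨hb, u, hu, e1, e2, hc⟩ := h
  have ha' : algebraMap k F₁ a ≠ 0 := by simpa using ha
  refine ⟨hb, (algebraMap k F₁ a * u.1, u.2), ⟨mul_ne_zero ha' hu.1, hu.2.1, fun i =>
    ⟨by rw [(d.C.x i).ord_mul ha' hu.1, Curve.ord_algebraMap_const, (hu.2.2 i).1, add_zero],
      (hu.2.2 i).2⟩⟩, ?_, e2, fun i => ?_⟩
  · rw [e1]
    ext Q
    simp [Q.ord_mul ha' hu.1, Curve.ord_algebraMap_const]
  · rw [valueAt_mul _ ((d.C.x i).algebraMap_mem' a)
      ((mem_iff_ord_nonneg' _).mpr (hu.2.2 i).1.ge), valueAt_algebraMap, hc i]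
    ring

theorem redDiv_nonneg {E : Divisor K F} (h : 0 ≤ E) : (0 : d.C.Pt →₀ ℤ) ≤ d.redDiv E := by
  refine Finsupp.le_def.mpr fun ω => ?_
  rw [redDiv_apply, mapDomain_place_apply]
  exact Finset.sum_nonneg fun P _ => by
    split_ifs
    · exact Finsupp.le_def.mp h P
    · exact le_rfl

theorem le_redDiv {E : Divisor K F} (h : 0 ≤ E) (P : Place K F) :
    E P ≤ d.redDiv E (d.place P) := by
  rw [redDiv_apply, mapDomain_place_apply]
  by_cases hP : P ∈ E.support
  · refine le_trans (by simp) (Finset.single_le_sum (fun R _ => ?_) hP)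
    split_ifs
    · exact Finsupp.le_def.mp h R
    · exact le_rfl
  · rw [Finsupp.notMem_support_iff.mp hP]
    exact Finset.sum_nonneg fun R _ => by
      split_ifs
      · exact Finsupp.le_def.mp h R
      · exact le_rfl

/-- A trivial invariant gives an effective divisor over the configuration. -/
theorem exists_effective_over (ns : d.C.NonSpecial) {D : Divisor K F}
    (hdegD : Divisor.degree D = 0) (hD : d.IsToricRep D (fun _ => 1)) :
    ∃ E : Divisor K F, 0 ≤ E ∧ d.redDiv E = ns.divisor ∧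
      E - (D + d.liftDiv ns) ∈ Divisor.principal (K := K) (F := F) := by
  obtain ⟨hb, u, hu, e1, e2, hc⟩ := hD
  obtain ⟨E, hE, hp⟩ := exists_effective_linearEquiv (D := D + d.liftDiv ns)
    (by rw [map_add, hdegD, degree_liftDiv, zero_add])
  refine ⟨E, hE, ?_, hp⟩
  obtain ⟨f, hf, hfE⟩ := hp
  have hdiv : divisorOf (K := K) f = E - (D + d.liftDiv ns) := by
    ext P; rw [divisorOf_apply, ← hfE P]
  obtain ⟨c, hc0, hint, hor⟩ := d.exists_normalize hf
  rw [← divisorOf_smul hc0 f] at hdiv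
  set h := d.red ⟨c • f, hint⟩ with hh
  have hLP : ∀ ω, d.redDiv (D + d.liftDiv ns) ω = d.redDiv D ω + ns.divisor ω := fun ω => by
    rw [map_add, redDiv_liftDiv, Finsupp.add_apply]
  have hlow : ∀ ω, -(d.redDiv D ω + ns.divisor ω) ≤
      Finsupp.mapDomain d.place (divisorOf (c • f)) ω := fun ω => by
    rw [← redDiv_apply, hdiv, map_sub, Finsupp.sub_apply, hLP]
    have := Finsupp.le_def.mp (d.redDiv_nonneg hE) ω
    simp only [Finsupp.coe_zero, Pi.zero_apply] at this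
    omega
  have hval := d.value_node_eq hint (fun P hP i hi => by
    have h1 : (E - (D + d.liftDiv ns)) P < 0 := by rw [← hdiv, divisorOf_apply]; exact hP
    have h2 := Finsupp.le_def.mp hE P
    simp only [Finsupp.coe_zero, Pi.zero_apply] at h2
    rw [Finsupp.sub_apply, Finsupp.add_apply, liftDiv_apply, hi,
      if_neg (fun h' => ns.node_notMem i h'.1)] at h1
    exact hb.1 P (by omega) i hi)
  have hu1 : ∀ i, (d.C.x i).adicValuation u.1 ≤ 1 := fun i =>
    (d.C.x i).adicValuation_le_one_iff.mpr (Or.inr (hu.2.2 i).1.ge)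
  have hu2 : ∀ i, (d.C.y i).adicValuation u.2 ≤ 1 := fun i =>
    (d.C.y i).adicValuation_le_one_iff.mpr (Or.inr (hu.2.2 i).2.ge)
  have ha : h.1 * u.1 ∈ riemannRochSpace (∑ Q ∈ ns.S₁, Finsupp.single Q (1 : ℤ)) := by
    intro Q
    rcases eq_or_ne h.1 0 with e | e
    · simp [e]
    refine adicValuation_le_exp_of_ord ?_
    rw [Q.ord_mul e hu.1, ← ns.part₁_divisor, Glued.part₁_apply]
    have hu' := DFunLike.congr_fun e1 Q
    rw [Glued.part₁_apply, divisorOf_apply] at hu'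
    by_cases hQ : ∃ i, d.C.x i = Q
    · obtain ⟨i, rfl⟩ := hQ
      have := ((d.C.x i).adicValuation_le_one_iff.mp (hval i).1).resolve_left e
      rw [d.C.toPt₁_x, ns.divisor_apply, if_neg (ns.node_notMem i), (hu.2.2 i).1]
      change (0 : ℤ) ≤ (d.C.x i).ord h.1 at this
      omega
    · push Not at hQ
      have := (hlow (.left Q hQ)).trans (d.mapDomain_le_left hint e Q hQ)
      rw [d.C.toPt₁_of_ne Q hQ] at hu' ⊢
      change _ ≤ Q.ord h.1 at this
      omega
  have hb' : h.2 * u.2 ∈ riemannRochSpace (∑ Q ∈ ns.S₂, Finsupp.single Q (1 : ℤ)) := by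
    intro Q
    rcases eq_or_ne h.2 0 with e | e
    · simp [e]
    refine adicValuation_le_exp_of_ord ?_
    rw [Q.ord_mul e hu.2.1, ← ns.part₂_divisor, Glued.part₂_apply]
    have hu' := DFunLike.congr_fun e2 Q
    rw [Glued.part₂_apply, divisorOf_apply] at hu'
    by_cases hQ : ∃ i, d.C.y i = Q
    · obtain ⟨i, rfl⟩ := hQ
      have := ((d.C.y i).adicValuation_le_one_iff.mp (hval i).2.1).resolve_left e
      rw [d.C.toPt₂_y, ns.divisor_apply, if_neg (ns.node_notMem i), (hu.2.2 i).2]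
      change (0 : ℤ) ≤ (d.C.y i).ord h.2 at this
      omega
    · push Not at hQ
      have := (hlow (.right Q hQ)).trans (d.mapDomain_le_right hint e Q hQ)
      rw [d.C.toPt₂_of_ne Q hQ] at hu' ⊢
      change _ ≤ Q.ord h.2 at this
      omega
  obtain ⟨β, hβ1, hβ2⟩ := ns.const _ ha _ hb' (fun i => by
    rw [valueAt_mul _ (mem_of_le_one (hval i).1)
      (mem_of_le_one (hu1 i)),
      valueAt_mul _ (mem_of_le_one (hval i).2.1)
      (mem_of_le_one (hu2 i)), (hval i).2.2, hc i, one_mul])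
  have hβ : β ≠ 0 := by
    rintro rfl
    rw [map_zero, mul_eq_zero, or_iff_left hu.1] at hβ1
    rw [map_zero, mul_eq_zero, or_iff_left hu.2.1] at hβ2
    exact hor.elim (fun e => e hβ1) (fun e => e hβ2)
  have h1 : h.1 ≠ 0 := fun e => hβ (by
    rw [e, zero_mul] at hβ1
    exact (map_eq_zero _).mp hβ1.symm)
  have h2 : h.2 ≠ 0 := fun e => hβ (by
    rw [e, zero_mul] at hβ2
    exact (map_eq_zero _).mp hβ2.symm)
  have hred := d.mapDomain_divisorOf hint h1 h2
  rw [← redDiv_apply, hdiv, map_sub, map_add, redDiv_liftDiv] at hred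
  have hD' : d.redDiv D = d.C.secDiv 0 u := by
    refine d.C.ext_parts ?_ ?_
    · rw [e1, d.C.part₁_secDiv_zero hu]
    · rw [e2, d.C.part₂_secDiv_zero hu]
  have hzero : d.C.secDiv 0 h + d.C.secDiv 0 u = 0 := by
    have e := d.secDiv_mul 0 0 h1 h2 hu.1 hu.2.1
    rw [add_zero] at e
    rw [← e]
    have hun : d.C.UnitNodes (h * u) := by
      refine ⟨mul_ne_zero h1 hu.1, mul_ne_zero h2 hu.2.1, fun i => ⟨?_, ?_⟩⟩
      · rw [Prod.fst_mul, hβ1, Curve.ord_algebraMap_const]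
      · rw [Prod.snd_mul, hβ2, Curve.ord_algebraMap_const]
    refine d.C.ext_parts ?_ ?_
    · rw [d.C.part₁_secDiv_zero hun, Prod.fst_mul, hβ1, map_zero]
      ext Q; simp [Curve.ord_algebraMap_const]
    · rw [d.C.part₂_secDiv_zero hun, Prod.snd_mul, hβ2, map_zero]
      ext Q; simp [Curve.ord_algebraMap_const]
  rw [sub_eq_iff_eq_add, hD', ← add_assoc, hzero, zero_add] at hred
  exact hred

theorem exists_max_ratio (t : Finset K) (ht : ∃ a ∈ t, a ≠ 0) :
    ∃ μ ∈ t, μ ≠ 0 ∧ ∀ a ∈ t, a / μ ∈ A := by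
  obtain ⟨a₀, ha₀, ha₀0⟩ := ht
  obtain ⟨μ, hμ, hmax⟩ := t.exists_max_image A.valuation ⟨a₀, ha₀⟩
  have hμ0 : μ ≠ 0 := by
    rintro rfl
    have := hmax a₀ ha₀
    rw [map_zero, le_zero_iff, map_eq_zero] at this
    exact ha₀0 this
  refine ⟨μ, hμ, hμ0, fun a ha => (A.valuation_le_one_iff _).mp ?_⟩
  rw [map_div₀]
  exact div_le_one_of_le₀ (hmax a ha) zero_le

variable {d} in
/-- A regular function vanishing at a place has vanishing reduction there. -/
theorem Side.red_ne_const {G : Type*} [Field G] [Algebra k G] [IsFunctionField1 k G]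
    [RRSetting k G] (σ : d.Side G) {f : F} (h : f ∈ d.int)
    (hpole : ∀ P, d.place P = σ.ω → 0 ≤ P.ord f) {P₀ : Place K F} (hP₀ : d.place P₀ = σ.ω)
    (hpos : 0 < P₀.ord f) {β : k} (hβ : σ.pr (d.red ⟨f, h⟩) = algebraMap k G β) : β = 0 := by
  by_contra hne
  have hne' : σ.pr (d.red ⟨f, h⟩) ≠ 0 := by rw [hβ]; simpa using hne
  have h1 := σ.le_ord f h hne'
  have h2 := d.le_mapDomain_fibre hpole P₀ hP₀
  rw [hβ, Curve.ord_algebraMap_const] at h1
  omega

/-- An effective divisor over the configuration is one place over each point. -/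
theorem exists_place_of_redDiv_eq (ns : d.C.NonSpecial) {E : Divisor K F} (hE : 0 ≤ E)
    (h : d.redDiv E = ns.divisor) :
    (∀ P, d.place P ∉ ns.points → E P = 0) ∧ ∀ ω ∈ ns.points,
      ∃ P₁, d.place P₁ = ω ∧ ∀ P, d.place P = ω → E P = if P = P₁ then 1 else 0 := by
  have hEnn : ∀ P, 0 ≤ E P := fun P => Finsupp.le_def.mp hE P
  refine ⟨fun P hP => ?_, fun ω hω => ?_⟩
  · have := d.le_redDiv hE P
    rw [h, ns.divisor_apply, if_neg hP] at this
    exact le_antisymm this (hEnn P)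
  · have hsum : ∑ P ∈ E.support, (if d.place P = ω then E P else 0) = 1 := by
      rw [← mapDomain_place_apply, ← redDiv_apply, h, ns.divisor_apply, if_pos hω]
    obtain ⟨P₁, hP₁, hne⟩ := Finset.exists_ne_zero_of_sum_ne_zero
      (s := E.support) (f := fun P => if d.place P = ω then E P else 0) (by rw [hsum]; omega)
    have hω₁ : d.place P₁ = ω := by by_contra h'; exact hne (if_neg h')
    rw [if_pos hω₁] at hne
    refine ⟨P₁, hω₁, fun P hP => ?_⟩
    have hle := d.le_redDiv hE P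
    rw [h, hP, ns.divisor_apply, if_pos hω] at hle
    have h1 := hEnn P
    have h1' := hEnn P₁
    split_ifs with e
    · subst e; omega
    · by_contra hne'
      have hPm : P ∈ E.support := Finsupp.mem_support_iff.mpr hne'
      have := Finset.sum_le_sum_of_subset_of_nonneg
        (f := fun P => if d.place P = ω then E P else 0)
        (show ({P, P₁} : Finset (Place K F)) ⊆ E.support by
          simp [Finset.insert_subset_iff, hPm, hP₁]) (fun R _ _ => by
            split_ifs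
            · exact hEnn R
            · exact le_rfl)
      rw [Finset.sum_pair e, hsum, if_pos hP, if_pos hω₁] at this
      omega

/-- A function with `n` times a difference of lifts of a configuration as divisor is constant. -/
theorem eq_of_divisorOf_eq_nsmul (ns : d.C.NonSpecial) {E : Divisor K F} (hE : 0 ≤ E)
    (hEr : d.redDiv E = ns.divisor) {n : ℕ} (hn : (n : k) ≠ 0) {f : F} (hf : f ≠ 0)
    (hdiv : divisorOf (K := K) f = n • (E - d.liftDiv ns)) : E = d.liftDiv ns := by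
  have hn0 : n ≠ 0 := fun e => hn (by rw [e, Nat.cast_zero])
  obtain ⟨hout, hin⟩ := d.exists_place_of_redDiv_eq ns hE hEr
  have hsmooth : ∀ P, d.place P ∉ ns.points → P.ord f = 0 := fun P hP => by
    rw [← divisorOf_apply (K := K) f P, hdiv, Finsupp.smul_apply, Finsupp.sub_apply, hout P hP,
      liftDiv_apply, if_neg (fun h => hP h.1), sub_zero, smul_zero]
  have hred0 : d.redDiv (divisorOf f) = 0 := by
    rw [hdiv, map_nsmul, map_sub, hEr, redDiv_liftDiv, sub_self, smul_zero]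
  have hbal : d.IsBal (divisorOf f) := by
    refine ⟨fun P hP i hi => ?_, by rw [hred0, map_zero, map_zero],
      by rw [hred0, map_zero, map_zero]⟩
    rw [divisorOf_apply] at hP
    exact hP (hsmooth P (by rw [hi]; exact ns.node_notMem i))
  obtain ⟨c, hc0, hint, hun, hval, hsec⟩ := d.exists_red_of_isBal hf hbal
  set p := d.red ⟨c • f, hint⟩ with hp
  rw [hred0] at hsec
  have k1 : divisorOf (K := k) p.1 = 0 := by
    rw [← d.C.part₁_secDiv_zero hun, ← hsec, map_zero]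
  have k2 : divisorOf (K := k) p.2 = 0 := by
    rw [← d.C.part₂_secDiv_zero hun, ← hsec, map_zero]
  obtain ⟨b, hb⟩ := forall_ord_eq_zero_iff.mp fun v : Place k F₁ =>
    (divisorOf_apply (K := k) p.1 v).symm.trans (DFunLike.congr_fun k1 v)
  obtain ⟨b', hb'⟩ := forall_ord_eq_zero_iff.mp fun v : Place k F₂ =>
    (divisorOf_apply (K := k) p.2 v).symm.trans (DFunLike.congr_fun k2 v)
  obtain ⟨i₀⟩ := d.C.nonempty
  have hbb : b = b' := by
    have := hval i₀
    rwa [← hb, ← hb', valueAt_algebraMap, valueAt_algebraMap] at this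
  subst hbb
  have hb0 : b ≠ 0 := fun e => hun.1 (by rw [← hb, e, map_zero])
  haveI := infinite_place (K := k) (F := F₁)
  obtain ⟨Q, hQ⟩ := Infinite.exists_notMem_finset (ns.S₁ ∪ Finset.univ.image d.C.x)
  simp only [Finset.mem_union, Finset.mem_image, Finset.mem_univ, true_and, not_or,
    not_exists] at hQ
  obtain ⟨hQS, hQx⟩ := hQ
  set σ := d.sideLeft Q hQx
  have hωS : (Glued.Pt.left Q hQx : d.C.Pt) ∉ ns.points := by
    rw [← d.C.toPt₁_of_ne Q hQx, ns.toPt₁_mem_iff]; exact hQS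
  set P₀ := d.above (.left Q hQx)
  have hP₀ : d.place P₀ = σ.ω := d.place_above _
  have hord0 : ∀ P, d.place P = σ.ω → P.ord (c • f) = 0 := fun P hP => by
    rw [Curve.ord_smul_const P hc0]; exact hsmooth P (hP ▸ hωS)
  obtain ⟨hcA, -⟩ := σ.value_integral hint (fun P hP => (hord0 P hP).ge) P₀ hP₀
  set c₀ := valueAt P₀ (c • f)
  have hspec := valueAt_spec P₀ ((mem_iff_ord_nonneg' P₀).mpr (hord0 P₀ hP₀).ge)
  have hc₀ : c₀ ≠ 0 := Glued.ne_zero_value (smul_ne_zero hc0 hf) (hord0 P₀ hP₀)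
  have hcint : algebraMap K F c₀ ∈ d.int :=
    ⟨d.g₁.algebraMap_mem ⟨c₀, hcA⟩, d.g₂.algebraMap_mem ⟨c₀, hcA⟩⟩
  have hrc : d.red ⟨_, hcint⟩ = algebraMap k (F₁ × F₂) (π ⟨c₀, hcA⟩) :=
    Prod.ext (d.g₁.red_algebraMap ⟨c₀, hcA⟩) (d.g₂.red_algebraMap ⟨c₀, hcA⟩)
  have hrd : d.red ⟨c • f - algebraMap K F c₀, sub_mem hint hcint⟩ =
      algebraMap k (F₁ × F₂) (b - π ⟨c₀, hcA⟩) := by
    rw [show (⟨c • f - algebraMap K F c₀, sub_mem hint hcint⟩ : d.int) =
      ⟨c • f, hint⟩ - ⟨_, hcint⟩ from rfl, map_sub, hrc, map_sub]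
    exact congrArg (· - _) (Prod.ext hb.symm hb'.symm)
  have hbc : π ⟨c₀, hcA⟩ = b := by
    by_contra hne
    rcases hspec with e | hpos
    · refine hne ?_
      rw [d.red_congr (show c • f - algebraMap K F c₀ = 0 by rw [sub_eq_zero]; exact e) _,
        show (⟨(0 : F), zero_mem _⟩ : d.int) = 0 from rfl, map_zero] at hrd
      have := congrArg Prod.fst hrd
      rw [Prod.fst_zero, Prod.algebraMap_apply, eq_comm, map_eq_zero, sub_eq_zero] at this
      exact this.symm
    · refine hne ?_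
      have := σ.red_ne_const (sub_mem hint hcint) (fun P hP => ord_nonneg_of_mem' P
        (sub_mem ((mem_iff_ord_nonneg' P).mpr (hord0 P hP).ge) (P.algebraMap_mem' _))) hP₀ hpos
        (β := b - π ⟨c₀, hcA⟩) (by rw [hrd, AlgHom.commutes])
      exact (sub_eq_zero.mp this).symm
  have hinvA : c₀⁻¹ ∈ A := by
    by_contra hn'
    have := pi_inv_of_not_mem d.residue_surjective hn'
    refine hb0 ?_
    rw [← hbc]
    exact (congrArg π (Subtype.ext (inv_inv c₀).symm)).trans this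
  set f₁ := c₀⁻¹ • (c • f) with hf₁
  have hi₁ : f₁ ∈ d.int := d.smul_mem hinvA hint
  have hord₁ : ∀ P : Place K F, P.ord f₁ = P.ord f := fun P => by
    rw [Curve.ord_smul_const P (inv_ne_zero hc₀), Curve.ord_smul_const P hc0]
  have hf₁0 : f₁ ≠ 0 := smul_ne_zero (inv_ne_zero hc₀) (smul_ne_zero hc0 hf)
  have hpos₁ : f₁ = 1 ∨ 0 < P₀.ord (f₁ - 1) := by
    rcases hspec with e | hpos
    · left
      rw [hf₁, show c • f = algebraMap K F c₀ from e, Algebra.smul_def, ← map_mul,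
        inv_mul_cancel₀ hc₀, map_one]
    · right
      rw [show f₁ - 1 = c₀⁻¹ • (c • f - algebraMap K F c₀) by
        rw [hf₁, smul_sub, Algebra.smul_def c₀⁻¹ (algebraMap K F c₀), ← map_mul,
          inv_mul_cancel₀ hc₀, map_one], Curve.ord_smul_const P₀ (inv_ne_zero hc₀)]
      exact hpos
  rcases hpos₁ with h1 | hpos₁
  · have h0 : n • (E - d.liftDiv ns) = 0 := by
      rw [← hdiv]; ext P; rw [divisorOf_apply, ← hord₁, h1, Place.ord_one, Finsupp.zero_apply]
    exact sub_eq_zero.mp ((nsmul_eq_zero_iff_right hn0).mp h0)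
  exfalso
  have hne₁ : f₁ - 1 ≠ 0 := fun e => by simp [e] at hpos₁
  obtain ⟨e₀, he₀, hg, hgor⟩ := d.exists_normalize hne₁
  set g := e₀ • (f₁ - 1) with hgdef
  have hfg : f₁ = 1 + e₀⁻¹ • g := by rw [hgdef, inv_smul_smul₀ he₀]; ring
  have hgord : ∀ P : Place K F, P.ord g = P.ord (f₁ - 1) := fun P => Curve.ord_smul_const P he₀ _
  have hgnn : ∀ P, d.place P ∉ ns.points → 0 ≤ P.ord g := fun P hP => by
    rw [hgord]
    exact ord_nonneg_of_mem' P (sub_mem ((mem_iff_ord_nonneg' P).mpr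
      (by rw [hord₁, hsmooth P hP])) (one_mem _))
  have hvalg := d.value_node_eq hg fun P hP i hi => by
    have := hgnn P (by rw [hi]; exact ns.node_notMem i)
    omega
  choose P₁ hP₁ω hP₁ using hin
  have hordω : ∀ ω (hω : ω ∈ ns.points) (P : Place K F), d.place P = ω → P.ord f₁ =
      (n : ℤ) * ((if P = P₁ ω hω then 1 else 0) - (if P = d.above ω then 1 else 0)) := by
    intro ω hω P hP
    rw [hord₁, ← divisorOf_apply (K := K) f P, hdiv, Finsupp.smul_apply, Finsupp.sub_apply,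
      hP₁ ω hω P hP, liftDiv_apply, nsmul_eq_mul]
    simp [hP, hω]
  have hm₁ : ∀ Q ∈ ns.S₁, d.C.toPt₁ Q ∈ ns.points := fun Q h => (ns.toPt₁_mem_iff Q).mpr h
  have hm₂ : ∀ Q ∈ ns.S₂, d.C.toPt₂ Q ∈ ns.points := fun Q h => (ns.toPt₂_mem_iff Q).mpr h
  have hl : ∀ Q : {Q // Q ∈ ns.S₁}, ∃ (δ : K) (u : F₁), u ≠ 0 ∧ (Q : Place k F₁).ord u = 1 ∧
      ∀ μ : K, μ ≠ 0 → ∀ (hs : e₀⁻¹ / μ ∈ A) (hδ : δ / μ ∈ A),
        (Q : Place k F₁).adicValuation (π ⟨e₀⁻¹ / μ, hs⟩ • (d.red ⟨g, hg⟩).1 +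
          (π ⟨δ / μ, hδ⟩ * (n : k)) • u⁻¹) ≤ 1 := by
    rintro ⟨Q', hQ'⟩
    obtain ⟨T, hT⟩ := d.exists_coord_left Q' (ns.smooth₁ Q' hQ')
    have hmem := hm₁ Q' hQ'
    rw [d.C.toPt₁_of_ne Q' (ns.smooth₁ Q' hQ')] at hmem
    exact (d.sideLeft Q' (ns.smooth₁ Q' hQ')).exists_first_order hT hfg hf₁0 hg
      (d.above _) (P₁ _ hmem) (d.place_above _) (hP₁ω _ hmem) (hordω _ hmem)
  have hr : ∀ Q : {Q // Q ∈ ns.S₂}, ∃ (δ : K) (u : F₂), u ≠ 0 ∧ (Q : Place k F₂).ord u = 1 ∧
      ∀ μ : K, μ ≠ 0 → ∀ (hs : e₀⁻¹ / μ ∈ A) (hδ : δ / μ ∈ A),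
        (Q : Place k F₂).adicValuation (π ⟨e₀⁻¹ / μ, hs⟩ • (d.red ⟨g, hg⟩).2 +
          (π ⟨δ / μ, hδ⟩ * (n : k)) • u⁻¹) ≤ 1 := by
    rintro ⟨Q', hQ'⟩
    obtain ⟨T, hT⟩ := d.exists_coord_right Q' (ns.smooth₂ Q' hQ')
    have hmem := hm₂ Q' hQ'
    rw [d.C.toPt₂_of_ne Q' (ns.smooth₂ Q' hQ')] at hmem
    exact (d.sideRight Q' (ns.smooth₂ Q' hQ')).exists_first_order hT hfg hf₁0 hg
      (d.above _) (P₁ _ hmem) (d.place_above _) (hP₁ω _ hmem) (hordω _ hmem)
  choose δ₁ u₁ hu₁ ho₁ hv₁ using hl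
  choose δ₂ u₂ hu₂ ho₂ hv₂ using hr
  obtain ⟨μ, hμ, hμ0, hdiv'⟩ := exists_max_ratio (A := A)
    (insert e₀⁻¹ (Finset.univ.image δ₁ ∪ Finset.univ.image δ₂))
    ⟨e₀⁻¹, Finset.mem_insert_self _ _, inv_ne_zero he₀⟩
  have hs : e₀⁻¹ / μ ∈ A := hdiv' _ (Finset.mem_insert_self _ _)
  have hd₁ : ∀ Q, δ₁ Q / μ ∈ A := fun Q => hdiv' _ (Finset.mem_insert_of_mem
    (Finset.mem_union_left _ (Finset.mem_image_of_mem _ (Finset.mem_univ Q))))
  have hd₂ : ∀ Q, δ₂ Q / μ ∈ A := fun Q => hdiv' _ (Finset.mem_insert_of_mem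
    (Finset.mem_union_right _ (Finset.mem_image_of_mem _ (Finset.mem_univ Q))))
  set s' := π ⟨e₀⁻¹ / μ, hs⟩ with hs'
  set q := d.red ⟨g, hg⟩ with hq
  have hA : s' • q.1 ∈ riemannRochSpace (∑ Q ∈ ns.S₁, Finsupp.single Q (1 : ℤ)) := by
    intro Q
    rw [single_sum_apply]
    split_ifs with hQ'
    · set t := (π ⟨δ₁ ⟨Q, hQ'⟩ / μ, hd₁ _⟩ * (n : k)) • (u₁ ⟨Q, hQ'⟩)⁻¹ with ht
      have h1 := hv₁ ⟨Q, hQ'⟩ μ hμ0 hs (hd₁ _)
      have h2 : Q.adicValuation t ≤ exp 1 := by
        refine adicValuation_le_exp_of_ord ?_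
        rw [ht]
        rcases eq_or_ne (π ⟨δ₁ ⟨Q, hQ'⟩ / μ, hd₁ _⟩ * (n : k)) 0 with e | e
        · simp [e]
        · rw [Curve.ord_smul_const Q e, Q.ord_inv, ho₁ ⟨Q, hQ'⟩]
      have := (Valuation.map_sub Q.adicValuation (s' • q.1 + t) t).trans
        (max_le (h1.trans (by rw [← exp_zero]; exact exp_le_exp.mpr zero_le_one)) h2)
      rwa [add_sub_cancel_right] at this
    · rw [exp_zero]
      rcases eq_or_ne q.1 0 with e | e
      · simp [e]
      refine le_trans (le_of_eq_of_le (by rw [Algebra.smul_def, map_mul]) (mul_le_mul'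
        (Q.adicValuation_le_one_of_mem (Q.algebraMap_mem' s')) ?_)) (one_mul (1 : _)).le
      by_cases hQn : ∃ i, d.C.x i = Q
      · obtain ⟨i, rfl⟩ := hQn
        exact (hvalg i).1
      · push Not at hQn
        refine Q.adicValuation_le_one_iff.mpr (Or.inr (le_trans ?_
          (d.mapDomain_le_left hg e Q hQn)))
        rw [mapDomain_place_apply]
        refine Finset.sum_nonneg fun P _ => ?_
        split_ifs with hP
        · rw [divisorOf_apply]
          exact hgnn P (by rw [hP, ← d.C.toPt₁_of_ne Q hQn, ns.toPt₁_mem_iff]; exact hQ')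
        · exact le_rfl
  have hB : s' • q.2 ∈ riemannRochSpace (∑ Q ∈ ns.S₂, Finsupp.single Q (1 : ℤ)) := by
    intro Q
    rw [single_sum_apply]
    split_ifs with hQ'
    · set t := (π ⟨δ₂ ⟨Q, hQ'⟩ / μ, hd₂ _⟩ * (n : k)) • (u₂ ⟨Q, hQ'⟩)⁻¹ with ht
      have h1 := hv₂ ⟨Q, hQ'⟩ μ hμ0 hs (hd₂ _)
      have h2 : Q.adicValuation t ≤ exp 1 := by
        refine adicValuation_le_exp_of_ord ?_
        rw [ht]
        rcases eq_or_ne (π ⟨δ₂ ⟨Q, hQ'⟩ / μ, hd₂ _⟩ * (n : k)) 0 with e | e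
        · simp [e]
        · rw [Curve.ord_smul_const Q e, Q.ord_inv, ho₂ ⟨Q, hQ'⟩]
      have := (Valuation.map_sub Q.adicValuation (s' • q.2 + t) t).trans
        (max_le (h1.trans (by rw [← exp_zero]; exact exp_le_exp.mpr zero_le_one)) h2)
      rwa [add_sub_cancel_right] at this
    · rw [exp_zero]
      rcases eq_or_ne q.2 0 with e | e
      · simp [e]
      refine le_trans (le_of_eq_of_le (by rw [Algebra.smul_def, map_mul]) (mul_le_mul'
        (Q.adicValuation_le_one_of_mem (Q.algebraMap_mem' s')) ?_)) (one_mul (1 : _)).le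
      by_cases hQn : ∃ i, d.C.y i = Q
      · obtain ⟨i, rfl⟩ := hQn
        exact (hvalg i).2.1
      · push Not at hQn
        refine Q.adicValuation_le_one_iff.mpr (Or.inr (le_trans ?_
          (d.mapDomain_le_right hg e Q hQn)))
        rw [mapDomain_place_apply]
        refine Finset.sum_nonneg fun P _ => ?_
        split_ifs with hP
        · rw [divisorOf_apply]
          exact hgnn P (by rw [hP, ← d.C.toPt₂_of_ne Q hQn, ns.toPt₂_mem_iff]; exact hQ')
        · exact le_rfl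
  obtain ⟨β, hβ1, hβ2⟩ := ns.const _ hA _ hB (fun i => by
    rw [valueAt_smul (hvalg i).1, valueAt_smul (hvalg i).2.1, (hvalg i).2.2])
  have hμs : μ = e₀⁻¹ := by
    rcases Finset.mem_insert.mp hμ with e | hmem
    · exact e
    exfalso
    rcases Finset.mem_union.mp hmem with hm | hm
    · obtain ⟨⟨Q', hQ'⟩, -, e⟩ := Finset.mem_image.mp hm
      have h1 := hv₁ ⟨Q', hQ'⟩ μ hμ0 hs (hd₁ _)
      have e1 : π ⟨δ₁ ⟨Q', hQ'⟩ / μ, hd₁ _⟩ = 1 := by
        rw [show (⟨δ₁ ⟨Q', hQ'⟩ / μ, hd₁ _⟩ : A) = 1 from Subtype.ext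
          ((congrArg (· / μ) e).trans (div_self hμ0)), map_one]
      change Q'.adicValuation (s' • q.1 + _) ≤ 1 at h1
      rw [hβ1, e1, one_mul] at h1
      have h3 := Q'.adicValuation_le_one_of_mem (Q'.algebraMap_mem' β)
      have := (Valuation.map_sub Q'.adicValuation (algebraMap k F₁ β + (n : k) • (u₁ ⟨Q', hQ'⟩)⁻¹)
        (algebraMap k F₁ β)).trans (max_le h1 h3)
      rw [add_sub_cancel_left] at this
      have h4 := (Q'.adicValuation_le_one_iff.mp this).resolve_left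
        (smul_ne_zero hn (inv_ne_zero (hu₁ ⟨Q', hQ'⟩)))
      rw [Curve.ord_smul_const Q' hn, Q'.ord_inv, ho₁ ⟨Q', hQ'⟩] at h4
      omega
    · obtain ⟨⟨Q', hQ'⟩, -, e⟩ := Finset.mem_image.mp hm
      have h1 := hv₂ ⟨Q', hQ'⟩ μ hμ0 hs (hd₂ _)
      have e1 : π ⟨δ₂ ⟨Q', hQ'⟩ / μ, hd₂ _⟩ = 1 := by
        rw [show (⟨δ₂ ⟨Q', hQ'⟩ / μ, hd₂ _⟩ : A) = 1 from Subtype.ext
          ((congrArg (· / μ) e).trans (div_self hμ0)), map_one]
      change Q'.adicValuation (s' • q.2 + _) ≤ 1 at h1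
      rw [hβ2, e1, one_mul] at h1
      have h3 := Q'.adicValuation_le_one_of_mem (Q'.algebraMap_mem' β)
      have := (Valuation.map_sub Q'.adicValuation (algebraMap k F₂ β + (n : k) • (u₂ ⟨Q', hQ'⟩)⁻¹)
        (algebraMap k F₂ β)).trans (max_le h1 h3)
      rw [add_sub_cancel_left] at this
      have h4 := (Q'.adicValuation_le_one_iff.mp this).resolve_left
        (smul_ne_zero hn (inv_ne_zero (hu₂ ⟨Q', hQ'⟩)))
      rw [Curve.ord_smul_const Q' hn, Q'.ord_inv, ho₂ ⟨Q', hQ'⟩] at h4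
      omega
  have hs1 : s' = 1 := by
    rw [hs', show (⟨e₀⁻¹ / μ, hs⟩ : A) = 1 from Subtype.ext
      ((congrArg (e₀⁻¹ / ·) hμs).trans (div_self (inv_ne_zero he₀))), map_one]
  rw [hs1, one_smul] at hβ1 hβ2
  have hβ0 : β = 0 := σ.red_ne_const hg (fun P hP => hgnn P (hP ▸ hωS)) hP₀
    (by rw [hgord]; exact hpos₁) (show σ.pr q = algebraMap k F₁ β from hβ1)
  rw [hβ0, map_zero] at hβ1 hβ2
  exact hgor.elim (fun h => h hβ1) (fun h => h hβ2)

/-- The toric invariant is injective on torsion prime to the residue characteristic. -/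
theorem eq_zero_of_hasToric_const {x : Pic0 K F} {n : ℕ} (hn : (n : k) ≠ 0) (hx : n • x = 0)
    {c : d.C.ι → k} (h : d.HasToric x c) (hc : ∀ i j, c i = c j) : x = 0 := by
  obtain ⟨i₀⟩ := d.C.nonempty
  have hc0 := h.ne_zero d i₀
  obtain ⟨D, rfl, hD⟩ := h
  have hD1 : d.IsToricRep (D : Divisor K F) (fun _ => 1) := by
    convert hD.scale d (inv_ne_zero hc0) using 1
    funext i
    rw [hc i i₀, inv_mul_cancel₀ hc0]
  obtain ⟨ns⟩ := d.C.exists_nonSpecial
  obtain ⟨E, hE, hEr, hp⟩ := d.exists_effective_over ns (Divisor.mem_degZero.mp D.2) hD1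
  have hnD : n • (D : Divisor K F) ∈ Divisor.principal (K := K) (F := F) := by
    change n • (QuotientAddGroup.mk D : Pic0 K F) = 0 at hx
    rw [← QuotientAddGroup.mk_nsmul, ← Pic0.mk_zero] at hx
    have := (QuotientAddGroup.eq_iff_sub_mem).mp hx
    rw [sub_zero, AddSubgroup.mem_addSubgroupOf, AddSubgroupClass.coe_nsmul] at this
    exact this
  have hn2 : n • (E - d.liftDiv ns) ∈ Divisor.principal (K := K) (F := F) := by
    rw [show E - d.liftDiv ns = (E - ((D : Divisor K F) + d.liftDiv ns)) + (D : Divisor K F) by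
      abel, nsmul_add]
    exact add_mem (AddSubgroup.nsmul_mem _ hp n) hnD
  obtain ⟨f, hf, hfD⟩ := hn2
  have hEq := d.eq_of_divisorOf_eq_nsmul ns hE hEr hn hf (by
    ext P; rw [divisorOf_apply, ← hfD P])
  rw [← Pic0.mk_zero]
  refine (QuotientAddGroup.eq_iff_sub_mem).mpr ?_
  rw [sub_zero, AddSubgroup.mem_addSubgroupOf]
  rw [hEq, sub_add_cancel_right] at hp
  exact neg_mem_iff.mp hp

end NodalDatum

end FermatAgent.BadRed.Semistable
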