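import Fermat.Agent.Curve.Basics.Degree
import Fermat.Agent.Curve.RR.Main

/-!
# Interpolation in Riemann–Roch spaces

Auxiliary lemmas on one function field, used for the glued curve of two components:
pole divisors, interpolation of finitely many jets by sections of a divisor of large degree,
and codimension bounds.
-/

set_option autoImplicit false

noncomputable section

open WithZero AlgebraicCurve

namespace FermatAgent.BadRed.Semistable

open FermatAgent.Curve FermatAgent.Curve.RR

variable {K F : Type*} [Field K] [Field F] [Algebra K F]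

theorem rrSpace_mono {D E : Divisor K F} (h : D ≤ E) :
    riemannRochSpace D ≤ riemannRochSpace E := fun _ hf v =>
  (hf v).trans (exp_le_exp.mpr (Finsupp.le_def.mp h v))

theorem mul_mem_rrSpace {D E : Divisor K F} {f g : F} (hf : f ∈ riemannRochSpace D)
    (hg : g ∈ riemannRochSpace E) : f * g ∈ riemannRochSpace (D + E) := fun v => by
  rw [map_mul, Finsupp.add_apply, exp_add]
  exact mul_le_mul' (hf v) (hg v)

theorem one_mem_rrSpace {D : Divisor K F} (hD : 0 ≤ D) : (1 : F) ∈ riemannRochSpace D := fun v => by
  rw [map_one]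
  exact exp_le_exp.mpr (Finsupp.le_def.mp hD v)

theorem adicValuation_le_exp_of_ord {v : Place K F} {f : F} {n : ℤ} (h : -n ≤ v.ord f) :
    v.adicValuation f ≤ exp n :=
  v.adicValuation_le_exp_iff.mpr (Or.inr h)

theorem neg_le_ord_of_le_exp {v : Place K F} {f : F} {n : ℤ} (hf : f ≠ 0)
    (h : v.adicValuation f ≤ exp n) : -n ≤ v.ord f :=
  (v.adicValuation_le_exp_iff.mp h).resolve_left hf

section

variable [IsAlgClosed K] [IsFunctionField1 K F]

/-- The divisor of poles of `z`. -/
def poleDiv (z : F) : Divisor K F :=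
  (-(divisorOf (K := K) z)).mapRange (max · 0) (by simp)

@[simp]
theorem poleDiv_apply (z : F) (v : Place K F) : poleDiv z v = max (-(v.ord z)) 0 := by
  simp [poleDiv]

theorem poleDiv_nonneg (z : F) : (0 : Divisor K F) ≤ poleDiv z := by
  refine Finsupp.le_def.mpr fun v => ?_
  rw [poleDiv_apply]
  exact le_max_right _ _

theorem degree_nonneg_of_nonneg {D : Divisor K F} (hD : 0 ≤ D) : 0 ≤ Divisor.degree D := by
  rw [degree_eq_sum]
  exact Finset.sum_nonneg fun v _ => Finsupp.le_def.mp hD v

theorem poleDiv_ne_zero {z : F} (hz : Transcendental K z) : (poleDiv z : Divisor K F) ≠ 0 := by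
  intro h
  obtain ⟨v, hv⟩ := exists_ord_neg_of_transcendental hz
  have h1 := DFunLike.congr_fun h v
  rw [poleDiv_apply, Finsupp.zero_apply] at h1
  omega

theorem degree_poleDiv_pos {z : F} (hz : Transcendental K z) :
    0 < Divisor.degree (poleDiv z : Divisor K F) := by
  rw [degree_eq_sum]
  refine Finset.sum_pos' (fun v _ => Finsupp.le_def.mp (poleDiv_nonneg z) v) ?_
  obtain ⟨v, hv⟩ := Finsupp.support_nonempty_iff.mpr (poleDiv_ne_zero hz)
  refine ⟨v, hv, lt_of_le_of_ne (Finsupp.le_def.mp (poleDiv_nonneg z) v) ?_⟩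
  exact (Finsupp.mem_support_iff.mp hv).symm

theorem self_mem_rrSpace_poleDiv (z : F) : z ∈ riemannRochSpace (poleDiv z : Divisor K F) :=
  fun v => adicValuation_le_exp_of_ord (by rw [poleDiv_apply]; omega)

variable [RRSetting K F]

omit [IsAlgClosed K] [IsFunctionField1 K F] in
/-- Interpolation: sections of `D` approximate given local sections to order `E`. -/
theorem exists_interpolate {D E : Divisor K F} (hE : 0 ≤ E)
    (h : 2 * (genusFF K F : ℤ) - 1 ≤ Divisor.degree (D - E))
    (S : Finset (Place K F)) (x : Place K F → F) :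
    ∃ g ∈ riemannRochSpace D, ∀ v ∈ S, v.adicValuation (x v) ≤ exp (D v) →
      v.adicValuation (g - x v) ≤ exp (D v - E v) := by
  classical
  have h0 : Module.finrank K (H1 (D - E)) = 0 := h1_eq_zero_of_degree_ge h
  have : Subsingleton (H1 (D - E)) := Module.finrank_zero_iff.mp h0
  let α : Place K F → F := fun v =>
    if v ∈ S ∧ v.adicValuation (x v) ≤ exp (D v) then x v else 0
  have hαD : ∀ v, v.adicValuation (α v) ≤ exp (D v) := by
    intro v
    simp only [α]
    split_ifs with hv
    · exact hv.2
    · simp
  have hα : α ∈ repartitions K F := mem_repartitions_of_forall_le_exp D α hαD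
  have hmem : (⟨α, hα⟩ : repartitions K F) ∈ repartitionsOf (D - E) ⊔ principalRepartitions K F :=
    (Submodule.Quotient.mk_eq_zero _).mp (Subsingleton.elim _ _)
  obtain ⟨β, hβ, γ, hγ, hsum⟩ := Submodule.mem_sup.mp hmem
  obtain ⟨g, hg⟩ := mem_principalRepartitions_iff.mp hγ
  have hpt : ∀ v, (β : Place K F → F) v + g = α v := by
    intro v
    have := congrArg (fun t : repartitions K F => (t : Place K F → F) v) hsum
    simpa [hg] using this
  have hsub : ∀ v, g - α v = -((β : Place K F → F) v) := fun v => by rw [← hpt v]; ring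
  refine ⟨g, fun v => ?_, fun v hv hxv => ?_⟩
  · have hb : v.adicValuation ((β : Place K F → F) v) ≤ exp (D v) := by
      refine (hβ v).trans (exp_le_exp.mpr ?_)
      rw [Finsupp.sub_apply]
      have := Finsupp.le_def.mp hE v
      simp only [Finsupp.coe_zero, Pi.zero_apply] at this
      omega
    have hgv : g = α v - (β : Place K F → F) v := by rw [← hpt v]; ring
    rw [hgv]
    exact (Valuation.map_sub _ _ _).trans (max_le (hαD v) hb)
  · have hav : α v = x v := by simp [α, hv, hxv]
    rw [← hav, hsub v, Valuation.map_neg, ← Finsupp.sub_apply]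
    exact hβ v

omit [IsAlgClosed K] [IsFunctionField1 K F] in
/-- Vanishing conditions on sections of a divisor of large degree are independent. -/
theorem finrank_rrSpace_sub {D E : Divisor K F} (hE : 0 ≤ E)
    (h : 2 * (genusFF K F : ℤ) - 1 ≤ Divisor.degree (D - E)) :
    (Module.finrank K (riemannRochSpace (D - E)) : ℤ) =
      Module.finrank K (riemannRochSpace D) - Divisor.degree E :=
  ell_sub_of_degree_ge hE h

omit [IsAlgClosed K] [IsFunctionField1 K F] in
theorem finrank_rrSpace_of_degree_ge {D : Divisor K F}
    (h : 2 * (genusFF K F : ℤ) - 1 ≤ Divisor.degree D) :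
    (Module.finrank K (riemannRochSpace D) : ℤ) = Divisor.degree D + 1 - genusFF K F :=
  ell_eq_of_degree_ge h

end

end FermatAgent.BadRed.Semistable
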