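import Fermat.Agent.BadRed.Carayol.Instance.ModEq
import Fermat.Agent.ModCurve.Fun.JFun

/-!
# The modular equation of prime level for `j`

The level-one coordinate fits the modular equation built for Hauptmoduln: an integral symmetric
polynomial of degree `q + 1`, congruent to `(Y - X ^ q) (Y ^ q - X)` modulo `q`, vanishing at
`(j(τ), j(q τ))`.
-/

set_option autoImplicit false

noncomputable section

open UpperHalfPlane hiding I
open Polynomial CongruenceSubgroup
open scoped MatrixGroups

namespace FermatAgent.BadRed.Semistable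

open FermatAgent.ModFun FermatAgent.BadRed.Carayol.Instance ModularCurve

theorem mem_gamma0_one (γ : SL(2, ℤ)) : γ ∈ Gamma0 1 := by
  rw [Gamma0_mem]; exact Subsingleton.elim _ _

/-- `j` as a level one coordinate. -/
def jHaupt (q : ℕ) : Hauptmodul q where
  L := 1
  coprime := Nat.coprime_one_right q
  u := jFun
  series := ModularCurve.jNum
  constantCoeff_series := ModularCurve.constantCoeff_jNum
  mem := ⟨jFun_mdiff, fun γ _ τ => jFun_smul γ τ, fun γ => by
    simpa only [jFun_smul] using jFun_tame⟩
  qLaurent_u := by rw [qLaurent_jFun]; rfl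
  cusps := ∅
  val _ := 0
  val_mem γ h := absurd (mem_gamma0_one γ) h
  tendsto_val γ h := absurd (mem_gamma0_one γ) h
  cusps_val a h := absurd h (Finset.notMem_empty a)
  val_scale γ _ h := absurd (mem_gamma0_one γ) h

theorem uSeries_jHaupt (q : ℕ) : uSeries (jHaupt q) = jqModC ℤ := by
  rw [uSeries, jqModC]
  congr 2

variable (q : ℕ) [NeZero q] [Fact q.Prime]

/-- The modular polynomial of level `q`; the outer variable is the one of `j(q τ)`. -/
def jPhi : ℤ[X][X] := modPoly (jHaupt q)

theorem jPhi_monic : (jPhi q).Monic := modPoly_monic _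

theorem natDegree_jPhi : (jPhi q).natDegree = q + 1 := natDegree_modPoly _

theorem jPhi_coeff_top : (jPhi q).coeff (q + 1) = 1 := by
  rw [← natDegree_jPhi q]; exact (jPhi_monic q).coeff_natDegree

theorem jPhi_symm (i l : ℕ) : ((jPhi q).coeff i).coeff l = ((jPhi q).coeff l).coeff i :=
  modPoly_symm _ i l

theorem natDegree_coeff_jPhi_le (i : ℕ) : ((jPhi q).coeff i).natDegree ≤ q + 1 :=
  natDegree_coeff_modPoly _ i

theorem natDegree_coeff_jPhi (i : ℕ) (hi : 1 ≤ i) : ((jPhi q).coeff i).natDegree ≤ q := by
  rw [natDegree_le_iff_coeff_eq_zero]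
  intro l hl
  rcases eq_or_lt_of_le (Nat.succ_le_of_lt hl) with h | h
  · rw [jPhi_symm, ← h, jPhi_coeff_top, coeff_one, if_neg (by omega)]
  · exact coeff_eq_zero_of_natDegree_lt ((natDegree_coeff_jPhi_le q i).trans_lt h)

/-- The only monomial of total degree at least `2 q` is `(X Y) ^ q`. -/
theorem jPhi_total_degree {i l : ℕ} (h : ((jPhi q).coeff i).coeff l ≠ 0) :
    i + l < 2 * q ∨ (i = q ∧ l = q) := by
  have hq := (Fact.out : q.Prime).two_le
  have hi : i ≤ q + 1 := by
    by_contra hi
    exact h (by rw [coeff_eq_zero_of_natDegree_lt (p := jPhi q) (by rw [natDegree_jPhi]; omega),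
      coeff_zero])
  have hl : l ≤ q + 1 := (le_natDegree_of_ne_zero h).trans (natDegree_coeff_jPhi_le q i)
  rcases Nat.eq_zero_or_pos i with rfl | h1
  · left; omega
  rcases eq_or_lt_of_le hi with rfl | hi'
  · rw [jPhi_coeff_top, coeff_one] at h
    split_ifs at h with h0
    · left; omega
    · exact absurd rfl h
  have hl' := (le_natDegree_of_ne_zero h).trans (natDegree_coeff_jPhi q i h1)
  omega

theorem jPhi_kronecker (R : Type*) [CommRing R] [CharP R q] :
    (jPhi q).map (mapRingHom (Int.castRingHom R)) = (X - C (X ^ q)) * (X ^ q - C X) := by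
  have h := congrArg (Polynomial.map (mapRingHom (ZMod.castHom dvd_rfl R)))
    (modPoly_kronecker (jHaupt q))
  rw [Polynomial.map_map, mapRingHom_comp,
    RingHom.ext_int ((ZMod.castHom dvd_rfl R).comp (Int.castRingHom (ZMod q))) (Int.castRingHom R)]
    at h
  rw [jPhi, h]
  simp

theorem coeff_jPhi_qq_ne_zero : ((jPhi q).coeff q).coeff q ≠ 0 := by
  intro h0
  have hq := (Fact.out : q.Prime).two_le
  have h := congrArg (fun P : (ZMod q)[X][X] => (P.coeff q).coeff q) (jPhi_kronecker q (ZMod q))
  simp only [coeff_map, coe_mapRingHom, h0, map_zero] at h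
  rw [show ((X : (ZMod q)[X][X]) - C (X ^ q)) * (X ^ q - C X) =
    X ^ (q + 1) - C X * X - C (X ^ q) * X ^ q + C (X ^ q * X) by
      rw [pow_succ' (X : (ZMod q)[X][X]), map_mul]; ring] at h
  simp only [coeff_add, coeff_sub, coeff_X_pow, coeff_C_mul, coeff_C, coeff_X] at h
  simp [show (1 : ℕ) ≠ q by omega, show q ≠ 0 by omega] at h

/-- The root identity over any ring. -/
theorem jPhi_root (R : Type*) [CommRing R] :
    (jPhi q).eval₂ (eval₂RingHom (Int.castRingHom (LaurentSeries R)) (jqModC R))
      (qExpand R q (jqModC R)) = 0 := by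
  have h := congrArg (coeffMap (Int.castRingHom R)) (modPoly_root_series (jHaupt q))
  rw [map_zero, eval_map, hom_eval₂, uSeries_jHaupt, coeffMap_comm_qExpand, coeffMap_jqModC] at h
  rw [← h, jPhi]
  congr 1
  exact Polynomial.ringHom_ext (fun c => by simp) (by simp [coeffMap_jqModC])

end FermatAgent.BadRed.Semistable
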