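import Fermat.Agent.BadRed.Semistable.Kron
import Mathlib.RingTheory.Valuation.Basic

/-!
# The modular equation between `j` and `θ = j(q τ)`

Bounds on integral polynomials in two elements satisfying `Φ_q (j, θ) = 0` at a valuation
trivial on non-zero integers, and the two auxiliary polynomials used at infinity.
-/

set_option autoImplicit false
set_option linter.unusedSectionVars false

noncomputable section

open Polynomial

namespace FermatAgent.BadRed.Semistable

/-- Evaluation of an integral polynomial in two variables, the inner one at `x`. -/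
def kEval {R : Type*} [CommRing R] (x y : R) : ℤ[X][X] →+* R :=
  eval₂RingHom (eval₂RingHom (Int.castRingHom R) x) y

section Ring

variable {R S : Type*} [CommRing R] [CommRing S]

@[simp] theorem kEval_X (x y : R) : kEval x y X = y := by simp [kEval]

@[simp] theorem kEval_C (x y : R) (p : ℤ[X]) :
    kEval x y (C p) = p.eval₂ (Int.castRingHom R) x := by simp [kEval]

theorem map_kEval (f : R →+* S) (x y : R) (P : ℤ[X][X]) :
    f (kEval x y P) = kEval (f x) (f y) P := by
  have h : f.comp (kEval x y) = kEval (f x) (f y) := by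
    refine Polynomial.ringHom_ext (fun p => ?_) (by simp)
    rw [RingHom.comp_apply, kEval_C, kEval_C, hom_eval₂, RingHom.ext_int (f.comp _) (Int.castRingHom S)]
  exact RingHom.congr_fun h P

theorem kEval_eq_sum (x y : R) (P : ℤ[X][X]) :
    kEval x y P = P.sum fun i p => p.sum fun l a => (a : R) * x ^ l * y ^ i := by
  rw [kEval, coe_eval₂RingHom, eval₂_eq_sum]
  refine Finset.sum_congr rfl fun i _ => ?_
  show eval₂ (Int.castRingHom R) x (P.coeff i) * y ^ i = _
  rw [eval₂_eq_sum, Polynomial.sum, Finset.sum_mul]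
  rfl

variable (q : ℕ) [NeZero q] [Fact q.Prime]

/-- `Φ = Y * jPhiS + Φ (X, 0)`. -/
def jPhiS : ℤ[X][X] := (jPhi q).divX

/-- `Φ = (Y + X) * jPhiQ + Φ (X, -X)`. -/
def jPhiQ : ℤ[X][X] :=
  (X_sub_C_dvd_sub_C_eval (a := (-X : ℤ[X])) (p := jPhi q)).choose

theorem kEval_jPhiS {x y : R} (h : kEval x y (jPhi q) = 0) :
    y * kEval x y (jPhiS q) = -((jPhi q).coeff 0).eval₂ (Int.castRingHom R) x := by
  have e := congrArg (kEval x y) (X_mul_divX_add (jPhi q))
  rw [h, map_add, map_mul, kEval_X, kEval_C] at e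
  exact eq_neg_of_add_eq_zero_left e

theorem kEval_jPhiQ {x y : R} (h : kEval x y (jPhi q) = 0) :
    (y + x) * kEval x y (jPhiQ q) = -kEval x (-x) (jPhi q) := by
  have e := congrArg (kEval x y)
    (X_sub_C_dvd_sub_C_eval (a := (-X : ℤ[X])) (p := jPhi q)).choose_spec
  rw [map_sub, map_mul, map_sub, h, zero_sub, kEval_X, kEval_C (x := x) (y := y) (-X : ℤ[X]),
    eval₂_neg, eval₂_X, sub_neg_eq_add] at e
  rw [jPhiQ, ← e, kEval_C, ← coe_eval₂RingHom, Polynomial.eval, hom_eval₂]
  congr 1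
  rw [kEval, coe_eval₂RingHom, coe_eval₂RingHom, RingHom.comp_id]
  simp [eval₂_neg]

/-- `Φ` in characteristic `q`. -/
theorem kEval_kronecker [CharP R q] (x y : R) :
    kEval x y (jPhi q) = (y - x ^ q) * (y ^ q - x) := by
  have h := congrArg (eval₂ (eval₂RingHom (RingHom.id R) x) y) (jPhi_kronecker q R)
  rw [eval₂_map] at h
  have hh : (eval₂RingHom (RingHom.id R) x).comp (mapRingHom (Int.castRingHom R)) =
      eval₂RingHom (Int.castRingHom R) x := by
    refine Polynomial.ringHom_ext (fun a => by simp) (by simp)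
  rw [hh] at h
  exact h.trans (by simp [eval₂_pow])

theorem kEval_coeff_zero [CharP R q] (x : R) :
    ((jPhi q).coeff 0).eval₂ (Int.castRingHom R) x = (0 - x ^ q) * (0 ^ q - x) := by
  rw [← kEval_kronecker q x 0, kEval, coe_eval₂RingHom, eval₂_at_zero, coe_eval₂RingHom]

theorem natDegree_jPhiS_le : (jPhiS q).natDegree ≤ q := by
  rw [jPhiS, natDegree_divX_eq_natDegree_tsub_one, natDegree_jPhi]
  omega

theorem natDegree_coeff_jPhiS_le (i : ℕ) : ((jPhiS q).coeff i).natDegree ≤ q := by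
  rw [jPhiS, coeff_divX]
  exact natDegree_coeff_jPhi q _ (by omega)

end Ring

section Valuation

variable {F : Type*} [Field F] {Γ : Type*} [LinearOrderedCommGroupWithZero Γ] (v : Valuation F Γ)
  (hv : ∀ a : ℤ, a ≠ 0 → v (a : F) = 1)
include hv

theorem val_intCast_le (a : ℤ) : v (a : F) ≤ 1 := by
  rcases eq_or_ne a 0 with rfl | ha
  · simp
  · exact (hv a ha).le

theorem val_eval₂_le (p : ℤ[X]) (x : F) {d : ℕ} (hd : p.natDegree ≤ d) :
    v (p.eval₂ (Int.castRingHom F) x) ≤ max 1 (v x) ^ d := by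
  rw [eval₂_eq_sum, Polynomial.sum]
  refine v.map_sum_le fun l hl => ?_
  rw [map_mul, map_pow]
  refine (mul_le_of_le_one_left zero_le (val_intCast_le v hv _)).trans ?_
  exact (pow_le_pow_left₀ zero_le (le_max_right _ _) l).trans
    (pow_le_pow_right₀ (le_max_left _ _) ((le_natDegree_of_mem_supp l hl).trans hd))

theorem val_kEval_le (P : ℤ[X][X]) (x y : F) {d e : ℕ} (hd : ∀ i, (P.coeff i).natDegree ≤ d)
    (he : P.natDegree ≤ e) : v (kEval x y P) ≤ max 1 (v x) ^ d * max 1 (v y) ^ e := by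
  rw [kEval, coe_eval₂RingHom, eval₂_eq_sum, Polynomial.sum]
  refine v.map_sum_le fun i hi => ?_
  rw [map_mul, map_pow]
  exact mul_le_mul' (val_eval₂_le v hv _ x (hd i))
    ((pow_le_pow_left₀ zero_le (le_max_right _ _) i).trans
      (pow_le_pow_right₀ (le_max_left _ _) ((le_natDegree_of_mem_supp i hi).trans he)))

variable (q : ℕ) [NeZero q] [Fact q.Prime] {j θ : F} (h : kEval j θ (jPhi q) = 0)
include h

theorem eq_neg_sum : θ ^ (q + 1) =
    -∑ i ∈ Finset.range (q + 1), ((jPhi q).coeff i).eval₂ (Int.castRingHom F) j * θ ^ i := by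
  rw [kEval, coe_eval₂RingHom, eval₂_eq_sum_range, natDegree_jPhi, Finset.sum_range_succ,
    jPhi_coeff_top, map_one, one_mul] at h
  exact eq_neg_of_add_eq_zero_right h

/-- `θ` is bounded by `j ^ q`. -/
theorem val_theta_le : v θ ≤ max 1 (v j) ^ q := by
  have hq := (Fact.out : q.Prime).two_le
  set B := max 1 (v j) with hB
  have hB1 : 1 ≤ B := le_max_left _ _
  by_contra hlt
  rw [not_le] at hlt
  have h1 : (1 : Γ) < v θ := lt_of_le_of_lt (one_le_pow₀ hB1) hlt
  have hpos : (0 : Γ) < v θ := lt_trans zero_lt_one h1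
  have hsum : v (θ ^ (q + 1)) < v θ ^ (q + 1) := by
    rw [eq_neg_sum v hv q h, v.map_neg]
    refine v.map_sum_lt (pow_ne_zero _ hpos.ne') fun i hi => ?_
    rw [Finset.mem_range, Nat.lt_succ_iff] at hi
    rw [map_mul, map_pow]
    rcases Nat.eq_zero_or_pos i with rfl | hi1
    · rw [pow_zero, mul_one]
      refine (val_eval₂_le v hv _ j (natDegree_coeff_jPhi_le q 0)).trans_lt ?_
      calc B ^ (q + 1) ≤ (B ^ q) ^ 2 := by
            rw [← pow_mul]; exact pow_le_pow_right₀ hB1 (by omega)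
        _ < v θ ^ 2 := pow_lt_pow_left₀ hlt zero_le two_ne_zero
        _ ≤ v θ ^ (q + 1) := pow_le_pow_right₀ h1.le (by omega)
    · refine (mul_le_mul_left (val_eval₂_le v hv _ j (natDegree_coeff_jPhi q i hi1)) _).trans_lt ?_
      calc B ^ q * v θ ^ i < v θ * v θ ^ i := mul_lt_mul_of_pos_right hlt (pow_pos hpos i)
        _ = v θ ^ (i + 1) := (pow_succ' _ _).symm
        _ ≤ v θ ^ (q + 1) := pow_le_pow_right₀ h1.le (by omega)
  rw [map_pow] at hsum
  exact lt_irrefl _ hsum

/-- At a pole, `j` and `θ` have different valuations. -/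
theorem val_theta_ne (hj : 1 < v j) : v θ ≠ v j := by
  intro e
  have hq := (Fact.out : q.Prime).two_le
  have h' := h
  rw [kEval_eq_sum, Polynomial.sum] at h'
  have hmem : q ∈ (jPhi q).support := mem_support_iff.mpr fun e0 =>
    coeff_jPhi_qq_ne_zero q (by rw [e0, coeff_zero])
  have hjpos : (0 : Γ) < v j := lt_trans zero_lt_one hj
  rw [← Finset.add_sum_erase _ _ hmem, Polynomial.sum,
    ← Finset.add_sum_erase _ _ (mem_support_iff.mpr (coeff_jPhi_qq_ne_zero q))] at h'
  have hlead : v ((((jPhi q).coeff q).coeff q : F) * j ^ q * θ ^ q) = v j ^ (2 * q) := by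
    rw [map_mul, map_mul, hv _ (coeff_jPhi_qq_ne_zero q), map_pow, map_pow, e, one_mul, ← pow_add,
      two_mul]
  have hsmall : ∀ i l, ((jPhi q).coeff i).coeff l ≠ 0 → (i ≠ q ∨ l ≠ q) →
      v ((((jPhi q).coeff i).coeff l : F) * j ^ l * θ ^ i) < v j ^ (2 * q) := by
    intro i l hne hil
    rw [map_mul, map_mul, hv _ hne, map_pow, map_pow, e, one_mul, ← pow_add]
    refine pow_lt_pow_right₀ hj ?_
    rcases jPhi_total_degree q hne with h2 | ⟨rfl, rfl⟩
    · omega
    · omega
  rw [add_assoc] at h'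
  refine (v.map_add_eq_of_lt_left (x := _) ?_).not_lt ((congrArg v h').trans (map_zero v) ▸
    (hlead.symm ▸ pow_pos hjpos _))
  rw [hlead]
  refine v.map_add_lt (v.map_sum_lt (pow_ne_zero _ hjpos.ne') fun l hl => ?_)
    (v.map_sum_lt (pow_ne_zero _ hjpos.ne') fun i hi => ?_)
  · rw [Finset.mem_erase, mem_support_iff] at hl
    exact hsmall q l hl.2 (Or.inr hl.1)
  · rw [Finset.mem_erase] at hi
    rw [Polynomial.sum]
    refine v.map_sum_lt (pow_ne_zero _ hjpos.ne') fun l hl => ?_
    exact hsmall i l (mem_support_iff.mp hl) (Or.inl hi.1)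

/-- The bound for the auxiliary element at zero. -/
theorem val_jPhiS_pow_mul (m : ℕ) {x : F} (hx : v x ≤ max 1 (v θ) ^ m) :
    v (x * kEval j θ (jPhiS q) ^ m) ≤ max 1 (v j) ^ ((q + 1) * m) := by
  set B := max 1 (v j)
  rw [map_mul, map_pow]
  refine (mul_le_mul_left hx _).trans ?_
  rw [← mul_pow, pow_mul]
  refine pow_le_pow_left₀ zero_le ?_ _
  rcases le_or_gt (v θ) 1 with hθ | hθ
  · rw [max_eq_left hθ, one_mul]
    refine (val_kEval_le v hv _ j θ (natDegree_coeff_jPhiS_le q) (natDegree_jPhiS_le q)).trans ?_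
    rw [max_eq_left hθ, one_pow, mul_one]
    exact pow_le_pow_right₀ (le_max_left _ _) (Nat.le_succ q)
  · rw [max_eq_right hθ.le, ← map_mul, kEval_jPhiS q h, v.map_neg]
    exact val_eval₂_le v hv _ j (natDegree_coeff_jPhi_le q 0)

/-- The bound for the separating element. -/
theorem val_jPhiQ_mul : v (j * kEval j θ (jPhiQ q)) ≤ max 1 (v j) ^ (2 * q) ∨ v j ≤ 1 := by
  rcases le_or_gt (v j) 1 with hj | hj
  · exact Or.inr hj
  left
  have hjpos : (0 : Γ) < v j := lt_trans zero_lt_one hj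
  have hne := val_theta_ne v hv q h hj
  have hsum : v j ≤ v (θ + j) := by
    rw [v.map_add_of_distinct_val hne]
    exact le_max_right _ _
  have hΦ : v (kEval j (-j) (jPhi q)) ≤ v j ^ (2 * q) := by
    rw [kEval_eq_sum, Polynomial.sum]
    refine v.map_sum_le fun i hi => ?_
    rw [Polynomial.sum]
    refine v.map_sum_le fun l hl => ?_
    rw [map_mul, map_mul, hv _ (mem_support_iff.mp hl), map_pow, map_pow, v.map_neg, one_mul,
      ← pow_add]
    refine pow_le_pow_right₀ hj.le ?_
    rcases jPhi_total_degree q (mem_support_iff.mp hl) with h2 | ⟨rfl, rfl⟩ <;> omega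
  have e := congrArg v (kEval_jPhiQ q h)
  rw [map_mul, v.map_neg] at e
  rw [map_mul, max_eq_right hj.le]
  calc v j * v (kEval j θ (jPhiQ q)) ≤ v (θ + j) * v (kEval j θ (jPhiQ q)) := mul_le_mul_left hsum _
    _ = v (kEval j (-j) (jPhi q)) := e
    _ ≤ _ := hΦ

end Valuation

end FermatAgent.BadRed.Semistable
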