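import Fermat.Agent.BadRed.Semistable.LiftSetup
import Fermat.Agent.BadRed.Semistable.Coeff

/-!
# Existence of torsion classes with given toric invariant

Over a complete algebraically closed valued field, every tuple of `n`-th roots of unity indexed
by the nodes is the toric invariant of an `n`-torsion class, `n` prime to the residue
characteristic.
-/

set_option autoImplicit false
set_option linter.unusedSectionVars false

noncomputable section

open WithZero AlgebraicCurve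

namespace FermatAgent.BadRed.Semistable

open FermatAgent.Curve FermatAgent.Curve.RR

theorem adicValuation_pow_eq {k F : Type*} [Field k] [Field F] [Algebra k F] [IsAlgClosed k]
    [IsFunctionField1 k F] (v : Place k F) {f : F} (hf : f ≠ 0) (n : ℕ) :
    v.adicValuation (f ^ n) = exp (-((n : ℤ) * v.ord f)) := by
  rw [map_pow, v.adicValuation_eq_exp_neg_ord hf, ← exp_nsmul, nsmul_eq_mul]
  congr 1
  ring

theorem exp_mul_le {a b c : ℤ} {x : WithZero (Multiplicative ℤ)} (hx : x ≤ exp a)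
    (h : a + b ≤ c) : x * exp b ≤ exp c :=
  (mul_le_mul' hx le_rfl).trans (by rw [← exp_add]; exact exp_le_exp.mpr h)

namespace NodalDatum

variable {K : Type*} [Field K] [IsAlgClosed K] {A : ValuationSubring K} {k : Type*}
    [Field k] [IsAlgClosed k] {π : A →+* k} {F F₁ F₂ : Type*} [Field F] [Field F₁] [Field F₂]
    [Algebra K F] [Algebra k F₁] [Algebra k F₂] [IsFunctionField1 K F] [IsFunctionField1 k F₁]
    [IsFunctionField1 k F₂] [RRSetting K F] [RRSetting k F₁] [RRSetting k F₂] [Infinite k]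
variable (d : NodalDatum A π F F₁ F₂)

open scoped Classical

/-- Bounds on the reduction of a section of an effective divisor supported off the nodes. -/
theorem red_bounds {S : d.C.Pt →₀ ℤ} (hnode : ∀ i, S (.node i) = 0) {n : ℕ} {f : F}
    (h : f ∈ d.int) (hf : f ∈ riemannRochSpace (n • d.liftOf S)) :
    (∀ Q, (d.C.part₁ ((n : ℤ) • S) Q : ℤ) = n * S (d.C.toPt₁ Q)) ∧
    (∀ Q : Place k F₁,
      Q.adicValuation (d.red ⟨f, h⟩).1 ≤ exp (n * S (d.C.toPt₁ Q))) ∧
    (∀ Q : Place k F₂,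
      Q.adicValuation (d.red ⟨f, h⟩).2 ≤ exp (n * S (d.C.toPt₂ Q))) ∧
    ∀ i, (d.C.x i).adicValuation (d.red ⟨f, h⟩).1 ≤ 1 ∧
      (d.C.y i).adicValuation (d.red ⟨f, h⟩).2 ≤ 1 ∧
      valueAt (d.C.x i) (d.red ⟨f, h⟩).1 = valueAt (d.C.y i) (d.red ⟨f, h⟩).2 := by
  have hval := d.value_node_eq h fun P hP i hi => by
    have h0 : f ≠ 0 := fun e => by rw [e, Place.ord_zero] at hP; omega
    have := neg_le_ord_of_le_exp h0 (hf P)
    rw [Finsupp.smul_apply, liftOf_apply, hi, nsmul_eq_mul] at this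
    split_ifs at this <;> simp [hnode i] at this <;> omega
  have hlow : f ≠ 0 → ∀ ω, -((n : ℤ) * S ω) ≤ Finsupp.mapDomain d.place (divisorOf f) ω := by
    intro h0 ω
    have hnn : 0 ≤ divisorOf (K := K) f + n • d.liftOf S := Finsupp.le_def.mpr fun P => by
      have := neg_le_ord_of_le_exp h0 (hf P)
      rw [Finsupp.coe_zero, Pi.zero_apply, Finsupp.add_apply, divisorOf_apply]
      omega
    have := Finsupp.le_def.mp (d.redDiv_nonneg hnn) ω
    rw [map_add, map_nsmul, redDiv_liftOf, Finsupp.coe_zero, Pi.zero_apply, Finsupp.add_apply,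
      Finsupp.smul_apply, nsmul_eq_mul, redDiv_apply] at this
    omega
  refine ⟨fun Q => by simp, fun Q => ?_, fun Q => ?_, hval⟩
  · rcases eq_or_ne (d.red ⟨f, h⟩).1 0 with e | e
    · simp [e]
    by_cases hQ : ∃ i, d.C.x i = Q
    · obtain ⟨i, rfl⟩ := hQ
      rw [d.C.toPt₁_x, hnode, mul_zero, exp_zero]
      exact (hval i).1
    · push Not at hQ
      refine adicValuation_le_exp_of_ord ?_
      rw [d.C.toPt₁_of_ne Q hQ]
      exact (hlow (d.ne_zero_of_red_fst h e) _).trans (d.mapDomain_le_left h e Q hQ)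
  · rcases eq_or_ne (d.red ⟨f, h⟩).2 0 with e | e
    · simp [e]
    by_cases hQ : ∃ i, d.C.y i = Q
    · obtain ⟨i, rfl⟩ := hQ
      rw [d.C.toPt₂_y, hnode, mul_zero, exp_zero]
      exact (hval i).2.1
    · push Not at hQ
      refine adicValuation_le_exp_of_ord ?_
      rw [d.C.toPt₂_of_ne Q hQ]
      exact (hlow (d.ne_zero_of_red_snd h e) _).trans (d.mapDomain_le_right h e Q hQ)

/-- Sections with high order of vanishing on a configuration are multiples of one section. -/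
theorem eq_smul_of_vanishing (ns : d.C.NonSpecial) {a : F₁} (ha0 : a ≠ 0) {S : d.C.Pt →₀ ℤ}
    (hS₁ : ∀ Q, S (d.C.toPt₁ Q) = Q.ord a + if Q ∈ ns.S₁ then 1 else 0)
    (hS₂ : ∀ Q, S (d.C.toPt₂ Q) = if Q ∈ ns.S₂ then 1 else 0)
    (hax : ∀ i, (d.C.x i).ord a = 0) {n : ℕ} (han : ∀ i, valueAt (d.C.x i) a ^ n = 1)
    {p : F₁ × F₂} (h₁ : ∀ Q, Q.adicValuation p.1 ≤ exp (n * S (d.C.toPt₁ Q)))
    (h₂ : ∀ Q, Q.adicValuation p.2 ≤ exp (n * S (d.C.toPt₂ Q)))
    (hv : ∀ i, (d.C.x i).adicValuation p.1 ≤ 1 ∧ (d.C.y i).adicValuation p.2 ≤ 1 ∧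
      valueAt (d.C.x i) p.1 = valueAt (d.C.y i) p.2)
    (hS₁' : ∀ Q ∈ ns.S₁, Q.adicValuation p.1 ≤ exp (n * S (d.C.toPt₁ Q) - n + 1))
    (hS₂' : ∀ Q ∈ ns.S₂, Q.adicValuation p.2 ≤ exp (n * S (d.C.toPt₂ Q) - n + 1)) :
    ∃ β : k, p = β • ((a⁻¹) ^ n, (1 : F₂)) := by
  have hA : p.1 * a ^ n ∈ riemannRochSpace (∑ Q ∈ ns.S₁, Finsupp.single Q (1 : ℤ)) := by
    intro Q
    rw [map_mul, adicValuation_pow_eq Q ha0, single_sum_apply]
    split_ifs with hQ
    · refine exp_mul_le (hS₁' Q hQ) ?_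
      rw [hS₁, if_pos hQ, mul_add, mul_one]
      omega
    · refine exp_mul_le (h₁ Q) ?_
      rw [hS₁, if_neg hQ, add_zero]
      omega
  have hB : p.2 ∈ riemannRochSpace (∑ Q ∈ ns.S₂, Finsupp.single Q (1 : ℤ)) := by
    intro Q
    rw [single_sum_apply]
    split_ifs with hQ
    · refine (hS₂' Q hQ).trans (exp_le_exp.mpr ?_)
      rw [hS₂, if_pos hQ, mul_one]
      omega
    · refine (h₂ Q).trans (exp_le_exp.mpr ?_)
      rw [hS₂, if_neg hQ, mul_zero]
  obtain ⟨β, hβ1, hβ2⟩ := ns.const _ hA _ hB fun i => by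
    have hm : a ∈ (d.C.x i).toValuationSubring := (mem_iff_ord_nonneg' _).mpr (hax i).ge
    rw [valueAt_mul _ (mem_of_le_one (hv i).1) (pow_mem hm n), (hv i).2.2]
    have : valueAt (d.C.x i) (a ^ n) = 1 := by
      have hpow : ∀ m : ℕ, valueAt (d.C.x i) (a ^ m) = valueAt (d.C.x i) a ^ m := fun m => by
        induction m with
        | zero => rw [pow_zero, pow_zero, show (1 : F₁) = algebraMap k F₁ 1 by rw [map_one],
            valueAt_algebraMap]
        | succ m ih => rw [pow_succ, pow_succ, valueAt_mul _ (pow_mem hm m) hm, ih]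
      rw [hpow, han i]
    rw [this, mul_one]
  refine ⟨β, Prod.ext ?_ ?_⟩
  · rw [Prod.smul_fst, Algebra.smul_def, ← hβ1, inv_pow, mul_assoc,
      mul_inv_cancel₀ (pow_ne_zero _ ha0), mul_one]
  · rw [Prod.smul_snd, Algebra.smul_def, mul_one, hβ2]

/-- Every tuple of `n`-th roots of unity is a toric invariant of an `n`-torsion class. -/
theorem exists_hasToric
    (hcomplete : ∀ ε : A, π ε = 0 → IsAdicComplete (Ideal.span {ε}) A)
    {n : ℕ} (hn : (n : k) ≠ 0) (c : d.C.ι → k) (hc : ∀ i, c i ^ n = 1) :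
    ∃ x : Pic0 K F, n • x = 0 ∧ d.HasToric x c := by
  have hn0 : 1 ≤ n := Nat.pos_of_ne_zero fun e => hn (by simp [e])
  have hc0 : ∀ i, c i ≠ 0 := fun i e => by
    have := hc i; rw [e, zero_pow (by omega)] at this; exact zero_ne_one this
  obtain ⟨ns⟩ := d.C.exists_nonSpecial
  obtain ⟨a, ha, hai⟩ := ns.interp fun i => (c i)⁻¹
  have hax' : ∀ i, (d.C.x i).adicValuation a ≤ 1 := fun i => by
    have := ha (d.C.x i)
    rwa [single_sum_apply, if_neg (fun hm => ns.smooth₁ _ hm i rfl), exp_zero] at this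
  have ha0 : a ≠ 0 := by
    rintro rfl
    obtain ⟨i⟩ := d.C.nonempty
    have := hai i
    rw [show (0 : F₁) = algebraMap k F₁ 0 by rw [map_zero], valueAt_algebraMap] at this
    exact inv_ne_zero (hc0 i) this.symm
  have hax : ∀ i, (d.C.x i).ord a = 0 := fun i => by
    have h1 := ((d.C.x i).adicValuation_le_one_iff.mp (hax' i)).resolve_left ha0
    by_contra hne
    have hlt : (d.C.x i).adicValuation a < 1 := by
      rw [(d.C.x i).adicValuation_eq_exp_neg_ord ha0, ← exp_zero, exp_lt_exp]; omega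
    exact inv_ne_zero (hc0 i) ((hai i).symm.trans ((adicValuation_lt_one_iff hlt.le).mp hlt))
  have han : ∀ i, valueAt (d.C.x i) a ^ n = 1 := fun i => by rw [hai i, inv_pow, hc i, inv_one]
  have hun : d.C.UnitNodes (a, (1 : F₂)) :=
    ⟨ha0, one_ne_zero, fun i => ⟨hax i, (d.C.y i).ord_one⟩⟩
  set S := ns.divisor + d.C.secDiv 0 (a, (1 : F₂)) with hS
  have hS₁ : ∀ Q, S (d.C.toPt₁ Q) = Q.ord a + if Q ∈ ns.S₁ then 1 else 0 := fun Q => by
    rw [← Glued.part₁_apply, hS, map_add, ns.part₁_divisor, d.C.part₁_secDiv_zero hun,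
      Finsupp.add_apply, single_sum_apply, divisorOf_apply, add_comm]
  have hS₂ : ∀ Q, S (d.C.toPt₂ Q) = if Q ∈ ns.S₂ then 1 else 0 := fun Q => by
    rw [← Glued.part₂_apply, hS, map_add, ns.part₂_divisor, d.C.part₂_secDiv_zero hun,
      Finsupp.add_apply, single_sum_apply, divisorOf_apply, Place.ord_one, add_zero]
  have hnode : ∀ i, S (.node i) = 0 := fun i => by
    rw [← d.C.toPt₁_x i, hS₁, hax i, if_neg (fun hm => ns.smooth₁ _ hm i rfl), add_zero]
  have hSnn : ∀ ω, 0 ≤ S ω := fun ω => by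
    cases ω with
    | left Q hQ =>
      rw [← d.C.toPt₁_of_ne Q hQ, hS₁]
      have := neg_le_ord_of_le_exp ha0 (ha Q)
      rw [single_sum_apply] at this
      omega
    | right Q hQ =>
      rw [← d.C.toPt₂_of_ne Q hQ, hS₂]
      split_ifs <;> simp
    | node i => rw [hnode i]
  set G₀ := d.liftOf S with hG
  have hG0 : 0 ≤ n • G₀ := nsmul_nonneg (Finsupp.le_def.mpr fun P => by
    rw [Finsupp.coe_zero, Pi.zero_apply, hG, liftOf_apply]
    split_ifs
    · exact hSnn _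
    · exact le_rfl) n
  have hdegG : Divisor.degree G₀ = (genusFF K F : ℤ) := by
    rw [hG, degree_liftOf, hS, Finsupp.sum_add_index' (fun _ => rfl) (fun _ _ _ => rfl),
      sum_divisor, Glued.sum_secDiv, Nat.cast_zero, zero_mul, add_zero]
  obtain ⟨N, hNdef, b, hb, hbL, hli⟩ : ∃ (N : ℕ) (_ : N = ell (n • G₀)) (b : Fin N → F)
      (hb : ∀ l, b l ∈ d.int), (∀ l, b l ∈ riemannRochSpace (n • G₀)) ∧
      LinearIndependent k (fun l => d.red ⟨b l, hb l⟩) := ⟨_, rfl, d.exists_basis hG0⟩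
  have hN : (n : ℤ) * genusFF K F + 1 - genusFF K F ≤ N := by
    have := riemann_inequality (n • G₀)
    rw [hNdef]
    rwa [map_nsmul, nsmul_eq_mul, hdegG] at this
  -- the linear forms on the discs over the configuration
  have hpole : ∀ (ω : d.C.Pt) l P, d.place P = ω →
      P.adicValuation (b l) ≤ exp (if P = d.above ω then (((n : ℤ) * S ω).toNat : ℤ) else 0) := by
    intro ω l P hP
    refine (hbL l P).trans (exp_le_exp.mpr ?_)
    rw [Finsupp.smul_apply, hG, liftOf_apply, hP, nsmul_eq_mul]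
    have := mul_nonneg (Int.natCast_nonneg n) (hSnn ω)
    split_ifs <;> simp [Int.toNat_of_nonneg this]
  have hl : ∀ Q : {Q // Q ∈ ns.S₁}, ∃ α : ℕ → A → (Fin N → A) →ₗ[A] A,
      (∀ j c c', π c = 0 → π c' = 0 → ∀ x, (c' - c) ∣ α j c' x - α j c x) ∧
      (∀ j c c', π c = 0 → π c' = 0 → ∀ x,
        (c' - c) ^ 2 ∣ α j c' x - (α j c x + (j + 1 : ℕ) * (c' - c) * α (j + 1) c x)) ∧
      (∀ x : Fin N → A, ∀ h : ∑ l, (x l : K) • b l ∈ d.int, ∀ m : ℕ,
        (∀ j < m, π (α j 0 x) = 0) ↔ (Q : Place k F₁).adicValuation (d.red ⟨_, h⟩).1 ≤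
          exp ((n : ℤ) * S (d.C.toPt₁ Q) - m)) ∧
      ∀ (x : Fin N → A) (c : A), π c = 0 → ∀ m : ℕ, (∀ j < m, α j c x = 0) →
        ∃ P, d.place P = d.C.toPt₁ (Q : Place k F₁) ∧
          P.adicValuation (∑ l, (x l : K) • b l) ≤ exp ((n • G₀) P - m) := by
    rintro ⟨Q, hQ⟩
    have hsm := ns.smooth₁ Q hQ
    have hω := d.C.toPt₁_of_ne Q hsm
    obtain ⟨T, hT⟩ := d.exists_coord_left Q hsm
    obtain ⟨α, h1, h2, h3, h4⟩ := (d.sideLeft Q hsm).exists_coeff hT hb
      (P₀ := d.above (d.sideLeft Q hsm).ω) (d.place_above _) (hpole _)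
    have he : ((((n : ℤ) * S (d.sideLeft Q hsm).ω).toNat : ℤ)) = n * S (d.C.toPt₁ Q) := by
      rw [Int.toNat_of_nonneg (mul_nonneg (Int.natCast_nonneg n) (hSnn _)), hω]; rfl
    refine ⟨α, h1, h2, fun x h m => ?_, fun x c hc m hm => ?_⟩
    · have := h3 x h m
      rwa [he] at this
    · obtain ⟨P, hP, hv⟩ := h4 x c hc m hm
      refine ⟨P, hP.trans hω.symm, hv.trans (exp_le_exp.mpr ?_)⟩
      rw [Finsupp.smul_apply, hG, liftOf_apply, hP, nsmul_eq_mul,
        Int.toNat_of_nonneg (mul_nonneg (Int.natCast_nonneg n) (hSnn _))]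
      split_ifs <;> simp
  have hr : ∀ Q : {Q // Q ∈ ns.S₂}, ∃ α : ℕ → A → (Fin N → A) →ₗ[A] A,
      (∀ j c c', π c = 0 → π c' = 0 → ∀ x, (c' - c) ∣ α j c' x - α j c x) ∧
      (∀ j c c', π c = 0 → π c' = 0 → ∀ x,
        (c' - c) ^ 2 ∣ α j c' x - (α j c x + (j + 1 : ℕ) * (c' - c) * α (j + 1) c x)) ∧
      (∀ x : Fin N → A, ∀ h : ∑ l, (x l : K) • b l ∈ d.int, ∀ m : ℕ,
        (∀ j < m, π (α j 0 x) = 0) ↔ (Q : Place k F₂).adicValuation (d.red ⟨_, h⟩).2 ≤
          exp ((n : ℤ) * S (d.C.toPt₂ Q) - m)) ∧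
      ∀ (x : Fin N → A) (c : A), π c = 0 → ∀ m : ℕ, (∀ j < m, α j c x = 0) →
        ∃ P, d.place P = d.C.toPt₂ (Q : Place k F₂) ∧
          P.adicValuation (∑ l, (x l : K) • b l) ≤ exp ((n • G₀) P - m) := by
    rintro ⟨Q, hQ⟩
    have hsm := ns.smooth₂ Q hQ
    have hω := d.C.toPt₂_of_ne Q hsm
    obtain ⟨T, hT⟩ := d.exists_coord_right Q hsm
    obtain ⟨α, h1, h2, h3, h4⟩ := (d.sideRight Q hsm).exists_coeff hT hb
      (P₀ := d.above (d.sideRight Q hsm).ω) (d.place_above _) (hpole _)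
    have he : ((((n : ℤ) * S (d.sideRight Q hsm).ω).toNat : ℤ)) = n * S (d.C.toPt₂ Q) := by
      rw [Int.toNat_of_nonneg (mul_nonneg (Int.natCast_nonneg n) (hSnn _)), hω]; rfl
    refine ⟨α, h1, h2, fun x h m => ?_, fun x c hc m hm => ?_⟩
    · have := h3 x h m
      rwa [he] at this
    · obtain ⟨P, hP, hv⟩ := h4 x c hc m hm
      refine ⟨P, hP.trans hω.symm, hv.trans (exp_le_exp.mpr ?_)⟩
      rw [Finsupp.smul_apply, hG, liftOf_apply, hP, nsmul_eq_mul,
        Int.toNat_of_nonneg (mul_nonneg (Int.natCast_nonneg n) (hSnn _))]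
      split_ifs <;> simp
  choose α₁ lip₁ sec₁ red₁ van₁ using hl
  choose α₂ lip₂ sec₂ red₂ van₂ using hr
  let α : {Q // Q ∈ ns.S₁} ⊕ {Q // Q ∈ ns.S₂} → ℕ → A → (Fin N → A) →ₗ[A] A := Sum.elim α₁ α₂
  have hint : ∀ x : Fin N → A, ∑ l, (x l : K) • b l ∈ d.int := fun x =>
    d.sum_mem_int _ x b fun l _ => hb l
  have hL : ∀ x : Fin N → A, ∑ l, (x l : K) • b l ∈ riemannRochSpace (n • G₀) := fun x =>
    sum_mem fun l _ => Submodule.smul_mem _ _ (hbL l)
  have hredx : ∀ x : Fin N → A,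
      d.red ⟨_, hint x⟩ = Fintype.linearCombination k (fun l => d.red ⟨b l, hb l⟩) (π ∘ x) :=
    fun x => d.red_sum x b hb
  set u₀ : F₁ × F₂ := (a⁻¹ ^ n, 1) with hu₀
  have hker : ∀ x : Fin N → A, (∀ i, ∀ j < n - 1, π (α i j 0 x) = 0) →
      ∃ β : k, Fintype.linearCombination k (fun l => d.red ⟨b l, hb l⟩) (π ∘ x) = β • u₀ := by
    intro x hx
    rw [← hredx]
    obtain ⟨-, hb1, hb2, hb3⟩ := d.red_bounds hnode (hint x) (hL x)
    refine d.eq_smul_of_vanishing ns ha0 hS₁ hS₂ hax han hb1 hb2 hb3 (fun Q hQ => ?_)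
      (fun Q hQ => ?_)
    · refine ((red₁ ⟨Q, hQ⟩ x (hint x) (n - 1)).mp (hx (.inl ⟨Q, hQ⟩))).trans
        (exp_le_exp.mpr ?_)
      push_cast [Nat.cast_sub hn0]
      omega
    · refine ((red₂ ⟨Q, hQ⟩ x (hint x) (n - 1)).mp (hx (.inr ⟨Q, hQ⟩))).trans
        (exp_le_exp.mpr ?_)
      push_cast [Nat.cast_sub hn0]
      omega
  have hsurj : Function.Surjective π := d.residue_surjective
  let J : (Fin N → k) →ₗ[k]
      (({Q // Q ∈ ns.S₁} ⊕ {Q // Q ∈ ns.S₂}) × Fin (n - 1) → k) :=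
    Fintype.linearCombination k fun l p => π (α p.1 p.2 0 (Pi.single l 1))
  have hJ : ∀ (x : Fin N → A) p, J (π ∘ x) p = π (α p.1 p.2 0 x) := fun x p => by
    conv_rhs => rw [pi_eq_sum_univ' x, map_sum, map_sum]
    simp [J, Fintype.linearCombination_apply, Finset.sum_apply]
  have hkerJ : Module.finrank k (LinearMap.ker J) ≤ 1 := by
    let Φ := (Fintype.linearCombination k (fun l => d.red ⟨b l, hb l⟩)).domRestrict
      (LinearMap.ker J)
    have hΦ : Function.Injective Φ := fun y y' e =>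
      Subtype.ext ((LinearIndependent.fintypeLinearCombination_injective hli) e)
    have hle : LinearMap.range Φ ≤ k ∙ u₀ := by
      rintro _ ⟨⟨y, hy⟩, rfl⟩
      choose x hx using fun l => hsurj (y l)
      have hy' : π ∘ x = y := funext hx
      obtain ⟨β, hβ⟩ := hker x fun i j hj => by
        rw [← hJ x (i, ⟨j, hj⟩), hy']
        exact congrFun (LinearMap.mem_ker.mp hy) _
      rw [hy'] at hβ
      exact Submodule.mem_span_singleton.mpr ⟨β, hβ.symm⟩
    rw [← LinearMap.finrank_range_of_inj hΦ]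
    refine (Submodule.finrank_mono hle).trans ?_
    exact (finrank_span_le_card _).trans (by simp)
  have hdim := LinearMap.finrank_range_add_finrank_ker J
  have hI : (Fintype.card (({Q // Q ∈ ns.S₁} ⊕ {Q // Q ∈ ns.S₂}) × Fin (n - 1)) : ℤ) =
      (genusFF K F : ℤ) * n - genusFF K F := by
    rw [Fintype.card_prod, Fintype.card_sum, Fintype.card_coe, Fintype.card_coe,
      Fintype.card_fin, ← ns.card_points, ← d.genus_eq_card ns]
    push_cast [Nat.cast_sub hn0]
    ring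
  have hrle : Module.finrank k (LinearMap.range J) ≤
      Fintype.card (({Q // Q ∈ ns.S₁} ⊕ {Q // Q ∈ ns.S₂}) × Fin (n - 1)) :=
    (Submodule.finrank_le _).trans (Module.finrank_pi k).le
  rw [Module.finrank_pi, Fintype.card_fin] at hdim
  have hkr : Module.finrank k (LinearMap.ker J) = 1 := by
    rw [mul_comm] at hI
    omega
  have hJs : Function.Surjective J := by
    rw [← LinearMap.range_eq_top]
    refine Submodule.eq_top_of_finrank_eq ?_
    rw [Module.finrank_pi]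
    rw [mul_comm] at hI
    omega
  obtain ⟨y₀, hy₀, hy₀0⟩ := Submodule.exists_mem_ne_zero_of_ne_bot (p := LinearMap.ker J)
    (fun e => by rw [e, finrank_bot] at hkr; omega)
  choose x₀ hx₀ using fun l => hsurj (y₀ l)
  have hy₀' : π ∘ x₀ = y₀ := funext hx₀
  obtain ⟨β, hβ⟩ := hker x₀ fun i j hj => by
    rw [← hJ x₀ (i, ⟨j, hj⟩), hy₀']
    exact congrFun (LinearMap.mem_ker.mp hy₀) _
  have hβ0 : β ≠ 0 := fun e => hy₀0 (by
    rw [← hy₀']
    exact (LinearIndependent.fintypeLinearCombination_injective hli) (hβ.trans (by simp [e])))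
  have hr0 : d.red ⟨_, hint x₀⟩ = β • u₀ := (hredx x₀).trans hβ
  have hord₁ : ∀ Q ∈ ns.S₁, Q.adicValuation (d.red ⟨_, hint x₀⟩).1 =
      exp ((n : ℤ) * S (d.C.toPt₁ Q) - n) := fun Q hQ => by
    rw [hr0, hS₁, if_pos hQ]
    change Q.adicValuation (β • a⁻¹ ^ n) = _
    rw [Q.adicValuation_eq_exp_neg_ord (smul_ne_zero hβ0 (pow_ne_zero _ (inv_ne_zero ha0))),
      Curve.ord_smul_const Q hβ0, Curve.ord_pow', Q.ord_inv]
    congr 1
    ring
  have hord₂ : ∀ Q ∈ ns.S₂, Q.adicValuation (d.red ⟨_, hint x₀⟩).2 =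
      exp ((n : ℤ) * S (d.C.toPt₂ Q) - n) := fun Q hQ => by
    rw [hr0, hS₂, if_pos hQ]
    change Q.adicValuation (β • (1 : F₂)) = _
    rw [Q.adicValuation_eq_exp_neg_ord (smul_ne_zero hβ0 one_ne_zero),
      Curve.ord_smul_const Q hβ0, Place.ord_one]
    simp
  have hsys : CoeffSystem α π n := by
    refine ⟨fun i => ?_, fun i => ?_, fun r => ?_⟩
    · cases i with
      | inl i => exact lip₁ i
      | inr i => exact lip₂ i
    · cases i with
      | inl i => exact sec₁ i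
      | inr i => exact sec₂ i
    · obtain ⟨y, hy⟩ := hJs fun p => r p.1 p.2
      choose x hx using fun l => hsurj (y l)
      exact ⟨x, fun i j => by
        rw [← hJ x (i, j), show π ∘ x = y from funext hx]; exact congrFun hy _⟩
  obtain ⟨x, cc, hxx, hcc, hvan⟩ := hsys.exists_solution d.residue_surjective hn hcomplete
    (x₀ := x₀) (fun i j hj => by
      cases i with
      | inl i => exact (red₁ i x₀ (hint x₀) n).mpr (hord₁ _ i.2).le j hj
      | inr i => exact (red₂ i x₀ (hint x₀) n).mpr (hord₂ _ i.2).le j hj)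
    (fun i h0 => by
      cases i with
      | inl i =>
        have := (red₁ i x₀ (hint x₀) (n + 1)).mp fun j hj => by
          rcases Nat.lt_succ_iff_lt_or_eq.mp hj with hj | rfl
          · exact (red₁ i x₀ (hint x₀) n).mpr (hord₁ _ i.2).le j hj
          · exact h0
        rw [hord₁ _ i.2, exp_le_exp] at this
        push_cast at this
        omega
      | inr i =>
        have := (red₂ i x₀ (hint x₀) (n + 1)).mp fun j hj => by
          rcases Nat.lt_succ_iff_lt_or_eq.mp hj with hj | rfl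
          · exact (red₂ i x₀ (hint x₀) n).mpr (hord₂ _ i.2).le j hj
          · exact h0
        rw [hord₂ _ i.2, exp_le_exp] at this
        push_cast at this
        omega)
  set f := ∑ l, (x l : K) • b l with hfdef
  have hfr : d.red ⟨f, hint x⟩ = β • u₀ := by
    rw [hredx x, show π ∘ x = π ∘ x₀ from funext hxx]
    exact hβ
  have hf0 : f ≠ 0 := d.ne_zero_of_red_fst (hint x) (by
    rw [hfr]; exact smul_ne_zero hβ0 (pow_ne_zero _ (inv_ne_zero ha0)))
  have hPex : ∀ ω ∈ ns.points, ∃ P, d.place P = ω ∧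
      P.adicValuation f ≤ exp ((n • G₀) P - n) := by
    intro ω hω
    rw [Glued.NonSpecial.points, Finset.mem_union, Finset.mem_image, Finset.mem_image] at hω
    rcases hω with ⟨Q, hQ, rfl⟩ | ⟨Q, hQ, rfl⟩
    · exact van₁ ⟨Q, hQ⟩ x _ (hcc (.inl ⟨Q, hQ⟩)) n (hvan (.inl ⟨Q, hQ⟩))
    · exact van₂ ⟨Q, hQ⟩ x _ (hcc (.inr ⟨Q, hQ⟩)) n (hvan (.inr ⟨Q, hQ⟩))
  choose! pt hpt hptv using hPex
  set E := Finsupp.mapDomain pt ns.divisor with hE
  have hEsum : E = ∑ ω ∈ ns.points, Finsupp.single (pt ω) (1 : ℤ) := by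
    rw [hE, Glued.NonSpecial.divisor, Finsupp.mapDomain_finsetSum]
    exact Finset.sum_congr rfl fun ω _ => Finsupp.mapDomain_single
  have hEred : d.redDiv E = ns.divisor := by
    rw [hEsum, map_sum, Glued.NonSpecial.divisor]
    exact Finset.sum_congr rfl fun ω hω => by
      rw [redDiv_apply, Finsupp.mapDomain_single, hpt ω hω]
  have hEdeg : Divisor.degree E = (genusFF K F : ℤ) := by
    rw [hEsum]
    simp [Curve.deg_eq_one, d.genus_eq_card ns]
  have hnn : 0 ≤ divisorOf (K := K) f - n • (E - G₀) := Finsupp.le_def.mpr fun P => by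
    rw [Finsupp.coe_zero, Pi.zero_apply, Finsupp.sub_apply, divisorOf_apply, Finsupp.smul_apply,
      Finsupp.sub_apply, nsmul_eq_mul]
    have h0 := neg_le_ord_of_le_exp hf0 (hL x P)
    rw [Finsupp.smul_apply, nsmul_eq_mul] at h0
    by_cases hP : ∃ ω ∈ ns.points, pt ω = P
    · obtain ⟨ω, hω, rfl⟩ := hP
      have h1 := neg_le_ord_of_le_exp hf0 (hptv ω hω)
      rw [Finsupp.smul_apply, nsmul_eq_mul] at h1
      have h2 : E (pt ω) = 1 := by
        rw [hEsum, Finsupp.finsetSum_apply, Finset.sum_eq_single ω]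
        · simp
        · intro ω' hω' hne
          rw [Finsupp.single_apply, if_neg]
          exact fun e => hne (by rw [← hpt ω' hω', e, hpt ω hω])
        · exact fun h => absurd hω h
      rw [h2, mul_sub, mul_one]
      omega
    · have h2 : E P = 0 := by
        rw [hEsum, Finsupp.finsetSum_apply]
        exact Finset.sum_eq_zero fun ω hω => by
          rw [Finsupp.single_apply, if_neg (fun e => hP ⟨ω, hω, e⟩)]
      rw [h2, zero_sub, mul_neg]
      omega
  have hdiv : n • (E - G₀) = divisorOf (K := K) f := by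
    have hd0 : Divisor.degree (divisorOf (K := K) f - n • (E - G₀)) = 0 := by
      rw [map_sub, map_nsmul, map_sub, degree_divisorOf, hEdeg, hdegG, sub_self, smul_zero,
        sub_zero]
    rw [eq_comm, ← sub_eq_zero]
    ext P
    rw [degree_eq_sum] at hd0
    by_contra hne
    have hmem := Finsupp.mem_support_iff.mpr hne
    have := (Finset.sum_eq_zero_iff_of_nonneg fun R _ => Finsupp.le_def.mp hnn R).mp hd0 P hmem
    exact hne this
  have hmem : E - G₀ ∈ Divisor.degZero (K := K) (F := F) := by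
    rw [Divisor.mem_degZero, map_sub, hEdeg, hdegG, sub_self]
  refine ⟨QuotientAddGroup.mk ⟨E - G₀, hmem⟩, ?_, ⟨E - G₀, hmem⟩, rfl, ?_⟩
  · rw [← QuotientAddGroup.mk_nsmul]
    refine (QuotientAddGroup.eq_zero_iff _).mpr ?_
    rw [AddSubgroup.mem_addSubgroupOf, AddSubgroupClass.coe_nsmul]
    change n • (E - G₀) ∈ _
    rw [hdiv]
    exact ⟨f, hf0, fun v => divisorOf_apply f v⟩
  · have hred : d.redDiv (E - G₀) = -d.C.secDiv 0 (a, (1 : F₂)) := by
      rw [map_sub, hEred, hG, redDiv_liftOf, hS]; abel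
    have p1 : d.C.part₁ (d.redDiv (E - G₀)) = divisorOf a⁻¹ := by
      rw [hred, map_neg, d.C.part₁_secDiv_zero hun]
      ext Q; simp [Place.ord_inv]
    have p2 : d.C.part₂ (d.redDiv (E - G₀)) = divisorOf (1 : F₂) := by
      rw [hred, map_neg, d.C.part₂_secDiv_zero hun]
      ext Q; simp
    refine ⟨⟨fun P hP i hi => ?_, by rw [p1, degree_divisorOf], by rw [p2, degree_divisorOf]⟩,
      (a⁻¹, 1), ⟨inv_ne_zero ha0, one_ne_zero, fun i => ⟨by rw [Place.ord_inv, hax i, neg_zero],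
        (d.C.y i).ord_one⟩⟩, p1, p2, fun i => ?_⟩
    · change (E - G₀) P ≠ 0 at hP
      rw [Finsupp.sub_apply, hG, liftOf_apply, hi, hnode i, ite_self, sub_zero, hEsum,
        Finsupp.finsetSum_apply] at hP
      obtain ⟨ω, hω, hne⟩ := Finset.exists_ne_zero_of_sum_ne_zero hP
      rw [Finsupp.single_apply] at hne
      have e : pt ω = P := by by_contra h'; exact hne (if_neg h')
      rw [← e, hpt ω hω] at hi
      exact ns.node_notMem i (hi ▸ hω)
    · rw [valueAt_inv _ (hax i), hai i, inv_inv,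
        show (1 : F₂) = algebraMap k F₂ 1 by rw [map_one], valueAt_algebraMap, mul_one]

end NodalDatum

end FermatAgent.BadRed.Semistable
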