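import Fermat.Agent.BadRed.Semistable.Inject

/-!
# The divisors entering the lifting of toric invariants
-/

set_option autoImplicit false

noncomputable section

open WithZero AlgebraicCurve

namespace FermatAgent.BadRed.Semistable

open FermatAgent.Curve FermatAgent.Curve.RR

namespace NodalDatum

variable {K : Type*} [Field K] [IsAlgClosed K] {A : ValuationSubring K} {k : Type*}
    [Field k] [IsAlgClosed k] {π : A →+* k} {F F₁ F₂ : Type*} [Field F] [Field F₁] [Field F₂]
    [Algebra K F] [Algebra k F₁] [Algebra k F₂] [IsFunctionField1 K F] [IsFunctionField1 k F₁]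
    [IsFunctionField1 k F₂] [RRSetting K F] [RRSetting k F₁] [RRSetting k F₂] [Infinite k]
variable (d : NodalDatum A π F F₁ F₂)

open scoped Classical

/-- The lift of a divisor of the glued curve. -/
def liftOf (S : d.C.Pt →₀ ℤ) : Divisor K F := Finsupp.mapDomain d.above S

theorem above_injective : Function.Injective d.above := fun a b e => by
  rw [← d.place_above a, e, place_above]

theorem liftOf_apply (S : d.C.Pt →₀ ℤ) (P : Place K F) :
    d.liftOf S P = if P = d.above (d.place P) then S (d.place P) else 0 := by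
  split_ifs with h
  · conv_lhs => rw [h]
    exact Finsupp.mapDomain_apply d.above_injective S _
  · exact Finsupp.mapDomain_of_notMem_range _ _ fun ⟨ω, hω⟩ => h (by rw [← hω, place_above])

theorem redDiv_liftOf (S : d.C.Pt →₀ ℤ) : d.redDiv (d.liftOf S) = S := by
  rw [redDiv_apply, liftOf, ← Finsupp.mapDomain_comp,
    show d.place ∘ d.above = id from funext fun ω => d.place_above ω, Finsupp.mapDomain_id]

theorem degree_liftOf (S : d.C.Pt →₀ ℤ) :
    Divisor.degree (d.liftOf S) = S.sum (fun _ m => m) := by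
  rw [degree_eq_sum, liftOf, Finsupp.sum_mapDomain_index (fun _ => rfl) (fun _ _ _ => rfl)]

theorem sum_divisor (ns : d.C.NonSpecial) :
    ns.divisor.sum (fun _ m => m) = (genusFF K F : ℤ) := by
  rw [Glued.NonSpecial.divisor, ← Finsupp.sum_finsetSum_index (fun _ => rfl) (fun _ _ _ => rfl)]
  simp [d.genus_eq_card ns]

/-- Integral bases of Riemann–Roch spaces of effective divisors. -/
theorem exists_basis {Z : Divisor K F} (hZ : 0 ≤ Z) :
    ∃ (b : Fin (ell Z) → F) (hb : ∀ l, b l ∈ d.int),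
      (∀ l, b l ∈ riemannRochSpace Z) ∧ LinearIndependent k (fun l => d.red ⟨b l, hb l⟩) := by
  obtain ⟨l₀, t, ht, hl₀, hts, t1, t2, -⟩ :=
    d.exists_section_ge hZ ∅ (fun _ _ => Finset.notMem_empty _)
  have htne := d.ne_zero_of_red_fst ht t1
  let μ : F →ₗ[K] F := LinearMap.mulLeft K t
  have hμ : Function.Injective μ := mul_right_injective₀ htne
  set W := (riemannRochSpace Z).map μ with hW
  have hle : W ≤ riemannRochSpace ((l₀ + d.N₀) • d.D) := by
    rintro _ ⟨f, hf, rfl⟩
    have := mul_mem_rrSpace hts hf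
    rw [sub_add_cancel] at this
    exact rrSpace_mono (nsmul_le_nsmul_left (poleDiv_nonneg _) (Nat.le_add_right _ _)) this
  have hfin : Module.finrank K W = ell Z :=
    (Submodule.equivMapOfInjective μ hμ (riemannRochSpace Z)).finrank_eq.symm
  obtain ⟨b, hb, hbW, hli, -⟩ := d.exists_basis_of_le (Nat.le_add_left _ _) W hle
  obtain ⟨hi1, hr1⟩ := d.g₁.inv_mem d.residue_surjective ht.1 t1
  obtain ⟨hi2, hr2⟩ := d.g₂.inv_mem d.residue_surjective ht.2 t2
  have hti : t⁻¹ ∈ d.int := ⟨hi1, hi2⟩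
  refine ⟨fun l => t⁻¹ * b (Fin.cast hfin.symm l), fun l => mul_mem hti (hb _), fun l => ?_, ?_⟩
  · obtain ⟨f, hf, e⟩ := hbW (Fin.cast hfin.symm l)
    change t⁻¹ * b _ ∈ _
    rw [← e]
    change t⁻¹ * (t * f) ∈ _
    rwa [← mul_assoc, inv_mul_cancel₀ htne, one_mul]
  · have hne1 : (d.red ⟨t⁻¹, hti⟩).1 ≠ 0 := by
      rw [show (d.red ⟨t⁻¹, hti⟩).1 = _ from hr1]; exact inv_ne_zero t1
    have hne2 : (d.red ⟨t⁻¹, hti⟩).2 ≠ 0 := by
      rw [show (d.red ⟨t⁻¹, hti⟩).2 = _ from hr2]; exact inv_ne_zero t2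
    have hinj : Function.Injective (LinearMap.mulLeft k (d.red ⟨t⁻¹, hti⟩)) := fun p q e => by
      have e1 := congrArg Prod.fst e
      have e2 := congrArg Prod.snd e
      simp only [LinearMap.mulLeft_apply, Prod.fst_mul, Prod.snd_mul] at e1 e2
      exact Prod.ext (mul_left_cancel₀ hne1 e1) (mul_left_cancel₀ hne2 e2)
    have := (hli.comp _ (Fin.cast_injective hfin.symm)).map' _ (LinearMap.ker_eq_bot.mpr hinj)
    rw [show (fun l => d.red ⟨t⁻¹ * b (Fin.cast hfin.symm l), mul_mem hti (hb _)⟩) =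
      LinearMap.mulLeft k (d.red ⟨t⁻¹, hti⟩) ∘ (fun i => d.red ⟨b i, hb i⟩) ∘ Fin.cast hfin.symm from
      funext fun l => d.red_mul hti (hb _)]
    exact this

end NodalDatum

end FermatAgent.BadRed.Semistable
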