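import Fermat.Agent.BadRed.Semistable.Regular
import Fermat.Agent.BadRed.Semistable.Frobenius
import Fermat.Agent.Igusa.GoodRed.Concrete

/-!
# Lifting functions on the fibre of `X₀(N')` to `X₀(q N')`

Sections of multiples of the polar divisor of `j` on `X₀(N')` in characteristic `q` lift to
`X₀(N')` over `ℚbar`; pulled back to `X₀(q N')` they give pairs `(r, ψ r)`.
-/

set_option autoImplicit false
set_option linter.unusedSectionVars false
set_option linter.style.haveILetI false

noncomputable section

open Polynomial ModularCurve AlgebraicCurve WithZero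

namespace FermatAgent.BadRed.Semistable

open FermatAgent.Igusa FermatAgent.ModFun FermatAgent.Curve FermatAgent.Curve.RR

attribute [local instance] neZero_prime

local notation "ℚ̄" => AlgebraicClosure ℚ

/-- A place of `K` over a place of `ℚbar` with the same residue field. -/
structure PlaceHom {K : Type*} [Field K] (A₀ : ValuationSubring ℚ̄) (A : ValuationSubring K)
    (π : A →+* IsLocalRing.ResidueField A₀) where
  emb : ℚ̄ →+* K
  surjective : Function.Surjective π
  arch : ∀ b : K, ∀ c : A, π c = 0 → ∃ n : ℕ, b * (c : K) ^ n ∈ A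
  mem : ∀ a : A₀, emb a ∈ A
  compat : ∀ a : A₀, π ⟨emb a, mem a⟩ = IsLocalRing.residue A₀ a

namespace PlaceHom

variable {K : Type*} [Field K] {A₀ : ValuationSubring ℚ̄} {A : ValuationSubring K}
  {π : A →+* IsLocalRing.ResidueField A₀} (P : PlaceHom A₀ A π)

/-- On integers. -/
def embInt : A₀ →+* A := (P.emb.comp A₀.subtype).codRestrict A P.mem

theorem subtype_comp_embInt : A.subtype.comp P.embInt = P.emb.comp A₀.subtype := rfl

theorem pi_comp_embInt : π.comp P.embInt = IsLocalRing.residue A₀ := RingHom.ext P.compat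

end PlaceHom

theorem rrSpace_of_relations {K F : Type*} [Field K] [IsAlgClosed K] [Field F] [Algebra K F]
    [IsFunctionField1 K F] {x f : F} (hx : x ≠ 0) {n : ℕ} {p p' : K[X][X]} (hp : p.Monic)
    (hpf : p.eval₂ (aeval x).toRingHom f = 0) (hp' : p'.Monic)
    (hpf' : p'.eval₂ (aeval x⁻¹).toRingHom (f / x ^ n) = 0) :
    f ∈ riemannRochSpace (n • (poleDiv x : Divisor K F)) := by
  rw [← polePart_eq_poleDiv, ← Igusa.boundedPoles_iff hx]
  exact fun v => ⟨fun hv => mem_of_le_one (le_one_of_monic_root v
    ((mem_iff_adicValuation_le_one v).mp hv) hp hpf), fun hv => mem_of_le_one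
    (le_one_of_monic_root v ((mem_iff_adicValuation_le_one v).mp
      ((v.toValuationSubring.mem_or_inv_mem _).resolve_left hv)) hp' hpf')⟩

theorem map_relation {K K' F F' : Type*} [Field K] [Field K'] [Field F] [Field F'] [Algebra K F]
    [Algebra K' F'] (φ : K →+* K') (η : F →+* F')
    (hη : ∀ c, η (algebraMap K F c) = algebraMap K' F' (φ c)) {x f : F} {p : K[X][X]}
    (h : p.eval₂ (aeval x).toRingHom f = 0) :
    (p.map (mapRingHom φ)).eval₂ (aeval (η x)).toRingHom (η f) = 0 := by
  rw [eval₂_map, ← map_zero η, ← h, hom_eval₂]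
  refine eval₂_congr (Polynomial.ringHom_ext (fun c => ?_) ?_) rfl rfl
  · simp [hη]
  · simp

variable {K : Type*} [Field K] [Algebra ℚ K] {q : ℕ} [Fact q.Prime] {N' : ℕ} [NeZero N']
  (hco : q.Coprime N') [NeZero (q * N')]

variable (K q N') in
/-- Evaluation at the two generators of level `N'`. -/
def upEval : K[X][X] →+* laurentBaseChange K (modularFunctionFieldFull (q * N')) :=
  biEval (jBar K (q * N')) (jdBar K (dvd_mul_left N' q))

theorem coe_upEval (R : K[X][X]) : (upEval K q N' R : LaurentSeries K) = gev K N' R :=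
  Igusa.Down.coe_biEval_eq_gev _ _ rfl (coe_jdBar _) R

theorem coe_atkinLehner_upEval (R : K[X][X]) :
    (atkinLehnerBar hco K (upEval K q N' R) : LaurentSeries K) = qExpand K q (gev K N' R) := by
  have h : (((laurentBaseChange K (modularFunctionFieldFull (q * N'))).val.toRingHom.comp
      (atkinLehnerBar hco K).toAlgHom.toRingHom).comp (upEval K q N')) =
      (qExpand K q).comp (gev K N') := by
    refine Polynomial.ringHom_ext (fun p => ?_) ?_
    · suffices hh : (((laurentBaseChange K (modularFunctionFieldFull (q * N'))).val.toRingHom.comp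
          (atkinLehnerBar hco K).toAlgHom.toRingHom).comp (upEval K q N')).comp Polynomial.C =
          ((qExpand K q).comp (gev K N')).comp Polynomial.C from RingHom.congr_fun hh p
      refine Polynomial.ringHom_ext (fun c => ?_) ?_
      · show ((atkinLehnerBar hco K (upEval K q N' (C (C c))) : _) : LaurentSeries K) = qExpand K q _
        rw [upEval, biEval, coe_eval₂RingHom, eval₂_C, AlgHom.toRingHom_eq_coe, RingHom.coe_coe,
          aeval_C, AlgEquiv.commutes, gev_C, gevC_C, HahnSeries.C_apply, qExpand_single, mul_zero]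
        exact algebraMap_laurentSeries_eq_single _ c
      · show ((atkinLehnerBar hco K (upEval K q N' (C X)) : _) : LaurentSeries K) = qExpand K q _
        rw [upEval, biEval, coe_eval₂RingHom, eval₂_C, AlgHom.toRingHom_eq_coe, RingHom.coe_coe,
          aeval_X, coe_atkinLehner_jBar hco, gev_C, gevC_X]
    · show ((atkinLehnerBar hco K (upEval K q N' X) : _) : LaurentSeries K) = qExpand K q _
      rw [upEval, biEval, coe_eval₂RingHom, eval₂_X, gev_X, jdBar, atkinLehnerBar_toBaseChange,
        coe_toBaseChange, (atkinLehner_qExpand hco (dvd_refl N')).1, coeffEmb_qExpand,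
        jqNModC, qExpand_qExpand]
  exact RingHom.congr_fun h R

theorem fieldC_le_level {x : LaurentSeries K} (hx : x ∈ modularFunctionFieldC K N') :
    x ∈ laurentBaseChange K (modularFunctionFieldFull (q * N')) := by
  obtain ⟨R, S, hS, h⟩ := Igusa.Down.exists_gev_quotient K N' hx
  rw [show x = gev K N' R / gev K N' S from (eq_div_iff hS).mpr h, ← coe_upEval (q := q),
    ← coe_upEval (q := q)]
  exact div_mem (SetLike.coe_mem _) (SetLike.coe_mem _)

theorem coe_atkinLehner_fieldC (u : laurentBaseChange K (modularFunctionFieldFull (q * N')))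
    (hu : (u : LaurentSeries K) ∈ modularFunctionFieldC K N') :
    (atkinLehnerBar hco K u : LaurentSeries K) = qExpand K q (u : LaurentSeries K) := by
  obtain ⟨R, S, hS, h⟩ := Igusa.Down.exists_gev_quotient K N' hu
  have e : u * upEval K q N' S = upEval K q N' R := Subtype.ext (by
    rw [MulMemClass.coe_mul, coe_upEval, coe_upEval, h])
  have e' := congrArg (fun z => ((atkinLehnerBar hco K z : _) : LaurentSeries K)) e
  simp only [map_mul, MulMemClass.coe_mul, coe_atkinLehner_upEval] at e'
  rw [← h, map_mul] at e'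
  exact mul_right_cancel₀ ((map_ne_zero_iff _ (RingHom.injective _)).mpr hS) e'

variable {A₀ : ValuationSubring ℚ̄} {A : ValuationSubring K}
  {π : A →+* IsLocalRing.ResidueField A₀} (P : PlaceHom A₀ A π)

theorem coeffMap_emb_mem {x : LaurentSeries ℚ̄} (hx : x ∈ modularFunctionFieldBar N') :
    coeffMap P.emb x ∈ modularFunctionFieldC K N' := by
  obtain ⟨R, S, hS, h⟩ := Igusa.Down.exists_gev_quotient ℚ̄ N'
    (x := x) (by rw [← laurentBaseChange_full_eq]; exact hx)
  have h' := congrArg (coeffMap P.emb) h
  rw [map_mul, coeffMap_gev, coeffMap_gev] at h'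
  have hne : gev K N' (S.map (mapRingHom P.emb)) ≠ 0 := by
    rw [← coeffMap_gev]
    exact (map_ne_zero_iff _ (coeffMap_injective_of_injective P.emb.injective)).mpr hS
  rw [(eq_div_iff hne).mpr h']
  exact div_mem (Igusa.Down.gev_mem K N' _) (Igusa.Down.gev_mem K N' _)

/-- From level `N'` over `ℚbar` to level `q N'` over `K`. -/
def upHom : modularFunctionFieldBar N' →+*
    laurentBaseChange K (modularFunctionFieldFull (q * N')) :=
  ((coeffMap P.emb).comp (modularFunctionFieldBar N').val.toRingHom).codRestrict _ fun x =>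
    fieldC_le_level (coeffMap_emb_mem P x.2)

theorem coe_upHom (x : modularFunctionFieldBar N') :
    (upHom (q := q) P x : LaurentSeries K) = coeffMap P.emb (x : LaurentSeries ℚ̄) := rfl

theorem upHom_algebraMap (c : ℚ̄) :
    upHom (q := q) (N' := N') P (algebraMap ℚ̄ _ c) = algebraMap K _ (P.emb c) :=
  Subtype.ext (by
    rw [coe_upHom]
    show coeffMap P.emb (algebraMap ℚ̄ (LaurentSeries ℚ̄) c) = algebraMap K (LaurentSeries K) _
    rw [algebraMap_laurentSeries_eq_single, algebraMap_laurentSeries_eq_single, coeffMap_single])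

variable [IsAlgClosed K] [CharP (IsLocalRing.ResidueField A₀) q] (hA : A₀.LiesOverPrime q)
  [IsFunctionField1 K (laurentBaseChange K (modularFunctionFieldFull (q * N')))]
  [IsAlgClosed (IsLocalRing.ResidueField A₀)]
  [IsFunctionField1 (IsLocalRing.ResidueField A₀)
    (modularFunctionFieldFullC (IsLocalRing.ResidueField A₀) N')]

set_option maxHeartbeats 800000 in
include hA in
/-- **Lifts of sections on the fibre.** -/
theorem exists_up_lift :
    ∃ n₀ : ℕ, ∀ n, n₀ ≤ n → ∀ r ∈ riemannRochSpace (n • (poleDiv
      (jFib (IsLocalRing.ResidueField A₀) N') : Divisor (IsLocalRing.ResidueField A₀) _)),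
      ∃ (u : laurentBaseChange K (modularFunctionFieldFull (q * N')))
        (h : u ∈ (levelGauss P.surjective hco P.arch).pairInt (atkinLehnerBar hco K)),
        u ∈ riemannRochSpace (n • (poleDiv (jBar K (q * N')) : Divisor K _)) ∧
        atkinLehnerBar hco K u ∈ riemannRochSpace
          (n • (poleDiv (atkinLehnerBar hco K (jBar K (q * N'))) : Divisor K _)) ∧
        (levelGauss P.surjective hco P.arch).pairRed (atkinLehnerBar hco K) ⟨u, h⟩ =
          (r, fibFrob (IsLocalRing.ResidueField A₀) q N' r) := by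
  have hℓN : ¬ q ∣ N' := (Nat.Prime.coprime_iff_not_dvd Fact.out).mp hco
  haveI : Fact (Function.Surjective (IsLocalRing.residue A₀)) :=
    ⟨IsLocalRing.residue_surjective⟩
  haveI := Igusa.Down.isFunctionField1_bar N'
  obtain ⟨n₀, hn₀⟩ := Igusa.Down.exists_lift_bar A₀ N' hℓN hA
  refine ⟨n₀, fun n hn r hr => ?_⟩
  have ht : Igusa.Down.redBar A₀ N' hℓN (Igusa.Down.tBar A₀ N') =
      jFib (IsLocalRing.ResidueField A₀) N' :=
    Subtype.ext (Igusa.Down.coe_redBar_tBar A₀ N' hℓN)
  have hb : BoundedPoles (IsLocalRing.ResidueField A₀)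
      (Igusa.Down.redBar A₀ N' hℓN (Igusa.Down.tBar A₀ N')) n r := by
    rw [ht, Igusa.boundedPoles_iff, polePart_eq_poleDiv]
    · exact hr
    · exact fun e => transcendental_jFib (e ▸ isAlgebraic_zero)
  obtain ⟨f, hfb, hfr⟩ := hn₀ n r hn hb
  obtain ⟨⟨p, hp, hpf⟩, p', hp', hpf'⟩ := Igusa.Down.exists_monic_of_boundedPoles hfb
  set u : laurentBaseChange K (modularFunctionFieldFull (q * N')) := upHom P f.1 with hu
  have hut : upHom P (Igusa.Down.tBar A₀ N' : modularFunctionFieldBar N') = jBar K (q * N') :=
    Subtype.ext (by rw [coe_upHom]; exact coeffMap_jqModC P.emb)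
  set w := atkinLehnerBar hco K
  have hwu : (w u : LaurentSeries K) = qExpand K q (u : LaurentSeries K) :=
    coe_atkinLehner_fieldC hco u (coeffMap_emb_mem P f.1.2)
  -- the representation of `f`
  obtain ⟨R, S, hrep⟩ := f.2
  set y : LaurentSeries A := coeffMap P.embInt (gev A₀ N' R)
  set z : LaurentSeries A := coeffMap P.embInt (gevC A₀ S)
  have hz : coeffMap π z = coeffMap (IsLocalRing.residue A₀) (gevC A₀ S) := by
    rw [coeffMap_coeffMap, P.pi_comp_embInt]
  have hy : coeffMap π y = coeffMap (IsLocalRing.residue A₀) (gev A₀ N' R) := by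
    rw [coeffMap_coeffMap, P.pi_comp_embInt]
  have hz0 : coeffMap π z ≠ 0 := by rw [hz]; exact gevC_red_ne_zero hrep.1
  have hrepu : IsSeriesRep A π (u : LaurentSeries K) y z := by
    refine ⟨hz0, ?_⟩
    have := congrArg (coeffMap P.emb) hrep.2
    rw [map_mul] at this
    rw [coeffMap_coeffMap, coeffMap_coeffMap, P.subtype_comp_embInt, ← coeffMap_coeffMap,
      ← coeffMap_coeffMap]
    exact this
  have hrepw : IsSeriesRep A π (w u : LaurentSeries K) (qExpand A q y) (qExpand A q z) := by
    refine ⟨?_, ?_⟩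
    · rw [coeffMap_qExpand]
      exact (map_ne_zero_iff _ (RingHom.injective _)).mpr hz0
    · rw [hwu, coeffMap_qExpand, coeffMap_qExpand, ← map_mul, hrepu.2]
  obtain ⟨h1, e1⟩ := seriesGauss_red_of_rep (M := q * N') q P.surjective hrepu
  obtain ⟨h2, e2⟩ := seriesGauss_red_of_rep (M := q * N') q P.surjective hrepw
  have hr' : (r : LaurentSeries (IsLocalRing.ResidueField A₀)) = coeffMap π y / coeffMap π z := by
    rw [hy, hz, ← hfr, Igusa.Down.coe_redBar]
    exact gaussRed_eq A₀ (IsLocalRing.residue A₀) N' ⟨_, f.2⟩ hrep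
  refine ⟨u, ((GaussRed.mem_pairInt _ w).mpr ⟨h1, h2⟩ :
    u ∈ (levelGauss P.surjective hco P.arch).pairInt w), ?_, ?_, ?_⟩
  · refine rrSpace_of_relations (x := jBar K (q * N'))
      (fun e => transcendental_jBar K (q * N') (by rw [e]; exact isAlgebraic_zero))
      (hp.map (mapRingHom P.emb)) ?_ (hp'.map (mapRingHom P.emb)) ?_
    · rw [← hut]; exact map_relation P.emb (upHom P) (upHom_algebraMap P) hpf
    · have := map_relation P.emb (upHom (q := q) P) (upHom_algebraMap P) hpf'
      rwa [map_inv₀, map_div₀, map_pow, hut] at this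
  · refine rrSpace_of_relations (x := w (jBar K (q * N')))
      (fun e => transcendental_jBar K (q * N') (by
        rw [show jBar K (q * N') = 0 by simpa using e]; exact isAlgebraic_zero))
      (hp.map (mapRingHom P.emb)) ?_ (hp'.map (mapRingHom P.emb)) ?_
    · have := map_relation P.emb (w.toAlgHom.toRingHom.comp (upHom (q := q) P))
        (fun c => by
          show w (upHom P (algebraMap ℚ̄ _ c)) = _
          rw [upHom_algebraMap, AlgEquiv.commutes]) hpf
      rw [RingHom.comp_apply, RingHom.comp_apply, hut] at this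
      exact this
    · have := map_relation P.emb (w.toAlgHom.toRingHom.comp (upHom (q := q) P))
        (fun c => by
          show w (upHom P (algebraMap ℚ̄ _ c)) = _
          rw [upHom_algebraMap, AlgEquiv.commutes]) hpf'
      rw [map_inv₀, map_div₀, map_pow, RingHom.comp_apply, RingHom.comp_apply, hut] at this
      exact this
  · rw [GaussRed.pairRed_mk]
    refine Prod.ext (Subtype.ext (e1.trans hr'.symm)) (Subtype.ext (e2.trans ?_))
    rw [coe_fibFrob, hr', map_div₀, coeffMap_qExpand, coeffMap_qExpand]

end FermatAgent.BadRed.Semistable
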