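import Fermat.Agent.ModCurve.Torsion.DegreeRatio
import Fermat.Prelude.Def_ModularCurve_GenusNumerics
import Mathlib.Data.ZMod.QuotientRing
import Mathlib.Algebra.Polynomial.Roots

/-!
# The number of double points of the reduction of `X₀(q N')` at `q`

`g(q N') + 1 - 2 g(N')` is positive.
-/

set_option autoImplicit false

noncomputable section

open ModularCurve Polynomial

namespace FermatAgent.BadRed.Semistable

variable {q N' : ℕ}

theorem card_roots_le_two (q : ℕ) [Fact q.Prime] (b : ZMod q) :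
    Nat.card {x : ZMod q // x ^ 2 + b * x + 1 = 0} ≤ 2 := by
  classical
  set P : (ZMod q)[X] := X ^ 2 + C b * X + 1
  have hdeg : P.natDegree = 2 := by unfold P; compute_degree!
  have hP : P ≠ 0 := fun h => by simp [h] at hdeg
  rw [Nat.card_eq_fintype_card, Fintype.card_subtype]
  refine (Finset.card_le_card (t := P.roots.toFinset) fun x hx => ?_).trans
    ((Multiset.toFinset_card_le _).trans ((P.card_roots').trans hdeg.le))
  rw [Multiset.mem_toFinset, mem_roots hP, IsRoot.def]
  simpa [P] using (Finset.mem_filter.mp hx).2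

theorem card_roots_mul (hco : q.Coprime N') [NeZero q] [NeZero N'] (b : ℤ) :
    Nat.card {x : ZMod (q * N') // x ^ 2 + (b : ZMod (q * N')) * x + 1 = 0} =
      Nat.card {x : ZMod q // x ^ 2 + (b : ZMod q) * x + 1 = 0} *
        Nat.card {x : ZMod N' // x ^ 2 + (b : ZMod N') * x + 1 = 0} := by
  rw [← Nat.card_prod]
  refine Nat.card_congr (((ZMod.chineseRemainder hco).toEquiv.subtypeEquiv
    (q := fun y : ZMod q × ZMod N' => (y.1 ^ 2 + (b : ZMod q) * y.1 + 1 = 0) ∧
      (y.2 ^ 2 + (b : ZMod N') * y.2 + 1 = 0)) fun x => ?_).trans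
    (Equiv.subtypeProdEquivProd (p := fun y : ZMod q => y ^ 2 + (b : ZMod q) * y + 1 = 0)
      (q := fun y : ZMod N' => y ^ 2 + (b : ZMod N') * y + 1 = 0)))
  show _ ↔ _ ∧ _
  rw [← (ZMod.chineseRemainder hco).injective.eq_iff, map_zero, map_add, map_add, map_mul, map_pow,
    map_one, map_intCast, Prod.ext_iff]
  simp

theorem nuTwo_le (hco : q.Coprime N') [Fact q.Prime] [NeZero N'] :
    nuTwo (q * N') ≤ 2 * nuTwo N' := by
  have : NeZero q := ⟨(Fact.out : q.Prime).ne_zero⟩
  have h := card_roots_mul hco 0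
  simp only [Int.cast_zero, zero_mul, add_zero] at h
  rw [nuTwo, nuTwo, h]
  refine Nat.mul_le_mul_right _ ?_
  simpa using card_roots_le_two q 0

theorem nuThree_le (hco : q.Coprime N') [Fact q.Prime] [NeZero N'] :
    nuThree (q * N') ≤ 2 * nuThree N' := by
  have : NeZero q := ⟨(Fact.out : q.Prime).ne_zero⟩
  have h := card_roots_mul hco 1
  simp only [Int.cast_one, one_mul] at h
  rw [nuThree, nuThree, h]
  refine Nat.mul_le_mul_right _ ?_
  simpa using card_roots_le_two q 1

theorem cuspCount_mul (hq : q.Prime) (hco : q.Coprime N') [NeZero N'] :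
    cuspCount (q * N') = 2 * cuspCount N' := by
  have hN := NeZero.ne N'
  have hdisj : Disjoint N'.divisors (N'.divisors.image (q * ·)) := by
    rw [Finset.disjoint_left]
    intro d hd hd'
    obtain ⟨e, -, rfl⟩ := Finset.mem_image.mp hd'
    exact hq.coprime_iff_not_dvd.mp hco ((dvd_mul_right q e).trans (Nat.dvd_of_mem_divisors hd))
  have hset : (q * N').divisors = N'.divisors ∪ N'.divisors.image (q * ·) := by
    ext d
    simp only [Finset.mem_union, Finset.mem_image, Nat.mem_divisors, mul_ne_zero_iff]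
    constructor
    · rintro ⟨hd, -⟩
      rcases Nat.coprime_or_dvd_of_prime hq d with h | ⟨e, rfl⟩
      · exact Or.inl ⟨h.symm.dvd_of_dvd_mul_left hd, hN⟩
      · exact Or.inr ⟨e, ⟨Nat.dvd_of_mul_dvd_mul_left hq.pos hd, hN⟩, rfl⟩
    · rintro (⟨hd, -⟩ | ⟨e, ⟨he, -⟩, rfl⟩)
      · exact ⟨hd.mul_left _, hq.ne_zero, hN⟩
      · exact ⟨mul_dvd_mul_left q he, hq.ne_zero, hN⟩
  unfold cuspCount
  rw [hset, Finset.sum_union hdisj, Finset.sum_image fun a _ b _ h =>
    Nat.eq_of_mul_eq_mul_left hq.pos h, two_mul]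
  congr 1
  · refine Finset.sum_congr rfl fun d hd => congrArg _ ?_
    have hd' := Nat.dvd_of_mem_divisors hd
    rw [Nat.mul_div_assoc _ hd',
      Nat.Coprime.gcd_mul_left_cancel_right _ (Nat.Coprime.coprime_dvd_right hd' hco)]
  · refine Finset.sum_congr rfl fun d hd => congrArg _ ?_
    have hd' := Nat.dvd_of_mem_divisors hd
    rw [Nat.mul_div_mul_left _ _ hq.pos,
      Nat.Coprime.gcd_mul_left_cancel _ (Nat.Coprime.coprime_dvd_right (Nat.div_dvd_of_dvd hd') hco)]

/-- The expected number of double points is positive. -/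
theorem genusFormula_gap_pos (hco : q.Coprime N') [Fact q.Prime] [NeZero N'] :
    0 < genusFormula (q * N') + 1 - 2 * genusFormula N' := by
  have hq := (Fact.out : q.Prime)
  unfold genusFormula
  rw [cuspCount_mul hq hco, mul_comm q N',
    ModCurveTorsion.dedekindPsi_mul_of_not_dvd (NeZero.ne N') hq (hq.coprime_iff_not_dvd.mp hco),
    mul_comm N' q]
  have h2 : ((nuTwo (q * N') : ℕ) : ℚ) ≤ 2 * nuTwo N' := by exact_mod_cast nuTwo_le hco
  have h3 : ((nuThree (q * N') : ℕ) : ℚ) ≤ 2 * nuThree N' := by exact_mod_cast nuThree_le hco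
  have hψ : (1 : ℚ) ≤ dedekindPsi N' := by
    exact_mod_cast ModCurveTorsion.dedekindPsi_pos (NeZero.ne N')
  have hq2 : (2 : ℚ) ≤ q := by exact_mod_cast hq.two_le
  push_cast
  nlinarith

end FermatAgent.BadRed.Semistable
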