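import Fermat.Agent.BadRed.Semistable.NodalGeneric
import Fermat.Agent.BadRed.Semistable.LiftUp
import Fermat.Agent.BadRed.Semistable.Numerics
import Fermat.Agent.ModCurve.Points.GenusBar
import Fermat.Agent.Curve.Descent.Laurent

/-!
# The reduction of `X₀(q N')` at `q`

For `q ∤ N'` the function field of `X₀(q N')` over an algebraically closed valued field above a
place of `ℚbar` over `q` has a nodal datum: two copies of `X₀(N')` in characteristic `q` glued at
`g (q N') + 1 - 2 g (N')` pairs `(Q, pull Q)`.
-/

set_option autoImplicit false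
set_option linter.unusedSectionVars false
set_option linter.style.haveILetI false

noncomputable section

open Polynomial ModularCurve AlgebraicCurve IntermediateField

namespace FermatAgent.BadRed.Semistable

open FermatAgent.Igusa FermatAgent.ModFun FermatAgent.Curve FermatAgent.Curve.RR

attribute [local instance] neZero_prime

local notation "ℚ̄" => AlgebraicClosure ℚ

variable {K : Type*} [Field K] [Algebra ℚ K]

theorem coe_kEval {M : ℕ} (x y : laurentBaseChange K (modularFunctionFieldFull M)) (S : ℤ[X][X]) :
    ((kEval x y S : laurentBaseChange K (modularFunctionFieldFull M)) : LaurentSeries K) =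
      kEval (x : LaurentSeries K) (y : LaurentSeries K) S :=
  map_kEval (laurentBaseChange K (modularFunctionFieldFull M)).val.toRingHom x y S

variable {q : ℕ} [Fact q.Prime] {N' : ℕ} [NeZero N'] (hco : q.Coprime N') [NeZero (q * N')]

include hco in
theorem kEval_level :
    kEval (jBar K (q * N')) (atkinLehnerBar hco K (jBar K (q * N'))) (jPhi q) = 0 := by
  apply Subtype.ext
  rw [coe_kEval, coe_atkinLehner_jBar hco]
  exact jPhi_root q K

variable {A₀ : ValuationSubring ℚ̄} {A : ValuationSubring K}
  {π : A →+* IsLocalRing.ResidueField A₀} (P : PlaceHom A₀ A π)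
  [CharP (IsLocalRing.ResidueField A₀) q] (hA : A₀.LiesOverPrime q)

include hco hA in
theorem finrank_fib :
    Module.finrank (IsLocalRing.ResidueField A₀)⟮jFib (IsLocalRing.ResidueField A₀) N'⟯
      (modularFunctionFieldFullC (IsLocalRing.ResidueField A₀) N') = dedekindPsi N' := by
  have hℓN : ¬ q ∣ N' := (Nat.Prime.coprime_iff_not_dvd Fact.out).mp hco
  haveI : Fact (Function.Surjective (IsLocalRing.residue A₀)) :=
    ⟨IsLocalRing.residue_surjective⟩
  have e : Igusa.Down.redBar A₀ N' hℓN (Igusa.Down.tBar A₀ N') =
      jFib (IsLocalRing.ResidueField A₀) N' :=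
    Subtype.ext (Igusa.Down.coe_redBar_tBar A₀ N' hℓN)
  rw [← e, Igusa.Down.finrank_fibre A₀ N' hℓN hA, ModCurveGroup.index_gamma0]

include hco hA in
theorem genusFF_fib :
    (genusFF (IsLocalRing.ResidueField A₀)
      (modularFunctionFieldFullC (IsLocalRing.ResidueField A₀) N') : ℚ) = genusFormula N' := by
  haveI := Igusa.Down.isFunctionField1_bar N'
  rw [(Igusa.Down.datum N' Fact.out ((Nat.Prime.coprime_iff_not_dvd Fact.out).mp hco) hA).genus_eq,
    ModCurve.Points.genusFF_bar]

variable [IsAlgClosed K]
  [IsFunctionField1 K (laurentBaseChange K (modularFunctionFieldFull (q * N')))]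

include P in
theorem genusFF_level :
    (genusFF K (laurentBaseChange K (modularFunctionFieldFull (q * N'))) : ℚ) =
      genusFormula (q * N') := by
  letI : Algebra ℚ̄ K := P.emb.toAlgebra
  haveI := Igusa.Down.isFunctionField1_bar (q * N')
  have hj : jq ∈ modularFunctionFieldFull (q * N') := by
    simpa [qExpand_one_apply] using jqd_mem_full (q * N') (d := 1) (one_dvd _)
  rw [Descent.laurent_genusFF_eq ℚ̄ K (modularFunctionFieldFull (q * N')) hj
    (by rw [coeffEmb_jq]; rintro ⟨p, hp, h⟩; exact hp (aeval_jqModC_eq_zero h)),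
    ModCurve.Points.genusFF_bar]

variable [IsAlgClosed (IsLocalRing.ResidueField A₀)]
  [IsFunctionField1 (IsLocalRing.ResidueField A₀)
    (modularFunctionFieldFullC (IsLocalRing.ResidueField A₀) N')]

include P hco hA in
theorem node_count :
    0 < (genusFF K (laurentBaseChange K (modularFunctionFieldFull (q * N'))) : ℤ) + 1 -
      2 * genusFF (IsLocalRing.ResidueField A₀)
        (modularFunctionFieldFullC (IsLocalRing.ResidueField A₀) N') := by
  have h := genusFormula_gap_pos (q := q) hco
  rw [← genusFF_level P, ← genusFF_fib hco hA] at h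
  exact_mod_cast h

theorem charZero_of_algebraRat (K : Type*) [Field K] [Algebra ℚ K] : CharZero K :=
  charZero_of_injective_algebraMap (algebraMap ℚ K).injective

attribute [local instance] charZero_of_algebraRat

theorem GaussRed.indep_pow {K F k R : Type*} [Field K] [Field F] [Algebra K F] [Field k] [Field R]
    [Algebra k R] {A : ValuationSubring K} {π : A →+* k} (G : GaussRed A π F R) {y : F}
    (hy : y ∈ G.integers) (Y : R) (e : G.red ⟨y, hy⟩ = Y) (J : R) {D : ℕ}
    (h : ∀ S : Fin D → k[X], ∑ i, aeval J (S i) * Y ^ (i : ℕ) = 0 → S = 0) :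
    ∀ S : Fin D → k[X],
      ∑ i, aeval J (S i) * G.red ⟨y ^ (i : ℕ), pow_mem hy _⟩ = 0 → S = 0 := fun S hS => h S (by
  rw [← hS]
  refine Finset.sum_congr rfl fun i _ => congrArg _ ?_
  rw [← e, ← map_pow]
  rfl)

theorem indep_jdFib {k : Type*} [Field k] [CharP k q] (hq : ¬ q ∣ N') (R : Fin (dedekindPsi N') → k[X])
    (hR : ∑ i, aeval (jFib k N') (R i) * (⟨jqNModC k N', modularFunctionFieldC_le_full k N'
      (jqNModC_mem k N')⟩ : modularFunctionFieldFullC k N') ^ (i : ℕ) = 0) : R = 0 := by
  classical
  set Q : k[X][X] := ∑ i : Fin (dedekindPsi N'), monomial (i : ℕ) (R i) with hQ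
  have hQev : bEval k N' Q = 0 := by
    have h := congrArg (fun z : modularFunctionFieldFullC k N' => (z : LaurentSeries k)) hR
    simp only [ZeroMemClass.coe_zero, AddSubmonoidClass.coe_finsetSum, MulMemClass.coe_mul,
      SubmonoidClass.coe_pow] at h
    rw [← h, hQ, map_sum]
    refine Finset.sum_congr rfl fun i _ => ?_
    rw [bEval_monomial]
    congr 1
    exact aeval_algHom_apply (modularFunctionFieldFullC k N').val (jFib k N') (R i)
  have hQ0 : Q = 0 := eq_zero_of_bEval_charP N' q hq k (by
    rw [ModCurveGroup.index_gamma0]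
    have hD := ModCurveTorsion.dedekindPsi_pos (NeZero.ne N')
    refine (Nat.lt_succ_of_le (natDegree_sum_le_of_forall_le _ _ (n := dedekindPsi N' - 1)
      fun i _ => ?_)).trans_le (by omega)
    exact (natDegree_monomial_le _).trans (by omega)) hQev
  funext i
  have := congrArg (fun S : k[X][X] => S.coeff (i : ℕ)) hQ0
  simpa [hQ, finsetSum_coeff, coeff_monomial, Fin.val_inj] using this

include hco P in
theorem level_twist :
    TwistDatum (levelGauss P.surjective hco P.arch) (atkinLehnerBar hco K) q (jBar K (q * N')) :=
  (levelGauss_twistDatum P.surjective hco P.arch).1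

theorem level_twist_J : (level_twist hco P).J = jFib (IsLocalRing.ResidueField A₀) N' :=
  (levelGauss_twistDatum (K := K) P.surjective hco P.arch).2.choose_spec

theorem level_map_J : fibFrob (IsLocalRing.ResidueField A₀) q N' (level_twist hco P).J =
    (level_twist hco P).J ^ q := by
  rw [level_twist_J hco P]
  exact fibFrob_jFib _ q N'

include hA in
theorem level_finrank_fib :
    Module.finrank (IsLocalRing.ResidueField A₀)⟮(level_twist hco P).J⟯
      (modularFunctionFieldFullC (IsLocalRing.ResidueField A₀) N') = dedekindPsi N' := by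
  rw [level_twist_J hco P]
  exact finrank_fib hco hA

include hA in
theorem level_lift : ∃ n₀ : ℕ, ∀ n, n₀ ≤ n → ∀ r ∈ riemannRochSpace (n • (poleDiv
      (level_twist hco P).J : Divisor (IsLocalRing.ResidueField A₀) _)),
      ∃ (u : laurentBaseChange K (modularFunctionFieldFull (q * N')))
        (h : u ∈ (levelGauss P.surjective hco P.arch).pairInt (atkinLehnerBar hco K)),
        u ∈ riemannRochSpace (n • (poleDiv (jBar K (q * N')) : Divisor K _)) ∧
        atkinLehnerBar hco K u ∈ riemannRochSpace
          (n • (poleDiv (atkinLehnerBar hco K (jBar K (q * N'))) : Divisor K _)) ∧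
        (levelGauss P.surjective hco P.arch).pairRed (atkinLehnerBar hco K) ⟨u, h⟩ =
          (r, fibFrob (IsLocalRing.ResidueField A₀) q N' r) := by
  rw [level_twist_J hco P]
  exact exists_up_lift hco P hA

include P in
theorem jdBar_mem : jdBar K (dvd_mul_left N' q) ∈ (levelGauss P.surjective hco P.arch).integers :=
  (seriesGauss_jd (q := q) P.surjective (coe_jdBar (dvd_mul_left N' q))).1

theorem levelGauss_red_jdBar :
    (levelGauss P.surjective hco P.arch).red ⟨jdBar K (dvd_mul_left N' q), jdBar_mem hco P⟩ =
      ⟨jqNModC (IsLocalRing.ResidueField A₀) N',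
        modularFunctionFieldC_le_full (IsLocalRing.ResidueField A₀) N'
          (jqNModC_mem (IsLocalRing.ResidueField A₀) N')⟩ :=
  Subtype.ext (seriesGauss_jd (q := q) P.surjective (coe_jdBar (dvd_mul_left N' q))).2

theorem level_indep : ∀ R : Fin (dedekindPsi N') → (IsLocalRing.ResidueField A₀)[X],
    ∑ i, aeval (level_twist hco P).J (R i) * (levelGauss P.surjective hco P.arch).red
      ⟨jdBar K (dvd_mul_left N' q) ^ (i : ℕ), pow_mem (jdBar_mem hco P) _⟩ = 0 → R = 0 :=
  (levelGauss P.surjective hco P.arch).indep_pow _ _ (levelGauss_red_jdBar hco P) _ (by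
    rw [level_twist_J hco P]
    exact indep_jdFib ((Nat.Prime.coprime_iff_not_dvd Fact.out).mp hco))

/-- The hypotheses of the nodal datum for `X₀(q N')`. -/
def nodalInput :
    NodalInput (levelGauss P.surjective hco P.arch) (atkinLehnerBar hco K) q (jBar K (q * N')) where
  twist := level_twist hco P
  root := kEval_level hco
  ψ := fibFrob (IsLocalRing.ResidueField A₀) q N'
  pull := fibPull (IsLocalRing.ResidueField A₀) q N'
  insep := insepData (IsLocalRing.ResidueField A₀) q N'
  map_J := level_map_J hco P
  lift := level_lift hco P hA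
  orth := levelGauss_hasOrth P.surjective hco P.arch
  D := dedekindPsi N'
  finrank_top := finrank_level hco
  finrank_fibre := level_finrank_fib hco P hA
  basis i := jdBar K (dvd_mul_left N' q) ^ (i : ℕ)
  basis_mem i := pow_mem (jdBar_mem hco P) _
  basis_indep := level_indep hco P
  c := (genusFF K (laurentBaseChange K (modularFunctionFieldFull (q * N'))) + 1 -
    2 * genusFF (IsLocalRing.ResidueField A₀)
      (modularFunctionFieldFullC (IsLocalRing.ResidueField A₀) N') : ℤ).toNat
  c_pos := by
    have := node_count hco P hA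
    omega
  genus := by
    have := node_count hco P hA
    omega

/-- **The nodal datum of `X₀(q N')` at `q`.** -/
def levelDatum : NodalDatum A π (laurentBaseChange K (modularFunctionFieldFull (q * N')))
    (modularFunctionFieldFullC (IsLocalRing.ResidueField A₀) N')
    (modularFunctionFieldFullC (IsLocalRing.ResidueField A₀) N') :=
  (nodalInput hco P hA).nodalDatum

theorem levelDatum_y (i : (levelDatum hco P hA).C.ι) :
    (levelDatum hco P hA).C.y i =
        fibPull (IsLocalRing.ResidueField A₀) q N' ((levelDatum hco P hA).C.x i) ∧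
      fibPull (IsLocalRing.ResidueField A₀) q N' ((levelDatum hco P hA).C.y i) =
        (levelDatum hco P hA).C.x i :=
  (nodalInput hco P hA).nodalDatum_y i

theorem card_levelDatum_nodes :
    (Fintype.card (levelDatum hco P hA).C.ι : ℚ) =
      genusFormula (q * N') + 1 - 2 * genusFormula N' := by
  rw [← genusFF_level P, ← genusFF_fib hco hA]
  have h := (nodalInput hco P hA).genus
  have e := (nodalInput hco P hA).card_nodes
  have : (Fintype.card (levelDatum hco P hA).C.ι) = (nodalInput hco P hA).c := e
  rw [this]
  have h' := congrArg (Nat.cast : ℕ → ℚ) h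
  push_cast at h'
  linarith

end FermatAgent.BadRed.Semistable
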