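import Fermat.Agent.BadRed.Semistable.TwoVal
import Fermat.Agent.Igusa.Saturation

/-!
# Reductions of finite-dimensional spaces, and integrality over `A[x]`

If every finite set lies in the span of a family with independent reductions then a space of
functions reduces, at a pair of valuations, to a space of the same dimension.
-/

set_option autoImplicit false
set_option linter.unusedSectionVars false
set_option linter.style.haveILetI false

noncomputable section

open Polynomial

namespace FermatAgent.BadRed.Semistable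

variable {K : Type*} [Field K] {A : ValuationSubring K} {k : Type*} [Field k] {π : A →+* k}
variable {F : Type*} [Field F] [Algebra K F] {R : Type*} [Field R] [Algebra k R]

namespace GaussRed

variable (G : GaussRed A π F R)

/-- Every finite set lies in the span of a family with independent reductions. -/
def HasOrth : Prop :=
  ∀ T : Finset F, ∃ (r : ℕ) (e : Fin r → F) (he : ∀ i, e i ∈ G.integers),
    LinearIndependent k (fun i => G.red ⟨e i, he i⟩) ∧
      (T : Set F) ⊆ Submodule.span K (Set.range e)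

variable (w : F ≃ₐ[K] F)

/-- Integral at `G` and at its twist by `w`. -/
def pairInt : Subring F := G.integers ⊓ G.integers.comap w.toRingEquiv.toRingHom

theorem mem_pairInt {f : F} : f ∈ G.pairInt w ↔ f ∈ G.integers ∧ w f ∈ G.integers := Iff.rfl

/-- Both reductions. -/
def pairRed : G.pairInt w →+* R × R :=
  RingHom.prod (G.red.comp (Subring.inclusion inf_le_left))
    ((G.red.comp (w.toRingEquiv.toRingHom.restrict (G.pairInt w) G.integers fun _ h => h.2)))

theorem pairRed_mk {f : F} (h : f ∈ G.pairInt w) :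
    G.pairRed w ⟨f, h⟩ = (G.red ⟨f, h.1⟩, G.red ⟨w f, h.2⟩) := rfl

theorem pairRed_congr {f f' : F} (e : f = f') (h : f ∈ G.pairInt w) :
    G.pairRed w ⟨f, h⟩ = G.pairRed w ⟨f', e ▸ h⟩ := by subst e; rfl

theorem smul_mem_pairInt {a : K} (ha : a ∈ A) {f : F} (hf : f ∈ G.pairInt w) :
    a • f ∈ G.pairInt w := by
  refine ⟨G.smul_mem ha hf.1, ?_⟩
  show w (a • f) ∈ G.integers
  rw [map_smul]
  exact G.smul_mem ha hf.2

theorem pairRed_smul {a : K} (ha : a ∈ A) {f : F} (hf : f ∈ G.pairInt w) :
    G.pairRed w ⟨a • f, G.smul_mem_pairInt w ha hf⟩ = π ⟨a, ha⟩ • G.pairRed w ⟨f, hf⟩ := by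
  rw [G.pairRed_mk w, G.pairRed_mk w]
  refine Prod.ext (G.red_smul ha hf.1) ?_
  exact (G.red_congr (map_smul w a f) _).trans (G.red_smul ha hf.2)

theorem sum_mem_pairInt {ι : Type*} (s : Finset ι) (a : ι → A) (b : ι → F)
    (hb : ∀ i ∈ s, b i ∈ G.pairInt w) : ∑ i ∈ s, ((a i : A) : K) • b i ∈ G.pairInt w :=
  sum_mem fun i hi => G.smul_mem_pairInt w (a i).2 (hb i hi)

theorem pairRed_sum {ι : Type*} [Fintype ι] (a : ι → A) (b : ι → F)
    (hb : ∀ i, b i ∈ G.pairInt w) :
    G.pairRed w ⟨∑ i, ((a i : A) : K) • b i, G.sum_mem_pairInt w _ a b fun i _ => hb i⟩ =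
      ∑ i, π (a i) • G.pairRed w ⟨b i, hb i⟩ := by
  have e : (⟨∑ i, ((a i : A) : K) • b i, G.sum_mem_pairInt w _ a b fun i _ => hb i⟩ :
      G.pairInt w) = ∑ i, ⟨((a i : A) : K) • b i, G.smul_mem_pairInt w (a i).2 (hb i)⟩ :=
    Subtype.ext (by simp)
  rw [e, map_sum]
  exact Finset.sum_congr rfl fun i _ => G.pairRed_smul w (a i).2 (hb i)

variable (hπ : Function.Surjective π)
include hπ

/-- Coefficients of an integral combination are integral. -/
theorem coeff_mem_pair {ι : Type*} [Fintype ι] (b : ι → F) (hb : ∀ i, b i ∈ G.pairInt w)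
    (hli : LinearIndependent k (fun i => G.pairRed w ⟨b i, hb i⟩)) (c : ι → K)
    (h : ∑ i, c i • b i ∈ G.pairInt w) : ∀ i, c i ∈ A := by
  intro i
  by_contra hi
  have hc : c ≠ 0 := fun e => hi (by rw [e]; exact A.zero_mem)
  obtain ⟨j, hj, hdom⟩ := exists_dominant (A := A) c hc
  have hjA : c j ∉ A := fun h' => hi (by
    have := A.mul_mem _ _ (hdom i) h'
    rwa [div_mul_cancel₀ _ hj] at this)
  let a : ι → A := fun l => ⟨c l / c j, hdom l⟩
  have e : ∑ l, ((a l : A) : K) • b l = (c j)⁻¹ • ∑ l, c l • b l := by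
    rw [Finset.smul_sum]
    exact Finset.sum_congr rfl fun l _ => by simp [a, smul_smul, div_eq_inv_mul]
  have h1 := G.pairRed_sum w a b hb
  rw [G.pairRed_congr w e, G.pairRed_smul w (inv_mem_of_not_mem hjA) h,
    pi_inv_of_not_mem hπ hjA, zero_smul] at h1
  have := Fintype.linearIndependent_iff.mp hli _ h1.symm j
  rw [show a j = 1 from Subtype.ext (div_self hj), map_one] at this
  exact one_ne_zero this

theorem linearIndependent_of_pairRed {ι : Type*} [Fintype ι] (b : ι → F)
    (hb : ∀ i, b i ∈ G.pairInt w)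
    (hli : LinearIndependent k (fun i => G.pairRed w ⟨b i, hb i⟩)) : LinearIndependent K b := by
  refine Fintype.linearIndependent_iff.mpr fun c hc => ?_
  by_contra hne
  push Not at hne
  have hc0 : c ≠ 0 := fun e => by obtain ⟨i, hi⟩ := hne; exact hi (by rw [e]; rfl)
  obtain ⟨j, hj, hdom⟩ := exists_dominant (A := A) c hc0
  let a : ι → A := fun l => ⟨c l / c j, hdom l⟩
  have e : ∑ l, ((a l : A) : K) • b l = 0 := by
    rw [← smul_zero (c j)⁻¹, ← hc, Finset.smul_sum]
    exact Finset.sum_congr rfl fun l _ => by simp [a, smul_smul, div_eq_inv_mul]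
  have h1 := G.pairRed_sum w a b hb
  rw [G.pairRed_congr w e, show (⟨(0 : F), zero_mem _⟩ : G.pairInt w) = 0 from rfl, map_zero] at h1
  have := Fintype.linearIndependent_iff.mp hli _ h1.symm j
  rw [show a j = 1 from Subtype.ext (div_self hj), map_one] at this
  exact one_ne_zero this

/-- The reductions of the integral elements of a space. -/
def pairImage (V : Submodule K F) : Submodule k (R × R) where
  carrier := {p | ∃ f, ∃ h : f ∈ G.pairInt w, f ∈ V ∧ G.pairRed w ⟨f, h⟩ = p}
  zero_mem' := ⟨0, zero_mem _, zero_mem _, map_zero _⟩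
  add_mem' := by
    rintro _ _ ⟨f, hf, hfV, rfl⟩ ⟨f', hf', hfV', rfl⟩
    exact ⟨f + f', add_mem hf hf', add_mem hfV hfV', map_add (G.pairRed w) ⟨f, hf⟩ ⟨f', hf'⟩⟩
  smul_mem' := by
    rintro c _ ⟨f, hf, hfV, rfl⟩
    obtain ⟨a, rfl⟩ := hπ c
    exact ⟨(a : K) • f, G.smul_mem_pairInt w a.2 hf, V.smul_mem _ hfV, G.pairRed_smul w a.2 hf⟩

/-- A space with an integral basis with independent reductions. -/
theorem exists_pair_basis (hG : G.HasOrth) (V : Submodule K F) [Module.Finite K V] :
    ∃ (b : Fin (Module.finrank K V) → F) (hb : ∀ i, b i ∈ G.pairInt w),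
      (∀ i, b i ∈ V) ∧ LinearIndependent k (fun i => G.pairRed w ⟨b i, hb i⟩) := by
  classical
  let β := Module.finBasis K V
  obtain ⟨r, e, he, hli, hsp⟩ := hG (Finset.univ.image fun i => (β i : F))
  obtain ⟨r', e', he', hli', hsp'⟩ := hG (Finset.univ.image fun i => w (β i : F))
  let ψ : (Fin r → K) × (Fin r' → K) →ₗ[K] F × F :=
    (Fintype.linearCombination K e).prodMap (Fintype.linearCombination K e')
  have hinj : ∀ (n : ℕ) (e : Fin n → F) (he : ∀ i, e i ∈ G.integers),
      LinearIndependent k (fun i => G.red ⟨e i, he i⟩) →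
        Function.Injective (Fintype.linearCombination K e) := by
    intro n e he hli
    have hb' : ∀ i, e i ∈ G.pairInt AlgEquiv.refl := fun i => ⟨he i, he i⟩
    exact LinearIndependent.fintypeLinearCombination_injective
      (G.linearIndependent_of_pairRed AlgEquiv.refl hπ e hb'
        (LinearIndependent.of_comp (LinearMap.fst k R R) (by exact hli)))
  have hψ : Function.Injective ψ := (hinj r e he hli).prodMap (hinj r' e' he' hli')
  let γ : V →ₗ[K] F × F := V.subtype.prod (w.toLinearMap.comp V.subtype)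
  have hγ : Function.Injective γ := fun a b h => Subtype.ext (congrArg Prod.fst h)
  have hrange : LinearMap.range γ ≤ LinearMap.range ψ := by
    rw [LinearMap.range_eq_map, ← β.span_eq, Submodule.map_span, Submodule.span_le]
    rintro _ ⟨_, ⟨i, rfl⟩, rfl⟩
    have h1 : (β i : F) ∈ Submodule.span K (Set.range e) :=
      hsp (Finset.mem_image.mpr ⟨i, Finset.mem_univ i, rfl⟩)
    have h2 : w (β i : F) ∈ Submodule.span K (Set.range e') :=
      hsp' (Finset.mem_image.mpr ⟨i, Finset.mem_univ i, rfl⟩)
    rw [← Fintype.range_linearCombination] at h1 h2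
    obtain ⟨c, hc⟩ := h1
    obtain ⟨c', hc'⟩ := h2
    exact ⟨(c, c'), Prod.ext hc hc'⟩
  let J : (Fin r ⊕ Fin r' → K) ≃ₗ[K] (Fin r → K) × (Fin r' → K) :=
    LinearEquiv.sumArrowLequivProdArrow _ _ K K
  let V' : Submodule K (Fin r ⊕ Fin r' → K) :=
    (LinearMap.range γ).comap (ψ.comp J.toLinearMap)
  have hψJ : Function.Injective (ψ.comp J.toLinearMap) := hψ.comp J.injective
  have hV' : Module.finrank K V' = Module.finrank K V := by
    rw [(Submodule.equivMapOfInjective _ hψJ V').finrank_eq, Submodule.map_comap_eq,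
      LinearMap.range_comp, LinearEquiv.range, Submodule.map_top, inf_eq_right.mpr hrange,
      LinearMap.finrank_range_of_inj hγ]
  obtain ⟨bc, hbV, hbli⟩ := exists_integral_basis π (A := A) _ V' hV'
  choose f hf using hbV
  have key : ∀ i, (f i : F) = ∑ a, ((bc i (.inl a) : A) : K) • e a ∧
      w (f i : F) = ∑ a, ((bc i (.inr a) : A) : K) • e' a := fun i =>
    ⟨(congrArg Prod.fst (hf i)).trans rfl, (congrArg Prod.snd (hf i)).trans rfl⟩
  have hb : ∀ i, (f i : F) ∈ G.pairInt w := fun i => by
    refine ⟨?_, ?_⟩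
    · show (f i : F) ∈ G.integers
      rw [(key i).1]
      exact sum_mem fun a _ => G.smul_mem (bc i (.inl a)).2 (he a)
    · show w (f i : F) ∈ G.integers
      rw [(key i).2]
      exact sum_mem fun a _ => G.smul_mem (bc i (.inr a)).2 (he' a)
  refine ⟨fun i => (f i : F), hb, fun i => (f i).2, ?_⟩
  have single : ∀ (n : ℕ) (e : Fin n → F) (he : ∀ i, e i ∈ G.integers) (c : Fin n → A) (x : F)
      (hx : x ∈ G.integers), x = ∑ a, ((c a : A) : K) • e a →
        G.red ⟨x, hx⟩ = ∑ a, π (c a) • G.red ⟨e a, he a⟩ := by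
    rintro n e he c x hx rfl
    rw [show (⟨∑ a, ((c a : A) : K) • e a, hx⟩ : G.integers) =
      ∑ a, ⟨((c a : A) : K) • e a, G.smul_mem (c a).2 (he a)⟩ from Subtype.ext (by simp), map_sum]
    exact Finset.sum_congr rfl fun a _ => G.red_smul (c a).2 (he a)
  let Φ : (Fin r ⊕ Fin r' → k) →ₗ[k] R × R :=
    ((Fintype.linearCombination k fun a => G.red ⟨e a, he a⟩).prodMap
      (Fintype.linearCombination k fun a => G.red ⟨e' a, he' a⟩)).comp
      (LinearEquiv.sumArrowLequivProdArrow _ _ k k).toLinearMap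
  have hΦ : (fun i => G.pairRed w ⟨(f i : F), hb i⟩) = Φ ∘ fun i l => π (bc i l) := by
    funext i
    exact Prod.ext (single r e he _ _ (hb i).1 (key i).1) (single r' e' he' _ _ (hb i).2 (key i).2)
  rw [hΦ]
  refine hbli.map' Φ (LinearMap.ker_eq_bot.mpr ?_)
  simp only [Φ, LinearMap.coe_comp, LinearEquiv.coe_coe]
  exact (hli.fintypeLinearCombination_injective.prodMap
    hli'.fintypeLinearCombination_injective).comp (LinearEquiv.injective _)

/-- The joint reduction preserves dimensions. -/
theorem finrank_pairImage (hG : G.HasOrth) (V : Submodule K F) [Module.Finite K V] :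
    Module.finrank k (G.pairImage w hπ V) = Module.finrank K V := by
  classical
  obtain ⟨b, hb, hbV, hli⟩ := G.exists_pair_basis w hπ hG V
  have hspan : G.pairImage w hπ V =
      Submodule.span k (Set.range fun i => G.pairRed w ⟨b i, hb i⟩) := by
    refine le_antisymm ?_ ?_
    · rintro p ⟨f, hf, hfV, rfl⟩
      let bV : Fin (Module.finrank K V) → V := fun i => ⟨b i, hbV i⟩
      have hliV : LinearIndependent K bV :=
        LinearIndependent.of_comp V.subtype (G.linearIndependent_of_pairRed w hπ b hb hli)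
      have htop := hliV.span_eq_top_of_card_eq_finrank' (Fintype.card_fin _)
      have hmem : (⟨f, hfV⟩ : V) ∈ Submodule.span K (Set.range bV) := by rw [htop]; trivial
      obtain ⟨c, hc⟩ := (Submodule.mem_span_range_iff_exists_fun K).mp hmem
      have hc' : ∑ i, c i • b i = f := by simpa [bV] using congrArg Subtype.val hc
      have hcA := G.coeff_mem_pair w hπ b hb hli c (hc' ▸ hf)
      let a : Fin (Module.finrank K V) → A := fun i => ⟨c i, hcA i⟩
      have e : ∑ i, ((a i : A) : K) • b i = f := hc'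
      rw [G.pairRed_congr w e.symm, G.pairRed_sum w a b hb]
      exact sum_mem fun i _ => Submodule.smul_mem _ _ (Submodule.subset_span ⟨i, rfl⟩)
    · rw [Submodule.span_le]
      rintro _ ⟨i, rfl⟩
      exact ⟨b i, hb i, hbV i, rfl⟩
  rw [hspan, finrank_span_eq_card hli, Fintype.card_fin]

/-- An element integral over `K[x]` with a primitive relation over `A[x]` is integral over
`A[x]`. -/
theorem exists_monic_of_relation [Algebra ℚ K] {x f : F} (hx : Transcendental K x) {p : K[X][X]} (hp : p.Monic)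
    (hpf : p.eval₂ (aeval x).toRingHom f = 0) {Φ : A[X][X]} (hΦ : Φ.leadingCoeff.map π ≠ 0)
    (hΦf : eval₂ (aeval x).toRingHom f (Φ.map (mapRingHom A.subtype)) = 0) :
    ∃ p' : A[X][X], p'.Monic ∧
      eval₂ (aeval x).toRingHom f (p'.map (mapRingHom A.subtype)) = 0 := by
  letI : Algebra K[X] F := (aeval x).toRingHom.toAlgebra
  have hinj : Function.Injective (algebraMap K[X] F) := transcendental_iff_injective.mp hx
  haveI : Module.IsTorsionFree K[X] F :=
    (faithfulSMul_iff_algebraMap_injective K[X] F).mpr hinj |>.to_isTorsionFree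
  haveI : Fact (Function.Surjective π) := ⟨hπ⟩
  have hint : IsIntegral K[X] f := ⟨p, hp, hpf⟩
  obtain ⟨p', hp', hmap⟩ := Igusa.exists_monic_of_dvd A π (minpoly.monic hint) hΦ
    (minpoly.isIntegrallyClosed_dvd hint hΦf)
  exact ⟨p', hp', by rw [hmap]; exact minpoly.aeval K[X] f⟩

/-- Reduction of a monic relation. -/
theorem red_monic_relation {x f : F} (hx : x ∈ G.integers) (hf : f ∈ G.integers) {p : A[X][X]}
    (h : eval₂ (aeval x).toRingHom f (p.map (mapRingHom A.subtype)) = 0) :
    eval₂ (aeval (G.red ⟨x, hx⟩)).toRingHom (G.red ⟨f, hf⟩) (p.map (mapRingHom π)) = 0 := by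
  rw [eval₂_map] at h ⊢
  let φ : A[X] →+* G.integers :=
    ((aeval x).toRingHom.comp (mapRingHom A.subtype)).codRestrict G.integers fun P =>
      (G.red_aeval hx P).1
  have h' : eval₂ φ ⟨f, hf⟩ p = 0 := by
    refine Subtype.ext ?_
    show G.integers.subtype _ = _
    rw [hom_eval₂]
    exact h
  have := congrArg G.red h'
  rw [hom_eval₂, map_zero] at this
  rw [← this]
  refine eval₂_congr (RingHom.ext fun P => ?_) rfl rfl
  exact ((G.red_aeval hx P).2).symm

end GaussRed

end FermatAgent.BadRed.Semistable
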