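import Fermat.Agent.BadRed.Semistable.PadicPlace
import Fermat.Prelude.Def_FLTPrelim_Ramification
import Fermat.Prelude.Def_EllipticCurve_FrobeniusTrace

/-!
# Decomposition elements act on the complete place
-/

set_option autoImplicit false

noncomputable section

open scoped Pointwise

namespace FermatAgent.BadRed.Semistable

open FermatAgent.ModFun (qbarToC)

local notation "ℚ̄" => AlgebraicClosure ℚ
local notation "GQ" => AlgebraicClosure ℚ ≃ₐ[ℚ] AlgebraicClosure ℚ

variable (q : ℕ) [Fact q.Prime]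

theorem norm_le_pow_iff {a : ℚ̄} (m : ℕ) :
    ‖embCq q a‖ ≤ ‖(q : ℂ_[q])‖ ^ m ↔ a / (q : ℚ̄) ^ m ∈ place₀ q := by
  rw [mem_place₀, map_div₀, map_pow, map_natCast, norm_div, norm_pow,
    div_le_one (pow_pos (norm_pos_iff.mpr (prime_ne_zero q)) m)]

theorem mem_place₀_of_decomp {σ : GQ} (hσ : σ ∈ (place₀ q).decompositionSubgroup ℚ) {a : ℚ̄}
    (ha : a ∈ place₀ q) : σ a ∈ place₀ q := by
  have h := ValuationSubring.smul_mem_pointwise_smul σ a (place₀ q) ha
  rw [MulAction.mem_stabilizer_iff.mp hσ] at h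
  exact h

theorem uniformContinuous_decomp {σ : GQ} (hσ : σ ∈ (place₀ q).decompositionSubgroup ℚ) :
    UniformContinuous fun x : (embCq q).range =>
      embCq q (σ ((RingEquiv.ofBijective (embCq q).rangeRestrict
        ⟨fun _ _ h => (embCq q).injective (congrArg Subtype.val h),
          (embCq q).rangeRestrict_surjective⟩).symm x)) := by
  rw [Metric.uniformContinuous_iff]
  intro ε hε
  obtain ⟨m, hm⟩ := exists_pow_lt_of_lt_one hε (norm_prime_lt_one q)
  refine ⟨‖(q : ℂ_[q])‖ ^ m, pow_pos (norm_pos_iff.mpr (prime_ne_zero q)) m, fun {x y} hxy => ?_⟩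
  set e := RingEquiv.ofBijective (embCq q).rangeRestrict
    ⟨fun _ _ h => (embCq q).injective (congrArg Subtype.val h),
      (embCq q).rangeRestrict_surjective⟩
  have hx : ∀ z, embCq q (e.symm z) = z.1 := fun z =>
    congrArg Subtype.val (e.apply_symm_apply z)
  rw [Subtype.dist_eq, dist_eq_norm, ← hx, ← hx, ← map_sub] at hxy
  rw [dist_eq_norm, ← map_sub, ← map_sub]
  refine lt_of_le_of_lt ((norm_le_pow_iff q m).mpr ?_) hm
  have h := mem_place₀_of_decomp q hσ ((norm_le_pow_iff q m).mp hxy.le)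
  rwa [map_div₀, map_pow, map_natCast] at h

theorem isUniformInducing_range : IsUniformInducing (embCq q).range.subtype :=
  isUniformEmbedding_subtype_val.isUniformInducing

theorem denseRange_range : DenseRange (embCq q).range.subtype := by
  have h := denseRange_embCq q
  rw [DenseRange, ← RingHom.coe_range] at h
  rwa [DenseRange, show Set.range (embCq q).range.subtype = ((embCq q).range : Set ℂ_[q]) from
    Subtype.range_coe]

/-- The continuous extension to `ℂ_[q]`. -/
def extCq {σ : GQ} (hσ : σ ∈ (place₀ q).decompositionSubgroup ℚ) : ℂ_[q] →+* ℂ_[q] :=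
  IsDenseInducing.extendRingHom (i := (embCq q).range.subtype)
    (f := (embCq q).comp (σ.toRingEquiv.toRingHom.comp
      (RingEquiv.ofBijective (embCq q).rangeRestrict
        ⟨fun _ _ h => (embCq q).injective (congrArg Subtype.val h),
          (embCq q).rangeRestrict_surjective⟩).symm.toRingHom))
    (isUniformInducing_range q) (denseRange_range q)
    (uniformContinuous_decomp q hσ)

theorem continuous_extCq {σ : GQ} (hσ : σ ∈ (place₀ q).decompositionSubgroup ℚ) :
    Continuous (extCq q hσ) :=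
  (uniformContinuous_uniformly_extend (isUniformInducing_range q) (denseRange_range q)
    (uniformContinuous_decomp q hσ)).continuous

theorem extCq_embCq {σ : GQ} (hσ : σ ∈ (place₀ q).decompositionSubgroup ℚ) (a : ℚ̄) :
    extCq q hσ (embCq q a) = embCq q (σ a) := by
  refine Eq.trans (IsDenseInducing.extend_eq ((isUniformInducing_range q).isDenseInducing
    (denseRange_range q)) (uniformContinuous_decomp q hσ).continuous
    ⟨embCq q a, a, rfl⟩) ?_
  show embCq q (σ _) = embCq q (σ a)
  congr 2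
  rw [RingEquiv.symm_apply_eq]
  rfl

theorem extCq_extCq {σ σ' : GQ} (hσ : σ ∈ (place₀ q).decompositionSubgroup ℚ)
    (hσ' : σ' ∈ (place₀ q).decompositionSubgroup ℚ) (h : ∀ a, σ' (σ a) = a) (x : ℂ_[q]) :
    extCq q hσ' (extCq q hσ x) = x := by
  refine congrFun ((denseRange_embCq q).equalizer (g := fun y => extCq q hσ' (extCq q hσ y)) (h := id)
    ((continuous_extCq q hσ').comp (continuous_extCq q hσ)) continuous_id (funext fun a => ?_)) x
  simp only [Function.comp_apply, id, extCq_embCq, h]

/-- The extension as an automorphism. -/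
def extEquiv {σ : GQ} (hσ : σ ∈ (place₀ q).decompositionSubgroup ℚ) : ℂ_[q] ≃+* ℂ_[q] :=
  RingEquiv.ofRingHom (extCq q hσ) (extCq q (inv_mem hσ))
    (RingHom.ext (extCq_extCq q (inv_mem hσ) hσ fun a => σ.apply_symm_apply a))
    (RingHom.ext (extCq_extCq q hσ (inv_mem hσ) fun a => σ.symm_apply_apply a))

theorem norm_extCq_le {σ : GQ} (hσ : σ ∈ (place₀ q).decompositionSubgroup ℚ) {x : ℂ_[q]}
    (hx : ‖x‖ ≤ 1) : ‖extCq q hσ x‖ ≤ 1 := by
  refine le_of_forall_pos_le_add fun δ hδ => ?_
  obtain ⟨η, hη, hη'⟩ := Metric.continuous_iff.mp (continuous_extCq q hσ) x δ hδ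
  obtain ⟨a, ha⟩ := exists_close q (embCq q) x (lt_min hη one_pos)
  have ha1 : ‖embCq q a‖ ≤ 1 := by
    rw [show embCq q a = x + -(x - embCq q a) by abel]
    exact (IsUltrametricDist.norm_add_le_max _ _).trans
      (max_le hx (by rw [norm_neg]; exact (ha.trans_le (min_le_right _ _)).le))
  have hclose := hη' (embCq q a) (by
    rw [dist_eq_norm, norm_sub_rev]; exact ha.trans_le (min_le_left _ _))
  rw [dist_eq_norm, extCq_embCq, norm_sub_rev] at hclose
  have h2 := (mem_place₀ q).mp (mem_place₀_of_decomp q hσ ((mem_place₀ q).mpr ha1))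
  calc ‖extCq q hσ x‖
      = ‖(extCq q hσ x - embCq q (σ a)) + embCq q (σ a)‖ := by rw [sub_add_cancel]
    _ ≤ ‖extCq q hσ x - embCq q (σ a)‖ + ‖embCq q (σ a)‖ := norm_add_le _ _
    _ ≤ 1 + δ := by linarith

/-- The action of a decomposition element on the residue field of the place. -/
def resAct {σ : GQ} (hσ : σ ∈ (place₀ q).decompositionSubgroup ℚ) :
    IsLocalRing.ResidueField (place₀ q) ≃+* IsLocalRing.ResidueField (place₀ q) :=
  MulSemiringAction.toRingEquiv ((place₀ q).decompositionSubgroup ℚ) _ ⟨σ, hσ⟩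

/-- A decomposition element extends to `ℂ`, preserving the valuation ring, with its own action on
the residue field. -/
theorem exists_extension {σ : GQ} (hσ : σ ∈ (place₀ q).decompositionSubgroup ℚ) :
    ∃ τ : ℂ ≃ₐ[ℚ] ℂ, (∀ a, τ (qbarToC a) = qbarToC (σ a)) ∧
      (∀ z, τ z ∈ intC q ↔ z ∈ intC q) ∧
      ∀ (z : intC q) (h : τ z.1 ∈ intC q), residueC q ⟨τ z.1, h⟩ = resAct q hσ (residueC q z) := by
  set τ₀ : ℂ ≃+* ℂ := (toC q).symm.trans ((extEquiv q hσ).trans (toC q))
  let τ : ℂ ≃ₐ[ℚ] ℂ := AlgEquiv.ofRingEquiv (f := τ₀) fun r => map_ratCast τ₀ r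
  have hτ : ∀ a, τ (qbarToC a) = qbarToC (σ a) := fun a => by
    show toC q (extCq q hσ ((toC q).symm (qbarToC a))) = _
    rw [toC_symm_qbarToC, extCq_embCq, ← toC_symm_qbarToC, RingEquiv.apply_symm_apply]
  have hmem : ∀ {ρ : GQ} (hρ : ρ ∈ (place₀ q).decompositionSubgroup ℚ) (z : ℂ), z ∈ intC q →
      toC q (extCq q hρ ((toC q).symm z)) ∈ intC q := fun {ρ} hρ z hz =>
    (mem_intC q).mpr (by
      rw [RingEquiv.symm_apply_apply]
      exact norm_extCq_le q hρ ((mem_intC q).mp hz))
  refine ⟨τ, hτ, fun z => ⟨fun h => ?_, hmem hσ z⟩, fun z h => ?_⟩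
  · have h' := hmem (inv_mem hσ) _ h
    have e : toC q (extCq q (inv_mem hσ) ((toC q).symm (τ z))) = z := by
      show toC q (extCq q (inv_mem hσ) ((toC q).symm (toC q (extCq q hσ ((toC q).symm z))))) = z
      rw [RingEquiv.symm_apply_apply, extCq_extCq q hσ (inv_mem hσ) fun a => σ.symm_apply_apply a,
        RingEquiv.apply_symm_apply]
    rwa [e] at h'
  · obtain ⟨a, ha⟩ := exists_close_int q z
    let σa : place₀ q := ⟨σ a.1, mem_place₀_of_decomp q hσ a.2⟩
    let τz : intC q → intC q := fun w => ⟨τ w.1, hmem hσ w.1 w.2⟩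
    -- a small element is mapped to a small element
    have hsmall : ∀ w : intC q, residueC q w = 0 → residueC q (τz w) = 0 := by
      intro w hw
      by_contra hne
      have hu : IsUnit (τz w) := by
        rw [residueC_eq_zero, not_lt] at hne
        exact (isUnit_intC_iff q).mpr (le_antisymm ((mem_intC q).mp (τz w).2) hne)
      obtain ⟨b, hb⟩ := hu.exists_right_inv
      have hb' : w * ⟨τ.symm b.1, by
          have := hmem (inv_mem hσ) b.1 b.2
          exact this⟩ = 1 := Subtype.ext (τ.injective (by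
        rw [MulMemClass.coe_mul, map_mul, OneMemClass.coe_one, map_one]
        show τ w.1 * τ (τ.symm b.1) = 1
        rw [τ.apply_symm_apply]
        exact congrArg Subtype.val hb))
      exact (IsUnit.of_mul_eq_one _ hb').map (residueC q) |>.ne_zero hw
    have hza : residueC q (z - inclInt q a) = 0 := by
      rw [residueC_eq_zero]
      show ‖(toC q).symm (z.1 - qbarToC a.1)‖ < 1
      rw [map_sub, toC_symm_qbarToC]
      exact ha
    have h1 := hsmall _ hza
    have e : τz (z - inclInt q a) = τz z - inclInt q σa := by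
      refine Subtype.ext ?_
      show τ (z.1 - qbarToC a.1) = τ z.1 - qbarToC (σ a.1)
      rw [map_sub, hτ]
    rw [e, map_sub, sub_eq_zero, residueC_inclInt] at h1
    rw [map_sub, sub_eq_zero, residueC_inclInt] at hza
    show residueC q (τz z) = _
    rw [h1, hza]
    exact (IsLocalRing.ResidueField.residue_smul ((place₀ q).decompositionSubgroup ℚ)
      (⟨σ, hσ⟩ : (place₀ q).decompositionSubgroup ℚ) a).symm

end FermatAgent.BadRed.Semistable
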