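import Fermat.Agent.BadRed.Semistable.LiftUp
import Fermat.Agent.ModCurve.Fun.BaseChange
import Fermat.Agent.Igusa.Down.Concrete
import Mathlib.NumberTheory.Padics.Complex
import Mathlib.Topology.Algebra.Module.Cardinality
import Mathlib.FieldTheory.IsAlgClosed.Classification
import Mathlib.Analysis.Complex.Cardinality

/-!
# A complete valuation ring of `ℂ` over `q`

`ℂ` is isomorphic to `ℂ_[q]`, so it carries a valuation ring `intC q` that is complete for every
non-unit. Its trace on `ℚbar` is a place over `q` with the same residue field, and every element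
of the decomposition group extends to an automorphism of `ℂ` preserving `intC q`.
-/

set_option autoImplicit false
set_option linter.style.haveILetI false

noncomputable section

open Polynomial Cardinal

namespace FermatAgent.BadRed.Semistable

open FermatAgent.ModFun (qbarToC)

local notation "ℚ̄" => AlgebraicClosure ℚ

variable (q : ℕ) [Fact q.Prime]

theorem exists_approx_of_rat_density {α : PadicAlgCl q} {ε : ℝ} (hε : 0 < ε) :
    ∃ g : ℚ[X], g.Monic ∧ g.natDegree = (minpoly ℚ_[q] α).natDegree ∧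
      ‖aeval (α : ℂ_[q]) g‖ < ε := by
  set f := minpoly ℚ_[q] α
  set n := f.natDegree
  have hint : IsIntegral ℚ_[q] α := Algebra.IsIntegral.isIntegral α
  have hf : f.Monic := minpoly.monic hint
  set B := ∑ i : Fin n, ‖α‖ ^ (i : ℕ) + 1
  have hB : 0 < B := by positivity
  choose r hr using fun i : Fin n =>
    (Padic.denseRange_ratCast q).exists_dist_lt (f.coeff i) (div_pos hε hB)
  set p : ℚ[X] := ∑ i : Fin n, C (r i) * X ^ (i : ℕ)
  have hp : p.degree < n := degree_sum_fin_lt r
  have hg : ((X : ℚ[X]) ^ n + p).Monic := monic_X_pow_add hp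
  refine ⟨X ^ n + p, hg, ?_, ?_⟩
  · rw [natDegree_eq_of_degree_eq_some]
    rw [degree_add_eq_left_of_degree_lt (by rwa [degree_X_pow]), degree_X_pow]
  have key : aeval α (X ^ n + p) = ∑ i : Fin n, algebraMap ℚ_[q] (PadicAlgCl q)
      ((r i : ℚ_[q]) - f.coeff i) * α ^ (i : ℕ) := by
    have h0 : α ^ n + ∑ i : Fin n, algebraMap ℚ_[q] (PadicAlgCl q) (f.coeff i) * α ^ (i : ℕ) = 0 := by
      have h := minpoly.aeval ℚ_[q] α
      rw [show minpoly ℚ_[q] α = f from rfl, hf.as_sum] at h
      simpa [map_sum, Finset.sum_range, n] using h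
    simp only [map_sub, sub_mul, Finset.sum_sub_distrib]
    rw [map_add, map_pow, aeval_X, map_sum]
    simp only [map_mul, aeval_C, map_pow, aeval_X]
    rw [eq_neg_of_add_eq_zero_left h0]
    have e : ∀ i : Fin n, algebraMap ℚ (PadicAlgCl q) (r i) =
        algebraMap ℚ_[q] (PadicAlgCl q) (r i : ℚ_[q]) := fun i => by
      rw [map_ratCast, eq_ratCast]
    simp only [e]
    ring
  calc ‖aeval (α : ℂ_[q]) (X ^ n + p)‖ = ‖aeval α (X ^ n + p)‖ := by
        rw [show aeval (α : ℂ_[q]) (X ^ n + p) = ((aeval α (X ^ n + p) : PadicAlgCl q) : ℂ_[q])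
          from (aeval_algHom_apply ((algebraMap (PadicAlgCl q) ℂ_[q]).toRatAlgHom) α _)]
        exact PadicComplex.norm_extends q _
    _ ≤ ∑ i : Fin n, ε / B * ‖α‖ ^ (i : ℕ) := by
        rw [key]
        refine (norm_sum_le _ _).trans (Finset.sum_le_sum fun i _ => ?_)
        rw [norm_mul, norm_pow, PadicAlgCl.norm_extends]
        refine mul_le_mul_of_nonneg_right ?_ (by positivity)
        rw [← dist_eq_norm, dist_comm]
        exact (hr i).le
    _ < ε := by
        rw [← Finset.mul_sum, div_mul_eq_mul_div, div_lt_iff₀ hB]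
        exact mul_lt_mul_of_pos_left (lt_add_one _) hε

/-- `ℚbar` is dense in `ℂ_[q]`, by Krasner-style approximation. -/
theorem exists_close (j : ℚ̄ →+* ℂ_[q]) (x : ℂ_[q]) {ε : ℝ} (hε : 0 < ε) :
    ∃ a : ℚ̄, ‖x - j a‖ < ε := by
  obtain ⟨α, hα⟩ := UniformSpace.Completion.denseRange_coe.exists_dist_lt x (half_pos hε)
  set n := (minpoly ℚ_[q] α).natDegree
  obtain ⟨g, hg, hdeg, hlt⟩ :=
    exists_approx_of_rat_density q (α := α) (pow_pos (half_pos hε) n)
  set G := g.map (algebraMap ℚ ℚ̄)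
  have hG : aeval (α : ℂ_[q]) g = (G.roots.map fun γ => (α : ℂ_[q]) - j γ).prod := by
    have hs : G.Splits := IsAlgClosed.splits G
    have e : (G.map j).eval (α : ℂ_[q]) = aeval (α : ℂ_[q]) g := by
      rw [Polynomial.map_map, show j.comp (algebraMap ℚ ℚ̄) = algebraMap ℚ ℂ_[q] from
        Subsingleton.elim _ _, eval_map_algebraMap]
    rw [← e]
    conv_lhs => rw [hs.eq_prod_roots_of_monic (hg.map _)]
    rw [Polynomial.map_multiset_prod, eval_multiset_prod, Multiset.map_map, Multiset.map_map]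
    congr 1
    exact Multiset.map_congr rfl fun γ _ => by simp
  by_contra! hne
  refine hlt.not_ge ?_
  have hcard : G.roots.card = n := by
    rw [← (IsAlgClosed.splits G).natDegree_eq_card_roots, natDegree_map, hdeg]
  have hge : ∀ γ ∈ G.roots, ε / 2 ≤ ‖(α : ℂ_[q]) - j γ‖ := fun γ _ => by
    have h1 := hne γ
    have h2 := norm_sub_le_norm_sub_add_norm_sub x (α : ℂ_[q]) (j γ)
    rw [dist_eq_norm] at hα
    linarith
  rw [hG]
  have key : ∀ s : Multiset ℚ̄, (∀ γ ∈ s, ε / 2 ≤ ‖(α : ℂ_[q]) - j γ‖) →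
      (ε / 2) ^ s.card ≤ ‖(s.map fun γ => (α : ℂ_[q]) - j γ).prod‖ := by
    intro s
    induction s using Multiset.induction_on with
    | empty => intro _; simp
    | cons a s ih =>
      intro h
      rw [Multiset.map_cons, Multiset.prod_cons, Multiset.card_cons, pow_succ', norm_mul]
      exact mul_le_mul (h a (Multiset.mem_cons_self _ _))
        (ih fun γ hγ => h γ (Multiset.mem_cons_of_mem hγ)) (by positivity) (norm_nonneg _)
  exact hcard ▸ key _ hge

theorem exists_embedding : Nonempty (ℚ̄ →+* ℂ_[q]) :=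
  haveI : Algebra.IsAlgebraic ℚ ℚ̄ := AlgebraicClosure.isAlgebraic ℚ
  ⟨(IsAlgClosed.lift : ℚ̄ →ₐ[ℚ] ℂ_[q]).toRingHom⟩

theorem mk_padicComplex : #ℂ_[q] = 𝔠 := by
  refine le_antisymm ?_ (continuum_le_cardinal_of_nontriviallyNormedField _)
  obtain ⟨j⟩ := exists_embedding q
  choose s hs using fun (x : ℂ_[q]) (m : ℕ) =>
    exists_close q j x (Nat.one_div_pos_of_nat (α := ℝ) (n := m))
  have hinj : Function.Injective s := fun x y h => by
    refine sub_eq_zero.mp (norm_le_zero_iff.mp (le_of_forall_pos_lt_add fun δ hδ => ?_))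
    obtain ⟨m, hm⟩ := exists_nat_one_div_lt (half_pos hδ)
    have h1 := hs x m
    have h2 := hs y m
    rw [← h] at h2
    have h3 := norm_sub_le_norm_sub_add_norm_sub x (j (s x m)) y
    rw [norm_sub_rev (j (s x m)) y] at h3
    linarith
  have hQ : #ℚ̄ ≤ ℵ₀ := by
    haveI : Algebra.IsAlgebraic ℚ ℚ̄ := AlgebraicClosure.isAlgebraic ℚ
    refine (Algebra.IsAlgebraic.cardinalMk_le_max ℚ ℚ̄).trans (le_of_eq ?_)
    rw [mk_denumerable, max_self]
  calc #ℂ_[q] ≤ #(ℕ → ℚ̄) := mk_le_of_injective hinj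
    _ ≤ ℵ₀ ^ ℵ₀ := by
        rw [← power_def, mk_nat]
        exact power_le_power_right hQ
    _ = 𝔠 := aleph0_power_aleph0

theorem nonempty_ringEquiv_complex : Nonempty (ℂ_[q] ≃+* ℂ) :=
  IsAlgClosed.ringEquiv_of_equiv_of_charZero (by rw [mk_padicComplex]; exact aleph0_lt_continuum)
    (Cardinal.eq.mp ((mk_padicComplex q).trans Cardinal.mk_complex.symm))

/-- An identification of `ℂ_[q]` with `ℂ`. -/
def toC : ℂ_[q] ≃+* ℂ := (nonempty_ringEquiv_complex q).some

/-- The fixed embedding of `ℚbar` in `ℂ_[q]`. -/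
def embCq : ℚ̄ →+* ℂ_[q] := (toC q).symm.toRingHom.comp qbarToC.toRingHom

@[simp] theorem toC_symm_qbarToC (a : ℚ̄) : (toC q).symm (qbarToC a) = embCq q a := rfl

theorem denseRange_embCq : DenseRange (embCq q) := fun x =>
  Metric.mem_closure_iff.mpr fun ε hε => by
    obtain ⟨a, ha⟩ := exists_close q (embCq q) x hε
    exact ⟨_, ⟨a, rfl⟩, by rwa [dist_eq_norm]⟩

/-- The valuation ring on `ℂ`. -/
def intC : ValuationSubring ℂ := (PadicComplexInt q).comap (toC q).symm.toRingHom

theorem mem_intC {z : ℂ} : z ∈ intC q ↔ ‖(toC q).symm z‖ ≤ 1 := by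
  show (toC q).symm z ∈ PadicComplexInt q ↔ _
  rw [PadicComplexInt, Valuation.mem_valuationSubring_iff, PadicComplex.norm_eq_norm,
    Valuation.norm_def, PadicComplex.RankOne.hom_eq_embedding, Valuation.embedding_restrict,
    ← NNReal.coe_one, NNReal.coe_le_coe]

/-- The place of `ℚbar` under `intC q`. -/
def place₀ : ValuationSubring ℚ̄ := (intC q).comap qbarToC.toRingHom

theorem mem_place₀ {a : ℚ̄} : a ∈ place₀ q ↔ ‖embCq q a‖ ≤ 1 := mem_intC q

theorem norm_natCast_prime : ‖(q : ℂ_[q])‖ = (q : ℝ)⁻¹ := by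
  rw [← map_natCast (algebraMap (PadicAlgCl q) ℂ_[q]), ← PadicComplex.coe_eq,
    PadicComplex.norm_extends, ← map_natCast (algebraMap ℚ_[q] (PadicAlgCl q)),
    PadicAlgCl.norm_extends, Padic.norm_p]

theorem norm_prime_lt_one : ‖(q : ℂ_[q])‖ < 1 := by
  rw [norm_natCast_prime]
  exact inv_lt_one_of_one_lt₀ (by exact_mod_cast (Fact.out : q.Prime).one_lt)

theorem prime_ne_zero : (q : ℂ_[q]) ≠ 0 := Nat.cast_ne_zero.mpr (Fact.out : q.Prime).ne_zero

theorem liesOverPrime_place₀ : (place₀ q).LiesOverPrime q := by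
  rw [ValuationSubring.LiesOverPrime, ValuationSubring.mem_nonunits_iff_exists_mem_maximalIdeal]
  refine ⟨(mem_place₀ q).mpr (by rw [map_natCast]; exact (norm_prime_lt_one q).le),
    (IsLocalRing.mem_maximalIdeal _).mpr fun hu => ?_⟩
  obtain ⟨b, hb⟩ := hu.exists_right_inv
  have hb' := congrArg (embCq q ∘ Subtype.val) hb
  simp only [Function.comp_apply, MulMemClass.coe_mul, map_mul, map_natCast, OneMemClass.coe_one,
    map_one] at hb'
  have h1 := (mem_place₀ q).mp b.2
  have h2 := congrArg norm hb'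
  rw [norm_mul, norm_one] at h2
  nlinarith [norm_prime_lt_one q, norm_nonneg (q : ℂ_[q]), norm_nonneg (embCq q b.1)]

theorem exists_close_int (z : intC q) :
    ∃ a : place₀ q, ‖(toC q).symm z.1 - embCq q a.1‖ < 1 := by
  obtain ⟨a, ha⟩ := exists_close q (embCq q) ((toC q).symm z.1) one_pos
  refine ⟨⟨a, (mem_place₀ q).mpr ?_⟩, ha⟩
  rw [show embCq q a = (toC q).symm z.1 + -((toC q).symm z.1 - embCq q a) by abel]
  exact (IsUltrametricDist.norm_add_le_max _ _).trans
    (max_le ((mem_intC q).mp z.2) (by rw [norm_neg]; exact ha.le))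

/-- The inclusion of the place. -/
def inclInt : place₀ q →+* intC q :=
  (qbarToC.toRingHom.comp (place₀ q).subtype).codRestrict (intC q) fun a => a.2

theorem isUnit_intC_iff {z : intC q} : IsUnit z ↔ ‖(toC q).symm z.1‖ = 1 := by
  constructor
  · intro hu
    obtain ⟨b, hb⟩ := hu.exists_right_inv
    have h := congrArg (fun w : intC q => ‖(toC q).symm w.1‖) hb
    simp only [MulMemClass.coe_mul, map_mul, norm_mul, OneMemClass.coe_one, map_one,
      norm_one] at h
    have h1 := (mem_intC q).mp z.2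
    have h2 := (mem_intC q).mp b.2
    nlinarith [norm_nonneg ((toC q).symm z.1), norm_nonneg ((toC q).symm b.1)]
  · intro h
    have hz : z.1 ≠ 0 := fun e => by simp [e] at h
    refine IsUnit.of_mul_eq_one ⟨z.1⁻¹, (mem_intC q).mpr ?_⟩ (Subtype.ext (mul_inv_cancel₀ hz))
    rw [map_inv₀, norm_inv, h, inv_one]

theorem residue_eq_zero_intC {z : intC q} :
    IsLocalRing.residue (intC q) z = 0 ↔ ‖(toC q).symm z.1‖ < 1 := by
  rw [IsLocalRing.residue_eq_zero_iff, IsLocalRing.mem_maximalIdeal, mem_nonunits_iff,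
    isUnit_intC_iff]
  exact ⟨fun h => lt_of_le_of_ne ((mem_intC q).mp z.2) h, fun h => h.ne⟩

instance : IsLocalHom (inclInt q) := ⟨fun a ha => by
  have hne : a.1 ≠ 0 := fun e => by
    have : inclInt q a = 0 := Subtype.ext (by simp [inclInt, e])
    exact ha.ne_zero this
  refine IsUnit.of_mul_eq_one ⟨a.1⁻¹, (mem_place₀ q).mpr ?_⟩ (Subtype.ext (mul_inv_cancel₀ hne))
  rw [map_inv₀, norm_inv, show ‖embCq q a.1‖ = 1 from (isUnit_intC_iff q).mp ha, inv_one]⟩

theorem residueMap_bijective :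
    Function.Bijective (IsLocalRing.ResidueField.map (inclInt q)) := by
  refine ⟨RingHom.injective _, fun x => ?_⟩
  obtain ⟨z, rfl⟩ := IsLocalRing.residue_surjective x
  obtain ⟨a, ha⟩ := exists_close_int q z
  refine ⟨IsLocalRing.residue _ a, ?_⟩
  rw [IsLocalRing.ResidueField.map_residue]
  refine sub_eq_zero.mp ?_
  rw [← map_sub, residue_eq_zero_intC]
  show ‖(toC q).symm (qbarToC a.1 - z.1)‖ < 1
  rw [map_sub, toC_symm_qbarToC, norm_sub_rev]
  exact ha

/-- Reduction on `intC q`, with values in the residue field of the place. -/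
def residueC : intC q →+* IsLocalRing.ResidueField (place₀ q) :=
  (RingEquiv.ofBijective _ (residueMap_bijective q)).symm.toRingHom.comp
    (IsLocalRing.residue (intC q))

theorem residueC_inclInt (a : place₀ q) :
    residueC q (inclInt q a) = IsLocalRing.residue (place₀ q) a := by
  apply (RingEquiv.ofBijective _ (residueMap_bijective q)).injective
  rw [residueC, RingHom.comp_apply, RingEquiv.toRingHom_eq_coe, RingEquiv.coe_toRingHom,
    RingEquiv.apply_symm_apply]
  exact (IsLocalRing.ResidueField.map_residue _ a).symm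

theorem residueC_eq_zero {z : intC q} : residueC q z = 0 ↔ ‖(toC q).symm z.1‖ < 1 := by
  rw [← residue_eq_zero_intC, residueC, RingHom.comp_apply, RingEquiv.toRingHom_eq_coe,
    RingEquiv.coe_toRingHom, EmbeddingLike.map_eq_zero_iff]

theorem residueC_surjective : Function.Surjective (residueC q) :=
  ((RingEquiv.ofBijective _ (residueMap_bijective q)).symm.surjective).comp
    IsLocalRing.residue_surjective

theorem arch_intC (b : ℂ) (c : intC q) (hc : residueC q c = 0) :
    ∃ n : ℕ, b * (c : ℂ) ^ n ∈ intC q := by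
  rw [residueC_eq_zero] at hc
  obtain ⟨n, hn⟩ := exists_pow_lt_of_lt_one
    (inv_pos.mpr (show (0 : ℝ) < ‖(toC q).symm b‖ + 1 by positivity)) hc
  refine ⟨n, (mem_intC q).mpr ?_⟩
  rw [map_mul, map_pow, norm_mul, norm_pow]
  calc ‖(toC q).symm b‖ * ‖(toC q).symm (c : ℂ)‖ ^ n
      ≤ (‖(toC q).symm b‖ + 1) * (‖(toC q).symm b‖ + 1)⁻¹ := by
        gcongr; simp
    _ = 1 := mul_inv_cancel₀ (by positivity)

/-- The place of `ℂ` over the place of `ℚbar`. -/
def placeHomC : PlaceHom (place₀ q) (intC q) (residueC q) where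
  emb := qbarToC.toRingHom
  surjective := residueC_surjective q
  arch := arch_intC q
  mem a := a.2
  compat := residueC_inclInt q

theorem mem_span_intC {ε x : intC q} (hε : ε.1 ≠ 0) :
    x ∈ Ideal.span {ε} ↔ ‖(toC q).symm x.1‖ ≤ ‖(toC q).symm ε.1‖ := by
  rw [Ideal.mem_span_singleton]
  constructor
  · rintro ⟨y, rfl⟩
    rw [MulMemClass.coe_mul, map_mul, norm_mul]
    exact mul_le_of_le_one_right (norm_nonneg _) ((mem_intC q).mp y.2)
  · intro h
    refine ⟨⟨x.1 / ε.1, (mem_intC q).mpr ?_⟩, Subtype.ext ?_⟩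
    · rw [map_div₀, norm_div]
      exact div_le_one_of_le₀ h (norm_nonneg _)
    · rw [MulMemClass.coe_mul, mul_div_cancel₀ _ hε]

/-- `intC q` is complete for every non-unit. -/
theorem isAdicComplete_intC (ε : intC q) (hε : residueC q ε = 0) :
    IsAdicComplete (Ideal.span {ε}) (intC q) := by
  rw [residueC_eq_zero] at hε
  rcases eq_or_ne ε.1 0 with h0 | h0
  · rw [show ε = 0 from Subtype.ext h0, Ideal.span_singleton_zero]
    infer_instance
  set e := ‖(toC q).symm ε.1‖ with he
  have he0 : 0 ≤ e := norm_nonneg _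
  have hpow : ∀ (n : ℕ) (x : intC q),
      x ∈ (Ideal.span {ε} ^ n • ⊤ : Ideal (intC q)) ↔ ‖(toC q).symm x.1‖ ≤ e ^ n := by
    intro n x
    rw [smul_eq_mul, Ideal.mul_top, Ideal.span_singleton_pow,
      mem_span_intC q (by rw [SubmonoidClass.coe_pow]; exact pow_ne_zero _ h0),
      SubmonoidClass.coe_pow, map_pow, norm_pow]
  refine { haus' := fun x hx => ?_, prec' := fun f hf => ?_ }
  · have h : ‖(toC q).symm x.1‖ ≤ 0 := by
      refine ge_of_tendsto' (tendsto_pow_atTop_nhds_zero_of_lt_one he0 hε) fun n => ?_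
      exact (hpow n x).mp (SModEq.zero.mp (hx n))
    exact Subtype.ext ((map_eq_zero _).mp (norm_le_zero_iff.mp h))
  · set u : ℕ → ℂ_[q] := fun n => (toC q).symm (f n).1
    have hu : ∀ m n, m ≤ n → ‖u n - u m‖ ≤ e ^ m := fun m n hmn => by
      have h := (hpow m _).mp (SModEq.sub_mem.mp (hf hmn))
      rw [AddSubgroupClass.coe_sub, map_sub] at h
      rwa [norm_sub_rev]
    have hc : CauchySeq u := cauchySeq_of_le_tendsto_0 (fun m => e ^ m)
      (fun n m N hn hm => by
        rw [dist_eq_norm, show u n - u m = (u n - u N) + -(u m - u N) by abel]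
        refine (IsUltrametricDist.norm_add_le_max _ _).trans (max_le (hu N n hn) ?_)
        rw [norm_neg]
        exact hu N m hm)
      (tendsto_pow_atTop_nhds_zero_of_lt_one he0 hε)
    obtain ⟨L, hL⟩ := cauchySeq_tendsto_of_complete hc
    have hLm : toC q L ∈ intC q := (mem_intC q).mpr (by
      rw [RingEquiv.symm_apply_apply]
      exact le_of_tendsto' (hL.norm) fun n => (mem_intC q).mp (f n).2)
    refine ⟨⟨toC q L, hLm⟩, fun n => SModEq.sub_mem.mpr ((hpow n _).mpr ?_)⟩
    rw [AddSubgroupClass.coe_sub, map_sub, RingEquiv.symm_apply_apply]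
    refine le_of_tendsto ((tendsto_const_nhds (x := u n)).sub hL).norm
      (Filter.eventually_atTop.mpr ⟨n, fun m hm => ?_⟩)
    rw [norm_sub_rev]
    exact hu n m hm

end FermatAgent.BadRed.Semistable
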