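import Fermat.Agent.BadRed.Semistable.Datum

/-!
# Reduction of places

The sections vanishing at a place `P` of `F` reduce to the sections vanishing at a point
`d.place P` of the glued curve.
-/

set_option autoImplicit false
set_option linter.unusedSectionVars false
set_option linter.style.haveILetI false

noncomputable section

open WithZero AlgebraicCurve

namespace FermatAgent.BadRed.Semistable

open FermatAgent.Curve FermatAgent.Curve.RR

namespace NodalDatum

variable {K : Type*} [Field K] [IsAlgClosed K] {A : ValuationSubring K} {k : Type*}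
    [Field k] [IsAlgClosed k] {π : A →+* k} {F F₁ F₂ : Type*} [Field F] [Field F₁] [Field F₂]
    [Algebra K F] [Algebra k F₁] [Algebra k F₂] [IsFunctionField1 K F] [IsFunctionField1 k F₁]
    [IsFunctionField1 k F₂] [RRSetting K F] [RRSetting k F₁] [RRSetting k F₂]
variable (d : NodalDatum A π F F₁ F₂)

/-- Sections of `n • D` vanishing on the divisor `Z`. -/
def sub (n : ℕ) (Z : Divisor K F) : Submodule K F := riemannRochSpace (n • d.D - Z)

theorem sub_le {n : ℕ} {Z : Divisor K F} (hZ : 0 ≤ Z) :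
    d.sub n Z ≤ riemannRochSpace (n • d.D) :=
  rrSpace_mono (sub_le_self _ hZ)

theorem mul_mem_sub {n m : ℕ} {Z W : Divisor K F} {f g : F} (hf : f ∈ d.sub n Z)
    (hg : g ∈ d.sub m W) : f * g ∈ d.sub (n + m) (Z + W) := by
  have := mul_mem_rrSpace hf hg
  rw [sub_add_sub_comm, ← add_smul] at this
  exact this

theorem mul_mem_sub' {n m : ℕ} {Z : Divisor K F} {f g : F} (hf : f ∈ d.sub n Z)
    (hg : g ∈ riemannRochSpace (m • d.D)) : f * g ∈ d.sub (n + m) Z := by
  have : g ∈ d.sub m 0 := by rwa [sub, sub_zero]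
  simpa using d.mul_mem_sub hf this

theorem pow_mem_sub {n : ℕ} {Z : Divisor K F} {f : F} (hf : f ∈ d.sub n Z) (a : ℕ) :
    f ^ a ∈ d.sub (a * n) (a • Z) := by
  induction a with
  | zero =>
    simp only [pow_zero, Nat.zero_mul, zero_smul, sub, sub_zero]
    exact one_mem_rrSpace le_rfl
  | succ a ih =>
    rw [pow_succ, Nat.succ_mul, succ_nsmul]
    exact d.mul_mem_sub ih hf

theorem finrank_sub {n : ℕ} {Z : Divisor K F} (hZ : 0 ≤ Z)
    (h : d.N₀ + (Divisor.degree Z).toNat ≤ n) :
    (Module.finrank k (d.redImage (d.sub n Z)) : ℤ) =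
      Module.finrank k (d.C.glue n) - Divisor.degree Z := by
  have hn : d.N₀ ≤ n := le_trans (Nat.le_add_right _ _) h
  have hd := d.le_degree n
  have hz := degree_nonneg_of_nonneg hZ
  rw [d.finrank_redImage hn _ (d.sub_le hZ), d.finrank_glue_eq hn, sub,
    finrank_rrSpace_sub hZ (by rw [map_sub]; unfold N₀ at h hn; omega)]

/-- A degree beyond which points are separated. -/
def N₁ : ℕ := d.N₀ + d.C.bound + Fintype.card d.C.ι + 3

/-- The sections vanishing at `P` reduce to sections vanishing at `ω`. -/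
def IsRed (n : ℕ) (P : Place K F) (ω : d.C.Pt) : Prop :=
  ∀ q ∈ d.redImage (d.sub n (Finsupp.single P 1)), d.C.Van ω n q

theorem degree_single_one (P : Place K F) : Divisor.degree (Finsupp.single P (1 : ℤ)) = 1 := by
  rw [Divisor.degree_single, Curve.deg_eq_one]; norm_num

theorem single_one_nonneg (P : Place K F) : (0 : Divisor K F) ≤ Finsupp.single P (1 : ℤ) := by
  simp

variable [Infinite k]

theorem exists_isRed {n : ℕ} (hn : d.N₁ ≤ n) (P : Place K F) : ∃ ω, d.IsRed n P ω := by
  by_contra h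
  simp only [IsRed, not_exists, not_forall, exists_prop] at h
  set m := d.C.bound + n with hm
  have hsub : d.redImage (d.sub n (Finsupp.single P 1)) ≤ d.C.glue n :=
    (d.redImage_mono (d.sub_le (single_one_nonneg P))).trans
      (d.redImage_rrSpace (by unfold N₁ N₀ at hn; omega)).le
  have hall : d.C.glue (n + m) ≤ d.redImage (d.sub (n + m) (Finsupp.single P 1)) := by
    intro g hg
    obtain ⟨p, hp, p', hp', u, hu, x, hx, rfl⟩ :=
      d.C.exists_eq_mul_add_mul (m := m) le_rfl _ hsub h hg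
    rw [← d.redImage_rrSpace (show d.n₀ ≤ m by unfold N₁ N₀ at hn; omega)] at hu hx
    exact add_mem (d.mul_mem_redImage (fun _ ha _ hb => d.mul_mem_sub' ha hb) hp hu)
      (d.mul_mem_redImage (fun _ ha _ hb => d.mul_mem_sub' ha hb) hp' hx)
  have hfin : Module.finrank k (d.C.glue (n + m)) ≤
      Module.finrank k (d.redImage (d.sub (n + m) (Finsupp.single P 1))) := by
    have hle : d.redImage (d.sub (n + m) (Finsupp.single P 1)) ≤ d.C.glue (n + m) :=
      (d.redImage_mono (d.sub_le (single_one_nonneg P))).trans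
        (d.redImage_rrSpace (by unfold N₁ N₀ at hn; omega)).le
    rw [le_antisymm hle hall]
  have := d.finrank_sub (single_one_nonneg P) (n := n + m) (by
    rw [degree_single_one]; unfold N₁ at hn; simp; omega)
  rw [degree_single_one] at this
  omega

theorem exists_not_van {n : ℕ} (hn : d.N₁ ≤ n) (ω : d.C.Pt) :
    ∃ q ∈ d.C.glue n, ¬ d.C.Van ω n q := by
  classical
  haveI := infinite_place (K := k) (F := F₁)
  obtain ⟨i₀⟩ := d.C.nonempty
  obtain ⟨A₁, hA₁⟩ := Infinite.exists_notMem_finset (Finset.univ.image d.C.x)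
  have hA₁' : ∀ i, d.C.x i ≠ A₁ := fun i e =>
    hA₁ (Finset.mem_image.mpr ⟨i, Finset.mem_univ i, e⟩)
  by_cases hω : ω = .node i₀
  · obtain ⟨q, hq, -, -, -, hT⟩ := d.C.exists_separating (.left A₁ hA₁') {ω}
      (by subst hω; simp) (b := n) (by unfold N₁ at hn; simp; omega)
    exact ⟨q, hq, hT ω (Finset.mem_singleton_self _)⟩
  · obtain ⟨q, hq, -, -, -, hT⟩ := d.C.exists_separating (.node i₀) {ω}
      (by simpa [eq_comm] using hω) (b := n) (by unfold N₁ at hn; simp; omega)
    exact ⟨q, hq, hT ω (Finset.mem_singleton_self _)⟩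

/-- Every section vanishing at the reduction of `P` lifts to one vanishing at `P`. -/
theorem IsRed.mem_redImage {n : ℕ} {P : Place K F} {ω : d.C.Pt} (h : d.IsRed n P ω)
    (hn : d.N₁ ≤ n) {q : F₁ × F₂} (hq : q ∈ d.C.glue n) (hv : d.C.Van ω n q) :
    q ∈ d.redImage (d.sub n (Finsupp.single P 1)) := by
  have hle : d.redImage (d.sub n (Finsupp.single P 1)) ≤ d.C.glue n ⊓ d.C.vanSub ω n :=
    le_inf ((d.redImage_mono (d.sub_le (single_one_nonneg P))).trans
      (d.redImage_rrSpace (by unfold N₁ N₀ at hn; omega)).le) h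
  haveI : Module.Finite k (d.C.glue n ⊓ d.C.vanSub ω n : Submodule k (F₁ × F₂)) :=
    Submodule.finiteDimensional_inf_left _ _
  have heq : d.redImage (d.sub n (Finsupp.single P 1)) = d.C.glue n ⊓ d.C.vanSub ω n := by
    refine Submodule.eq_of_le_of_finrank_le hle ?_
    obtain ⟨q', hq', hv'⟩ := d.exists_not_van hn ω
    have hlt : d.C.glue n ⊓ d.C.vanSub ω n < d.C.glue n :=
      lt_of_le_of_ne inf_le_left fun e => hv' (e.symm ▸ hq' : q' ∈ _ ⊓ d.C.vanSub ω n).2
    have h1 := Submodule.finrank_lt_finrank_of_lt hlt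
    have h2 := d.finrank_sub (single_one_nonneg P) (n := n) (by
      rw [degree_single_one]; unfold N₁ at hn; simp; omega)
    rw [degree_single_one] at h2
    omega
  rw [heq]
  exact ⟨hq, hv⟩

theorem IsRed.unique {n : ℕ} {P : Place K F} {ω τ : d.C.Pt} (h : d.IsRed n P ω)
    (h' : d.IsRed n P τ) (hn : d.N₁ ≤ n) : ω = τ := by
  by_contra hne
  classical
  obtain ⟨q, hq, -, -, hv, hT⟩ := d.C.exists_separating ω {τ} (by simpa using hne) (b := n)
    (by unfold N₁ at hn; simp; omega)
  exact hT τ (Finset.mem_singleton_self _) (h' q (h.mem_redImage d hn hq hv))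

theorem IsRed.eq_of_add {n m : ℕ} {P : Place K F} {ω τ : d.C.Pt} (h : d.IsRed n P ω)
    (h' : d.IsRed (n + m) P τ) (hn : d.N₁ ≤ n) (hm : d.N₁ ≤ m) : ω = τ := by
  obtain ⟨s, hs, hsv⟩ := d.exists_not_van hm τ
  refine h.unique d (fun q hq => ?_) hn
  by_contra hqv
  have hs' := hs
  rw [← d.redImage_rrSpace (show d.n₀ ≤ m by unfold N₁ N₀ at hm; omega)] at hs'
  exact d.C.not_van_mul hqv hsv
    (h' _ (d.mul_mem_redImage (fun _ ha _ hb => d.mul_mem_sub' ha hb) hq hs'))

/-- The reduction of a place. -/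
def place (P : Place K F) : d.C.Pt := (d.exists_isRed (le_refl d.N₁) P).choose

theorem isRed_place {n : ℕ} (hn : d.N₁ ≤ n) (P : Place K F) : d.IsRed n P (d.place P) := by
  obtain ⟨ω, hω⟩ := d.exists_isRed hn P
  obtain ⟨τ, hτ⟩ := d.exists_isRed (show d.N₁ ≤ d.N₁ + n by omega) P
  obtain ⟨τ', hτ'⟩ := d.exists_isRed (show d.N₁ ≤ n + d.N₁ by omega) P
  have h1 := IsRed.eq_of_add d (d.exists_isRed (le_refl d.N₁) P).choose_spec hτ le_rfl hn
  have h2 := IsRed.eq_of_add d hω hτ' hn le_rfl
  have h3 : τ = τ' := by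
    rw [Nat.add_comm] at hτ
    exact hτ.unique d hτ' (by omega)
  rw [show d.place P = ω from h1.trans (h3.trans h2.symm)]
  exact hω

theorem eq_place {n : ℕ} (hn : d.N₁ ≤ n) {P : Place K F} {ω : d.C.Pt} (h : d.IsRed n P ω) :
    ω = d.place P :=
  h.unique d (d.isRed_place hn P) hn

theorem exists_lift_vanishing {n : ℕ} (hn : d.N₁ ≤ n) (P : Place K F) {q : F₁ × F₂}
    (hq : q ∈ d.C.glue n) (hv : d.C.Van (d.place P) n q) :
    ∃ (f : F) (h : f ∈ d.int), f ∈ d.sub n (Finsupp.single P 1) ∧ d.red ⟨f, h⟩ = q :=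
  (d.isRed_place hn P).mem_redImage d hn hq hv

end NodalDatum

end FermatAgent.BadRed.Semistable
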