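import Fermat.Agent.BadRed.Semistable.Count

/-!
# Reduction of divisors of functions

For `f` integral for both valuations with non-zero reductions, the divisor of `f` reduces to the
divisor of its reduction. With only the reduction on one component non-zero, the zeros of `f`
over a smooth point of that component are at most the order of the reduction. If the poles of `f`
avoid the nodes, its reductions agree at the nodes.
-/

set_option autoImplicit false
set_option linter.unusedSectionVars false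
set_option linter.style.haveILetI false

noncomputable section

open WithZero AlgebraicCurve

namespace FermatAgent.BadRed.Semistable

open FermatAgent.Curve FermatAgent.Curve.RR

namespace NodalDatum

variable {K : Type*} [Field K] [IsAlgClosed K] {A : ValuationSubring K} {k : Type*}
    [Field k] [IsAlgClosed k] {π : A →+* k} {F F₁ F₂ : Type*} [Field F] [Field F₁] [Field F₂]
    [Algebra K F] [Algebra k F₁] [Algebra k F₂] [IsFunctionField1 K F] [IsFunctionField1 k F₁]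
    [IsFunctionField1 k F₂] [RRSetting K F] [RRSetting k F₁] [RRSetting k F₂] [Infinite k]
variable (d : NodalDatum A π F F₁ F₂)

/-- A lift of a sufficiently general section. -/
theorem exists_section_not_van (T : Finset d.C.Pt) {b : ℕ} (hb : d.N₁ + T.card ≤ b) :
    ∃ (f : F) (h : f ∈ d.int), f ∈ riemannRochSpace (b • d.D) ∧ (d.red ⟨f, h⟩).1 ≠ 0 ∧
      (d.red ⟨f, h⟩).2 ≠ 0 ∧ ∀ τ ∈ T, ¬ d.C.Van τ b (d.red ⟨f, h⟩) := by
  classical
  haveI := infinite_place (K := k) (F := F₁)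
  have hinj : Function.Injective d.C.toPt₁ := by
    intro a a' e
    by_cases h : ∃ i, d.C.x i = a
    · obtain ⟨i, rfl⟩ := h
      rw [Glued.toPt₁_x] at e
      exact (d.C.toPt₁_eq_node_iff.mp e.symm).symm
    · push Not at h
      rw [d.C.toPt₁_of_ne a h] at e
      exact ((d.C.toPt₁_eq_left_iff h).mp e.symm).symm
  obtain ⟨A₁, hA⟩ := Infinite.exists_notMem_finset (T.preimage d.C.toPt₁ hinj.injOn)
  obtain ⟨q, hq, hq1, hq2, -, hT⟩ := d.C.exists_separating (d.C.toPt₁ A₁) T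
    (fun h => hA (Finset.mem_preimage.mpr h)) (b := b) (by unfold N₁ at hb; omega)
  obtain ⟨f, h, hf, e⟩ := d.exists_lift (show d.n₀ ≤ b by unfold N₁ N₀ at hb; omega) hq
  exact ⟨f, h, hf, by rw [e]; exact hq1, by rw [e]; exact hq2, fun τ hτ => by
    rw [e]; exact hT τ hτ⟩

/-- A section vanishing on a given divisor but not at given points. -/
theorem exists_section_ge {Z : Divisor K F} (hZ : 0 ≤ Z) (T : Finset d.C.Pt)
    (hT : ∀ P ∈ Z.support, d.place P ∉ T) :
    ∃ (l : ℕ) (t : F) (h : t ∈ d.int), d.n₀ ≤ l ∧ t ∈ d.sub l Z ∧ (d.red ⟨t, h⟩).1 ≠ 0 ∧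
      (d.red ⟨t, h⟩).2 ≠ 0 ∧ ∀ τ ∈ T, ¬ d.C.Van τ l (d.red ⟨t, h⟩) := by
  classical
  induction Z using Finsupp.induction with
  | zero =>
    obtain ⟨f, h, hf, h1, h2, h3⟩ := d.exists_section_not_van T (b := d.N₁ + T.card) le_rfl
    exact ⟨d.N₁ + T.card, f, h, by unfold N₁ N₀; omega, by rwa [sub, sub_zero], h1, h2, h3⟩
  | @single_add P n Z hP hn ih =>
    have hsupp : (Finsupp.single P n + Z).support = insert P Z.support := by
      rw [Finsupp.support_single_add hP hn, Finset.cons_eq_insert]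
    have hZP : Z P = 0 := Finsupp.notMem_support_iff.mp hP
    have hnn : 0 ≤ n := by
      have := Finsupp.le_def.mp hZ P
      simpa [hZP] using this
    have hZnn : 0 ≤ Z := Finsupp.le_def.mpr fun Q => by
      rcases eq_or_ne Q P with rfl | hQ
      · simp [hZP]
      · have := Finsupp.le_def.mp hZ Q
        simpa [hQ] using this
    obtain ⟨l, t, h, hl, ht, h1, h2, h3⟩ :=
      ih hZnn fun Q hQ => hT Q (by rw [hsupp]; exact Finset.mem_insert_of_mem hQ)
    obtain ⟨m, rfl⟩ := Int.eq_ofNat_of_zero_le hnn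
    obtain ⟨q, hq, hq1, hq2, hqv, hqT⟩ := d.C.exists_separating (d.place P) T
      (hT P (by rw [hsupp]; exact Finset.mem_insert_self _ _)) (b := d.N₁ + T.card)
      (by unfold N₁; omega)
    obtain ⟨f, hf, hfs, hfr⟩ := d.exists_lift_vanishing (Nat.le_add_right _ _) P hq hqv
    refine ⟨m * (d.N₁ + T.card) + l, f ^ m * t, mul_mem (pow_mem hf m) h, by omega, ?_, ?_, ?_, ?_⟩
    · have := d.mul_mem_sub (d.pow_mem_sub hfs m) ht
      simpa [Finsupp.smul_single] using this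
    all_goals
      rw [d.red_mul (pow_mem hf m) h,
        show d.red ⟨f ^ m, pow_mem hf m⟩ = q ^ m by rw [← hfr, ← map_pow]; rfl]
    · exact mul_ne_zero (pow_ne_zero _ hq1) h1
    · exact mul_ne_zero (pow_ne_zero _ hq2) h2
    · exact fun τ hτ => d.C.not_van_mul (d.C.not_van_pow (hqT τ hτ) m) (h3 τ hτ)

theorem ne_zero_of_red_fst {f : F} (h : f ∈ d.int) (h1 : (d.red ⟨f, h⟩).1 ≠ 0) : f ≠ 0 :=
  fun e => h1 (by
    rw [d.red_congr e h, show (⟨(0 : F), zero_mem _⟩ : d.int) = 0 from rfl, map_zero]; rfl)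

theorem ne_zero_of_red_snd {f : F} (h : f ∈ d.int) (h1 : (d.red ⟨f, h⟩).2 ≠ 0) : f ≠ 0 :=
  fun e => h1 (by
    rw [d.red_congr e h, show (⟨(0 : F), zero_mem _⟩ : d.int) = 0 from rfl, map_zero]; rfl)

theorem mul_mem_of_polesOf {f t : F} {l : ℕ} (ht : t ∈ d.sub l (poleDiv f)) :
    f * t ∈ riemannRochSpace (l • d.D) := by
  have := mul_mem_rrSpace (self_mem_rrSpace_poleDiv (K := K) f) ht
  rwa [add_sub_cancel] at this

theorem secDiv_mul (a b : ℕ) {p q : F₁ × F₂} (hp1 : p.1 ≠ 0) (hp2 : p.2 ≠ 0) (hq1 : q.1 ≠ 0)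
    (hq2 : q.2 ≠ 0) : d.C.secDiv (a + b) (p * q) = d.C.secDiv a p + d.C.secDiv b q := by
  have e1 : divisorOf (K := k) (p * q).1 + ((a + b : ℕ) : ℤ) • d.C.D₁ =
      (divisorOf p.1 + (a : ℤ) • d.C.D₁) + (divisorOf q.1 + (b : ℤ) • d.C.D₁) := by
    rw [Prod.fst_mul, divisorOf_mul hp1 hq1, Nat.cast_add, add_smul]; abel
  have e2 : divisorOf (K := k) (p * q).2 + ((a + b : ℕ) : ℤ) • d.C.D₂ =
      (divisorOf p.2 + (a : ℤ) • d.C.D₂) + (divisorOf q.2 + (b : ℤ) • d.C.D₂) := by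
    rw [Prod.snd_mul, divisorOf_mul hp2 hq2, Nat.cast_add, add_smul]; abel
  rw [Glued.secDiv, e1, e2, Finsupp.mapDomain_add (v₁ := divisorOf p.1 + (a : ℤ) • d.C.D₁),
    Finsupp.mapDomain_add (v₁ := divisorOf p.2 + (a : ℤ) • d.C.D₂), Glued.secDiv, Glued.secDiv]
  abel

theorem secDivF_mul (a b : ℕ) {f g : F} (hf : f ≠ 0) (hg : g ≠ 0) :
    d.secDivF (a + b) (f * g) = d.secDivF a f + d.secDivF b g := by
  rw [secDivF, secDivF, secDivF, divisorOf_mul hf hg, add_smul]
  abel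

/-- The divisor of a function reduces to the divisor of its reduction. -/
theorem mapDomain_divisorOf {f : F} (h : f ∈ d.int) (h1 : (d.red ⟨f, h⟩).1 ≠ 0)
    (h2 : (d.red ⟨f, h⟩).2 ≠ 0) :
    Finsupp.mapDomain d.place (divisorOf f) = d.C.secDiv 0 (d.red ⟨f, h⟩) := by
  classical
  obtain ⟨l, t, ht, hl, hts, t1, t2, -⟩ :=
    d.exists_section_ge (poleDiv_nonneg f) ∅ (fun _ _ => Finset.notMem_empty _)
  have hft : f * t ∈ riemannRochSpace (l • d.D) := d.mul_mem_of_polesOf hts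
  have hr := d.red_mul h ht
  have a1 : (d.red ⟨f * t, mul_mem h ht⟩).1 ≠ 0 := by rw [hr]; exact mul_ne_zero h1 t1
  have a2 : (d.red ⟨f * t, mul_mem h ht⟩).2 ≠ 0 := by rw [hr]; exact mul_ne_zero h2 t2
  have e := d.mapDomain_secDivF hl (mul_mem h ht) hft a1 a2
  have e' := d.mapDomain_secDivF hl ht (d.sub_le (poleDiv_nonneg f) hts) t1 t2
  have k1 := d.secDivF_mul 0 l (d.ne_zero_of_red_fst h h1) (d.ne_zero_of_red_fst ht t1)
  rw [Nat.zero_add] at k1
  have k2 := d.secDiv_mul 0 l h1 h2 t1 t2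
  rw [Nat.zero_add] at k2
  rw [k1, hr, k2, Finsupp.mapDomain_add, e'] at e
  have := add_right_cancel e
  simpa [secDivF] using this

/-- If the poles of `f` avoid the nodes, the reductions are regular and equal at the nodes. -/
theorem value_node_eq {f : F} (h : f ∈ d.int)
    (hp : ∀ P, P.ord f < 0 → ∀ i, d.place P ≠ .node i) (i : d.C.ι) :
    (d.C.x i).adicValuation (d.red ⟨f, h⟩).1 ≤ 1 ∧ (d.C.y i).adicValuation (d.red ⟨f, h⟩).2 ≤ 1 ∧
      valueAt (d.C.x i) (d.red ⟨f, h⟩).1 = valueAt (d.C.y i) (d.red ⟨f, h⟩).2 := by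
  classical
  obtain ⟨l, t, ht, hl, hts, t1, t2, hT⟩ := d.exists_section_ge (poleDiv_nonneg f)
    (Finset.univ.image Glued.Pt.node) (fun P hP => by
      simp only [Finset.mem_image, Finset.mem_univ, true_and, not_exists]
      intro j hj
      have := Finsupp.mem_support_iff.mp hP
      rw [poleDiv_apply] at this
      exact hp P (by omega) j hj.symm)
  have hft : f * t ∈ riemannRochSpace (l • d.D) := d.mul_mem_of_polesOf hts
  have hg := d.red_mem_glue hl (mul_mem h ht) hft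
  have htg := d.red_mem_glue hl ht (d.sub_le (poleDiv_nonneg f) hts)
  rw [d.red_mul h ht] at hg
  have hloc := d.C.locDiv_of_not_van htg hg
    (hT (.node i) (Finset.mem_image_of_mem _ (Finset.mem_univ i)))
  simpa [Glued.LocDiv, t1, t2] using hloc

/-- The perturbation argument for functions with one reduction zero. -/
theorem exists_balanced {f : F} (h : f ∈ d.int) (hf : f ≠ 0) (ω : d.C.Pt)
    (g : ∀ {r : ℕ}, d.N₁ ≤ r → F₁ × F₂) (hg : ∀ {r : ℕ} (hr : d.N₁ ≤ r), g hr ∈ d.C.glue r)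
    (hsum : ∀ {r : ℕ} (hr : d.N₁ ≤ r) (a a' : F₁ × F₂), a.1 ≠ 0 → a.2 ≠ 0 → a'.1 ≠ 0 → a'.2 ≠ 0 →
      (d.red ⟨f, h⟩ * a + a' * g hr).1 ≠ 0 ∧ (d.red ⟨f, h⟩ * a + a' * g hr).2 ≠ 0) :
    ∃ (L : ℕ) (q : F₁ × F₂) (x y : F₁ × F₂), q.1 ≠ 0 ∧ q.2 ≠ 0 ∧
      (d.red ⟨f, h⟩ * q + x * y).1 ≠ 0 ∧ (d.red ⟨f, h⟩ * q + x * y).2 ≠ 0 ∧
      (∃ r, ∃ hr : d.N₁ ≤ r, y = g hr) ∧
      Finsupp.mapDomain d.place (divisorOf f) ω + d.C.secDiv L q ω ≤
        d.C.secDiv L (d.red ⟨f, h⟩ * q + x * y) ω := by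
  classical
  obtain ⟨l, t, ht, hl, hts, t1, t2, -⟩ :=
    d.exists_section_ge (poleDiv_nonneg f) ∅ (fun _ _ => Finset.notMem_empty _)
  have ht0 := d.ne_zero_of_red_fst ht t1
  have hft : f * t ∈ riemannRochSpace (l • d.D) := d.mul_mem_of_polesOf hts
  have hnn := d.secDivF_nonneg (mul_ne_zero hf ht0) hft
  set Z := (d.secDivF l (f * t)).filter (fun P => d.place P = ω) with hZ
  have hZnn : 0 ≤ Z := Finsupp.le_def.mpr fun P => by
    rw [hZ, Finsupp.filter_apply]
    split_ifs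
    · exact Finsupp.le_def.mp hnn P
    · exact le_rfl
  have hZle : Z ≤ d.secDivF l (f * t) := Finsupp.le_def.mpr fun P => by
    rw [hZ, Finsupp.filter_apply]
    split_ifs
    · exact le_rfl
    · exact Finsupp.le_def.mp hnn P
  obtain ⟨l', H, hH, -, hHs, H1, H2, -⟩ :=
    d.exists_section_ge hZnn ∅ (fun _ _ => Finset.notMem_empty _)
  set r := d.N₁ + 1 + l with hr
  set σ := l' + r - l with hσ
  obtain ⟨s, hs, hsL, s1, s2, hsT⟩ := d.exists_section_not_van {ω} (b := σ) (by simp; omega)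
  have hrN : d.N₁ ≤ r := by omega
  obtain ⟨G, hG, hGL, hGr⟩ := d.exists_lift (show d.n₀ ≤ r by unfold N₁ N₀ at hrN; omega) (hg hrN)
  have hσn : d.n₀ ≤ σ := by
    simp only [hσ, hr]; unfold N₁ N₀; omega
  set L := l + σ with hL
  have hint : f * t * s + H * G ∈ d.int :=
    add_mem (mul_mem (mul_mem h ht) hs) (mul_mem hH hG)
  have hmem : f * t * s + H * G ∈ d.sub L Z := by
    refine add_mem (d.mul_mem_sub_of_le hZle hsL) ?_
    rw [show L = l' + r by omega]
    exact d.mul_mem_sub' hHs hGL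
  have hred : d.red ⟨f * t * s + H * G, hint⟩ =
      d.red ⟨f, h⟩ * (d.red ⟨t, ht⟩ * d.red ⟨s, hs⟩) + d.red ⟨H, hH⟩ * g hrN := by
    rw [d.red_add (mul_mem (mul_mem h ht) hs) (mul_mem hH hG), d.red_mul (mul_mem h ht) hs,
      d.red_mul h ht, d.red_mul hH hG, hGr]
    ring
  obtain ⟨n1, n2⟩ := hsum hrN (d.red ⟨t, ht⟩ * d.red ⟨s, hs⟩) (d.red ⟨H, hH⟩)
    (mul_ne_zero t1 s1) (mul_ne_zero t2 s2) H1 H2
  refine ⟨L, d.red ⟨t, ht⟩ * d.red ⟨s, hs⟩, d.red ⟨H, hH⟩, g hrN, mul_ne_zero t1 s1,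
    mul_ne_zero t2 s2, n1, n2, ⟨r, hrN, rfl⟩, ?_⟩
  have hne : f * t * s + H * G ≠ 0 := d.ne_zero_of_red_fst hint (by rw [hred]; exact n1)
  have hle := d.mapDomain_secDivF (l := L) (by omega) hint (d.sub_le hZnn hmem)
    (by rw [hred]; exact n1) (by rw [hred]; exact n2)
  rw [hred] at hle
  have ev : ∀ D : Divisor K F,
      Finsupp.mapDomain d.place D ω = Divisor.degree (D.filter fun P => d.place P = ω) := fun D => by
    rw [degree_eq_sum]
    simp only [Finsupp.mapDomain, Finsupp.sum_apply, Finsupp.single_apply]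
    rw [Finsupp.sum_filter_index]
    simp [Finsupp.sum, Finset.sum_filter]
  have hge : Divisor.degree Z ≤
      Finsupp.mapDomain d.place (d.secDivF L (f * t * s + H * G)) ω := by
    rw [ev]
    have hnn' := d.secDivF_nonneg hne (d.sub_le hZnn hmem)
    have := degree_nonneg_of_nonneg (D := ((d.secDivF L (f * t * s + H * G)).filter
      (fun P => d.place P = ω)) - Z) (Finsupp.le_def.mpr fun P => by
      have h0 := neg_le_ord_of_le_exp hne (hmem P)
      have h1 := Finsupp.le_def.mp hZle P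
      simp [hZ, Finsupp.filter_apply, secDivF_apply] at h0 h1 ⊢
      split_ifs with hP
      · rw [if_pos hP] at h0; linarith
      · exact le_rfl)
    rw [map_sub] at this
    omega
  have hsdiv := d.mapDomain_secDivF hσn hs hsL s1 s2
  have htdiv := d.mapDomain_secDivF hl ht (d.sub_le (poleDiv_nonneg f) hts) t1 t2
  have hZeq : Divisor.degree Z =
      Finsupp.mapDomain d.place (divisorOf f) ω + d.C.secDiv l (d.red ⟨t, ht⟩) ω := by
    have k1 := d.secDivF_mul 0 l hf ht0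
    rw [Nat.zero_add] at k1
    rw [hZ, ← ev, k1, Finsupp.mapDomain_add, htdiv]
    simp [secDivF]
  have hs0 : d.C.secDiv σ (d.red ⟨s, hs⟩) ω = 0 := by
    by_contra hne'
    refine hsT ω (Finset.mem_singleton_self _) ?_
    rw [← d.C.mem_support_secDiv (d.red_mem_glue hσn hs hsL)
      s1 s2]
    exact Finsupp.mem_support_iff.mpr hne'
  rw [d.secDiv_mul l σ t1 t2 s1 s2, Finsupp.add_apply, hs0, add_zero, ← hle, ← hZeq]
  exact hge

/-- A section that is zero on the first component. -/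
theorem exists_snd_only {r : ℕ} (hr : d.N₁ ≤ r) : ∃ p ∈ d.C.glue r, p.1 = 0 ∧ p.2 ≠ 0 := by
  classical
  haveI := infinite_place (K := k) (F := F₂)
  obtain ⟨A₂, hA₂⟩ := Infinite.exists_notMem_finset (Finset.univ.image d.C.y)
  have hd := d.C.le_degree₂ r
  have hc : (insert A₂ (Finset.univ.image d.C.y)).card ≤ Fintype.card d.C.ι + 1 :=
    (Finset.card_insert_le _ _).trans (add_le_add Finset.card_image_le le_rfl)
  obtain ⟨g, hg, hgv⟩ := exists_sec (D := r • d.C.D₂) (insert A₂ (Finset.univ.image d.C.y))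
    (fun v => v ∈ Finset.univ.image d.C.y) (by unfold N₁ Glued.bound at hr; omega)
  refine ⟨(0, g), ⟨zero_mem _, hg, fun i => ?_⟩, rfl, fun e => ?_⟩
  · have hy : d.C.y i ∈ Finset.univ.image d.C.y := Finset.mem_image_of_mem _ (Finset.mem_univ i)
    have h1 := (hgv (d.C.y i) (Finset.mem_insert_of_mem hy)).1 hy
    simp only [Finsupp.coe_smul, Pi.smul_apply, Glued.D₂_y, smul_zero, exp_zero] at h1
    rw [(adicValuation_lt_one_iff h1.le).mp h1, show (0 : F₁) = algebraMap k F₁ 0 by simp,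
      valueAt_algebraMap]
  · exact (hgv A₂ (Finset.mem_insert_self _ _)).2.1 hA₂ (by simp [show g = 0 from e])

/-- A section that is zero on the second component. -/
theorem exists_fst_only {r : ℕ} (hr : d.N₁ ≤ r) : ∃ p ∈ d.C.glue r, p.1 ≠ 0 ∧ p.2 = 0 := by
  classical
  haveI := infinite_place (K := k) (F := F₁)
  obtain ⟨A₁, hA₁⟩ := Infinite.exists_notMem_finset (Finset.univ.image d.C.x)
  have hd := d.C.le_degree₁ r
  have hc : (insert A₁ (Finset.univ.image d.C.x)).card ≤ Fintype.card d.C.ι + 1 :=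
    (Finset.card_insert_le _ _).trans (add_le_add Finset.card_image_le le_rfl)
  obtain ⟨g, hg, hgv⟩ := exists_sec (D := r • d.C.D₁) (insert A₁ (Finset.univ.image d.C.x))
    (fun v => v ∈ Finset.univ.image d.C.x) (by unfold N₁ Glued.bound at hr; omega)
  refine ⟨(g, 0), ⟨hg, zero_mem _, fun i => ?_⟩, fun e => ?_, rfl⟩
  · have hy : d.C.x i ∈ Finset.univ.image d.C.x := Finset.mem_image_of_mem _ (Finset.mem_univ i)
    have h1 := (hgv (d.C.x i) (Finset.mem_insert_of_mem hy)).1 hy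
    simp only [Finsupp.coe_smul, Pi.smul_apply, Glued.D₁_x, smul_zero, exp_zero] at h1
    rw [(adicValuation_lt_one_iff h1.le).mp h1, show (0 : F₂) = algebraMap k F₂ 0 by simp,
      valueAt_algebraMap]
  · exact (hgv A₁ (Finset.mem_insert_self _ _)).2.1 hA₁ (by simp [show g = 0 from e])

/-- Zeros over a smooth point of the first component are at most the order of the reduction. -/
theorem mapDomain_le_left {f : F} (h : f ∈ d.int) (h1 : (d.red ⟨f, h⟩).1 ≠ 0) (Q : Place k F₁)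
    (hQ : ∀ i, d.C.x i ≠ Q) :
    Finsupp.mapDomain d.place (divisorOf f) (.left Q hQ) ≤ Q.ord (d.red ⟨f, h⟩).1 := by
  by_cases h2 : (d.red ⟨f, h⟩).2 = 0
  swap
  · rw [d.mapDomain_divisorOf h h1 h2, Glued.secDiv_left]; simp
  choose g hg hg1 hg2 using fun (r : ℕ) (hr : d.N₁ ≤ r) => d.exists_snd_only hr
  obtain ⟨L, q, x, y, q1, q2, n1, n2, ⟨r, hr, rfl⟩, hle⟩ := d.exists_balanced h
    (d.ne_zero_of_red_fst h h1) (.left Q hQ) (fun hr => g _ hr) (fun hr => hg _ hr)
    (fun hr a a' ha1 ha2 hb1 hb2 => by simp [h1, h2, hg1, hg2, ha1, hb2])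
  simp only [Glued.secDiv_left, Prod.fst_add, Prod.fst_mul, hg1, mul_zero, add_zero] at hle
  rw [Q.ord_mul h1 q1] at hle
  linarith

/-- Zeros over a smooth point of the second component are at most the order of the reduction. -/
theorem mapDomain_le_right {f : F} (h : f ∈ d.int) (h2 : (d.red ⟨f, h⟩).2 ≠ 0) (Q : Place k F₂)
    (hQ : ∀ i, d.C.y i ≠ Q) :
    Finsupp.mapDomain d.place (divisorOf f) (.right Q hQ) ≤ Q.ord (d.red ⟨f, h⟩).2 := by
  by_cases h1 : (d.red ⟨f, h⟩).1 = 0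
  swap
  · rw [d.mapDomain_divisorOf h h1 h2, Glued.secDiv_right]; simp
  choose g hg hg1 hg2 using fun (r : ℕ) (hr : d.N₁ ≤ r) => d.exists_fst_only hr
  obtain ⟨L, q, x, y, q1, q2, n1, n2, ⟨r, hr, rfl⟩, hle⟩ := d.exists_balanced h
    (d.ne_zero_of_red_snd h h2) (.right Q hQ) (fun hr => g _ hr) (fun hr => hg _ hr)
    (fun hr a a' ha1 ha2 hb1 hb2 => by simp [h1, h2, hg1, hg2, ha2, hb1])
  simp only [Glued.secDiv_right, Prod.snd_add, Prod.snd_mul, hg2, mul_zero, add_zero] at hle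
  rw [Q.ord_mul h2 q2] at hle
  linarith

end NodalDatum

end FermatAgent.BadRed.Semistable
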