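import Fermat.Agent.BadRed.Semistable.TwoVal
import Fermat.Agent.BadRed.Semistable.Orth
import Fermat.Agent.BadRed.Semistable.Glue
import Fermat.Agent.Igusa.Down.Poles
import Fermat.Agent.Igusa.GoodRed.Line

/-!
# Reductions of sections are sections

An element integral for two valuations interchanged by the involution, with poles bounded by a
multiple of the polar divisor of `j`, reduces to functions with poles bounded by the same multiple
of the polar divisors of `J` and of `J ^ q`.
-/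

set_option autoImplicit false
set_option linter.unusedSectionVars false
set_option linter.style.haveILetI false

noncomputable section

open Polynomial IntermediateField WithZero AlgebraicCurve

namespace FermatAgent.BadRed.Semistable

open FermatAgent.Curve FermatAgent.Curve.RR

theorem polePart_eq_poleDiv {k G : Type*} [Field k] [IsAlgClosed k] [Field G] [Algebra k G]
    [IsFunctionField1 k G] (t : G) :
    polePart (K := k) t = (poleDiv t : Divisor k G) :=
  Finsupp.ext fun v => by rw [polePart_apply, poleDiv_apply, max_comm]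

/-- A polynomial at the inverse, through its reflection. -/
theorem aeval_inv_mul_pow {k R : Type*} [Field k] [Field R] [Algebra k R] {x : R} (hx : x ≠ 0)
    (P : k[X]) {m : ℕ} (hm : P.natDegree ≤ m) :
    aeval x⁻¹ P * x ^ m = aeval x (reflect m P) := by
  haveI := invertibleOfNonzero (inv_ne_zero hx)
  have h := eval₂_reflect_mul_pow (algebraMap k R) x⁻¹ m P hm
  rw [invOf_eq_inv, inv_inv] at h
  rw [aeval_def, aeval_def, ← h, mul_assoc, ← mul_pow, inv_mul_cancel₀ hx, one_pow, mul_one]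

/-- Independence over `k[x]` gives independence over `k[x⁻¹]`. -/
theorem indep_inv {k R : Type*} [Field k] [Field R] [Algebra k R] {x : R} (hx : x ≠ 0) {D : ℕ}
    (r : Fin D → R) (h : ∀ P : Fin D → k[X], ∑ i, aeval x (P i) * r i = 0 → P = 0)
    (P : Fin D → k[X]) (hP : ∑ i, aeval x⁻¹ (P i) * r i = 0) : P = 0 := by
  set m := Finset.univ.sup fun i => (P i).natDegree
  have hm : ∀ i, (P i).natDegree ≤ m := fun i => Finset.le_sup (f := fun i => (P i).natDegree)
    (Finset.mem_univ i)
  have h0 := h (fun i => reflect m (P i)) (by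
    rw [← zero_mul (x ^ m), ← hP, Finset.sum_mul]
    exact Finset.sum_congr rfl fun i _ => by rw [← aeval_inv_mul_pow hx _ (hm i)]; ring)
  funext i
  have := congrArg (reflect m) (congrFun h0 i)
  simpa [reflect_reflect] using this

/-- A root of a monic polynomial over `k[x]` is regular where `x` is. -/
theorem le_one_of_monic_root {k R : Type*} [Field k] [Field R] [Algebra k R] [IsAlgClosed k]
    [IsFunctionField1 k R] (v : Place k R)
    {x r : R} (hx : v.adicValuation x ≤ 1) {p : k[X][X]} (hp : p.Monic)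
    (h : eval₂ (aeval x).toRingHom r p = 0) : v.adicValuation r ≤ 1 := by
  refine (mem_iff_adicValuation_le_one v).mp (Igusa.Down.mem_of_root_monic v.toValuationSubring
    (hp.map _) (fun i => ?_) (by rwa [eval_map]))
  rw [coeff_map]
  show aeval x (p.coeff i) ∈ v.toValuationSubring
  rw [aeval_eq_sum_range]
  refine sum_mem fun j _ => ?_
  rw [Algebra.smul_def]
  exact mul_mem (v.algebraMap_mem' _) (pow_mem (mem_of_le_one hx) _)

namespace TwistDatum

variable {K : Type*} [Field K] {A : ValuationSubring K} {k : Type*} [Field k] {π : A →+* k}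
  {F : Type*} [Field F] [Algebra K F] {R : Type*} [Field R] [Algebra k R]
variable {G : GaussRed A π F R} {w : F ≃ₐ[K] F} {q : ℕ} {j : F} (h : TwistDatum G w q j)
include h

theorem J_ne_zero : h.J ≠ 0 := fun e => h.transcendental (by
  rw [show G.red ⟨j, h.mem⟩ = 0 from e]; exact isAlgebraic_zero)

theorem inv_mem' : ∃ (hj : j⁻¹ ∈ G.integers) (hwj : w j⁻¹ ∈ G.integers),
    G.red ⟨j⁻¹, hj⟩ = h.J⁻¹ ∧ G.red ⟨w j⁻¹, hwj⟩ = (h.J ^ q)⁻¹ := by
  obtain ⟨hj, ej⟩ := G.inv_mem h.residue_surjective h.mem h.J_ne_zero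
  obtain ⟨hwj, ewj⟩ := G.inv_mem h.residue_surjective h.mem'
    (by rw [h.red_twist]; exact pow_ne_zero _ h.J_ne_zero)
  refine ⟨hj, (map_inv₀ w j).symm ▸ hwj, ej, ?_⟩
  rw [h.red_congr (map_inv₀ w j), ewj, h.red_twist]
  rfl

/-- The datum at the other pole. -/
theorem inv : TwistDatum G w q j⁻¹ := by
  obtain ⟨hj, hwj, ej, ewj⟩ := h.inv_mem'
  refine ⟨h.residue_surjective, h.arch, h.one_lt, h.involutive, hj, hwj, ?_, ?_⟩
  · rw [ej]
    exact fun e => h.transcendental (IsAlgebraic.inv_iff.mp e)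
  · rw [ewj, ej, inv_pow]

theorem inv_J : h.inv.J = h.J⁻¹ := by
  obtain ⟨hj, -, ej, -⟩ := h.inv_mem'
  exact ej

variable [Algebra ℚ K] {D : ℕ} [FiniteDimensional K⟮j⟯ F]
  (hD : Module.finrank K⟮j⟯ F = (q + 1) * D)
  (a : Fin D → F) (ha : ∀ i, a i ∈ G.integers)
  (hli : ∀ P : Fin D → k[X], ∑ i, aeval h.J (P i) * G.red ⟨a i, ha i⟩ = 0 → P = 0)
include hD hli

/-- Integral elements integral over `K[j]` have monic equations over the residue rings. -/
theorem exists_monic_red {f : F} (hf : f ∈ G.pairInt w) {p : K[X][X]} (hp : p.Monic)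
    (hpf : p.eval₂ (aeval j).toRingHom f = 0) :
    ∃ P : k[X][X], P.Monic ∧ P.eval₂ (aeval h.J).toRingHom (G.red ⟨f, hf.1⟩) = 0 ∧
      P.eval₂ (aeval (h.J ^ q)).toRingHom (G.red ⟨w f, hf.2⟩) = 0 := by
  obtain ⟨Φ, hΦ, hΦf⟩ := h.exists_relation hD a ha hli hf.1 hf.2
  obtain ⟨p', hp', h0⟩ :=
    GaussRed.exists_monic_of_relation h.residue_surjective h.transcendental' hp hpf hΦ hΦf
  refine ⟨p'.map (mapRingHom π), hp'.map _, G.red_monic_relation h.residue_surjective h.mem hf.1 h0, ?_⟩
  have h1 : eval₂ (aeval (w j)).toRingHom (w f) (p'.map (mapRingHom A.subtype)) = 0 := by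
    have := congrArg w.toAlgHom.toRingHom h0
    rw [map_zero, hom_eval₂] at this
    refine Eq.trans (eval₂_congr (RingHom.ext fun P => ?_) rfl rfl) this
    exact (aeval_algHom_apply w.toAlgHom j P)
  have := G.red_monic_relation h.residue_surjective h.mem' hf.2 h1
  rwa [h.red_twist] at this

omit hD hli in
theorem adjoin_inv : K⟮j⁻¹⟯ = K⟮j⟯ := by
  refine le_antisymm (adjoin_simple_le_iff.mpr (inv_mem (mem_adjoin_simple_self K j)))
    (adjoin_simple_le_iff.mpr ?_)
  simpa using inv_mem (mem_adjoin_simple_self K j⁻¹)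

/-- **Reductions of sections are sections.** -/
theorem red_mem_rrSpace [IsAlgClosed K] [IsFunctionField1 K F] [IsAlgClosed k]
    [IsFunctionField1 k R] {n : ℕ} {f : F} (hf : f ∈ G.pairInt w)
    (hfL : f ∈ riemannRochSpace (n • (poleDiv j : Divisor K F))) :
    G.red ⟨f, hf.1⟩ ∈ riemannRochSpace (n • (poleDiv h.J : Divisor k R)) ∧
      G.red ⟨w f, hf.2⟩ ∈ riemannRochSpace (n • (poleDiv (h.J ^ q) : Divisor k R)) := by
  have hj0 : j ≠ 0 := fun e => h.transcendental' (e ▸ isAlgebraic_zero)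
  rw [← polePart_eq_poleDiv, ← Igusa.boundedPoles_iff hj0] at hfL
  obtain ⟨⟨p, hp, hpf⟩, p', hp', hpf'⟩ := Igusa.Down.exists_monic_of_boundedPoles hfL
  obtain ⟨P, hP, hP1, hP2⟩ := h.exists_monic_red hD a ha hli hf hp hpf
  obtain ⟨hj, hwj, ej, ewj⟩ := h.inv_mem'
  have hg : f / j ^ n ∈ G.pairInt w := by
    rw [div_eq_mul_inv, ← inv_pow]
    exact mul_mem hf (pow_mem (show j⁻¹ ∈ G.pairInt w from ⟨hj, hwj⟩) n)
  haveI : FiniteDimensional K⟮j⁻¹⟯ F := by rw [h.adjoin_inv]; infer_instance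
  obtain ⟨P', hP', hP1', hP2'⟩ := h.inv.exists_monic_red (by rw [h.adjoin_inv]; exact hD) a ha
    (fun Q hQ => indep_inv h.J_ne_zero (fun i => G.red ⟨a i, ha i⟩) hli Q (by rwa [h.inv_J] at hQ))
    hg hp' hpf'
  rw [h.inv_J] at hP1' hP2'
  rw [inv_pow] at hP2'
  have e1 : G.red ⟨f / j ^ n, hg.1⟩ = G.red ⟨f, hf.1⟩ / h.J ^ n := by
    rw [div_eq_mul_inv (G.red ⟨f, hf.1⟩), ← inv_pow, ← ej, ← map_pow, ← map_mul]
    exact congrArg G.red (Subtype.ext (by simp [div_eq_mul_inv]))
  have e2 : G.red ⟨w (f / j ^ n), hg.2⟩ = G.red ⟨w f, hf.2⟩ / (h.J ^ q) ^ n := by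
    rw [div_eq_mul_inv (G.red ⟨w f, hf.2⟩), ← inv_pow, ← ewj, ← map_pow, ← map_mul]
    exact congrArg G.red (Subtype.ext (by simp [div_eq_mul_inv]))
  rw [e1] at hP1'
  rw [e2] at hP2'
  constructor
  · rw [← polePart_eq_poleDiv, ← Igusa.boundedPoles_iff h.J_ne_zero]
    refine fun v => ⟨fun hv => mem_of_le_one (le_one_of_monic_root v
      ((mem_iff_adicValuation_le_one v).mp hv) hP hP1), fun hv => mem_of_le_one
      (le_one_of_monic_root v ((mem_iff_adicValuation_le_one v).mp
        ((v.toValuationSubring.mem_or_inv_mem _).resolve_left hv)) hP' hP1')⟩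
  · rw [← polePart_eq_poleDiv, ← Igusa.boundedPoles_iff (pow_ne_zero _ h.J_ne_zero)]
    refine fun v => ⟨fun hv => mem_of_le_one (le_one_of_monic_root v
      ((mem_iff_adicValuation_le_one v).mp hv) hP hP2), fun hv => mem_of_le_one
      (le_one_of_monic_root v ((mem_iff_adicValuation_le_one v).mp
        ((v.toValuationSubring.mem_or_inv_mem _).resolve_left hv)) hP' hP2')⟩

end TwistDatum

end FermatAgent.BadRed.Semistable
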