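import Fermat.Agent.BadRed.Semistable.PadicPlace
import Fermat.Agent.GalRep.Construct.Pseudo

/-!
# `ρ + ω ρ⁻¹` is a scalar on an eigenvector

On a common eigenvector of the Hecke operators in the complexified Tate module, `xMat D σ` is
multiplication by the limit of the eigenvalues of its Hecke approximations. The scalar depends
only on the eigensystem, also across levels.
-/

set_option autoImplicit false

noncomputable section

open Matrix Filter Topology

namespace FermatAgent.BadRed.Semistable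

open FermatAgent.GalRep CuspForm

local notation "GQ" => AlgebraicClosure ℚ ≃ₐ[ℚ] AlgebraicClosure ℚ

variable (p : ℕ) [Fact p.Prime]

/-- `ℤ_p` inside `ℂ`. -/
def zpC : ℤ_[p] →+* ℂ :=
  (toC p).toRingHom.comp ((algebraMap ℚ_[p] ℂ_[p]).comp PadicInt.Coe.ringHom)

theorem zpC_injective : Function.Injective (zpC p) :=
  (toC p).injective.comp ((algebraMap ℚ_[p] ℂ_[p]).injective.comp Subtype.coe_injective)

theorem norm_symm_zpC (x : ℤ_[p]) : ‖(toC p).symm (zpC p x)‖ = ‖x‖ := by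
  show ‖(toC p).symm (toC p (algebraMap ℚ_[p] ℂ_[p] (x : ℚ_[p])))‖ = _
  rw [RingEquiv.symm_apply_apply, norm_algebraMap', PadicInt.padic_norm_e_of_padicInt]

theorem map_intCast_zpC {m n : Type*} (A : Matrix m n ℤ) :
    (A.map (Int.cast : ℤ → ℤ_[p])).map (zpC p) = A.map (Int.cast : ℤ → ℂ) := by
  ext i j; simp

variable {p}

/-- The eigenvalues of congruent operators converge. -/
theorem tendsto_eigen_of_congr {r : ℕ} {X : Matrix (Fin r) (Fin r) ℤ_[p]}
    {A : ℕ → Matrix (Fin r) (Fin r) ℤ_[p]} {w : Fin r → ℂ} {c : ℕ → ℂ}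
    (hA : ∀ n i j, (p : ℤ_[p]) ^ n ∣ (X - A n) i j)
    (hw : ∀ n, (A n).map (zpC p) *ᵥ w = c n • w) (k : Fin r) :
    Tendsto (fun n => (toC p).symm (c n * w k)) atTop
      (𝓝 ((toC p).symm ((X.map (zpC p) *ᵥ w) k))) := by
  rw [tendsto_iff_norm_sub_tendsto_zero]
  have hp1 : ((p : ℝ)⁻¹) < 1 :=
    inv_lt_one_of_one_lt₀ (by exact_mod_cast (Fact.out : p.Prime).one_lt)
  have hlim := (tendsto_pow_atTop_nhds_zero_of_lt_one (by positivity) hp1).mul_const
    (∑ j, ‖(toC p).symm (w j)‖)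
  rw [zero_mul] at hlim
  refine squeeze_zero (fun _ => norm_nonneg _) (fun n => ?_) hlim
  have hk : c n * w k = ((A n).map (zpC p) *ᵥ w) k := by
    rw [hw n, Pi.smul_apply, smul_eq_mul]
  rw [norm_sub_rev, hk, ← map_sub, ← Pi.sub_apply, ← Matrix.sub_mulVec, Matrix.mulVec, dotProduct,
    map_sum]
  refine (norm_sum_le _ _).trans ?_
  rw [Finset.mul_sum]
  refine Finset.sum_le_sum fun j _ => ?_
  rw [map_mul, norm_mul]
  refine mul_le_mul_of_nonneg_right ?_ (norm_nonneg _)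
  rw [Matrix.sub_apply, Matrix.map_apply, Matrix.map_apply, ← map_sub, norm_symm_zpC, inv_pow,
    ← zpow_natCast (p : ℝ) n, ← _root_.zpow_neg]
  exact (PadicInt.norm_le_pow_iff_mem_span_pow _ n).mpr (Ideal.mem_span_singleton.mpr (hA n k j))

/-- One scalar for all eigenvectors with the given eigenvalues. -/
theorem exists_limit_eigen {r : ℕ} {X : Matrix (Fin r) (Fin r) ℤ_[p]}
    {A : ℕ → Matrix (Fin r) (Fin r) ℤ_[p]} {w : Fin r → ℂ} (hw0 : w ≠ 0) {c : ℕ → ℂ}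
    (hA : ∀ n i j, (p : ℤ_[p]) ^ n ∣ (X - A n) i j)
    (hw : ∀ n, (A n).map (zpC p) *ᵥ w = c n • w) :
    ∃ s : ℂ, ∀ (r' : ℕ) (X' : Matrix (Fin r') (Fin r') ℤ_[p])
      (A' : ℕ → Matrix (Fin r') (Fin r') ℤ_[p]) (w' : Fin r' → ℂ),
      (∀ n i j, (p : ℤ_[p]) ^ n ∣ (X' - A' n) i j) →
      (∀ n, (A' n).map (zpC p) *ᵥ w' = c n • w') →
        X'.map (zpC p) *ᵥ w' = s • w' := by
  obtain ⟨i, hi⟩ := Function.ne_iff.mp hw0
  refine ⟨(X.map (zpC p) *ᵥ w) i / w i, fun r' X' A' w' hA' hw' => funext fun k => ?_⟩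
  have hc : Tendsto (fun n => (toC p).symm (c n)) atTop
      (𝓝 ((toC p).symm ((X.map (zpC p) *ᵥ w) i / w i))) := by
    have h := (tendsto_eigen_of_congr hA hw i).div_const ((toC p).symm (w i))
    rw [← map_div₀] at h
    refine h.congr fun n => ?_
    rw [← map_div₀, mul_div_cancel_right₀ _ hi]
  have h1 := hc.mul_const ((toC p).symm (w' k))
  rw [← map_mul] at h1
  have h2 := tendsto_nhds_unique (tendsto_eigen_of_congr hA' hw' k)
    (h1.congr fun n => (map_mul _ _ _).symm)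
  rw [(toC p).symm.injective h2, Pi.smul_apply, smul_eq_mul]

variable {N : ℕ} [NeZero N] {S : Set ℕ} (D : HeckeTateData N p S)

theorem hecMat_map_zpC (t : heckeAlgebra N 2 S) :
    (hecMat D t).map (zpC p) = (D.ι t).map (Int.cast : ℤ → ℂ) := by
  rw [hecMat_apply, map_intCast_zpC]

/-- `xMat D σ` is a scalar on each common eigenspace. -/
theorem exists_xMat_scalar (hd : FrobDense) (hSfin : S.Finite) (χ : heckeAlgebra N 2 S → ℂ)
    (σ : GQ) : ∃ s : ℂ, ∀ w : Fin D.rank → ℂ,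
      (∀ t, (D.ι t).map (Int.cast : ℤ → ℂ) *ᵥ w = χ t • w) →
        (xMat D σ).map (zpC p) *ᵥ w = s • w := by
  by_cases h : ∃ w : Fin D.rank → ℂ, w ≠ 0 ∧ ∀ t, (D.ι t).map (Int.cast : ℤ → ℂ) *ᵥ w = χ t • w
  · obtain ⟨w, hw0, hw⟩ := h
    choose t ht using exists_hecke_approx D hd hSfin σ
    obtain ⟨s, hs⟩ := exists_limit_eigen hw0 (A := fun n => hecMat D (t n)) (c := fun n => χ (t n))
      ht fun n => by rw [hecMat_map_zpC]; exact hw _
    exact ⟨s, fun w' hw' => hs _ _ (fun n => hecMat D (t n)) w' ht fun n => by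
      rw [hecMat_map_zpC]; exact hw' _⟩
  · refine ⟨0, fun w hw => ?_⟩
    obtain rfl : w = 0 := by_contra fun hne => h ⟨w, hne, hw⟩
    rw [Matrix.mulVec_zero, smul_zero]

variable {N' : ℕ} [NeZero N'] {S' : Set ℕ} (D' : HeckeTateData N' p S')

/-- The scalar only depends on the eigensystem, across compatible levels. -/
theorem exists_xMat_scalar_compat (hd : FrobDense) (hSfin : S.Finite)
    (hN : ∀ r : ℕ, r.Prime → r ∣ N' → r ∣ N) (hSS : S' ⊆ S)
    (φ : heckeAlgebra N 2 S →+* heckeAlgebra N' 2 S')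
    (hφ : ∀ (l : ℕ) (hl : l.Prime) (hlN : ¬ l ∣ N) (hlS : l ∉ S) (hlN' : ¬ l ∣ N')
      (hlS' : l ∉ S'), φ (heckeAlgebra.T hl hlN hlS) = heckeAlgebra.T hl hlN' hlS')
    (χ' : heckeAlgebra N' 2 S' → ℂ) (σ : GQ) {v : Fin D'.rank → ℂ} (hv0 : v ≠ 0)
    (hv : ∀ t, (D'.ι t).map (Int.cast : ℤ → ℂ) *ᵥ v = χ' t • v) :
    ∃ s : ℂ, (xMat D' σ).map (zpC p) *ᵥ v = s • v ∧ ∀ w : Fin D.rank → ℂ,
      (∀ t, (D.ι t).map (Int.cast : ℤ → ℂ) *ᵥ w = χ' (φ t) • w) →
        (xMat D σ).map (zpC p) *ᵥ w = s • w := by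
  classical
  have key : ∀ n : ℕ, ∃ t : heckeAlgebra N 2 S,
      (∀ i j, (p : ℤ_[p]) ^ n ∣ (xMat D σ - hecMat D t) i j) ∧
      (∀ i j, (p : ℤ_[p]) ^ n ∣ (xMat D' σ - hecMat D' (φ t)) i j) := by
    intro n
    obtain ⟨U, hU, hUc⟩ := exists_level_xMat D n
    obtain ⟨U', hU', hUc'⟩ := exists_level_xMat D' n
    obtain ⟨l, hl, hlS, A, hA, τ, hτ, m, hm⟩ := hd (U ⊔ U')
      (IntermediateField.finiteDimensional_sup U U') (hSfin.toFinset ∪ insert p N.primeFactors) σ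
    simp only [Finset.mem_union, Set.Finite.mem_toFinset, Finset.mem_insert, not_or] at hlS
    have hlN : ¬ l ∣ N := fun h => hlS.2.2 (Nat.mem_primeFactors.mpr ⟨hl, h, NeZero.ne N⟩)
    have hlN' : ¬ l ∣ N' := fun h => hlN (hN l hl h)
    have hlS' : l ∉ S' := fun h => hlS.1 (hSS h)
    refine ⟨powTrace (heckeAlgebra.T hl hlN hlS.1) (l : heckeAlgebra N 2 S) m, fun i j => ?_,
      fun i j => ?_⟩
    · rw [← xMat_frobenius_pow D hl hlN hlS.1 hlS.2.1 hA hτ m]
      exact hUc σ (τ ^ m) (fun a ha => hm a (le_sup_left (b := U') ha)) i j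
    · rw [map_powTrace, hφ l hl hlN hlS.1 hlN' hlS', map_natCast,
        ← xMat_frobenius_pow D' hl hlN' hlS' hlS.2.1 hA hτ m]
      exact hUc' σ (τ ^ m) (fun a ha => hm a (le_sup_right (a := U) ha)) i j
  choose t ht ht' using key
  obtain ⟨s, hs⟩ := exists_limit_eigen hv0 (A := fun n => hecMat D' (φ (t n)))
    (c := fun n => χ' (φ (t n))) ht' fun n => by rw [hecMat_map_zpC]; exact hv _
  refine ⟨s, hs _ _ (fun n => hecMat D' (φ (t n))) v ht' fun n => by
    rw [hecMat_map_zpC]; exact hv _, fun w hw => ?_⟩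
  exact hs _ _ (fun n => hecMat D (t n)) w ht fun n => by rw [hecMat_map_zpC]; exact hw _

end FermatAgent.BadRed.Semistable
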