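import Fermat.Agent.BadRed.Semistable.Regular
import Fermat.Agent.BadRed.Semistable.KronPoly
import Fermat.Agent.BadRed.Semistable.Gluing

/-!
# Reductions of sections, for two valuations interchanged by an involution

When `Φ_q (j, w j) = 0`, the pairs of reductions of sections of multiples of the polar divisor of
`j` contain an element separating the components at infinity and, if sections on the residual
curve lift, the inseparable pairs `(r, ψ r)`, `(ψ r, r)` in both charts.
-/

set_option autoImplicit false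
set_option linter.unusedSectionVars false
set_option linter.style.haveILetI false

noncomputable section

open Polynomial AlgebraicCurve WithZero IntermediateField

namespace FermatAgent.BadRed.Semistable

open FermatAgent.Curve FermatAgent.Curve.RR

theorem neZero_of_fact_prime (q : ℕ) [hq : Fact q.Prime] : NeZero q := ⟨hq.out.ne_zero⟩

attribute [local instance] neZero_of_fact_prime

section Valuation

variable {k F : Type*} [Field k] [IsAlgClosed k] [Field F] [Algebra k F] [IsFunctionField1 k F]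

theorem adicValuation_intCast [CharZero k] (v : Place k F) {a : ℤ} (ha : a ≠ 0) :
    v.adicValuation (a : F) = 1 := by
  have hk : (a : k) ≠ 0 := Int.cast_ne_zero.mpr ha
  rw [← map_intCast (algebraMap k F), v.adicValuation_eq_exp_neg_ord
    ((map_ne_zero_iff _ (algebraMap k F).injective).mpr hk), ord_algebraMap_const, neg_zero,
    exp_zero]

theorem max_one_valuation (v : Place k F) {x : F} (hx : x ≠ 0) :
    max 1 (v.adicValuation x) = exp ((poleDiv x : Divisor k F) v) := by
  rw [poleDiv_apply, v.adicValuation_eq_exp_neg_ord hx, max_comm (-(v.ord x))]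
  rcases le_total 0 (-(v.ord x)) with h | h
  · rw [max_eq_right h, max_eq_right (by rwa [← exp_zero, exp_le_exp])]
  · rw [max_eq_left h, exp_zero, max_eq_left (by rwa [← exp_zero, exp_le_exp])]

theorem mem_rrSpace_iff_le {x f : F} (hx : x ≠ 0) {n : ℕ} :
    f ∈ riemannRochSpace (n • (poleDiv x : Divisor k F)) ↔
      ∀ v : Place k F, v.adicValuation f ≤ max 1 (v.adicValuation x) ^ n := by
  refine forall_congr' fun v => ?_
  rw [max_one_valuation v hx, ← exp_nsmul, Finsupp.smul_apply]

end Valuation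

namespace TwistDatum

variable {K : Type*} [Field K] [IsAlgClosed K] [CharZero K] {A : ValuationSubring K} {k : Type*}
  [Field k] [IsAlgClosed k] {π : A →+* k} {F : Type*} [Field F] [Algebra K F]
  [IsFunctionField1 K F] {R : Type*} [Field R] [Algebra k R] [IsFunctionField1 k R]
  {G : GaussRed A π F R} {w : F ≃ₐ[K] F} {q : ℕ} [Fact q.Prime] {j : F} (h : TwistDatum G w q j)

/-- The pairs of reductions of sections. -/
def sectionImage (n : ℕ) : Submodule k (R × R) :=
  G.pairImage w h.residue_surjective (riemannRochSpace (n • (poleDiv j : Divisor K F)))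

include h in
theorem j_ne_zero : j ≠ 0 := fun e => h.transcendental' (by rw [e]; exact isAlgebraic_zero)

include h in
theorem twist_ne_zero : w j ≠ 0 := by simpa using h.j_ne_zero

/-- `j` as an element integral at both valuations. -/
def jPair : G.pairInt w := ⟨j, h.mem, h.mem'⟩

/-- `w j` as an element integral at both valuations. -/
def thetaPair : G.pairInt w :=
  ⟨w j, h.mem', by
    show w (w j) ∈ G.integers
    rw [h.involutive]
    exact h.mem⟩

include h in
theorem mem_pair_twist {u : F} (hu : u ∈ G.pairInt w) : w u ∈ G.pairInt w :=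
  ⟨hu.2, by show w (w u) ∈ G.integers; rw [h.involutive]; exact hu.1⟩

theorem pairRed_twist {u : F} (hu : u ∈ G.pairInt w) :
    G.pairRed w ⟨w u, h.mem_pair_twist hu⟩ = Prod.swap (G.pairRed w ⟨u, hu⟩) := by
  rw [G.pairRed_mk, G.pairRed_mk]
  exact Prod.ext rfl (congrArg G.red (Subtype.ext (h.involutive u)))

theorem pairRed_jPair : G.pairRed w h.jPair = (h.J, h.J ^ q) :=
  Prod.ext rfl h.red_twist

theorem pairRed_thetaPair : G.pairRed w h.thetaPair = (h.J ^ q, h.J) :=
  Prod.ext h.red_twist (congrArg G.red (Subtype.ext (h.involutive j)))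

theorem coe_kEval_pair (S : ℤ[X][X]) :
    ((kEval h.jPair h.thetaPair S : G.pairInt w) : F) = kEval j (w j) S :=
  map_kEval (G.pairInt w).subtype _ _ S

theorem fst_pairRed_kEval (S : ℤ[X][X]) :
    (G.pairRed w (kEval h.jPair h.thetaPair S)).1 = kEval h.J (h.J ^ q) S := by
  rw [map_kEval (G.pairRed w), h.pairRed_jPair, h.pairRed_thetaPair]
  exact map_kEval (RingHom.fst R R) _ _ S

theorem snd_pairRed_kEval (S : ℤ[X][X]) :
    (G.pairRed w (kEval h.jPair h.thetaPair S)).2 = kEval (h.J ^ q) h.J S := by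
  rw [map_kEval (G.pairRed w), h.pairRed_jPair, h.pairRed_thetaPair]
  exact map_kEval (RingHom.snd R R) _ _ S

theorem mem_sectionImage {n : ℕ} {f : F} (hf : f ∈ G.pairInt w)
    (hv : ∀ v : Place K F, v.adicValuation f ≤ max 1 (v.adicValuation j) ^ n) :
    G.pairRed w ⟨f, hf⟩ ∈ h.sectionImage n :=
  ⟨f, hf, (mem_rrSpace_iff_le h.j_ne_zero).mpr hv, rfl⟩

theorem one_mem_sectionImage (n : ℕ) : (1 : R × R) ∈ h.sectionImage n := by
  have := h.mem_sectionImage (f := 1) (n := n) (one_mem _) fun v => by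
    rw [map_one]; exact one_le_pow₀ (le_max_left _ _)
  rwa [show (⟨1, one_mem _⟩ : G.pairInt w) = 1 from rfl, map_one] at this

theorem T_mem_sectionImage : (h.J, h.J ^ q) ∈ h.sectionImage 1 := by
  rw [← h.pairRed_jPair]
  exact h.mem_sectionImage _ fun v => by rw [pow_one]; exact le_max_right _ _

theorem mul_mem_sectionImage (m n : ℕ) (p p' : R × R) (hp : p ∈ h.sectionImage m)
    (hp' : p' ∈ h.sectionImage n) : p * p' ∈ h.sectionImage (m + n) := by
  obtain ⟨f, hf, hfV, rfl⟩ := hp
  obtain ⟨g, hg, hgV, rfl⟩ := hp'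
  rw [← map_mul]
  refine h.mem_sectionImage (mul_mem hf hg) fun v => ?_
  rw [map_mul, pow_add]
  exact mul_le_mul' ((mem_rrSpace_iff_le h.j_ne_zero).mp hfV v)
    ((mem_rrSpace_iff_le h.j_ne_zero).mp hgV v)

theorem T_pow_mem_sectionImage (n : ℕ) : (h.J, h.J ^ q) ^ n ∈ h.sectionImage n := by
  induction n with
  | zero => simpa using h.one_mem_sectionImage 0
  | succ i ih =>
    rw [pow_succ]
    exact h.mul_mem_sectionImage i 1 _ _ ih h.T_mem_sectionImage

variable (hroot : kEval j (w j) (jPhi q) = 0) (ψ : R →ₐ[k] R)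
  (hlift : ∃ n₀ : ℕ, ∀ n, n₀ ≤ n → ∀ r ∈ riemannRochSpace (n • (poleDiv h.J : Divisor k R)),
    ∃ (u : F) (hu : u ∈ G.pairInt w), u ∈ riemannRochSpace (n • (poleDiv j : Divisor K F)) ∧
      w u ∈ riemannRochSpace (n • (poleDiv (w j) : Divisor K F)) ∧
      G.pairRed w ⟨u, hu⟩ = (r, ψ r))

include hroot hlift in
theorem fin_mem (r : R) (hr : ∀ v : Place k R, v.adicValuation h.J ≤ 1 → v.adicValuation r ≤ 1) :
    ∃ n, (r, ψ r) ∈ h.sectionImage n ∧ (ψ r, r) ∈ h.sectionImage n := by
  obtain ⟨n₀, hn₀⟩ := hlift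
  obtain ⟨n₁, hn₁⟩ := exists_mem_rrSpace r hr
  set m := max n₀ n₁
  obtain ⟨u, hu, huL, hwuL, e⟩ := hn₀ m (le_max_left _ _) r (hn₁ m (le_max_right _ _))
  refine ⟨q * m, ?_, ?_⟩
  · rw [← e]
    exact h.mem_sectionImage hu fun v => ((mem_rrSpace_iff_le h.j_ne_zero).mp huL v).trans
      (pow_le_pow_right₀ (le_max_left _ _) (Nat.le_mul_of_pos_left m (Fact.out : q.Prime).pos))
  · rw [show (ψ r, r) = Prod.swap (G.pairRed w ⟨u, hu⟩) by rw [e]; rfl, ← h.pairRed_twist hu]
    refine h.mem_sectionImage _ fun v => ((mem_rrSpace_iff_le h.twist_ne_zero).mp hwuL v).trans ?_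
    rw [pow_mul]
    exact pow_le_pow_left₀ zero_le (max_le (one_le_pow₀ (le_max_left _ _))
      (val_theta_le v.adicValuation (fun a ha => adicValuation_intCast v ha) q hroot)) m

include hroot hlift in
theorem inf_mem [CharP k q] (hψ : ψ h.J = h.J ^ q) (r : R)
    (hr : ∀ v : Place k R, v.adicValuation h.J⁻¹ ≤ 1 → v.adicValuation r ≤ 1) :
    ∃ n, (h.J, h.J ^ q) ^ n * (r, ψ r) ∈ h.sectionImage n ∧
      (h.J, h.J ^ q) ^ n * (ψ r, r) ∈ h.sectionImage n := by
  haveI : CharP R q := charP_of_injective_algebraMap (algebraMap k R).injective q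
  obtain ⟨n₀, hn₀⟩ := hlift
  obtain ⟨n₁, hn₁⟩ := exists_mem_rrSpace r hr
  set m := max n₀ n₁
  have hr0 : h.J ^ m * r ∈ riemannRochSpace (m • (poleDiv h.J : Divisor k R)) := by
    rw [mem_rrSpace_iff_le h.J_ne_zero]
    intro v
    have h1 := (mem_rrSpace_iff_le (inv_ne_zero h.J_ne_zero)).mp (hn₁ m (le_max_right _ _)) v
    rw [map_mul, map_pow]
    refine (mul_le_mul_right h1 _).trans (le_of_eq ?_)
    rw [← mul_pow, map_inv₀]
    congr 1
    have hpos : v.adicValuation h.J ≠ 0 := (Valuation.ne_zero_iff _).mpr h.J_ne_zero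
    rcases le_total 1 (v.adicValuation h.J) with hle | hle
    · rw [max_eq_left (inv_le_one_of_one_le₀ hle), mul_one, max_eq_right hle]
    · rw [max_eq_right ((one_le_inv₀ (zero_lt_iff.mpr hpos)).mpr hle), mul_inv_cancel₀ hpos,
        max_eq_left hle]
  obtain ⟨u, hu, huL, hwuL, e⟩ := hn₀ m (le_max_left _ _) (h.J ^ m * r) hr0
  rw [map_mul, map_pow, hψ] at e
  set c : G.pairInt w := -kEval h.jPair h.thetaPair (jPhiS q) with hc
  have hJq : h.J ^ q ≠ 0 := pow_ne_zero _ h.J_ne_zero
  have h0q : (0 : R) ^ q = 0 := zero_pow (Fact.out : q.Prime).ne_zero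
  have hc1 : (G.pairRed w c).1 = h.J := by
    have hk := kEval_jPhiS q (R := R) (x := h.J) (y := h.J ^ q)
      (by rw [kEval_kronecker, sub_self, zero_mul])
    rw [kEval_coeff_zero, h0q] at hk
    rw [hc, map_neg, Prod.fst_neg, h.fst_pairRed_kEval]
    refine mul_left_cancel₀ hJq ?_
    rw [mul_neg, hk]
    ring
  have hc2 : h.J * (G.pairRed w c).2 = (h.J ^ q) ^ (q + 1) := by
    have hk := kEval_jPhiS q (R := R) (x := h.J ^ q) (y := h.J)
      (by rw [kEval_kronecker, sub_self, mul_zero])
    rw [kEval_coeff_zero, h0q] at hk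
    rw [hc, map_neg, Prod.snd_neg, h.snd_pairRed_kEval, mul_neg, hk]
    ring
  refine ⟨(q + 1) * m, ?_, ?_⟩
  · have hm : (h.J, h.J ^ q) ^ m * (r, ψ r) ∈ h.sectionImage m := by
      rw [show (h.J, h.J ^ q) ^ m * (r, ψ r) = G.pairRed w ⟨u, hu⟩ by rw [e]; rfl]
      exact h.mem_sectionImage hu ((mem_rrSpace_iff_le h.j_ne_zero).mp huL)
    have := h.mul_mem_sectionImage _ _ _ _ (h.T_pow_mem_sectionImage (q * m)) hm
    rwa [← mul_assoc, ← pow_add, show q * m + m = (q + 1) * m by ring] at this
  · have hg : G.pairRed w (⟨w u, h.mem_pair_twist hu⟩ * c ^ m) ∈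
        h.sectionImage ((q + 1) * m) := by
      refine h.mem_sectionImage _ fun v => ?_
      rw [SubmonoidClass.coe_pow, hc, NegMemClass.coe_neg, h.coe_kEval_pair]
      show v.adicValuation (w u * (-kEval j (w j) (jPhiS q)) ^ m) ≤ _
      rw [neg_pow, mul_left_comm, map_mul, map_pow, Valuation.map_neg, map_one, one_pow, one_mul]
      exact val_jPhiS_pow_mul v.adicValuation (fun a ha => adicValuation_intCast v ha) q
        hroot m ((mem_rrSpace_iff_le h.twist_ne_zero).mp hwuL v)
    refine Eq.mp (congrArg (· ∈ h.sectionImage ((q + 1) * m)) ?_) hg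
    rw [map_mul, map_pow, h.pairRed_twist hu, e]
    refine Prod.ext ?_ ?_
    · rw [Prod.fst_mul, Prod.fst_mul, Prod.pow_fst, Prod.pow_fst, hc1]
      simp only [Prod.swap_prod_mk]
      ring
    · rw [Prod.snd_mul, Prod.snd_mul, Prod.pow_snd, Prod.pow_snd]
      simp only [Prod.swap_prod_mk]
      rw [mul_right_comm, ← mul_pow, hc2]
      ring

include hroot in
theorem sep_mem [CharP k q] : ∃ n, ∃ p ∈ h.sectionImage n, ∀ v : Place k R,
    v.adicValuation h.J⁻¹ < 1 →
      valueAt v (p.1 / h.J ^ n) = 0 ∧ valueAt v (p.2 / (h.J ^ q) ^ n) ≠ 0 := by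
  haveI : CharP R q := charP_of_injective_algebraMap (algebraMap k R).injective q
  set c : G.pairInt w := h.jPair * kEval h.jPair h.thetaPair (jPhiQ q) with hc
  refine ⟨2 * q, G.pairRed w c, h.mem_sectionImage c.2 fun v => ?_, fun v hv => ?_⟩
  · have hI : ∀ a : ℤ, a ≠ 0 → v.adicValuation (a : F) = 1 := fun a ha =>
      adicValuation_intCast v ha
    rw [hc, MulMemClass.coe_mul, h.coe_kEval_pair]
    show v.adicValuation (j * kEval j (w j) (jPhiQ q)) ≤ _
    rcases val_jPhiQ_mul v.adicValuation hI q hroot with hle | hle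
    · exact hle
    · have hθ := val_theta_le v.adicValuation hI q hroot
      rw [max_eq_left hle, one_pow] at hθ ⊢
      rw [map_mul]
      refine mul_le_one' hle ?_
      refine (val_kEval_le v.adicValuation hI _ j (w j)
        (d := Finset.sup (jPhiQ q).support fun i => ((jPhiQ q).coeff i).natDegree)
        (e := (jPhiQ q).natDegree) (fun i => ?_) le_rfl).trans ?_
      · by_cases hi : i ∈ (jPhiQ q).support
        · exact Finset.le_sup (f := fun i => ((jPhiQ q).coeff i).natDegree) hi
        · rw [notMem_support_iff.mp hi]; simp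
      · rw [max_eq_left hle, max_eq_left hθ, one_pow, one_pow, one_mul]
  have hq := (Fact.out : q.Prime).two_le
  have hB : 1 < v.adicValuation h.J := by
    have hpos : v.adicValuation h.J ≠ 0 := (Valuation.ne_zero_iff _).mpr h.J_ne_zero
    rw [map_inv₀] at hv
    exact (inv_lt_one₀ (zero_lt_iff.mpr hpos)).mp hv
  set B := v.adicValuation h.J with hBdef
  have hlt : ∀ {a b : ℕ}, a < b → B ^ a < B ^ b := fun hab => pow_lt_pow_right₀ hB hab
  have e1 : (G.pairRed w c).1 = h.J * kEval h.J (h.J ^ q) (jPhiQ q) := by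
    rw [hc, map_mul, Prod.fst_mul, h.pairRed_jPair, h.fst_pairRed_kEval]
  have e2 : (G.pairRed w c).2 = h.J ^ q * kEval (h.J ^ q) h.J (jPhiQ q) := by
    rw [hc, map_mul, Prod.snd_mul, h.pairRed_jPair, h.snd_pairRed_kEval]
  have h1 := kEval_jPhiQ q (R := R) (x := h.J) (y := h.J ^ q)
    (by rw [kEval_kronecker, sub_self, zero_mul])
  have h2 := kEval_jPhiQ q (R := R) (x := h.J ^ q) (y := h.J)
    (by rw [kEval_kronecker, sub_self, mul_zero])
  rw [kEval_kronecker] at h1 h2
  have vsum : ∀ {a b : ℕ}, a < b → ∀ {x y : R}, v.adicValuation x = B ^ b →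
      v.adicValuation y = B ^ a → v.adicValuation (x + y) = B ^ b := fun hab x y hx hy => by
    rw [v.adicValuation.map_add_eq_of_lt_left (by rw [hx, hy]; exact hlt hab), hx]
  have vJ : ∀ a : ℕ, v.adicValuation (h.J ^ a) = B ^ a := fun a => map_pow _ _ _
  have n1 : v.adicValuation (h.J ^ q + h.J) = B ^ q :=
    vsum (a := 1) (by omega) (vJ q) (pow_one B).symm
  have n2 : v.adicValuation (-h.J - h.J ^ q) = B ^ q := by
    rw [show -h.J - h.J ^ q = -(h.J ^ q + h.J) by ring, Valuation.map_neg, n1]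
  have hBne : ∀ a : ℕ, B ^ a ≠ 0 := fun a => pow_ne_zero _ (ne_zero_of_lt hB)
  constructor
  · have hp : v.adicValuation (G.pairRed w c).1 = B ^ (q + 1) := by
      rw [e1, map_mul]
      have hv1 := congrArg v.adicValuation h1
      have n3 : v.adicValuation ((-h.J) ^ q - h.J) = B ^ q := by
        rw [sub_eq_add_neg]
        exact vsum (a := 1) (by omega) (by rw [map_pow, Valuation.map_neg])
          (by rw [Valuation.map_neg, pow_one])
      rw [map_mul, n1, Valuation.map_neg, map_mul, n2, n3] at hv1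
      rw [mul_left_cancel₀ (hBne q) hv1, ← hBdef, ← pow_succ']
    have hlt' : v.adicValuation ((G.pairRed w c).1 / h.J ^ (2 * q)) < 1 := by
      rw [map_div₀, hp, vJ, div_lt_one₀ (zero_lt_iff.mpr (hBne _))]
      exact hlt (by omega)
    exact (adicValuation_lt_one_iff hlt'.le).mp hlt'
  · have hqq : q < q * q := by nlinarith
    have n4 : v.adicValuation (-h.J ^ q - (h.J ^ q) ^ q) = B ^ (q * q) := by
      rw [show -h.J ^ q - (h.J ^ q) ^ q = -(h.J ^ (q * q) + h.J ^ q) by rw [pow_mul]; ring,
        Valuation.map_neg, vsum hqq (vJ _) (vJ q)]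
    have n5 : v.adicValuation ((-h.J ^ q) ^ q - h.J ^ q) = B ^ (q * q) := by
      rw [sub_eq_add_neg]
      exact vsum hqq (by rw [map_pow, Valuation.map_neg, vJ, ← pow_mul])
        (by rw [Valuation.map_neg, vJ])
    have hp : v.adicValuation (G.pairRed w c).2 = B ^ (q * (2 * q)) := by
      have hv2 := congrArg v.adicValuation h2
      rw [map_mul, add_comm h.J (h.J ^ q), n1, Valuation.map_neg, map_mul, n4, n5] at hv2
      rw [e2, map_mul, vJ, hv2, ← pow_add]
      congr 1
      ring
    have heq : v.adicValuation ((G.pairRed w c).2 / (h.J ^ q) ^ (2 * q)) = 1 := by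
      rw [map_div₀, hp, ← pow_mul, vJ, div_self (hBne _)]
    intro h0
    exact ((adicValuation_lt_one_iff heq.le).mpr h0).ne heq

end TwistDatum

end FermatAgent.BadRed.Semistable
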