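import Fermat.Agent.BadRed.Semistable.ToricSpace
import Fermat.Agent.BadRed.Semistable.HalfSpace
import Fermat.Agent.BadRed.Semistable.OldPart
import Fermat.Agent.BadRed.Carayol.Assembly.MultOne
import Fermat.Agent.Conductor.Bound
import Fermat.Agent.RTLift.Petersson.Semisimple
import Fermat.Agent.GalRep.Construct.Main
import Fermat.Agent.TW.Places

/-!
# Semistable reduction of the Tate module at a prime exactly dividing the level

For `q ∥ M` and `p ≠ q`, `ρ τ + ρ τ⁻¹ = 2` on inertia at `q`, and on the `q`-new part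
`(ρ F + q ρ F⁻¹)² = (q + 1)²` for every Frobenius element at `q`.
-/

set_option autoImplicit false
set_option linter.unusedSectionVars false
set_option linter.style.haveILetI false
set_option maxHeartbeats 1600000

noncomputable section

open Module Matrix ModularCurve AlgebraicCurve CuspForm
open scoped Pointwise

namespace FermatAgent.BadRed.Semistable

open FermatAgent.GalRep FermatAgent.ModCurveTorsion FermatAgent.BadRed.Carayol

local notation "GQ" => AlgebraicClosure ℚ ≃ₐ[ℚ] AlgebraicClosure ℚ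
local notation "ℚbar" => AlgebraicClosure ℚ

section Model

variable (N p : ℕ) [NeZero N] [Fact p.Prime] {S : Set ℕ}
  (hS : ∀ r : ℕ, r.Prime → r ∣ N → r ∈ S)

/-- The representation on the complexified Tate module. -/
def repC : GQ →* Module.End ℂ (Fin (torsionModel N).rank → ℂ) :=
  (matC p (r := (torsionModel N).rank)).toMonoidHom.comp (modelTate N p hS).ρ

/-- The cyclotomic character with complex values. -/
def cycC : GQ →* ℂ := (zpC p).toMonoidHom.comp (cycChar p)

theorem matC_hecMat (t : heckeAlgebra N 2 S) :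
    matC p (r := (torsionModel N).rank) (hecMat (modelTate N p hS) t) = heckeC N S t := by
  refine LinearMap.ext fun v => (matC_apply p _ v).trans ?_
  rw [heckeC_apply]
  exact congrArg (· *ᵥ v) (hecMat_map_zpC (modelTate N p hS) t)

theorem commute_repC (g : GQ) (t : heckeAlgebra N 2 S) :
    Commute (heckeC N S t) (repC N p hS g) := by
  rw [← matC_hecMat N p hS t]
  exact ((modelTate N p hS).comm g t).symm.map (matC p (r := (torsionModel N).rank))

/-- `ρ g + ω g • ρ g⁻¹` on the complexified Tate module. -/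
def xC (g : GQ) : Module.End ℂ (Fin (torsionModel N).rank → ℂ) :=
  matC p (r := (torsionModel N).rank) (xMat (modelTate N p hS) g)

theorem xC_eq (g : GQ) : xC N p hS g = repC N p hS g + cycC p g • repC N p hS g⁻¹ :=
  (map_add _ _ _).trans (congrArg (_ + ·) (matC_smul p _ _))

theorem repC_complexConjugation : repC N p hS complexConjugation = conjC N := by
  refine LinearMap.ext fun v => ?_
  show (tateHom (modelTorsion N p S) complexConjugation).map (zpC p) *ᵥ v =
    (conjMat N).map (Int.cast : ℤ → ℂ) *ᵥ v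
  exact congrArg (· *ᵥ v)
    ((congrArg (fun M : Matrix (Fin (torsionModel N).rank) (Fin (torsionModel N).rank) ℤ_[p] =>
      M.map (zpC p)) (tateHom_complexConjugation N p (S := S))).trans (map_intCast_zpC p _))

theorem matC_two : matC p (r := (torsionModel N).rank) 2 = 2 := map_ofNat _ 2

theorem matC_relation (t : heckeAlgebra N 2 S) (g : GQ) (c : ℤ_[p])
    (A X : Matrix (Fin (torsionModel N).rank) (Fin (torsionModel N).rank) ℤ_[p])
    (hA : A = hecMat (modelTate N p hS) t) (hX : X = xMat (modelTate N p hS) g) :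
    matC p (A * (X * X - c • 1)) =
      heckeC N S t * (xC N p hS g * xC N p hS g - zpC p c • 1) := by
  have h1 : matC p A = heckeC N S t := (congrArg (matC p) hA).trans (matC_hecMat N p hS t)
  have h2 : matC p X = xC N p hS g := congrArg (matC p) hX
  rw [map_mul, map_sub, map_mul, matC_smul, map_one, h1, h2]

include hS in
theorem isSemisimple_heckeC (t : heckeAlgebra N 2 S) : (heckeC N S t).IsSemisimple :=
  haveI := RTLift.Petersson.isReduced_heckeAlgebra (k := 2) hS
  isSemisimple_of_isReduced _ ((torsionModel N).heckeMatrixAway_injective S) ℂ t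

variable (hd : FrobDense) (hSfin : S.Finite)

/-- The scalar of `xMat` on an eigenspace. -/
def scalarC (χ : heckeAlgebra N 2 S → ℂ) (g : GQ) : ℂ :=
  (exists_xMat_scalar (modelTate N p hS) hd hSfin χ g).choose

theorem matC_xMat_eigen (χ : heckeAlgebra N 2 S → ℂ) (g : GQ)
    {v : Fin (torsionModel N).rank → ℂ} (hv : v ∈ eigSp (heckeC N S) χ) :
    xC N p hS g v = scalarC N p hS hd hSfin χ g • v :=
  (exists_xMat_scalar (modelTate N p hS) hd hSfin χ g).choose_spec v (mem_eigSp.mp hv)

theorem repC_eigen (χ : heckeAlgebra N 2 S → ℂ) (g : GQ) {v : Fin (torsionModel N).rank → ℂ}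
    (hv : v ∈ eigSp (heckeC N S) χ) :
    repC N p hS g v + cycC p g • repC N p hS g⁻¹ v = scalarC N p hS hd hSfin χ g • v := by
  rw [← matC_xMat_eigen N p hS hd hSfin χ g hv, xC_eq]
  rfl

include hd hSfin in
theorem trace_repEig_complexConjugation (χ : heckeAlgebra N 2 S → ℂ) :
    LinearMap.trace ℂ (eigSp (heckeC N S) χ)
      (repEig (commute_repC N p hS) χ complexConjugation) = 0 := by
  refine Eq.trans (congrArg _ ?_) (trace_conjC_eigSp N χ)
  exact LinearMap.ext fun v => Subtype.ext
    (LinearMap.congr_fun (repC_complexConjugation N p hS) v.1)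

end Model

variable (q N' : ℕ) [Fact q.Prime] [NeZero N'] [NeZero (q * N')] {p : ℕ} [Fact p.Prime]
  (hco : q.Coprime N') (hpq : p ≠ q) {S S' : Set ℕ}
  (hS : ∀ r : ℕ, r.Prime → r ∣ q * N' → r ∈ S) (hSS : S' ⊆ S)
  (hS' : ∀ r : ℕ, r.Prime → r ∣ N' → r ∈ S') (hqS : q ∉ S') (hd : FrobDense) (hSfin : S.Finite)

include hco hpq hS' hqS in
/-- On a system coming from level `N'`. -/
theorem scalarC_of_old {χ : heckeAlgebra (q * N') 2 S → ℂ}
    (hχ : χ ∈ systems (heckeC (q * N') S))
    (hI : ∀ a ∈ RingHom.ker (oldRes hco hS hSS), χ a = 0)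
    {A : ValuationSubring ℚbar} (hA : A.LiesOverPrime q) :
    (∀ τ ∈ A.inertiaSubgroupIn ℚ, scalarC (q * N') p hS hd hSfin χ τ = 2) ∧
    (∀ F, A.IsFrobeniusAt F q →
      scalarC (q * N') p hS hd hSfin χ F ^ 2 ≠ ((q : ℂ) + 1) ^ 2) := by
  have hne := mem_systems.mp hχ
  obtain ⟨χ, rfl⟩ := exists_ringHom_of_eigSp_ne_bot hne
  obtain ⟨w, hw, hw0⟩ := Submodule.exists_mem_ne_zero_of_ne_bot hne
  set f := oldRes hco hS hSS
  have hfin : Module.Finite ℤ (heckeAlgebra N' 2 S') :=
    DSLift.heckeAlgebra_finite (by norm_num) (ModCurve.Forms.hasIntegralStructure_two N') _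
  let χ₀ : f.range →+* ℂ := f.rangeRestrict.liftOfSurjective f.rangeRestrict_surjective
    ⟨χ, fun a ha => hI a (RingHom.mem_ker.mpr (congrArg Subtype.val (RingHom.mem_ker.mp ha)))⟩
  obtain ⟨χ', hχ'⟩ := exists_ringHom_extend f.range.subtype Subtype.val_injective
    (fun x => Algebra.IsIntegral.isIntegral x) χ₀
  have hcomp : ∀ t, χ' (f t) = χ t := fun t =>
    (RingHom.congr_fun hχ' (f.rangeRestrict t)).trans
      (RingHom.liftOfSurjective_comp_apply _ _ _ t)
  set D' := modelTate N' p hS'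
  obtain ⟨v, hv0, hv⟩ := exists_common_eigenvector D'.ι D'.ι_injective χ'
  have key : ∀ g, (xMat D' g).map (zpC p) *ᵥ v = scalarC (q * N') p hS hd hSfin χ g • v := by
    intro g
    obtain ⟨s, hs, hs'⟩ := exists_xMat_scalar_compat (modelTate (q * N') p hS) D' hd hSfin
      (fun r _ h => dvd_mul_of_dvd_right h q) hSS f
      (fun l hl hlN hlS hlN' hlS' => oldRes_T hco hS hSS hl hlN hlS hlN' hlS') χ' g hv0 hv
    have h1 := hs' w fun t => (mem_eigSp.mp hw t).trans (congrArg (· • w) (hcomp t).symm)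
    have h2 := matC_xMat_eigen (q * N') p hS hd hSfin χ g hw
    rw [hs, smul_left_injective ℂ hw0 (h1.symm.trans h2)]
  have hqN : ¬ q ∣ N' := (Nat.Prime.coprime_iff_not_dvd Fact.out).mp hco
  have hq : q.Prime := Fact.out
  refine ⟨fun τ hτ => ?_, fun F hF => ?_⟩
  · have hqNp : ¬ q ∣ N' * p := fun h => (hq.dvd_mul.mp h).elim hqN
      fun h' => hpq ((Nat.prime_dvd_prime_iff_eq hq Fact.out).mp h').symm
    have h := key τ
    rw [xMat, D'.unramified q hq hqNp A hA τ hτ, D'.unramified q hq hqNp A hA τ⁻¹ (inv_mem hτ),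
      cycChar_inertia p hq hpq.symm hA hτ, one_smul, Matrix.map_add _ (map_add _),
      Matrix.map_one _ (map_zero _) (map_one _), Matrix.add_mulVec, Matrix.one_mulVec,
      ← two_smul ℂ v] at h
    exact (smul_left_injective ℂ hv0 h).symm
  · obtain ⟨φ, hφ, hφT⟩ := exists_eigenform_of_character χ'
    have h := key F
    rw [← pow_one F, xMat_frobenius_pow D' hq hqN hqS hpq.symm hA hF 1, hecMat_map_zpC, hv,
      pow_one] at h
    have hs : scalarC (q * N') p hS hd hSfin χ F = ModularFormClass.qCoeff ⇑φ q :=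
      (smul_left_injective ℂ hv0 h).symm.trans (hφT q hq hqN hqS).symm
    intro he
    have hlt := Conductor.norm_qCoeff_lt hφ hq hqN
    have := congrArg norm he
    rw [hs, norm_pow, norm_pow, show ((q : ℂ) + 1) = ((q + 1 : ℕ) : ℂ) by push_cast; rfl,
      Complex.norm_natCast, Nat.cast_add, Nat.cast_one] at this
    exact hlt.ne ((pow_left_inj₀ (norm_nonneg _) (by positivity) two_ne_zero).mp this)

theorem eq_of_eq_on_eigSp {M : ℕ} [NeZero M] {T : Set ℕ} (hT : ∀ r : ℕ, r.Prime → r ∣ M → r ∈ T)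
    {A B : Module.End ℂ (Fin (torsionModel M).rank → ℂ)}
    (h : ∀ χ ∈ systems (heckeC M T), ∀ v ∈ eigSp (heckeC M T) χ, A v = B v) : A = B := by
  refine LinearMap.ext fun v => ?_
  obtain ⟨c, hc, rfl⟩ := exists_components (isSemisimple_heckeC M hT) v
  rw [map_sum, map_sum]
  exact Finset.sum_congr rfl fun χ hχ => h χ hχ _ (hc χ)

include hco hpq hS' hqS hd hSfin in
/-- The relations at the distinguished place. -/
theorem steinberg_place₀ :
    (∀ τ ∈ (place₀ q).inertiaSubgroupIn ℚ, xMat (modelTate (q * N') p hS) τ = 2) ∧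
    (∀ F, (place₀ q).IsFrobeniusAt F q → ∀ t, oldRes hco hS hSS t = 0 →
      hecMat (modelTate (q * N') p hS) t *
        (xMat (modelTate (q * N') p hS) F * xMat (modelTate (q * N') p hS) F -
          ((q : ℤ_[p]) + 1) ^ 2 • 1) = 0) := by
  haveI := isFunctionField1_kFib q N' hco
  have hq : q.Prime := Fact.out
  have hA := liesOverPrime_place₀ q
  obtain ⟨T, hTI, hTF, hTdim⟩ := exists_toricSpace p q N' hco S hpq
  obtain ⟨F₀, hF₀⟩ : ∃ F : GQ, (place₀ q).IsFrobeniusAt F q := RT.exists_isFrobeniusAt hq hA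
  have hnew : ∀ F, (place₀ q).IsFrobeniusAt F q → ∀ χ ∈ systems (heckeC (q * N') S),
      (∃ a ∈ RingHom.ker (oldRes hco hS hSS), χ a ≠ 0) →
      (∀ τ ∈ (place₀ q).inertiaSubgroupIn ℚ, scalarC (q * N') p hS hd hSfin χ τ = 2) ∧
        scalarC (q * N') p hS hd hSfin χ F ^ 2 = ((q : ℂ) + 1) ^ 2 := by
    intro F hF χ hχ hχI
    have hωF : cycC p F = (q : ℂ) := by
      show zpC p (cycChar p F) = _
      rw [cycChar_frobenius p hq hpq.symm hA hF, map_natCast]
    refine scalars_of_new (R := repC (q * N') p hS) (ω := cycC p)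
      (Γ := ((place₀ q).inertiaSubgroupIn ℚ : Set GQ)) (F := F) (Q := (q : ℂ))
      (fun χ g v hv => repC_eigen (q * N') p hS hd hSfin χ g hv) (commute_repC (q * N') p hS)
      (c := complexConjugation) complexConjugation_mul_self
      (by show zpC p (cycChar p complexConjugation) = -1
          rw [cycChar_complexConjugation, map_neg, map_one])
      (fun χ => trace_repEig_complexConjugation (q * N') p hS hd hSfin χ)
      (isSemisimple_heckeC (q * N') hS)
      (fun γ hγ => by
        show zpC p (cycChar p γ) = 1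
        rw [cycChar_inertia p hq hpq.symm hA hγ, map_one])
      (fun γ hγ => ((place₀ q).inertiaSubgroupIn ℚ).inv_mem hγ) hωF
      (Nat.cast_ne_zero.mpr hq.ne_zero) (Nat.cast_ne_one.mpr hq.ne_one)
      (by exact_mod_cast Nat.succ_ne_zero q)
      (RingHom.ker (oldRes hco hS hSS) : Set (heckeAlgebra (q * N') 2 S))
      (fun ψ hψ h => (scalarC_of_old q N' hco hpq hS hSS hS' hqS hd hSfin hψ h hA).2 F hF)
      (LinearMap.range (oldLift q N')) (fun v hv a ha => ?_) T
      (fun v hv => mem_toricPart.mpr ⟨fun γ hγ => hTI γ hγ v hv, hTF F hF v hv⟩) ?_ hχ hχI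
    · obtain ⟨y, rfl⟩ := hv
      exact heckeC_oldLift hco hS hSS (RingHom.mem_ker.mp ha) y
    · have h1 := finrank_lattice (q * N')
      have h2 := finrank_oldDomain (N' := N')
      rw [← LinearMap.finrank_range_of_inj (oldLift_injective (q := q) hco)] at h2
      have h3 : (finrank ℂ (Fin (torsionModel (q * N')).rank → ℂ) : ℚ) =
          2 * (finrank ℂ T : ℚ) + (finrank ℂ (LinearMap.range (oldLift q N')) : ℚ) := by
        rw [hTdim, h2, h1]; ring
      exact_mod_cast h3.le
  refine ⟨fun τ hτ => ?_, fun F hF t ht => ?_⟩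
  · refine matC_injective p (eq_of_eq_on_eigSp (M := q * N') hS fun χ hχ v hv => ?_)
    refine (matC_xMat_eigen (q * N') p hS hd hSfin χ τ hv).trans ?_
    have h2 : scalarC (q * N') p hS hd hSfin χ τ = 2 := by
      by_cases hI : ∀ a ∈ RingHom.ker (oldRes hco hS hSS), χ a = 0
      · exact (scalarC_of_old q N' hco hpq hS hSS hS' hqS hd hSfin hχ hI hA).1 τ hτ
      · push Not at hI
        exact (hnew F₀ hF₀ χ hχ hI).1 τ hτ
    refine Eq.trans ?_ (LinearMap.congr_fun (matC_two (q * N') p) v).symm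
    rw [h2, ← one_add_one_eq_two, ← one_add_one_eq_two, LinearMap.add_apply, add_smul, one_smul]
    rfl
  · refine matC_injective p (eq_of_eq_on_eigSp (M := q * N') hS fun χ hχ v hv => ?_)
    refine (LinearMap.congr_fun (matC_relation (q * N') p hS t F _ _ _ rfl rfl) v).trans
      (Eq.trans ?_ (LinearMap.congr_fun (map_zero (matC p (r := (torsionModel (q * N')).rank))) v).symm)
    rw [LinearMap.zero_apply, Module.End.mul_apply, LinearMap.sub_apply, Module.End.mul_apply, LinearMap.smul_apply,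
      Module.End.one_apply, matC_xMat_eigen (q * N') p hS hd hSfin χ F hv, map_smul,
      matC_xMat_eigen (q * N') p hS hd hSfin χ F hv, smul_smul, ← sub_smul, map_smul,
      mem_eigSp.mp hv t, smul_smul]
    by_cases hI : χ t = 0
    · rw [hI, mul_zero, zero_smul]
    · have hs := (hnew F hF χ hχ ⟨t, RingHom.mem_ker.mpr ht, hI⟩).2
      rw [map_pow, map_add, map_natCast, map_one, ← hs, sq, sub_self, zero_mul, zero_smul]

include hco hpq hS' hqS hd hSfin in
/-- **The relations at every place over `q`.** -/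
theorem steinberg {A : ValuationSubring ℚbar} (hA : A.LiesOverPrime q) :
    (∀ τ ∈ A.inertiaSubgroupIn ℚ, xMat (modelTate (q * N') p hS) τ = 2) ∧
    (∀ F, A.IsFrobeniusAt F q → ∀ t, oldRes hco hS hSS t = 0 →
      hecMat (modelTate (q * N') p hS) t *
        (xMat (modelTate (q * N') p hS) F * xMat (modelTate (q * N') p hS) F -
          ((q : ℤ_[p]) + 1) ^ 2 • 1) = 0) := by
  obtain ⟨h1, h2⟩ := steinberg_place₀ q N' hco hpq hS hSS hS' hqS hd hSfin
  obtain ⟨g, hg⟩ := TW.exists_smul_eq (A := A) (Fact.out : q.Prime) hA (liesOverPrime_place₀ q)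
  set D := modelTate (q * N') p hS
  have hx : ∀ σ, xMat D σ = D.ρ g⁻¹ * xMat D (g * σ * g⁻¹) * D.ρ g := by
    intro σ
    have e : ∀ x, D.ρ g⁻¹ * D.ρ (g * x * g⁻¹) * D.ρ g = D.ρ x := fun x => by
      rw [← map_mul, ← map_mul]
      congr 1
      group
    have ec : cycChar p (g * σ * g⁻¹) = cycChar p σ := by
      rw [map_mul, map_mul, mul_comm, ← mul_assoc, ← map_mul, inv_mul_cancel, map_one, one_mul]
    rw [xMat, xMat, mul_add, add_mul, mul_smul_comm, smul_mul_assoc, ec, e,
      show (g * σ * g⁻¹)⁻¹ = g * σ⁻¹ * g⁻¹ by group, e]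
  refine ⟨fun τ hτ => ?_, fun F hF t ht => ?_⟩
  · rw [hx, h1 _ (hg ▸ TW.conj_mem_inertia hτ), mul_two, add_mul, ← map_mul, inv_mul_cancel,
      map_one, one_add_one_eq_two]
  · have h3 := h2 _ (hg ▸ TW.conj_isFrobeniusAt hF) t ht
    set X := xMat D (g * F * g⁻¹)
    have hc : Commute (hecMat D t) (D.ρ g⁻¹) := (D.comm g⁻¹ t).symm
    have hinv : D.ρ g * D.ρ g⁻¹ = 1 := by rw [← map_mul, mul_inv_cancel, map_one]
    have hinv' : D.ρ g⁻¹ * D.ρ g = 1 := by rw [← map_mul, inv_mul_cancel, map_one]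
    have e : xMat D F * xMat D F - ((q : ℤ_[p]) + 1) ^ 2 • 1 =
        D.ρ g⁻¹ * (X * X - ((q : ℤ_[p]) + 1) ^ 2 • 1) * D.ρ g := by
      rw [hx F, mul_sub, sub_mul, mul_smul_comm, smul_mul_assoc, mul_one, hinv']
      congr 1
      simp only [mul_assoc, X]
      rw [← mul_assoc (D.ρ g) (D.ρ g⁻¹), hinv, one_mul]
    rw [e, ← mul_assoc, ← mul_assoc, hc.eq, mul_assoc (D.ρ g⁻¹), h3, mul_zero, zero_mul]

end FermatAgent.BadRed.Semistable
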