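import Fermat.Agent.GalRep.Construct.TateData

/-!
# Vectors of the Tate module as compatible torsion points
-/

set_option autoImplicit false

noncomputable section

namespace FermatAgent.BadRed.Semistable

open CuspForm ModularCurve AlgebraicCurve Matrix FermatAgent.GalRep

local notation "Qb" => AlgebraicClosure ℚ
local notation "GQ" => AlgebraicClosure ℚ ≃ₐ[ℚ] AlgebraicClosure ℚ

variable {p : ℕ} [Fact p.Prime] {N : ℕ} [NeZero N] {S : Set ℕ} (D : HeckeTorsionData N p S)

/-- The reduction of a vector of the Tate module as a torsion point. -/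
def torPt (n : ℕ) : (Fin D.rank → ℤ_[p]) →+ JZero N :=
  ((Pic0.torsion Qb (modularFunctionFieldBar N) (p ^ n)).subtype.comp
    (D.e n).symm.toAddMonoidHom).comp
    ((PadicInt.toZModPow (p := p) n).toAddMonoidHom.compLeft (Fin D.rank))

theorem torPt_mem (n : ℕ) (v : Fin D.rank → ℤ_[p]) : p ^ n • torPt D n v = 0 :=
  mem_torsion_pow.mp ((D.e n).symm _).2

theorem e_torPt (n : ℕ) (v : Fin D.rank → ℤ_[p]) :
    D.e n ⟨torPt D n v, mem_torsion_pow.mpr (torPt_mem D n v)⟩ =
      fun i => PadicInt.toZModPow n (v i) :=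
  (D.e n).apply_symm_apply _

theorem torPt_eq_of_e {n : ℕ} {v : Fin D.rank → ℤ_[p]} {x : JZero N} (hx : p ^ n • x = 0)
    (h : D.e n ⟨x, mem_torsion_pow.mpr hx⟩ = fun i => PadicInt.toZModPow n (v i)) :
    torPt D n v = x := by
  show ((D.e n).symm (fun i => PadicInt.toZModPow n (v i)) : JZero N) = x
  rw [← h, AddEquiv.symm_apply_apply]

theorem torPt_mulVec (n : ℕ) (σ : GQ) (v : Fin D.rank → ℤ_[p]) :
    torPt D n (tateHom D σ *ᵥ v) = σ • torPt D n v := by
  refine torPt_eq_of_e D (galois_torsion σ (torPt_mem D n v)) ?_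
  rw [← levelMat_e D n σ ⟨torPt D n v, mem_torsion_pow.mpr (torPt_mem D n v)⟩ _ rfl, e_torPt]
  funext i
  rw [← tateMat_toZModPow D n σ]
  exact (RingHom.map_mulVec (PadicInt.toZModPow n) _ v i).symm

theorem torPt_ext {v w : Fin D.rank → ℤ_[p]} (h : ∀ n, torPt D n v = torPt D n w) : v = w := by
  funext i
  refine PadicInt.ext_of_toZModPow.mp fun n => ?_
  have h1 := congrFun (e_torPt D n v) i
  have h2 := congrFun (e_torPt D n w) i
  rw [← h1, ← h2]
  simp only [h n]

/-- A compatible sequence of torsion points is a vector. -/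
theorem exists_torPt_eq (x : ℕ → JZero N) (hx : ∀ n, p ^ n • x n = 0)
    (h : ∀ n, p • x (n + 1) = x n) : ∃ v, ∀ n, torPt D n v = x n := by
  have hc : ∀ i, ∃ a : ℤ_[p], ∀ n,
      a.toZModPow n = D.e n ⟨x n, mem_torsion_pow.mpr (hx n)⟩ i := fun i =>
    exists_padicInt_of_compatible _ fun n =>
      (D.e_mul n ⟨x (n + 1), mem_torsion_pow.mpr (hx (n + 1))⟩ ⟨x n, mem_torsion_pow.mpr (hx n)⟩
        (h n).symm i).symm
  choose v hv using hc
  exact ⟨v, fun n => torPt_eq_of_e D (hx n) (funext fun i => (hv i n).symm)⟩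

theorem torPt_one_eq_zero {v : Fin D.rank → ℤ_[p]} (h : ∀ j, (p : ℤ_[p]) ∣ v j) :
    torPt D 1 v = 0 := by
  have e : (fun j => PadicInt.toZModPow 1 (v j)) = 0 := funext fun j => by
    obtain ⟨c, hc⟩ := h j
    show PadicInt.toZModPow 1 (v j) = 0
    rw [← RingHom.mem_ker, PadicInt.ker_toZModPow, pow_one, Ideal.mem_span_singleton]
    exact ⟨c, hc⟩
  show ((D.e 1).symm (fun j => PadicInt.toZModPow 1 (v j)) : JZero N) = 0
  rw [e, map_zero]
  rfl

end FermatAgent.BadRed.Semistable
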