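import Fermat.Agent.BadRed.Semistable.Coord

/-!
# Taylor coefficients on residue discs

For a coordinate `T` of the disc over a smooth point and a centre `c`, the coefficients of a
function regular on the disc, their reductions, and their dependence on the centre up to second
order.
-/

set_option autoImplicit false
set_option linter.unusedSectionVars false

noncomputable section

open WithZero AlgebraicCurve

namespace FermatAgent.BadRed.Semistable

open FermatAgent.Curve FermatAgent.Curve.RR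

namespace NodalDatum

variable {K : Type*} [Field K] [IsAlgClosed K] {A : ValuationSubring K} {k : Type*}
    [Field k] [IsAlgClosed k] {π : A →+* k} {F F₁ F₂ : Type*} [Field F] [Field F₁] [Field F₂]
    [Algebra K F] [Algebra k F₁] [Algebra k F₂] [IsFunctionField1 K F] [IsFunctionField1 k F₁]
    [IsFunctionField1 k F₂] [RRSetting K F] [RRSetting k F₁] [RRSetting k F₂] [Infinite k]
variable {d : NodalDatum A π F F₁ F₂} {G : Type*} [Field G] [Algebra k G] [IsFunctionField1 k G]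
  [RRSetting k G] (σ : d.Side G)

open scoped Classical

/-- Integral functions regular on the disc. -/
def Side.reg : Subring F :=
  d.int ⊓ ⨅ P : {P : Place K F // d.place P = σ.ω}, (P : Place K F).toValuationSubring.toSubring

theorem Side.mem_reg {g : F} :
    g ∈ σ.reg ↔ g ∈ d.int ∧ ∀ P, d.place P = σ.ω → g ∈ P.toValuationSubring := by
  simp [Side.reg, Subring.mem_inf, Subring.mem_iInf]

theorem Side.ord_nonneg_of_mem_reg {g : F} (h : g ∈ σ.reg) (P : Place K F)
    (hP : d.place P = σ.ω) : 0 ≤ P.ord g :=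
  ord_nonneg_of_mem' P ((σ.mem_reg.mp h).2 P hP)

theorem Side.algebraMap_mem_reg {a : K} (ha : a ∈ A) : algebraMap K F a ∈ σ.reg :=
  σ.mem_reg.mpr ⟨⟨d.g₁.algebraMap_mem ⟨a, ha⟩, d.g₂.algebraMap_mem ⟨a, ha⟩⟩,
    fun P _ => P.algebraMap_mem' a⟩

theorem Side.smul_mem_reg {a : K} (ha : a ∈ A) {g : F} (hg : g ∈ σ.reg) : a • g ∈ σ.reg := by
  rw [Algebra.smul_def]
  exact mul_mem (σ.algebraMap_mem_reg ha) hg

/-- The reduction of the value is the value of the reduction. -/
theorem Side.pi_value {g : F} (hg : g ∈ σ.reg) {P : Place K F} (hP : d.place P = σ.ω) :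
    ∃ h : valueAt P g ∈ A,
      π ⟨valueAt P g, h⟩ = valueAt σ.Q (σ.pr (d.red ⟨g, (σ.mem_reg.mp hg).1⟩)) := by
  have hi := (σ.mem_reg.mp hg).1
  have hpole : ∀ R, d.place R = σ.ω → 0 ≤ R.ord g := σ.ord_nonneg_of_mem_reg hg
  obtain ⟨hc, -⟩ := σ.value_integral hi hpole P hP
  refine ⟨hc, ?_⟩
  set c := valueAt P g with hcdef
  have hcm := σ.algebraMap_mem_reg hc
  have hi' := sub_mem hi (σ.mem_reg.mp hcm).1
  have hred : σ.pr (d.red ⟨g - algebraMap K F c, hi'⟩) =
      σ.pr (d.red ⟨g, hi⟩) - algebraMap k G (π ⟨c, hc⟩) := by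
    rw [show (⟨g - algebraMap K F c, hi'⟩ : d.int) =
      ⟨g, hi⟩ - ⟨_, (σ.mem_reg.mp hcm).1⟩ from rfl, map_sub, map_sub]
    congr 1
    rw [← σ.pr.commutes]
    exact congrArg _ (Prod.ext (d.g₁.red_algebraMap ⟨c, hc⟩) (d.g₂.red_algebraMap ⟨c, hc⟩))
  rcases eq_or_ne (σ.pr (d.red ⟨g - algebraMap K F c, hi'⟩)) 0 with h0 | h0
  · rw [hred, sub_eq_zero] at h0
    rw [h0, valueAt_algebraMap]
  · have hne : g - algebraMap K F c ≠ 0 := fun e => h0 (by
      rw [d.red_congr e hi', show (⟨(0 : F), zero_mem _⟩ : d.int) = 0 from rfl, map_zero, map_zero])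
    have hpos : 0 < P.ord (g - algebraMap K F c) :=
      (valueAt_spec P ((σ.mem_reg.mp hg).2 P hP)).resolve_left fun e => hne (sub_eq_zero.mpr e)
    have h1 := σ.le_ord _ hi' h0
    have h2 := d.le_mapDomain_fibre (f := g - algebraMap K F c)
      (σ.ord_nonneg_of_mem_reg (sub_mem hg hcm)) P hP
    have hlt : σ.Q.adicValuation (σ.pr (d.red ⟨g, hi⟩) - algebraMap k G (π ⟨c, hc⟩)) < 1 := by
      rw [← hred, σ.Q.adicValuation_eq_exp_neg_ord h0, ← exp_zero, exp_lt_exp]
      omega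
    rw [valueAt_eq_of_sub_lt_one (σ.Q.adicValuation_le_one_of_mem (σ.Q.algebraMap_mem' _)) hlt,
      valueAt_algebraMap]

/-- The place of the disc with coordinate `c`. -/
def Side.point (T : F) (c : K) : Place K F :=
  if h : ∃ P, d.place P = σ.ω ∧ valueAt P T = c then h.choose else (d.exists_place σ.ω).choose

variable {T : F}

theorem Side.exists_point (hT : σ.IsCoord T) {c : K} (hc : c ∈ A) (hπ : π ⟨c, hc⟩ = 0) :
    ∃ P, d.place P = σ.ω ∧ valueAt P T = c := by
  obtain ⟨hi, h1, h2, ho, hpole⟩ := hT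
  have hcm : algebraMap K F c ∈ d.int :=
    ⟨d.g₁.algebraMap_mem ⟨c, hc⟩, d.g₂.algebraMap_mem ⟨c, hc⟩⟩
  have hred : d.red ⟨T - algebraMap K F c, sub_mem hi hcm⟩ = d.red ⟨T, hi⟩ := by
    rw [show (⟨T - algebraMap K F c, sub_mem hi hcm⟩ : d.int) = ⟨T, hi⟩ - ⟨_, hcm⟩ from rfl,
      map_sub, sub_eq_self]
    exact Prod.ext ((d.g₁.red_algebraMap ⟨c, hc⟩).trans (by simp [hπ]))
      ((d.g₂.red_algebraMap ⟨c, hc⟩).trans (by simp [hπ]))
  have hsum : Finsupp.mapDomain d.place (divisorOf (T - algebraMap K F c)) σ.ω = 1 := by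
    rw [d.mapDomain_divisorOf (sub_mem hi hcm) (by rw [hred]; exact h1) (by rw [hred]; exact h2),
      hred, σ.secDiv_zero, ho]
  rw [mapDomain_place_apply] at hsum
  obtain ⟨P, -, hne⟩ := Finset.exists_ne_zero_of_sum_ne_zero
    (s := (divisorOf (K := K) (T - algebraMap K F c)).support)
    (f := fun P => if d.place P = σ.ω then divisorOf (K := K) (T - algebraMap K F c) P else 0)
    (by rw [hsum]; omega)
  have hP : d.place P = σ.ω := by by_contra h'; exact hne (if_neg h')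
  rw [if_pos hP, divisorOf_apply] at hne
  refine ⟨P, hP, ?_⟩
  have hTm : T ∈ P.toValuationSubring := (mem_iff_ord_nonneg' P).mpr (hpole P hP)
  have hnn := ord_nonneg_of_mem' P (sub_mem hTm (P.algebraMap_mem' c))
  have hlt : P.adicValuation (T - algebraMap K F c) < 1 := by
    rw [P.adicValuation_eq_exp_neg_ord (fun e => hne (by rw [e, Place.ord_zero])), ← exp_zero,
      exp_lt_exp]
    omega
  rw [valueAt_eq_of_sub_lt_one (P.adicValuation_le_one_of_mem (P.algebraMap_mem' c)) hlt,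
    valueAt_algebraMap]

theorem Side.point_spec (hT : σ.IsCoord T) {c : K} (hc : c ∈ A) (hπ : π ⟨c, hc⟩ = 0) :
    d.place (σ.point T c) = σ.ω ∧ valueAt (σ.point T c) T = c := by
  have h := σ.exists_point hT hc hπ
  rw [Side.point, dif_pos h]
  exact h.choose_spec

theorem Side.ord_sub_const (hT : σ.IsCoord T) {c : K} (hc : c ∈ A) (hπ : π ⟨c, hc⟩ = 0)
    (P : Place K F) (hP : d.place P = σ.ω) :
    P.ord (T - algebraMap K F c) = if P = σ.point T c then 1 else 0 := by
  obtain ⟨h1, h2⟩ := σ.point_spec hT hc hπ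
  obtain ⟨-, -, -, -, -, h⟩ := σ.exists_centred hT (σ.point T c) h1
  have := h P hP
  rwa [h2] at this

/-- Subtract the value at the centre and divide by the coordinate. -/
def Side.quot (T : F) (c : K) (g : F) : F :=
  (g - algebraMap K F (valueAt (σ.point T c) g)) * (T - algebraMap K F c)⁻¹

/-- The `j`-th coefficient at the centre `c`. -/
def Side.tay (T : F) (c : K) : ℕ → F → K
  | 0, g => valueAt (σ.point T c) g
  | j + 1, g => Side.tay T c j (σ.quot T c g)

variable (hT : σ.IsCoord T) {c : K} (hc : c ∈ A) (hπ : π ⟨c, hc⟩ = 0)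
include hT hπ

theorem Side.coord_sub_mem : T - algebraMap K F c ∈ σ.reg ∧ T - algebraMap K F c ≠ 0 := by
  obtain ⟨hi, h1, h2, ho, hpole⟩ := hT
  refine ⟨sub_mem (σ.mem_reg.mpr ⟨hi, fun P hP => (mem_iff_ord_nonneg' P).mpr (hpole P hP)⟩)
    (σ.algebraMap_mem_reg hc), fun e => ?_⟩
  have := σ.ord_sub_const ⟨hi, h1, h2, ho, hpole⟩ hc hπ _
    (σ.point_spec ⟨hi, h1, h2, ho, hpole⟩ hc hπ).1
  rw [e, Place.ord_zero, if_pos rfl] at this
  omega

theorem Side.quot_mem {g : F} (hg : g ∈ σ.reg) : σ.quot T c g ∈ σ.reg := by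
  obtain ⟨hP, -⟩ := σ.point_spec hT hc hπ
  obtain ⟨hT₀, hT₀0⟩ := σ.coord_sub_mem hT hc hπ
  obtain ⟨hv, -⟩ := σ.pi_value hg hP
  have hnum := sub_mem hg (σ.algebraMap_mem_reg hv)
  obtain ⟨hc', hπ', hi₀, hiT, hr₀, -⟩ := σ.exists_centred hT _ hP
  obtain ⟨-, hval⟩ := σ.point_spec hT hc hπ
  obtain ⟨hi, h1, h2, ho, hpole⟩ := id hT
  refine σ.mem_reg.mpr ⟨mul_mem (σ.mem_reg.mp hnum).1 ?_, fun R hR => ?_⟩
  · have e : d.red ⟨T - algebraMap K F c, (σ.mem_reg.mp hT₀).1⟩ = d.red ⟨T, hi⟩ := by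
      rw [d.red_congr (show T - algebraMap K F c = T - algebraMap K F (valueAt (σ.point T c) T) by
        rw [hval])]
      exact hr₀
    exact ⟨(d.g₁.inv_mem d.residue_surjective (σ.mem_reg.mp hT₀).1.1
        (show (d.red ⟨_, (σ.mem_reg.mp hT₀).1⟩).1 ≠ 0 by rw [e]; exact h1)).1,
      (d.g₂.inv_mem d.residue_surjective (σ.mem_reg.mp hT₀).1.2
        (show (d.red ⟨_, (σ.mem_reg.mp hT₀).1⟩).2 ≠ 0 by rw [e]; exact h2)).1⟩
  · rw [Side.quot]
    rcases eq_or_ne (g - algebraMap K F (valueAt (σ.point T c) g)) 0 with e | e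
    · rw [e, zero_mul]; exact zero_mem _
    refine (mem_iff_ord_nonneg' R).mpr ?_
    rw [R.ord_mul e (inv_ne_zero hT₀0), R.ord_inv,
      σ.ord_sub_const hT hc hπ R hR]
    split_ifs with hRP
    · subst hRP
      have := (valueAt_spec _ ((σ.mem_reg.mp hg).2 _ hP)).resolve_left
        fun e' => e (sub_eq_zero.mpr e')
      omega
    · have := σ.ord_nonneg_of_mem_reg hnum R hR
      omega

theorem Side.eq_value_add_mul (g : F) :
    g = algebraMap K F (valueAt (σ.point T c) g) + (T - algebraMap K F c) * σ.quot T c g := by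
  rw [Side.quot, mul_left_comm, mul_inv_cancel₀ (σ.coord_sub_mem hT hc hπ).2]
  ring

theorem Side.tay_mem {g : F} (hg : g ∈ σ.reg) (j : ℕ) : σ.tay T c j g ∈ A := by
  induction j generalizing g with
  | zero => exact (σ.pi_value hg (σ.point_spec hT hc hπ).1).1
  | succ j ih => exact ih (σ.quot_mem hT hc hπ hg)

theorem Side.quot_add {g h : F} (hg : g ∈ σ.reg) (hh : h ∈ σ.reg) :
    σ.quot T c (g + h) = σ.quot T c g + σ.quot T c h := by
  obtain ⟨hP, -⟩ := σ.point_spec hT hc hπ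
  rw [Side.quot, Side.quot, Side.quot,
    valueAt_add _ ((σ.mem_reg.mp hg).2 _ hP) ((σ.mem_reg.mp hh).2 _ hP), map_add]
  ring

theorem Side.quot_smul {g : F} (hg : g ∈ σ.reg) (a : K) :
    σ.quot T c (a • g) = a • σ.quot T c g := by
  obtain ⟨hP, -⟩ := σ.point_spec hT hc hπ
  rw [Side.quot, Side.quot, Algebra.smul_def, Algebra.smul_def,
    valueAt_mul _ (Place.algebraMap_mem' _ a) ((σ.mem_reg.mp hg).2 _ hP), valueAt_algebraMap,
    map_mul]
  ring

theorem Side.tay_add {g h : F} (hg : g ∈ σ.reg) (hh : h ∈ σ.reg) (j : ℕ) :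
    σ.tay T c j (g + h) = σ.tay T c j g + σ.tay T c j h := by
  induction j generalizing g h with
  | zero =>
    obtain ⟨hP, -⟩ := σ.point_spec hT hc hπ
    exact valueAt_add _ ((σ.mem_reg.mp hg).2 _ hP) ((σ.mem_reg.mp hh).2 _ hP)
  | succ j ih =>
    rw [Side.tay, Side.tay, Side.tay, σ.quot_add hT hc hπ hg hh]
    exact ih (σ.quot_mem hT hc hπ hg) (σ.quot_mem hT hc hπ hh)

theorem Side.tay_smul {g : F} (hg : g ∈ σ.reg) (a : K) (j : ℕ) :
    σ.tay T c j (a • g) = a * σ.tay T c j g := by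
  induction j generalizing g with
  | zero =>
    obtain ⟨hP, -⟩ := σ.point_spec hT hc hπ
    rw [Side.tay, Side.tay, Algebra.smul_def,
      valueAt_mul _ (Place.algebraMap_mem' _ a) ((σ.mem_reg.mp hg).2 _ hP), valueAt_algebraMap]
  | succ j ih =>
    rw [Side.tay, Side.tay, σ.quot_smul hT hc hπ hg a]
    exact ih (σ.quot_mem hT hc hπ hg)

/-- The reductions of the coefficients detect the order of the reduction. -/
theorem Side.red_tay_iff {g : F} (hg : g ∈ σ.reg) (m : ℕ) :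
    (∀ j < m, π ⟨σ.tay T c j g, σ.tay_mem hT hc hπ hg j⟩ = 0) ↔
      σ.Q.adicValuation (σ.pr (d.red ⟨g, (σ.mem_reg.mp hg).1⟩)) ≤ exp (-(m : ℤ)) := by
  induction m generalizing g with
  | zero =>
    simp only [Nat.not_lt_zero, IsEmpty.forall_iff, implies_true, true_iff, Nat.cast_zero,
      neg_zero, exp_zero]
    rcases eq_or_ne (σ.pr (d.red ⟨g, (σ.mem_reg.mp hg).1⟩)) 0 with e | e
    · simp [e]
    · refine σ.Q.adicValuation_le_one_iff.mpr (Or.inr (le_trans ?_
        (σ.le_ord g (σ.mem_reg.mp hg).1 e)))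
      obtain ⟨hP, -⟩ := σ.point_spec hT hc hπ
      exact (σ.ord_nonneg_of_mem_reg hg _ hP).trans
        (d.le_mapDomain_fibre (σ.ord_nonneg_of_mem_reg hg) _ hP)
  | succ m ih =>
    obtain ⟨hP, hval⟩ := σ.point_spec hT hc hπ
    obtain ⟨hv, hvπ⟩ := σ.pi_value hg hP
    have hq := σ.quot_mem hT hc hπ hg
    have hT₀ := (σ.coord_sub_mem hT hc hπ).1
    obtain ⟨hi, h1, h2, ho, hpole⟩ := id hT
    set u := σ.pr (d.red ⟨T, hi⟩) with hu
    have hu0 : u ≠ 0 := σ.ne_zero _ h1 h2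
    have huv : σ.Q.adicValuation u = exp (-1) := by
      rw [σ.Q.adicValuation_eq_exp_neg_ord hu0, ho]
    have hred : σ.pr (d.red ⟨g, (σ.mem_reg.mp hg).1⟩) =
        algebraMap k G (π ⟨valueAt (σ.point T c) g, hv⟩) +
          u * σ.pr (d.red ⟨σ.quot T c g, (σ.mem_reg.mp hq).1⟩) := by
      have e : (⟨g, (σ.mem_reg.mp hg).1⟩ : d.int) =
          ⟨_, (σ.mem_reg.mp (σ.algebraMap_mem_reg hv)).1⟩ +
            (⟨T, hi⟩ - ⟨_, (σ.mem_reg.mp (σ.algebraMap_mem_reg hc)).1⟩) *
              ⟨_, (σ.mem_reg.mp hq).1⟩ :=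
        Subtype.ext (σ.eq_value_add_mul hT hc hπ g)
      rw [e, map_add, map_mul, map_sub, map_add, map_mul, map_sub, ← hu,
        show d.red ⟨_, (σ.mem_reg.mp (σ.algebraMap_mem_reg hv)).1⟩ =
          algebraMap k (F₁ × F₂) (π ⟨_, hv⟩) from
          Prod.ext (d.g₁.red_algebraMap ⟨_, hv⟩) (d.g₂.red_algebraMap ⟨_, hv⟩),
        show d.red ⟨_, (σ.mem_reg.mp (σ.algebraMap_mem_reg hc)).1⟩ =
          algebraMap k (F₁ × F₂) (π ⟨_, hc⟩) from
          Prod.ext (d.g₁.red_algebraMap ⟨_, hc⟩) (d.g₂.red_algebraMap ⟨_, hc⟩),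
        AlgHom.commutes, AlgHom.commutes, hπ, map_zero, sub_zero]
    constructor
    · intro h
      have h0 := h 0 (Nat.succ_pos m)
      simp only [Side.tay] at h0
      have h' := (ih hq).mp fun j hj => h (j + 1) (by omega)
      rw [hred, h0, map_zero, zero_add, map_mul, huv]
      refine (mul_le_mul' le_rfl h').trans ?_
      rw [← exp_add]
      exact exp_le_exp.mpr (by push_cast; omega)
    · intro h j hj
      have hlt : σ.Q.adicValuation (σ.pr (d.red ⟨g, (σ.mem_reg.mp hg).1⟩)) < 1 := by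
        refine h.trans_lt ?_
        rw [← exp_zero, exp_lt_exp]
        omega
      have h0 : π ⟨valueAt (σ.point T c) g, hv⟩ = 0 := by
        rw [hvπ]
        exact (adicValuation_lt_one_iff hlt.le).mp hlt
      rw [hred, h0, map_zero, zero_add, map_mul, huv] at h
      cases j with
      | zero => exact h0
      | succ j =>
        refine (ih hq).mpr ?_ j (by omega)
        have := mul_le_mul' (le_refl (exp (1 : ℤ))) h
        rwa [← mul_assoc, ← exp_add, show (1 : ℤ) + -1 = 0 by norm_num, exp_zero, one_mul,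
          ← exp_add, show (1 : ℤ) + -((m + 1 : ℕ) : ℤ) = -(m : ℤ) by push_cast; ring] at this

/-- Vanishing coefficients give a zero of high order at the centre. -/
theorem Side.le_exp_of_tay_eq_zero {g : F} (hg : g ∈ σ.reg) (m : ℕ)
    (h : ∀ j < m, σ.tay T c j g = 0) :
    (σ.point T c).adicValuation g ≤ exp (-(m : ℤ)) := by
  obtain ⟨hP, -⟩ := σ.point_spec hT hc hπ
  induction m generalizing g with
  | zero =>
    rw [Nat.cast_zero, neg_zero, exp_zero]
    exact (σ.point T c).adicValuation_le_one_of_mem ((σ.mem_reg.mp hg).2 _ hP)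
  | succ m ih =>
    have h0 := h 0 (Nat.succ_pos m)
    rw [Side.tay] at h0
    have h' := ih (σ.quot_mem hT hc hπ hg) fun j hj => h (j + 1) (by omega)
    rw [σ.eq_value_add_mul hT hc hπ g, h0, map_zero, zero_add, map_mul,
      (σ.point T c).adicValuation_eq_exp_neg_ord (σ.coord_sub_mem hT hc hπ).2,
      σ.ord_sub_const hT hc hπ _ hP, if_pos rfl]
    refine (mul_le_mul' le_rfl h').trans ?_
    rw [← exp_add]
    exact exp_le_exp.mpr (by push_cast; omega)

variable {c' : K} (hc' : c' ∈ A) (hπ' : π ⟨c', hc'⟩ = 0)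
include hπ'

theorem Side.quot_change {g : F} (hg : g ∈ σ.reg) :
    valueAt (σ.point T c') g =
        valueAt (σ.point T c) g + (c' - c) * valueAt (σ.point T c') (σ.quot T c g) ∧
      σ.quot T c' g = σ.quot T c g + (c' - c) • σ.quot T c' (σ.quot T c g) := by
  obtain ⟨hP', hval'⟩ := σ.point_spec hT hc' hπ'
  set q := σ.quot T c g with hq
  have hqm := σ.quot_mem hT hc hπ hg
  have hT₀ := (σ.coord_sub_mem hT hc hπ).1
  have hTm : T ∈ (σ.point T c').toValuationSubring :=
    (mem_iff_ord_nonneg' _).mpr (hT.2.2.2.2 _ hP')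
  have hv : valueAt (σ.point T c') g =
      valueAt (σ.point T c) g + (c' - c) * valueAt (σ.point T c') q := by
    conv_lhs => rw [σ.eq_value_add_mul hT hc hπ g]
    rw [valueAt_add _ (Place.algebraMap_mem' _ _) (mul_mem ((σ.mem_reg.mp hT₀).2 _ hP')
        ((σ.mem_reg.mp hqm).2 _ hP')),
      valueAt_mul _ ((σ.mem_reg.mp hT₀).2 _ hP') ((σ.mem_reg.mp hqm).2 _ hP'),
      valueAt_sub _ hTm (Place.algebraMap_mem' _ _), valueAt_algebraMap, valueAt_algebraMap, hval']
  refine ⟨hv, ?_⟩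
  have hne := (σ.coord_sub_mem hT hc' hπ').2
  have e := σ.eq_value_add_mul hT hc hπ g
  rw [← hq] at e
  rw [Side.quot, hv, Algebra.smul_def, Side.quot, map_add, map_mul]
  generalize valueAt (σ.point T c) g = a at e ⊢
  rw [e]
  field_simp
  rw [map_sub]
  ring

/-- The coefficients are Lipschitz in the centre. -/
theorem Side.tay_lip {g : F} (hg : g ∈ σ.reg) (j : ℕ) :
    ∃ e ∈ A, σ.tay T c' j g - σ.tay T c j g = (c' - c) * e := by
  induction j generalizing g with
  | zero =>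
    refine ⟨valueAt (σ.point T c') (σ.quot T c g),
      (σ.pi_value (σ.quot_mem hT hc hπ hg) (σ.point_spec hT hc' hπ').1).1, ?_⟩
    rw [Side.tay, Side.tay, (σ.quot_change hT hc hπ hc' hπ' hg).1]
    ring
  | succ j ih =>
    have hq := σ.quot_mem hT hc hπ hg
    have hq' := σ.quot_mem hT hc' hπ' hq
    obtain ⟨e, he, heq⟩ := ih hq
    refine ⟨e + σ.tay T c' j (σ.quot T c' (σ.quot T c g)),
      add_mem he (σ.tay_mem hT hc' hπ' hq' j), ?_⟩
    rw [Side.tay, Side.tay, (σ.quot_change hT hc hπ hc' hπ' hg).2,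
      σ.tay_add hT hc' hπ' hq (σ.smul_mem_reg (sub_mem hc' hc) hq'),
      σ.tay_smul hT hc' hπ' hq']
    linear_combination heq

/-- The second order expansion in the centre. -/
theorem Side.tay_second {g : F} (hg : g ∈ σ.reg) (j : ℕ) :
    ∃ e ∈ A, σ.tay T c' j g -
      (σ.tay T c j g + (j + 1 : ℕ) * (c' - c) * σ.tay T c (j + 1) g) = (c' - c) ^ 2 * e := by
  induction j generalizing g with
  | zero =>
    have hq := σ.quot_mem hT hc hπ hg
    obtain ⟨e, he, heq⟩ := σ.tay_lip hT hc hπ hc' hπ' hq 0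
    refine ⟨e, he, ?_⟩
    rw [Side.tay, Side.tay] at heq
    rw [Side.tay, Side.tay, Side.tay, Side.tay, (σ.quot_change hT hc hπ hc' hπ' hg).1]
    push_cast
    linear_combination (c' - c) * heq
  | succ j ih =>
    have hq := σ.quot_mem hT hc hπ hg
    have hq' := σ.quot_mem hT hc' hπ' hq
    obtain ⟨e, he, heq⟩ := ih hq
    obtain ⟨e', he', heq'⟩ := σ.tay_lip hT hc hπ hc' hπ' hq (j + 1)
    refine ⟨e + e', add_mem he he', ?_⟩
    rw [Side.tay] at heq'
    conv at heq' => lhs; rw [Side.tay]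
    rw [show σ.tay T c (j + 1 + 1) g = σ.tay T c (j + 1) (σ.quot T c g) from rfl,
      show σ.tay T c (j + 1) g = σ.tay T c j (σ.quot T c g) from rfl,
      show σ.tay T c' (j + 1) g = σ.tay T c' j (σ.quot T c' g) from rfl,
      (σ.quot_change hT hc hπ hc' hπ' hg).2,
      σ.tay_add hT hc' hπ' hq (σ.smul_mem_reg (sub_mem hc' hc) hq'), σ.tay_smul hT hc' hπ' hq']
    rw [show σ.tay T c (j + 1) (σ.quot T c g) = σ.tay T c j (σ.quot T c (σ.quot T c g)) from rfl]
      at heq ⊢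
    push_cast at heq ⊢
    linear_combination heq + (c' - c) * heq'

end NodalDatum

end FermatAgent.BadRed.Semistable
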