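import Fermat.Agent.BadRed.Semistable.Reduce

/-!
# The toric invariant of divisor classes

A degree zero divisor supported away from the nodes and of degree zero on each component is
balanced. If its reduction is the divisor of a pair of functions on the components, the ratios of
their values at the nodes, up to a common constant, are an invariant of the class.
-/

set_option autoImplicit false
set_option linter.unusedSectionVars false

noncomputable section

open WithZero AlgebraicCurve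

namespace FermatAgent.BadRed.Semistable

open FermatAgent.Curve FermatAgent.Curve.RR

namespace Glued

variable {k F₁ F₂ : Type*} [Field k] [Field F₁] [Field F₂] [Algebra k F₁] [Algebra k F₂]
  [IsAlgClosed k] [IsFunctionField1 k F₁] [IsFunctionField1 k F₂]
  [RRSetting k F₁] [RRSetting k F₂]
variable (C : Glued k F₁ F₂)

theorem toPt₁_injective : Function.Injective C.toPt₁ := by
  intro a a' e
  by_cases h : ∃ i, C.x i = a
  · obtain ⟨i, rfl⟩ := h
    rw [toPt₁_x] at e
    exact (C.toPt₁_eq_node_iff.mp e.symm).symm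
  · push Not at h
    rw [C.toPt₁_of_ne a h] at e
    exact ((C.toPt₁_eq_left_iff h).mp e.symm).symm

theorem toPt₂_injective : Function.Injective C.toPt₂ := by
  intro a a' e
  by_cases h : ∃ i, C.y i = a
  · obtain ⟨i, rfl⟩ := h
    rw [toPt₂_y] at e
    exact (C.toPt₂_eq_node_iff.mp e.symm).symm
  · push Not at h
    rw [C.toPt₂_of_ne a h] at e
    exact ((C.toPt₂_eq_right_iff h).mp e.symm).symm

/-- The part of a divisor of the glued curve on the first component. -/
def part₁ : (C.Pt →₀ ℤ) →+ Divisor k F₁ where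
  toFun E := E.comapDomain C.toPt₁ C.toPt₁_injective.injOn
  map_zero' := by ext; simp
  map_add' E E' := by ext; simp

/-- The part of a divisor of the glued curve on the second component. -/
def part₂ : (C.Pt →₀ ℤ) →+ Divisor k F₂ where
  toFun E := E.comapDomain C.toPt₂ C.toPt₂_injective.injOn
  map_zero' := by ext; simp
  map_add' E E' := by ext; simp

@[simp] theorem part₁_apply (E : C.Pt →₀ ℤ) (Q : Place k F₁) : C.part₁ E Q = E (C.toPt₁ Q) := rfl

@[simp] theorem part₂_apply (E : C.Pt →₀ ℤ) (Q : Place k F₂) : C.part₂ E Q = E (C.toPt₂ Q) := rfl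

/-- Regular and invertible at every node. -/
def UnitNodes (p : F₁ × F₂) : Prop :=
  p.1 ≠ 0 ∧ p.2 ≠ 0 ∧ ∀ i, (C.x i).ord p.1 = 0 ∧ (C.y i).ord p.2 = 0

theorem part₁_secDiv_zero {p : F₁ × F₂} (hp : C.UnitNodes p) :
    C.part₁ (C.secDiv 0 p) = divisorOf p.1 := by
  ext Q
  by_cases h : ∃ i, C.x i = Q
  · obtain ⟨i, rfl⟩ := h
    simp [toPt₁_x, secDiv_node, (hp.2.2 i).2]
  · push Not at h
    simp [C.toPt₁_of_ne Q h, secDiv_left]

theorem part₂_secDiv_zero {p : F₁ × F₂} (hp : C.UnitNodes p) :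
    C.part₂ (C.secDiv 0 p) = divisorOf p.2 := by
  ext Q
  by_cases h : ∃ i, C.y i = Q
  · obtain ⟨i, rfl⟩ := h
    simp [toPt₂_y, secDiv_node, (hp.2.2 i).1]
  · push Not at h
    simp [C.toPt₂_of_ne Q h, secDiv_right]

theorem ne_zero_value {k F : Type*} [Field k] [Field F] [Algebra k F] [IsAlgClosed k]
    [IsFunctionField1 k F] {v : Place k F} {f : F} (hf : f ≠ 0) (h : v.ord f = 0) :
    valueAt v f ≠ 0 := by
  rw [ne_eq, valueAt_eq_zero_iff v ((mem_iff_ord_nonneg' v).mpr h.ge)]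
  simp [hf, h]

end Glued

theorem exists_const_mul_of_divisorOf_eq {k F : Type*} [Field k] [Field F] [Algebra k F]
    [IsAlgClosed k] [IsFunctionField1 k F] {f g : F} (hf : f ≠ 0) (hg : g ≠ 0)
    (h : divisorOf (K := k) f = divisorOf g) :
    ∃ a : k, a ≠ 0 ∧ f = algebraMap k F a * g := by
  have hord : ∀ v : Place k F, v.ord (f / g) = 0 := fun v => by
    rw [Curve.ord_div v hf hg, ← divisorOf_apply f v, ← divisorOf_apply g v, h, sub_self]
  obtain ⟨a, ha⟩ := forall_ord_eq_zero_iff.mp hord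
  refine ⟨a, fun e => div_ne_zero hf hg (by rw [← ha, e, map_zero]), ?_⟩
  rw [ha, div_mul_cancel₀ _ hg]

namespace NodalDatum

variable {K : Type*} [Field K] [IsAlgClosed K] {A : ValuationSubring K} {k : Type*}
    [Field k] [IsAlgClosed k] {π : A →+* k} {F F₁ F₂ : Type*} [Field F] [Field F₁] [Field F₂]
    [Algebra K F] [Algebra k F₁] [Algebra k F₂] [IsFunctionField1 K F] [IsFunctionField1 k F₁]
    [IsFunctionField1 k F₂] [RRSetting K F] [RRSetting k F₁] [RRSetting k F₂] [Infinite k]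
variable (d : NodalDatum A π F F₁ F₂)

/-- The reduction of a divisor. -/
def redDiv : Divisor K F →+ (d.C.Pt →₀ ℤ) := Finsupp.mapDomain.addMonoidHom d.place

theorem redDiv_apply (D : Divisor K F) : d.redDiv D = Finsupp.mapDomain d.place D := rfl

/-- Supported away from the nodes. -/
def IsGood (D : Divisor K F) : Prop := ∀ P, D P ≠ 0 → ∀ i, d.place P ≠ .node i

theorem IsGood.redDiv_node {D : Divisor K F} (h : d.IsGood D) (i : d.C.ι) :
    d.redDiv D (.node i) = 0 := by
  classical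
  rw [redDiv_apply]
  rw [← Finsupp.notMem_support_iff]
  intro hmem
  obtain ⟨P, hP, e⟩ := Finset.mem_image.mp (Finsupp.mapDomain_support hmem)
  exact h P (Finsupp.mem_support_iff.mp hP) i e

theorem IsGood.add {D E : Divisor K F} (hD : d.IsGood D) (hE : d.IsGood E) :
    d.IsGood (D + E) := by
  intro P hP
  by_cases h : D P = 0
  · exact hE P (by simpa [h] using hP)
  · exact hD P h

theorem IsGood.neg {D : Divisor K F} (hD : d.IsGood D) : d.IsGood (-D) :=
  fun P hP => hD P (by simpa using hP)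

/-- Good, of degree zero, and of degree zero on each component. -/
def IsBal (D : Divisor K F) : Prop :=
  d.IsGood D ∧ Divisor.degree (d.C.part₁ (d.redDiv D)) = 0 ∧
    Divisor.degree (d.C.part₂ (d.redDiv D)) = 0

theorem IsBal.add {D E : Divisor K F} (hD : d.IsBal D) (hE : d.IsBal E) : d.IsBal (D + E) :=
  ⟨hD.1.add d hE.1, by rw [map_add, map_add, map_add, hD.2.1, hE.2.1, add_zero],
    by rw [map_add, map_add, map_add, hD.2.2, hE.2.2, add_zero]⟩

theorem IsBal.neg {D : Divisor K F} (hD : d.IsBal D) : d.IsBal (-D) :=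
  ⟨hD.1.neg d, by rw [map_neg, map_neg, map_neg, hD.2.1, neg_zero],
    by rw [map_neg, map_neg, map_neg, hD.2.2, neg_zero]⟩

/-- Every function can be scaled into the integers with a non-zero reduction. -/
theorem exists_normalize {f : F} (hf : f ≠ 0) :
    ∃ c : K, c ≠ 0 ∧ ∃ h : c • f ∈ d.int,
      (d.red ⟨c • f, h⟩).1 ≠ 0 ∨ (d.red ⟨c • f, h⟩).2 ≠ 0 := by
  obtain ⟨c, hc, hc0⟩ := d.g₁.exists_normalize f hf
  have hcne : c ≠ 0 := fun e => hc0 (by
    rw [d.g₁.red_congr (show c • f = 0 by simp [e]) hc]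
    exact map_zero d.g₁.red)
  by_cases h2 : c • f ∈ d.g₂.integers
  · exact ⟨c, hcne, ⟨hc, h2⟩, Or.inl hc0⟩
  obtain ⟨e, he, he0⟩ := d.g₂.exists_normalize (c • f) (smul_ne_zero hcne hf)
  have hene : e ≠ 0 := fun e0 => he0 (by
    rw [d.g₂.red_congr (show e • c • f = 0 by simp [e0]) he]
    exact map_zero d.g₂.red)
  have heA : e ∈ A := by
    by_contra hne
    refine h2 ?_
    have := d.g₂.smul_mem (inv_mem_of_not_mem hne) he
    rwa [inv_smul_smul₀ hene] at this
  refine ⟨e * c, mul_ne_zero hene hcne, ?_⟩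
  rw [mul_smul]
  exact ⟨⟨d.g₁.smul_mem heA hc, he⟩, Or.inr he0⟩

theorem divisorOf_smul {c : K} (hc : c ≠ 0) (f : F) :
    divisorOf (K := K) (c • f) = divisorOf f := by
  ext P
  simp [Curve.ord_smul_const P hc]

theorem poles_avoid_nodes {f : F} (h : d.IsGood (divisorOf f)) :
    ∀ P, P.ord f < 0 → ∀ i, d.place P ≠ .node i :=
  fun P hP => h P (by rw [divisorOf_apply]; omega)

/-- A function with balanced divisor has balanced valuations. -/
theorem exists_red_of_isBal {f : F} (hf : f ≠ 0) (hb : d.IsBal (divisorOf f)) :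
    ∃ c : K, c ≠ 0 ∧ ∃ h : c • f ∈ d.int, d.C.UnitNodes (d.red ⟨c • f, h⟩) ∧
      (∀ i, valueAt (d.C.x i) (d.red ⟨c • f, h⟩).1 = valueAt (d.C.y i) (d.red ⟨c • f, h⟩).2) ∧
      d.redDiv (divisorOf f) = d.C.secDiv 0 (d.red ⟨c • f, h⟩) := by
  classical
  obtain ⟨c, hc, h, hor⟩ := d.exists_normalize hf
  obtain ⟨hg, hb1, hb2⟩ := hb
  rw [← divisorOf_smul hc f] at hg hb1 hb2 ⊢
  obtain ⟨i₀⟩ := d.C.nonempty
  have hval := d.value_node_eq h (d.poles_avoid_nodes hg)
  set p := d.red ⟨c • f, h⟩ with hp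
  have key1 : p.1 ≠ 0 → p.2 ≠ 0 := by
    intro h1 h2
    have hle : d.C.part₁ (d.redDiv (divisorOf (c • f))) +
        ∑ i, Finsupp.single (d.C.x i) (1 : ℤ) ≤ divisorOf p.1 := by
      refine Finsupp.le_def.mpr fun Q => ?_
      rw [Finsupp.add_apply, Glued.part₁_apply, divisorOf_apply]
      by_cases hQ : ∃ i, d.C.x i = Q
      · obtain ⟨i, rfl⟩ := hQ
        obtain ⟨hx, -, e⟩ := hval i
        rw [h2, show (0 : F₂) = algebraMap k F₂ 0 by simp, valueAt_algebraMap,
          ← adicValuation_lt_one_iff hx, (d.C.x i).adicValuation_eq_exp_neg_ord h1,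
          ← exp_zero, exp_lt_exp] at e
        simp [Glued.toPt₁_x, hg.redDiv_node, Finsupp.single_apply, d.C.x_injective.eq_iff]
        omega
      · push Not at hQ
        have := d.mapDomain_le_left h h1 Q hQ
        simpa [Glued.toPt₁_of_ne _ Q hQ, redDiv_apply, Finsupp.single_apply, hQ] using this
    have := degree_nonneg_of_nonneg (sub_nonneg.mpr hle)
    simp [map_sub, map_add, hb1, degree_divisorOf, Curve.deg_eq_one] at this
    exact absurd this (by have := Fintype.card_pos_iff.mpr d.C.nonempty; omega)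
  have key2 : p.2 ≠ 0 → p.1 ≠ 0 := by
    intro h2 h1
    have hle : d.C.part₂ (d.redDiv (divisorOf (c • f))) +
        ∑ i, Finsupp.single (d.C.y i) (1 : ℤ) ≤ divisorOf p.2 := by
      refine Finsupp.le_def.mpr fun Q => ?_
      rw [Finsupp.add_apply, Glued.part₂_apply, divisorOf_apply]
      by_cases hQ : ∃ i, d.C.y i = Q
      · obtain ⟨i, rfl⟩ := hQ
        obtain ⟨-, hy, e⟩ := hval i
        rw [h1, show (0 : F₁) = algebraMap k F₁ 0 by simp, valueAt_algebraMap, eq_comm,
          ← adicValuation_lt_one_iff hy, (d.C.y i).adicValuation_eq_exp_neg_ord h2,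
          ← exp_zero, exp_lt_exp] at e
        simp [Glued.toPt₂_y, hg.redDiv_node, Finsupp.single_apply, d.C.y_injective.eq_iff]
        omega
      · push Not at hQ
        have := d.mapDomain_le_right h h2 Q hQ
        simpa [Glued.toPt₂_of_ne _ Q hQ, redDiv_apply, Finsupp.single_apply, hQ] using this
    have := degree_nonneg_of_nonneg (sub_nonneg.mpr hle)
    simp [map_sub, map_add, hb2, degree_divisorOf, Curve.deg_eq_one] at this
    exact absurd this (by have := Fintype.card_pos_iff.mpr d.C.nonempty; omega)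
  have h1 : p.1 ≠ 0 := hor.elim id key2
  have h2 : p.2 ≠ 0 := key1 h1
  have e := d.mapDomain_divisorOf h h1 h2
  refine ⟨c, hc, h, ⟨h1, h2, fun i => ?_⟩, fun i => (hval i).2.2, e⟩
  have hn := hg.redDiv_node d i
  rw [redDiv_apply, e, Glued.secDiv_node] at hn
  obtain ⟨hx, hy, -⟩ := hval i
  have o1 := (d.C.x i).adicValuation_le_one_iff.mp hx
  have o2 := (d.C.y i).adicValuation_le_one_iff.mp hy
  simp only [h1, h2, false_or] at o1 o2
  simp only [hp] at o1 o2 hn ⊢
  omega

/-- `D` reduces to the divisor of a pair of functions with ratios `c` at the nodes. -/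
def IsToricRep (D : Divisor K F) (c : d.C.ι → k) : Prop :=
  d.IsBal D ∧ ∃ u : F₁ × F₂, d.C.UnitNodes u ∧ d.C.part₁ (d.redDiv D) = divisorOf u.1 ∧
    d.C.part₂ (d.redDiv D) = divisorOf u.2 ∧
    ∀ i, valueAt (d.C.x i) u.1 = c i * valueAt (d.C.y i) u.2

/-- The class `x` has toric invariant `c`. -/
def HasToric (x : Pic0 K F) (c : d.C.ι → k) : Prop :=
  ∃ D : Divisor.degZero (K := K) (F := F), Pic0.mk D = x ∧ d.IsToricRep (D : Divisor K F) c

theorem hasToric_zero : d.HasToric 0 (fun _ => 1) := by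
  refine ⟨0, Pic0.mk_zero, ⟨fun P hP => absurd rfl hP, ?_, ?_⟩, 1, ⟨one_ne_zero, one_ne_zero,
    fun i => ⟨(d.C.x i).ord_one, (d.C.y i).ord_one⟩⟩, ?_, ?_, fun i => ?_⟩
  · rw [AddSubgroup.coe_zero, map_zero, map_zero, map_zero]
  · rw [AddSubgroup.coe_zero, map_zero, map_zero, map_zero]
  · rw [AddSubgroup.coe_zero, map_zero, map_zero]
    exact Finsupp.ext fun Q => by rw [divisorOf_apply, Prod.fst_one, Q.ord_one, Finsupp.zero_apply]
  · rw [AddSubgroup.coe_zero, map_zero, map_zero]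
    exact Finsupp.ext fun Q => by rw [divisorOf_apply, Prod.snd_one, Q.ord_one, Finsupp.zero_apply]
  · rw [Prod.fst_one, Prod.snd_one, show (1 : F₁) = algebraMap k F₁ 1 by rw [map_one],
      show (1 : F₂) = algebraMap k F₂ 1 by rw [map_one], valueAt_algebraMap, valueAt_algebraMap,
      one_mul]

theorem HasToric.add {x x' : Pic0 K F} {c c' : d.C.ι → k} (h : d.HasToric x c)
    (h' : d.HasToric x' c') : d.HasToric (x + x') (c * c') := by
  obtain ⟨D, rfl, hb, u, hu, e1, e2, hc⟩ := h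
  obtain ⟨D', rfl, hb', u', hu', e1', e2', hc'⟩ := h'
  refine ⟨D + D', (Pic0.mk_add D D'), hb.add d hb', u * u',
    ⟨mul_ne_zero hu.1 hu'.1, mul_ne_zero hu.2.1 hu'.2.1, fun i => ⟨?_, ?_⟩⟩, ?_, ?_, fun i => ?_⟩
  · rw [Prod.fst_mul, (d.C.x i).ord_mul hu.1 hu'.1, (hu.2.2 i).1, (hu'.2.2 i).1, add_zero]
  · rw [Prod.snd_mul, (d.C.y i).ord_mul hu.2.1 hu'.2.1, (hu.2.2 i).2, (hu'.2.2 i).2, add_zero]
  · rw [AddSubgroup.coe_add, map_add, map_add, e1, e1', Prod.fst_mul, divisorOf_mul hu.1 hu'.1]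
  · rw [AddSubgroup.coe_add, map_add, map_add, e2, e2', Prod.snd_mul,
      divisorOf_mul hu.2.1 hu'.2.1]
  · rw [Prod.fst_mul, Prod.snd_mul, Pi.mul_apply,
      valueAt_mul _ ((mem_iff_ord_nonneg' _).mpr (hu.2.2 i).1.ge)
        ((mem_iff_ord_nonneg' _).mpr (hu'.2.2 i).1.ge),
      valueAt_mul _ ((mem_iff_ord_nonneg' _).mpr (hu.2.2 i).2.ge)
        ((mem_iff_ord_nonneg' _).mpr (hu'.2.2 i).2.ge), hc i, hc' i]
    ring

theorem HasToric.neg {x : Pic0 K F} {c : d.C.ι → k} (h : d.HasToric x c) :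
    d.HasToric (-x) c⁻¹ := by
  obtain ⟨D, rfl, hb, u, hu, e1, e2, hc⟩ := h
  refine ⟨-D, rfl, hb.neg d, u⁻¹, ⟨inv_ne_zero hu.1, inv_ne_zero hu.2.1, fun i => ⟨?_, ?_⟩⟩,
    ?_, ?_, fun i => ?_⟩
  · rw [Prod.fst_inv, (d.C.x i).ord_inv, (hu.2.2 i).1, neg_zero]
  · rw [Prod.snd_inv, (d.C.y i).ord_inv, (hu.2.2 i).2, neg_zero]
  · rw [AddSubgroup.coe_neg, map_neg, map_neg, e1]
    ext Q
    simp [Place.ord_inv]
  · rw [AddSubgroup.coe_neg, map_neg, map_neg, e2]
    ext Q
    simp [Place.ord_inv]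
  · rw [Prod.fst_inv, Prod.snd_inv, valueAt_inv _ (hu.2.2 i).1, valueAt_inv _ (hu.2.2 i).2, hc i,
      Pi.inv_apply, mul_inv]

theorem HasToric.nsmul {x : Pic0 K F} {c : d.C.ι → k} (h : d.HasToric x c) (n : ℕ) :
    d.HasToric (n • x) (c ^ n) := by
  induction n with
  | zero => rw [zero_nsmul, pow_zero]; exact d.hasToric_zero
  | succ n ih => rw [succ_nsmul, pow_succ]; exact ih.add d h

theorem HasToric.ne_zero {x : Pic0 K F} {c : d.C.ι → k} (h : d.HasToric x c) (i : d.C.ι) :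
    c i ≠ 0 := by
  obtain ⟨D, -, -, u, hu, -, -, hc⟩ := h
  intro e
  have := hc i
  rw [e, zero_mul] at this
  exact Glued.ne_zero_value hu.1 (hu.2.2 i).1 this

/-- The toric invariant is well defined up to a constant. -/
theorem HasToric.unique {x : Pic0 K F} {c c' : d.C.ι → k} (h : d.HasToric x c)
    (h' : d.HasToric x c') : ∃ a : k, a ≠ 0 ∧ ∀ i, c' i = a * c i := by
  obtain ⟨D, rfl, hb, u, hu, e1, e2, hc⟩ := h
  obtain ⟨D', hDD', hb', u', hu', e1', e2', hc'⟩ := h'
  have hmem : (D' : Divisor K F) - (D : Divisor K F) ∈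
      Divisor.principal (K := K) (F := F) := by
    have := (QuotientAddGroup.eq_iff_sub_mem).mp hDD'
    rw [AddSubgroup.mem_addSubgroupOf, AddSubgroupClass.coe_sub] at this
    exact this
  obtain ⟨f, hf, hfD⟩ := hmem
  have hdiv : divisorOf (K := K) f = (D' : Divisor K F) + -(D : Divisor K F) := by
    ext P; rw [divisorOf_apply, ← hfD P, sub_eq_add_neg]
  have hbf : d.IsBal (divisorOf f) := hdiv ▸ hb'.add d (hb.neg d)
  obtain ⟨s, hs, hint, hun, hval, hred⟩ := d.exists_red_of_isBal hf hbf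
  set p := d.red ⟨s • f, hint⟩
  have k1 : divisorOf (K := k) u'.1 = divisorOf (u.1 * p.1) := by
    rw [divisorOf_mul hu.1 hun.1, ← d.C.part₁_secDiv_zero hun, ← hred, hdiv, ← e1, ← e1',
      map_add, map_neg, map_add, map_neg]
    abel
  have k2 : divisorOf (K := k) u'.2 = divisorOf (u.2 * p.2) := by
    rw [divisorOf_mul hu.2.1 hun.2.1, ← d.C.part₂_secDiv_zero hun, ← hred, hdiv, ← e2, ← e2',
      map_add, map_neg, map_add, map_neg]
    abel
  obtain ⟨a, ha, ea⟩ := exists_const_mul_of_divisorOf_eq hu'.1 (mul_ne_zero hu.1 hun.1) k1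
  obtain ⟨b, hb0, eb⟩ := exists_const_mul_of_divisorOf_eq hu'.2.1 (mul_ne_zero hu.2.1 hun.2.1) k2
  refine ⟨a / b, div_ne_zero ha hb0, fun i => ?_⟩
  have h0 := hc' i
  have mx1 := (mem_iff_ord_nonneg' (d.C.x i)).mpr (hu.2.2 i).1.ge
  have mx2 := (mem_iff_ord_nonneg' (d.C.x i)).mpr (hun.2.2 i).1.ge
  have my1 := (mem_iff_ord_nonneg' (d.C.y i)).mpr (hu.2.2 i).2.ge
  have my2 := (mem_iff_ord_nonneg' (d.C.y i)).mpr (hun.2.2 i).2.ge
  rw [ea, eb, valueAt_mul _ ((d.C.x i).algebraMap_mem' a) (mul_mem mx1 mx2),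
    valueAt_mul _ ((d.C.y i).algebraMap_mem' b) (mul_mem my1 my2),
    valueAt_mul _ mx1 mx2, valueAt_mul _ my1 my2, valueAt_algebraMap, valueAt_algebraMap,
    hc i, hval i] at h0
  have n1 := Glued.ne_zero_value hu.2.1 (hu.2.2 i).2
  have n2 := Glued.ne_zero_value hun.2.1 (hun.2.2 i).2
  have n3 : a * c i = c' i * b := by
    refine mul_right_cancel₀ (mul_ne_zero n1 n2) ?_
    linear_combination h0
  field_simp
  linear_combination -n3

end NodalDatum

end FermatAgent.BadRed.Semistable
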