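import Fermat.Agent.BadRed.Semistable.ToricTate
import Fermat.Agent.BadRed.Semistable.TateModel
import Fermat.Agent.BadRed.Semistable.Scalar
import Fermat.Agent.ModCurve.Forms.Genus

/-!
# The complexified Tate module and its toric subspace
-/

set_option autoImplicit false
set_option maxHeartbeats 800000

noncomputable section

open Module Matrix ModularCurve AlgebraicCurve CuspForm

namespace FermatAgent.BadRed.Semistable

open FermatAgent.GalRep FermatAgent.ModCurveTorsion

local notation "GQ" => AlgebraicClosure ℚ ≃ₐ[ℚ] AlgebraicClosure ℚ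

variable (p : ℕ) [Fact p.Prime]

/-- `p`-adic matrices acting on complex vectors. -/
def matC {r : ℕ} : Matrix (Fin r) (Fin r) ℤ_[p] →+* Module.End ℂ (Fin r → ℂ) :=
  (Matrix.toLinAlgEquiv' (R := ℂ) (n := Fin r)).toRingEquiv.toRingHom.comp (zpC p).mapMatrix

theorem matC_apply {r : ℕ} (A : Matrix (Fin r) (Fin r) ℤ_[p]) (v : Fin r → ℂ) :
    matC p A v = A.map (zpC p) *ᵥ v := rfl

theorem matC_injective {r : ℕ} : Function.Injective (matC p (r := r)) :=
  (Matrix.toLinAlgEquiv' (R := ℂ) (n := Fin r)).injective.comp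
    (Matrix.map_injective (zpC_injective p))

theorem matC_smul {r : ℕ} (a : ℤ_[p]) (A : Matrix (Fin r) (Fin r) ℤ_[p]) :
    matC p (a • A) = zpC p a • matC p A := by
  refine LinearMap.ext fun v => ?_
  rw [LinearMap.smul_apply, matC_apply, matC_apply, ← Matrix.smul_mulVec]
  congr 1
  ext i j
  simp

theorem map_zpC_mulVec {m n : Type*} [Fintype n] (A : Matrix m n ℤ_[p]) (v : n → ℤ_[p]) :
    A.map (zpC p) *ᵥ (fun j => zpC p (v j)) = fun i => zpC p ((A *ᵥ v) i) :=
  funext fun i => (RingHom.map_mulVec (zpC p) A v i).symm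

/-- Independence modulo `p` gives independence over `ℂ`. -/
theorem linearIndependent_zpC_of_dvd {ι : Type*} [Fintype ι] {r : ℕ} (v : ι → Fin r → ℤ_[p])
    (h : ∀ a : ι → ℤ_[p], (∀ j, (p : ℤ_[p]) ∣ ∑ i, a i * v i j) → ∀ i, (p : ℤ_[p]) ∣ a i) :
    LinearIndependent ℂ (fun i j => zpC p (v i j)) := by
  classical
  let red : ℤ_[p] →+* ZMod p := PadicInt.toZMod
  have hdvd : ∀ x : ℤ_[p], red x = 0 ↔ (p : ℤ_[p]) ∣ x := fun x => by
    rw [← RingHom.mem_ker, PadicInt.ker_toZMod, PadicInt.maximalIdeal_eq_span_p,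
      Ideal.mem_span_singleton]
  have hsurj : Function.Surjective red := ZMod.ringHom_surjective red
  let U : Matrix (Fin r) ι ℤ_[p] := Matrix.of fun j i => v i j
  have hinj : Function.Injective (U.map red).mulVecLin := by
    refine (injective_iff_map_eq_zero _).mpr fun a ha => ?_
    choose b hb using fun i => hsurj (a i)
    have h0 := h b fun j => by
      rw [← hdvd, map_sum]
      have := congrFun ha j
      simp only [Matrix.mulVecLin_apply, Matrix.mulVec, dotProduct, Matrix.map_apply, U,
        Matrix.of_apply, Pi.zero_apply] at this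
      rw [← this]
      exact Finset.sum_congr rfl fun i _ => by rw [map_mul, hb, mul_comm]
    funext i
    rw [← hb i, Pi.zero_apply, hdvd]
    exact h0 i
  obtain ⟨g, hg⟩ := (U.map red).mulVecLin.exists_leftInverse_of_injective
    (LinearMap.ker_eq_bot.mpr hinj)
  choose B hB using fun i j => hsurj (LinearMap.toMatrix' g i j)
  have hBU : (Matrix.of B * U).map red = 1 := by
    rw [Matrix.map_mul, show (Matrix.of B).map red = LinearMap.toMatrix' g from Matrix.ext hB,
      ← LinearMap.toMatrix'_toLin' (U.map red), Matrix.toLin'_apply', ← LinearMap.toMatrix'_comp, hg,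
      LinearMap.toMatrix'_id]
  have hunit : IsUnit (Matrix.of B * U).det := by
    rw [← not_not (a := IsUnit _), ← mem_nonunits_iff, ← IsLocalRing.mem_maximalIdeal,
      PadicInt.maximalIdeal_eq_span_p, Ideal.mem_span_singleton, ← hdvd, RingHom.map_det,
      RingHom.mapMatrix_apply, hBU, Matrix.det_one]
    exact one_ne_zero
  rw [Fintype.linearIndependent_iff]
  intro a ha i
  have hU : U.map (zpC p) *ᵥ a = 0 := by
    funext j
    have := congrFun ha j
    simp only [Finset.sum_apply, Pi.smul_apply, smul_eq_mul, Pi.zero_apply] at this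
    rw [Pi.zero_apply, ← this]
    exact Finset.sum_congr rfl fun i _ => by
      simp only [Matrix.map_apply, U, Matrix.of_apply, mul_comm]
  have h1 : (Matrix.of B * U).map (zpC p) *ᵥ a = 0 := by
    rw [Matrix.map_mul, ← Matrix.mulVec_mulVec, hU, Matrix.mulVec_zero]
  have hu : IsUnit ((Matrix.of B * U).map (zpC p)).det := by
    rw [← RingHom.mapMatrix_apply, ← RingHom.map_det]
    exact hunit.map (zpC p)
  exact congrFun (Matrix.mulVec_injective_of_isUnit ((Matrix.isUnit_iff_isUnit_det _).mpr hu)
    (h1.trans (Matrix.mulVec_zero _).symm)) i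

theorem finrank_lattice (M : ℕ) [NeZero M] :
    (finrank ℂ (Fin (torsionModel M).rank → ℂ) : ℚ) = 2 * genusFormula M := by
  rw [Module.finrank_fin_fun]
  exact (torsionModel M).rank_eq

variable (q N' : ℕ) [Fact q.Prime] [NeZero N'] [NeZero (q * N')]
  [Curve.IsFunctionField1 (KRes q) (modularFunctionFieldFullC (KRes q) N')]
  (hco : q.Coprime N') (S : Set ℕ) (hpq : p ≠ q)

attribute [local instance] isAlgClosed_kRes charP_kRes

include hco hpq in
/-- The toric subspace: fixed by inertia, Frobenius squares to `q²`, of dimension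
`g(q N') - 2 g(N')`. -/
theorem exists_toricSpace :
    ∃ T : Submodule ℂ (Fin (torsionModel (q * N')).rank → ℂ),
      (∀ σ ∈ (place₀ q).inertiaSubgroupIn ℚ, ∀ v ∈ T,
        matC p (tateHom (modelTorsion (q * N') p S) σ) v = v) ∧
      (∀ σ, (place₀ q).IsFrobeniusAt σ q → ∀ v ∈ T,
        matC p (tateHom (modelTorsion (q * N') p S) σ)
          (matC p (tateHom (modelTorsion (q * N') p S) σ) v) = (q : ℂ) ^ 2 • v) ∧
      (finrank ℂ T : ℚ) = genusFormula (q * N') - 2 * genusFormula N' := by
  classical
  obtain ⟨i₀, v, hind, hI, hF⟩ := exists_toricVectors q N' hco (modelTorsion (q * N') p S) hpq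
  let w : {i : Node q N' hco // i ≠ i₀} → Fin (torsionModel (q * N')).rank → ℂ :=
    fun i j => zpC p (v i j)
  have hli : LinearIndependent ℂ w := linearIndependent_zpC_of_dvd p v hind
  refine ⟨Submodule.span ℂ (Set.range w), fun σ hσ x hx => ?_, fun σ hσ x hx => ?_, ?_⟩
  · refine LinearMap.eqOn_span (f := matC p (tateHom (modelTorsion (q * N') p S) σ))
      (g := LinearMap.id) ?_ hx
    rintro _ ⟨i, rfl⟩
    refine (map_zpC_mulVec p _ (v i)).trans ?_
    exact funext fun j => congrArg (zpC p) (congrFun (hI i σ hσ) j)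
  · refine LinearMap.eqOn_span (f := matC p (tateHom (modelTorsion (q * N') p S) σ) ∘ₗ
      matC p (tateHom (modelTorsion (q * N') p S) σ)) (g := (q : ℂ) ^ 2 • LinearMap.id) ?_ hx
    rintro _ ⟨i, rfl⟩
    refine (congrArg (matC p (tateHom (modelTorsion (q * N') p S) σ))
      (map_zpC_mulVec p _ (v i))).trans ?_
    refine (map_zpC_mulVec p (tateHom (modelTorsion (q * N') p S) σ)
      (tateHom (modelTorsion (q * N') p S) σ *ᵥ v i)).trans ?_
    refine funext fun j => (congrArg (zpC p) (congrFun (hF i σ hσ) j)).trans ?_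
    simp only [Pi.smul_apply, smul_eq_mul, map_mul, map_pow, map_natCast, w]
    rfl
  · rw [finrank_span_eq_card hli]
    have h1 : Fintype.card {i : Node q N' hco // i ≠ i₀} + 1 = Fintype.card (Node q N' hco) := by
      rw [Fintype.card_subtype_compl, Fintype.card_subtype_eq,
        Nat.sub_add_cancel (Fintype.card_pos_iff.mpr ⟨i₀⟩)]
    have h2 := card_node q N' hco
    rw [← h1] at h2
    push_cast at h2
    linear_combination h2

end FermatAgent.BadRed.Semistable
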