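import Fermat.Agent.BadRed.Semistable.ToricTorsion
import Fermat.Agent.BadRed.Semistable.TateLink
import Mathlib.RingTheory.Polynomial.Cyclotomic.Roots

/-!
# The toric vectors of the Tate module of `J₀(q N')`
-/

set_option autoImplicit false
set_option linter.unusedSectionVars false
set_option linter.style.haveILetI false
set_option maxHeartbeats 1600000

noncomputable section

open ModularCurve AlgebraicCurve Matrix

namespace FermatAgent.BadRed.Semistable

open FermatAgent.GalRep

local notation "GQ" => AlgebraicClosure ℚ ≃ₐ[ℚ] AlgebraicClosure ℚ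

variable (q : ℕ) [Fact q.Prime] {p : ℕ} [Fact p.Prime]

attribute [local instance] isAlgClosed_kRes charP_kRes

theorem exists_rootTower (hpq : p ≠ q) : ∃ ζ : ℕ → KRes q,
    IsPrimitiveRoot (ζ 1) p ∧ ζ 0 = 1 ∧ ∀ n, ζ (n + 1) ^ p = ζ n := by
  haveI : NeZero (p : KRes q) := ⟨fun e => hpq ((Nat.prime_dvd_prime_iff_eq Fact.out Fact.out).mp
    ((CharP.cast_eq_zero_iff (KRes q) q p).mp e)).symm⟩
  obtain ⟨z, hz⟩ := IsAlgClosed.exists_root (Polynomial.cyclotomic p (KRes q))
    (by rw [Polynomial.degree_cyclotomic]; exact_mod_cast (Nat.totient_pos.mpr (Fact.out : p.Prime).pos).ne')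
  rw [Polynomial.isRoot_cyclotomic_iff] at hz
  choose r hr using fun a : KRes q =>
    IsAlgClosed.exists_pow_nat_eq a (Fact.out : p.Prime).pos
  refine ⟨fun n => Nat.rec 1 (fun m a => if m = 0 then z else r a) n, hz, rfl, fun n => ?_⟩
  cases n with
  | zero => exact hz.pow_eq_one
  | succ m => exact hr _

theorem rootTower_pow {ζ : ℕ → KRes q} (h0 : ζ 0 = 1) (hs : ∀ n, ζ (n + 1) ^ p = ζ n) (n : ℕ) :
    ζ n ^ p ^ n = 1 := by
  induction n with
  | zero => rw [h0, one_pow]
  | succ n ih => rw [pow_succ', pow_mul, hs, ih]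

variable (N' : ℕ) [NeZero N'] [NeZero (q * N')]
  [Curve.IsFunctionField1 (KRes q) (modularFunctionFieldFullC (KRes q) N')]
  (hco : q.Coprime N') {S : Set ℕ} (D : HeckeTorsionData (q * N') p S) (hpq : p ≠ q)

open Classical in
include hco hpq in
/-- One vector for every node but one. -/
theorem exists_toricVectors : ∃ (i₀ : Node q N' hco)
    (v : {i : Node q N' hco // i ≠ i₀} → Fin D.rank → ℤ_[p]),
    (∀ a : {i : Node q N' hco // i ≠ i₀} → ℤ_[p],
      (∀ j, (p : ℤ_[p]) ∣ ∑ i, a i * v i j) → ∀ i, (p : ℤ_[p]) ∣ a i) ∧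
    (∀ i, ∀ σ ∈ (place₀ q).inertiaSubgroupIn ℚ, tateHom D σ *ᵥ v i = v i) ∧
    (∀ i σ, (place₀ q).IsFrobeniusAt σ q →
      tateHom D σ *ᵥ (tateHom D σ *ᵥ v i) = ((q : ℤ_[p]) ^ 2) • v i) := by
  classical
  obtain ⟨i₀⟩ := (torusDatum q N' hco).C.nonempty
  obtain ⟨ζ, hζ, h0, hs⟩ := exists_rootTower q hpq
  have hpow : ∀ n, (p ^ n).Coprime q := fun n =>
    ((Nat.coprime_primes Fact.out Fact.out).mpr hpq).pow_left n
  let c : {i : Node q N' hco // i ≠ i₀} → ℕ → Node q N' hco → KRes q :=
    fun i n j => if j = i.1 then ζ n else 1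
  choose x hx hxc using fun i n => exists_hasTor (hco := hco) (hpow n) (c i n) fun j => by
    simp only [c]
    split_ifs
    · exact rootTower_pow q h0 hs n
    · exact one_pow _
  have hstep : ∀ i n, p • x i (n + 1) = x i n := fun i n => by
    refine HasTor.eq (hpow n) ?_ (hx i n) ((hxc i (n + 1)).nsmul p) ?_
    · rw [← mul_nsmul', ← pow_succ]
      exact hx i (n + 1)
    · convert hxc i n using 1
      funext j
      simp only [c, Pi.pow_apply]
      split_ifs
      · exact hs n
      · exact one_pow _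
  choose v hv using fun i => exists_torPt_eq D (x i) (hx i) (hstep i)
  refine ⟨i₀, v, fun a ha i => ?_, fun i σ hσ => torPt_ext D fun n => ?_,
    fun i σ hσ => torPt_ext D fun n => ?_⟩
  · let m : {i : Node q N' hco // i ≠ i₀} → ℕ := fun i => (PadicInt.toZMod (a i)).val
    have hm : ∀ i, (p : ℤ_[p]) ∣ a i - (m i : ℤ_[p]) := fun i => by
      rw [← Ideal.mem_span_singleton, ← PadicInt.maximalIdeal_eq_span_p, ← PadicInt.ker_toZMod,
        RingHom.mem_ker, map_sub, map_natCast, ZMod.natCast_zmod_val, sub_self]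
    have hdvd : ∀ j, (p : ℤ_[p]) ∣ (∑ i, m i • v i) j := fun j => by
      have e : (∑ i, m i • v i) j = (∑ i, a i * v i j) - ∑ i, (a i - (m i : ℤ_[p])) * v i j := by
        rw [Finset.sum_apply, ← Finset.sum_sub_distrib]
        exact Finset.sum_congr rfl fun i _ => by rw [Pi.smul_apply, nsmul_eq_mul]; ring
      rw [e]
      exact dvd_sub (ha j) (Finset.dvd_sum fun i _ => Dvd.dvd.mul_right (hm i) _)
    have hsum := torPt_one_eq_zero D hdvd
    rw [map_sum] at hsum
    simp only [map_nsmul, hv] at hsum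
    have htor : ∀ s : Finset {i : Node q N' hco // i ≠ i₀},
        HasTor q N' hco (∑ i ∈ s, m i • x i 1) (∏ i ∈ s, c i 1 ^ m i) := by
      intro s
      induction s using Finset.induction_on with
      | empty => rw [Finset.sum_empty, Finset.prod_empty]; exact hasTor_zero
      | insert b s hb ih =>
        rw [Finset.sum_insert hb, Finset.prod_insert hb]
        exact ((hxc b 1).nsmul (m b)).add ih
    have hconst := (hsum ▸ htor Finset.univ).const_of_zero i.1 i₀
    have e1 : (∏ i', c i' 1 ^ m i') i.1 = ζ 1 ^ m i := by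
      rw [Finset.prod_apply, Finset.prod_eq_single i]
      · simp [c]
      · intro b _ hb
        simp only [c, Pi.pow_apply]
        rw [if_neg (fun e : i.1 = b.1 => hb (Subtype.ext e.symm)), one_pow]
      · simp
    have e0 : (∏ i', c i' 1 ^ m i') i₀ = 1 := by
      rw [Finset.prod_apply]
      refine Finset.prod_eq_one fun b _ => ?_
      simp only [c, Pi.pow_apply]
      rw [if_neg (fun e : i₀ = b.1 => b.2 e.symm), one_pow]
    rw [e1, e0, hζ.pow_eq_one_iff_dvd] at hconst
    have : (p : ℤ_[p]) ∣ (m i : ℤ_[p]) := Nat.cast_dvd_cast hconst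
    simpa using dvd_add (hm i) this
  · rw [torPt_mulVec, hv]
    exact (hxc i n).inertia_smul (hpow n) hσ (hx i n)
  · rw [torPt_mulVec, torPt_mulVec, hv, (hxc i n).frobenius_smul (hpow n) hσ (hx i n),
      ← Nat.cast_pow, Nat.cast_smul_eq_nsmul, map_nsmul, hv]

end FermatAgent.BadRed.Semistable
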