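import Fermat.Agent.BadRed.Semistable.BaseGalois
import Fermat.Agent.BadRed.Semistable.LevelSymm
import Fermat.Agent.BadRed.Semistable.PadicExtend
import Fermat.Agent.BadRed.Semistable.Lift
import Fermat.Agent.BadRed.Semistable.Inject
import Fermat.Agent.ModCurve.Torsion.DescendTorsion
import Fermat.Agent.Curve.RR.Setup
import Fermat.Agent.GalRep.Construct.TateData

/-!
# Toric torsion of `J₀(q N')` over `ℚbar` at the place `place₀ q`
-/

set_option autoImplicit false
set_option linter.unusedSectionVars false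
set_option maxHeartbeats 1600000

noncomputable section

open ModularCurve AlgebraicCurve

namespace FermatAgent.BadRed.Semistable

open FermatAgent.Curve FermatAgent.Curve.RR FermatAgent.ModCurveTorsion
open FermatAgent.ModCurve.Points (FieldC)

local notation "GQ" => AlgebraicClosure ℚ ≃ₐ[ℚ] AlgebraicClosure ℚ

attribute [local instance] neZero_prime charZero_of_algebraRat isFunctionField1_laurent

variable (q : ℕ) [Fact q.Prime] (N' : ℕ) [NeZero N']

/-- The residue field of the place. -/
abbrev KRes : Type := IsLocalRing.ResidueField (place₀ q)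

local instance isAlgClosed_kRes : IsAlgClosed (KRes q) := Igusa.Down.isAlgClosed_residueField _

local instance charP_kRes : CharP (KRes q) q :=
  Igusa.Down.charP_residueField Fact.out (liesOverPrime_place₀ q)

variable (hco : q.Coprime N')

include hco in
theorem isFunctionField1_kFib :
    IsFunctionField1 (KRes q) (modularFunctionFieldFullC (KRes q) N') :=
  Igusa.Down.isFunctionField1_fibre' (A := place₀ q) N' Fact.out
    ((Nat.Prime.coprime_iff_not_dvd Fact.out).mp hco) (liesOverPrime_place₀ q)

variable [NeZero (q * N')]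
  [IsFunctionField1 (KRes q) (modularFunctionFieldFullC (KRes q) N')]

/-- The nodal datum over `ℂ`. -/
def torusDatum : NodalDatum (intC q) (residueC q) (FieldC (q * N'))
    (modularFunctionFieldFullC (KRes q) N') (modularFunctionFieldFullC (KRes q) N') :=
  levelDatum hco (placeHomC q) (liesOverPrime_place₀ q)

/-- The nodes. -/
abbrev Node : Type := (torusDatum q N' hco).C.ι

theorem card_node : (Fintype.card (Node q N' hco) : ℚ) =
    genusFormula (q * N') + 1 - 2 * genusFormula N' :=
  card_levelDatum_nodes hco (placeHomC q) (liesOverPrime_place₀ q)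

/-- `x` has toric invariant `c`. -/
def HasTor (x : JZero (q * N')) (c : Node q N' hco → KRes q) : Prop :=
  (torusDatum q N' hco).HasToric (jBaseC (q * N') x) c

variable {q N'} {hco}

theorem natCast_kRes_ne_zero {n : ℕ} (hn : n.Coprime q) : (n : KRes q) ≠ 0 := fun e =>
  Nat.Prime.one_lt Fact.out |>.ne' (Nat.Coprime.eq_one_of_dvd hn.symm
    ((CharP.cast_eq_zero_iff (KRes q) q n).mp e))

theorem HasTor.add {x y : JZero (q * N')} {c c' : Node q N' hco → KRes q}
    (h : HasTor q N' hco x c) (h' : HasTor q N' hco y c') :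
    HasTor q N' hco (x + y) (c * c') := by
  rw [HasTor, map_add]
  exact NodalDatum.HasToric.add _ h h'

theorem HasTor.neg {x : JZero (q * N')} {c : Node q N' hco → KRes q}
    (h : HasTor q N' hco x c) : HasTor q N' hco (-x) c⁻¹ := by
  rw [HasTor, map_neg]
  exact NodalDatum.HasToric.neg _ h

theorem HasTor.nsmul {x : JZero (q * N')} {c : Node q N' hco → KRes q}
    (h : HasTor q N' hco x c) (m : ℕ) : HasTor q N' hco (m • x) (c ^ m) := by
  rw [HasTor, map_nsmul]
  exact NodalDatum.HasToric.nsmul _ h m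

theorem hasTor_zero : HasTor q N' hco 0 1 := by
  rw [HasTor, map_zero]
  exact NodalDatum.hasToric_zero _

theorem HasTor.const_of_zero {c : Node q N' hco → KRes q}
    (h : HasTor q N' hco 0 c) (i j : Node q N' hco) : c i = c j := by
  obtain ⟨a, -, ha⟩ := NodalDatum.HasToric.unique _ (hasTor_zero (hco := hco)) h
  rw [ha i, ha j]
  rfl

/-- A torsion point of order prime to `q` is determined by its toric invariant. -/
theorem HasTor.eq {n : ℕ} (hn : n.Coprime q) {x y : JZero (q * N')}
    {c : Node q N' hco → KRes q} (hx : n • x = 0) (hy : n • y = 0)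
    (h : HasTor q N' hco x c) (h' : HasTor q N' hco y c) : x = y := by
  refine sub_eq_zero.mp (jBaseC_injective (q * N') ?_)
  rw [map_zero, sub_eq_add_neg]
  refine NodalDatum.eq_zero_of_hasToric_const _ (natCast_kRes_ne_zero hn) ?_ (h.add h'.neg)
    fun i j => ?_
  · rw [← map_nsmul, nsmul_add, neg_nsmul, hx, hy, neg_zero, add_zero, map_zero]
  · simp only [Pi.mul_apply, Pi.inv_apply]
    rw [mul_inv_cancel₀ (NodalDatum.HasToric.ne_zero _ h' i),
      mul_inv_cancel₀ (NodalDatum.HasToric.ne_zero _ h' j)]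

/-- Every tuple of roots of unity is the invariant of a torsion point over `ℚbar`. -/
theorem exists_hasTor {n : ℕ} (hn : n.Coprime q) (c : Node q N' hco → KRes q)
    (hc : ∀ i, c i ^ n = 1) : ∃ x : JZero (q * N'), n • x = 0 ∧ HasTor q N' hco x c := by
  obtain ⟨z, hz, hcz⟩ := (torusDatum q N' hco).exists_hasToric (isAdicComplete_intC q)
    (natCast_kRes_ne_zero hn) c hc
  have hn0 : 0 < n := Nat.pos_of_ne_zero fun e => natCast_kRes_ne_zero (q := q) hn (by simp [e])
  obtain ⟨x, rfl⟩ := exists_jBaseC_eq (q * N') hn0 (by rw [natCast_zsmul]; exact hz)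
  exact ⟨x, jBaseC_injective (q * N') (by rw [map_nsmul, hz, map_zero]), hcz⟩

/-- The automorphism of the complete place attached to a decomposition element. -/
theorem exists_placeAut {σ : GQ} (hσ : σ ∈ (place₀ q).decompositionSubgroup ℚ) :
    ∃ a : PlaceAut (intC q) (residueC q), a.θ = resAct q hσ ∧
      ∀ x : JZero (q * N'), jBaseC (q * N') (σ • x) = a.lvl (q * N') • jBaseC (q * N') x := by
  obtain ⟨τ, hτ, hmem, hres⟩ := exists_extension q hσ
  exact ⟨⟨τ, hmem, resAct q hσ, hres⟩, rfl, jBaseC_galois_smul σ τ hτ⟩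

/-- Inertia fixes the toric torsion. -/
theorem HasTor.inertia_smul {n : ℕ} (hn : n.Coprime q) {σ : GQ}
    (hσ : σ ∈ (place₀ q).inertiaSubgroupIn ℚ) {x : JZero (q * N')}
    {c : Node q N' hco → KRes q} (hx : n • x = 0) (h : HasTor q N' hco x c) : σ • x = x := by
  obtain ⟨⟨σ', hσ'⟩, hker, rfl⟩ := Subgroup.mem_map.mp hσ
  obtain ⟨a, hθ, ha⟩ := exists_placeAut (N' := N') hσ'
  have hθ1 : a.θ = RingEquiv.refl _ := by
    rw [hθ]
    exact MonoidHom.mem_ker.mp hker
  refine HasTor.eq (c := c) hn ?_ hx ?_ h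
  · rw [← GalRep.galois_nsmul, hx]
    exact smul_zero (A := JZero (q * N')) σ'
  · have h' := (a.inertSymm hco (placeHomC q) (liesOverPrime_place₀ q) hθ1).hasToric_smul h
    rw [HasTor, show jBaseC (q * N') ((ValuationSubring.decompositionSubgroup ℚ (place₀ q)).subtype
      ⟨σ', hσ'⟩ • x) = a.lvl (q * N') • jBaseC (q * N') x from ha x]
    have e : (a.θ : KRes q → KRes q) ∘ c = c := by rw [hθ1]; rfl
    change NodalDatum.HasToric (torusDatum q N' hco) _ ((a.θ : KRes q → KRes q) ∘ c) at h'
    rw [e] at h'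
    exact h'

/-- The square of a Frobenius element multiplies the toric torsion by `q ^ 2`. -/
theorem HasTor.frobenius_smul {n : ℕ} (hn : n.Coprime q) {σ : GQ}
    (hσ : (place₀ q).IsFrobeniusAt σ q) {x : JZero (q * N')}
    {c : Node q N' hco → KRes q} (hx : n • x = 0) (h : HasTor q N' hco x c) :
    σ • σ • x = (q ^ 2) • x := by
  have hmem := hσ.mem_decompositionSubgroup
  obtain ⟨a, hθ, ha⟩ := exists_placeAut (N' := N') (mul_mem hmem hmem)
  have hθ2 : a.θ = frobeniusEquiv (KRes q) q * frobeniusEquiv (KRes q) q := by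
    rw [hθ]
    refine RingEquiv.ext fun y => ?_
    show ((⟨σ, hmem⟩ : (place₀ q).decompositionSubgroup ℚ) *
      ⟨σ, hmem⟩) • y = _
    rw [mul_smul, hσ.smul_residue_eq, hσ.smul_residue_eq, RingAut.mul_apply,
      frobeniusEquiv_apply, frobeniusEquiv_apply, frobenius_def, frobenius_def]
  refine HasTor.eq (c := c ^ (q ^ 2)) hn ?_ ?_ ?_ (h.nsmul _)
  · rw [← GalRep.galois_nsmul σ, ← GalRep.galois_nsmul σ, hx]
    exact (congrArg (σ • ·) (smul_zero (A := JZero (q * N')) σ)).trans (smul_zero (A := JZero (q * N')) σ)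
  · rw [smul_comm, hx, nsmul_zero]
  · have h' := (a.frobSqSymm hco (placeHomC q) (liesOverPrime_place₀ q) hθ2).hasToric_smul h
    rw [HasTor, ← mul_smul, ha]
    have e : (a.θ : KRes q → KRes q) ∘ c = c ^ (q ^ 2) := funext fun i => by
      rw [Function.comp_apply, hθ2, RingAut.mul_apply, frobeniusEquiv_apply, frobeniusEquiv_apply,
        frobenius_def, frobenius_def, ← pow_mul, ← sq, Pi.pow_apply]
    change NodalDatum.HasToric (torusDatum q N' hco) _ ((a.θ : KRes q → KRes q) ∘ c) at h'
    rw [e] at h'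
    exact h'

end FermatAgent.BadRed.Semistable
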